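import Mathlib

/-!
# Low degree cohomology by inhomogeneous cochains

`H1` and `H2` of a group with coefficients in an additive module, functoriality for compatible
pairs (`CompatPair`), and the long exact sequence of a short exact sequence (`IsSES`) up to `H2`.
The basis of all the global duality modules.
-/

set_option autoImplicit false

noncomputable section

namespace FLTAgent.GalCoh

universe u v w x

section Defs

variable (G : Type u) [Group G] (A : Type v) [AddCommGroup A] [DistribMulAction G A]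

/-- Differential on `0`-cochains. -/
def d0 : A →+ (G → A) where
  toFun a g := g • a - a
  map_zero' := by ext; simp
  map_add' a b := by ext g; simp [smul_add]; abel

/-- Differential on `1`-cochains. -/
def d1 : (G → A) →+ (G → G → A) where
  toFun f g h := g • f h - f (g * h) + f g
  map_zero' := by ext; simp
  map_add' a b := by ext g h; simp [smul_add]; abel

variable {G A}

theorem d0_apply (a : A) (g : G) : d0 G A a g = g • a - a := rfl

theorem d1_apply (f : G → A) (g h : G) : d1 G A f g h = g • f h - f (g * h) + f g := rfl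

theorem d1_d0 (a : A) : d1 G A (d0 G A a) = 0 := by
  ext g h
  simp only [d1_apply, d0_apply, smul_sub, mul_smul, Pi.zero_apply]
  abel

variable (G A)

/-- `1`-cocycles. -/
def Z1 : AddSubgroup (G → A) := (d1 G A).ker

/-- `1`-coboundaries. -/
def B1 : AddSubgroup (G → A) := (d0 G A).range

/-- `2`-cocycles. -/
def Z2 : AddSubgroup (G → G → A) where
  carrier := {f | ∀ g h j, f (g * h) j + f g h = g • f h j + f g (h * j)}
  zero_mem' := by simp
  add_mem' {a b} ha hb g h j := by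
    simp only [Pi.add_apply, smul_add]
    rw [show a (g * h) j + b (g * h) j + (a g h + b g h) =
      (a (g * h) j + a g h) + (b (g * h) j + b g h) by abel, ha, hb]
    abel
  neg_mem' {a} ha g h j := by
    simp only [Pi.neg_apply, smul_neg, ← neg_add]
    rw [ha]

/-- `2`-coboundaries. -/
def B2 : AddSubgroup (G → G → A) := (d1 G A).range

variable {G A}

theorem mem_Z1_iff {f : G → A} : f ∈ Z1 G A ↔ ∀ g h, f (g * h) = g • f h + f g := by
  rw [Z1, AddMonoidHom.mem_ker, funext_iff]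
  refine forall_congr' fun g => ?_
  rw [funext_iff]
  refine forall_congr' fun h => ?_
  rw [d1_apply, Pi.zero_apply, Pi.zero_apply, sub_add_eq_add_sub, sub_eq_zero]
  exact eq_comm

theorem mem_Z2_iff {f : G → G → A} :
    f ∈ Z2 G A ↔ ∀ g h j, f (g * h) j + f g h = g • f h j + f g (h * j) := Iff.rfl

theorem B1_le_Z1 : B1 G A ≤ Z1 G A := by
  rintro _ ⟨a, rfl⟩
  exact d1_d0 a

theorem B2_le_Z2 : B2 G A ≤ Z2 G A := by
  rintro _ ⟨b, rfl⟩ g h j
  simp only [d1_apply, smul_add, smul_sub, mul_smul, mul_assoc]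
  abel

theorem Z1_one {f : G → A} (hf : f ∈ Z1 G A) : f 1 = 0 := by
  have := mem_Z1_iff.1 hf 1 1
  simpa using this

variable (G A)

/-- First cohomology. -/
abbrev H1 : Type max u v := Z1 G A ⧸ (B1 G A).addSubgroupOf (Z1 G A)

/-- Second cohomology. -/
abbrev H2 : Type max u v := Z2 G A ⧸ (B2 G A).addSubgroupOf (Z2 G A)

variable {G A}

/-- Class of a `1`-cocycle. -/
def H1.mk : Z1 G A →+ H1 G A := QuotientAddGroup.mk' _

/-- Class of a `2`-cocycle. -/
def H2.mk : Z2 G A →+ H2 G A := QuotientAddGroup.mk' _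

theorem H1.mk_surjective : Function.Surjective (H1.mk (G := G) (A := A)) :=
  QuotientAddGroup.mk'_surjective _

theorem H2.mk_surjective : Function.Surjective (H2.mk (G := G) (A := A)) :=
  QuotientAddGroup.mk'_surjective _

theorem H1.mk_eq_zero_iff (f : Z1 G A) :
    H1.mk f = 0 ↔ ∃ a : A, ∀ g, (f : G → A) g = g • a - a := by
  rw [H1.mk, QuotientAddGroup.mk'_apply, QuotientAddGroup.eq_zero_iff]
  constructor
  · rintro ⟨a, ha⟩; exact ⟨a, fun g => (congrFun ha g).symm⟩
  · rintro ⟨a, ha⟩; exact ⟨a, funext fun g => (ha g).symm⟩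

theorem H2.mk_eq_zero_iff (f : Z2 G A) :
    H2.mk f = 0 ↔ ∃ b : G → A, ∀ g h, (f : G → G → A) g h = g • b h - b (g * h) + b g := by
  rw [H2.mk, QuotientAddGroup.mk'_apply, QuotientAddGroup.eq_zero_iff]
  constructor
  · rintro ⟨b, hb⟩; exact ⟨b, fun g h => (congrFun (congrFun hb g) h).symm⟩
  · rintro ⟨b, hb⟩; exact ⟨b, funext fun g => funext fun h => (hb g h).symm⟩

theorem subsingleton_H1_iff :
    Subsingleton (H1 G A) ↔ ∀ f ∈ Z1 G A, ∃ a : A, ∀ g, f g = g • a - a := by
  refine ⟨fun h f hf => (H1.mk_eq_zero_iff ⟨f, hf⟩).1 (Subsingleton.elim _ _), fun h => ?_⟩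
  refine subsingleton_of_forall_eq 0 fun x => ?_
  obtain ⟨f, rfl⟩ := H1.mk_surjective x
  exact (H1.mk_eq_zero_iff f).2 (h f f.2)

theorem subsingleton_H2_iff :
    Subsingleton (H2 G A) ↔
      ∀ f ∈ Z2 G A, ∃ b : G → A, ∀ g h, f g h = g • b h - b (g * h) + b g := by
  refine ⟨fun h f hf => (H2.mk_eq_zero_iff ⟨f, hf⟩).1 (Subsingleton.elim _ _), fun h => ?_⟩
  refine subsingleton_of_forall_eq 0 fun x => ?_
  obtain ⟨f, rfl⟩ := H2.mk_surjective x
  exact (H2.mk_eq_zero_iff f).2 (h f f.2)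

end Defs

section Map

variable {G : Type u} [Group G] {A : Type v} [AddCommGroup A] [DistribMulAction G A]
  {G' : Type w} [Group G'] {A' : Type x} [AddCommGroup A'] [DistribMulAction G' A']

/-- A compatible pair. -/
structure CompatPair (φ : G' →* G) (f : A →+ A') : Prop where
  compat : ∀ (g : G') (a : A), f (φ g • a) = g • f a

variable {φ : G' →* G} {f : A →+ A'}

theorem CompatPair.mem_Z1 (hc : CompatPair φ f) {c : G → A} (hc1 : c ∈ Z1 G A) :
    (fun g => f (c (φ g))) ∈ Z1 G' A' := by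
  rw [mem_Z1_iff] at hc1 ⊢
  intro g h
  rw [map_mul, hc1, map_add, hc.compat]

theorem CompatPair.mem_Z2 (hc : CompatPair φ f) {c : G → G → A} (hc2 : c ∈ Z2 G A) :
    (fun g h => f (c (φ g) (φ h))) ∈ Z2 G' A' := by
  intro g h j
  simp only [map_mul, ← map_add, ← hc.compat, mem_Z2_iff.1 hc2]

/-- Functoriality on `H1`. -/
def H1.map (φ : G' →* G) (f : A →+ A') (hc : CompatPair φ f) : H1 G A →+ H1 G' A' :=
  QuotientAddGroup.lift _
    (H1.mk.comp
      { toFun := fun c => (⟨fun g => f ((c : G → A) (φ g)), hc.mem_Z1 c.2⟩ : Z1 G' A')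
        map_zero' := by ext; simp
        map_add' := fun a b => by ext; simp })
    (fun c hc' => by
      rw [AddMonoidHom.mem_ker, AddMonoidHom.comp_apply, H1.mk_eq_zero_iff]
      obtain ⟨a, ha⟩ := (H1.mk_eq_zero_iff c).1 ((QuotientAddGroup.eq_zero_iff c).2 hc')
      exact ⟨f a, fun g => by simp [ha, hc.compat]⟩)

/-- Functoriality on `H2`. -/
def H2.map (φ : G' →* G) (f : A →+ A') (hc : CompatPair φ f) : H2 G A →+ H2 G' A' :=
  QuotientAddGroup.lift _
    (H2.mk.comp
      { toFun := fun c => (⟨fun g h => f ((c : G → G → A) (φ g) (φ h)), hc.mem_Z2 c.2⟩ : Z2 G' A')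
        map_zero' := by ext; simp
        map_add' := fun a b => by ext; simp })
    (fun c hc' => by
      rw [AddMonoidHom.mem_ker, AddMonoidHom.comp_apply, H2.mk_eq_zero_iff]
      obtain ⟨b, hb⟩ := (H2.mk_eq_zero_iff c).1 ((QuotientAddGroup.eq_zero_iff c).2 hc')
      exact ⟨fun g => f (b (φ g)), fun g h => by simp [hb, hc.compat]⟩)

theorem H1.map_mk (hc : CompatPair φ f) (c : Z1 G A) :
    H1.map φ f hc (H1.mk c) = H1.mk ⟨fun g => f ((c : G → A) (φ g)), hc.mem_Z1 c.2⟩ := rfl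

theorem H2.map_mk (hc : CompatPair φ f) (c : Z2 G A) :
    H2.map φ f hc (H2.mk c) = H2.mk ⟨fun g h => f ((c : G → G → A) (φ g) (φ h)), hc.mem_Z2 c.2⟩ :=
  rfl

/-- A map of modules over the same group. -/
theorem CompatPair.of_equivariant {B : Type x} [AddCommGroup B] [DistribMulAction G B]
    (i : A →+ B) (h : ∀ (g : G) (a : A), i (g • a) = g • i a) :
    CompatPair (MonoidHom.id G) i := ⟨h⟩

/-- Restriction to a subgroup. -/
theorem CompatPair.subtype (H : Subgroup G) : CompatPair H.subtype (AddMonoidHom.id A) :=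
  ⟨fun _ _ => rfl⟩

end Map

section SES

variable (G : Type u) [Group G] {A : Type v} [AddCommGroup A] [DistribMulAction G A]
  {B : Type w} [AddCommGroup B] [DistribMulAction G B]
  {C : Type x} [AddCommGroup C] [DistribMulAction G C]

/-- A short exact sequence of `G`-modules. -/
structure IsSES (i : A →+ B) (p : B →+ C) : Prop where
  inj : Function.Injective i
  surj : Function.Surjective p
  exact : ∀ b, p b = 0 ↔ ∃ a, i a = b
  equiv_i : ∀ (g : G) (a : A), i (g • a) = g • i a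
  equiv_p : ∀ (g : G) (b : B), p (g • b) = g • p b

variable {G} {i : A →+ B} {p : B →+ C}

theorem IsSES.comp_eq_zero (hs : IsSES G i p) (a : A) : p (i a) = 0 := (hs.exact _).2 ⟨a, rfl⟩

theorem IsSES.restrict (hs : IsSES G i p) (H : Subgroup G) : IsSES H i p :=
  ⟨hs.inj, hs.surj, hs.exact, fun g => hs.equiv_i g, fun g => hs.equiv_p g⟩

theorem IsSES.exists_delta (hs : IsSES G i p) {c : G → C} (hc : c ∈ Z1 G C) :
    ∃ (b : G → B) (a : G → G → A), (∀ g, p (b g) = c g) ∧
      (∀ g h, i (a g h) = g • b h - b (g * h) + b g) ∧ a ∈ Z2 G A := by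
  choose b hb using fun g => hs.surj (c g)
  have : ∀ g h, ∃ a, i a = g • b h - b (g * h) + b g := fun g h => by
    refine (hs.exact _).1 ?_
    rw [map_add, map_sub, hs.equiv_p, hb, hb, hb, mem_Z1_iff.1 hc g h]
    abel
  choose a ha using this
  refine ⟨b, a, hb, ha, fun g h j => hs.inj ?_⟩
  simp only [map_add, hs.equiv_i, ha, smul_add, smul_sub, mul_smul, mul_assoc]
  abel

theorem IsSES.delta_unique (hs : IsSES G i p) {b b' : G → B} {a a' : G → G → A}
    {c : G → C} {x : C} (hb : ∀ g, p (b g) = c g)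
    (hb' : ∀ g, p (b' g) = c g + (g • x - x))
    (ha : ∀ g h, i (a g h) = g • b h - b (g * h) + b g)
    (ha' : ∀ g h, i (a' g h) = g • b' h - b' (g * h) + b' g) :
    ∃ e : G → A, ∀ g h, a' g h - a g h = g • e h - e (g * h) + e g := by
  obtain ⟨y, hy⟩ := hs.surj x
  have : ∀ g, ∃ e, i e = b' g - b g - (g • y - y) := fun g => (hs.exact _).1 (by
    simp [map_sub, hs.equiv_p, hy, hb, hb'])
  choose e he using this
  refine ⟨e, fun g h => hs.inj ?_⟩
  simp only [map_sub, map_add, hs.equiv_i, ha, ha', he, smul_sub, mul_smul]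
  abel

/-- A cocycle representing `δ` of a `1`-cocycle. -/
def IsSES.deltaCocycle (hs : IsSES G i p) (c : Z1 G C) : Z2 G A :=
  ⟨(hs.exists_delta c.2).choose_spec.choose, (hs.exists_delta c.2).choose_spec.choose_spec.2.2⟩

theorem IsSES.mk_deltaCocycle_eq (hs : IsSES G i p) (c : Z1 G C) {x : C} {b : G → B}
    {a : Z2 G A} (hb : ∀ g, p (b g) = (c : G → C) g + (g • x - x))
    (ha : ∀ g h, i ((a : G → G → A) g h) = g • b h - b (g * h) + b g) :
    H2.mk a = H2.mk (hs.deltaCocycle c) := by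
  have h := (hs.exists_delta c.2).choose_spec.choose_spec
  obtain ⟨e, he⟩ := hs.delta_unique h.1 hb h.2.1 ha
  rw [← sub_eq_zero, ← map_sub, H2.mk_eq_zero_iff]
  exact ⟨e, fun g k => he g k⟩

/-- The connecting homomorphism. -/
def IsSES.delta (hs : IsSES G i p) : H1 G C →+ H2 G A :=
  QuotientAddGroup.lift _
    (AddMonoidHom.mk' (fun c => H2.mk (hs.deltaCocycle c)) fun c c' => by
      have h := (hs.exists_delta c.2).choose_spec.choose_spec
      have h' := (hs.exists_delta c'.2).choose_spec.choose_spec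
      rw [← map_add]
      refine (hs.mk_deltaCocycle_eq (c + c') (x := 0)
        (b := (hs.exists_delta c.2).choose + (hs.exists_delta c'.2).choose) ?_ ?_).symm
      · intro g
        simp only [Pi.add_apply, map_add, AddSubgroup.coe_add, smul_zero, sub_zero, add_zero]
        rw [h.1, h'.1]
      · intro g k
        simp only [IsSES.deltaCocycle, AddSubgroup.coe_add, Pi.add_apply, map_add, h.2.1, h'.2.1,
          smul_add]
        abel)
    (fun c hc' => by
      obtain ⟨x, hx⟩ := (H1.mk_eq_zero_iff c).1 ((QuotientAddGroup.eq_zero_iff c).2 hc')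
      rw [AddMonoidHom.mem_ker, AddMonoidHom.mk'_apply, ← map_zero (H2.mk (G := G) (A := A))]
      exact (hs.mk_deltaCocycle_eq c (x := -x) (b := 0) (a := 0)
        (fun g => by simp [hx]) (fun g k => by simp)).symm)

theorem IsSES.delta_mk_eq (hs : IsSES G i p) (c : Z1 G C) {b : G → B} (a : Z2 G A)
    (hb : ∀ g, p (b g) = (c : G → C) g)
    (ha : ∀ g h, i ((a : G → G → A) g h) = g • b h - b (g * h) + b g) :
    hs.delta (H1.mk c) = H2.mk a :=
  (hs.mk_deltaCocycle_eq c (x := 0) (by simpa using hb) ha).symm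

theorem IsSES.delta_spec (hs : IsSES G i p) (c : Z1 G C) :
    ∃ (b : G → B) (a : Z2 G A), (∀ g, p (b g) = (c : G → C) g) ∧
      (∀ g h, i ((a : G → G → A) g h) = g • b h - b (g * h) + b g) ∧
      hs.delta (H1.mk c) = H2.mk a :=
  ⟨_, hs.deltaCocycle c, (hs.exists_delta c.2).choose_spec.choose_spec.1,
    (hs.exists_delta c.2).choose_spec.choose_spec.2.1, rfl⟩

/-- `H1 i`. -/
abbrev IsSES.i1 (hs : IsSES G i p) : H1 G A →+ H1 G B :=
  H1.map (MonoidHom.id G) i ⟨hs.equiv_i⟩

/-- `H1 p`. -/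
abbrev IsSES.p1 (hs : IsSES G i p) : H1 G B →+ H1 G C :=
  H1.map (MonoidHom.id G) p ⟨hs.equiv_p⟩

/-- `H2 i`. -/
abbrev IsSES.i2 (hs : IsSES G i p) : H2 G A →+ H2 G B :=
  H2.map (MonoidHom.id G) i ⟨hs.equiv_i⟩

/-- `H2 p`. -/
abbrev IsSES.p2 (hs : IsSES G i p) : H2 G B →+ H2 G C :=
  H2.map (MonoidHom.id G) p ⟨hs.equiv_p⟩

theorem IsSES.exact_H1B (hs : IsSES G i p) (x : H1 G B) (hx : hs.p1 x = 0) :
    ∃ y, hs.i1 y = x := by
  obtain ⟨c, rfl⟩ := H1.mk_surjective x
  obtain ⟨e, he⟩ := (H1.mk_eq_zero_iff _).1 hx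
  obtain ⟨b, rfl⟩ := hs.surj e
  have : ∀ g, ∃ a, i a = (c : G → B) g - (g • b - b) := fun g => (hs.exact _).1 (by
    rw [map_sub, map_sub, hs.equiv_p]
    exact sub_eq_zero.2 (he g))
  choose a ha using this
  have hza : a ∈ Z1 G A := mem_Z1_iff.2 fun g h => hs.inj (by
    rw [map_add, hs.equiv_i, ha, ha, ha, mem_Z1_iff.1 c.2 g h, smul_sub, smul_sub, mul_smul]
    abel)
  refine ⟨H1.mk ⟨a, hza⟩, ?_⟩
  rw [IsSES.i1, H1.map_mk, ← sub_eq_zero, ← map_sub, H1.mk_eq_zero_iff]
  exact ⟨-b, fun g => by simp [ha]; abel⟩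

theorem IsSES.delta_p1 (hs : IsSES G i p) (x : H1 G B) : hs.delta (hs.p1 x) = 0 := by
  obtain ⟨c, rfl⟩ := H1.mk_surjective x
  rw [IsSES.p1, H1.map_mk, ← map_zero (H2.mk (G := G) (A := A))]
  refine hs.delta_mk_eq _ (b := (c : G → B)) 0 (fun g => rfl) fun g h => ?_
  simp [mem_Z1_iff.1 c.2 g h]

theorem IsSES.exact_H1C (hs : IsSES G i p) (x : H1 G C) (hx : hs.delta x = 0) :
    ∃ y, hs.p1 y = x := by
  obtain ⟨c, rfl⟩ := H1.mk_surjective x
  obtain ⟨b, a, hb, ha, hd⟩ := hs.delta_spec c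
  rw [hd] at hx
  obtain ⟨e, he⟩ := (H2.mk_eq_zero_iff a).1 hx
  have hz : (fun g => b g - i (e g)) ∈ Z1 G B := mem_Z1_iff.2 fun g h => by
    have := ha g h
    rw [he, map_add, map_sub, hs.equiv_i] at this
    rw [smul_sub, ← sub_eq_zero]
    linear_combination (norm := abel) this
  refine ⟨H1.mk ⟨_, hz⟩, ?_⟩
  rw [IsSES.p1, H1.map_mk]
  congr 1
  ext g
  simp [hb, hs.comp_eq_zero]

theorem IsSES.exact_H2A (hs : IsSES G i p) (x : H2 G A) (hx : hs.i2 x = 0) :
    ∃ y, hs.delta y = x := by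
  obtain ⟨a, rfl⟩ := H2.mk_surjective x
  obtain ⟨b, hb⟩ := (H2.mk_eq_zero_iff _).1 hx
  have hz : (fun g => p (b g)) ∈ Z1 G C := mem_Z1_iff.2 fun g h => by
    have := congrArg p (hb g h)
    change p (i ((a : G → G → A) g h)) = p (g • b h - b (g * h) + b g) at this
    simp only [hs.comp_eq_zero, map_add, map_sub, hs.equiv_p] at this
    linear_combination (norm := abel) this
  exact ⟨H1.mk ⟨_, hz⟩, hs.delta_mk_eq ⟨_, hz⟩ (b := b) a (fun g => rfl) fun g h => hb g h⟩

theorem IsSES.exact_H2B (hs : IsSES G i p) (x : H2 G B) (hx : hs.p2 x = 0) :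
    ∃ y, hs.i2 y = x := by
  obtain ⟨c, rfl⟩ := H2.mk_surjective x
  obtain ⟨e, he⟩ := (H2.mk_eq_zero_iff _).1 hx
  choose b hb using fun g => hs.surj (e g)
  have : ∀ g h, ∃ a, i a = (c : G → G → B) g h - (g • b h - b (g * h) + b g) := fun g h =>
    (hs.exact _).1 (by
      simp only [map_sub, map_add, hs.equiv_p, hb]
      exact sub_eq_zero.2 (he g h))
  choose a ha using this
  have hza : a ∈ Z2 G A := fun g h j => hs.inj (by
    have := mem_Z2_iff.1 c.2 g h j
    simp only [map_add, hs.equiv_i, ha, smul_sub, smul_add, mul_smul, mul_assoc]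
    linear_combination (norm := abel) this)
  refine ⟨H2.mk ⟨a, hza⟩, ?_⟩
  rw [IsSES.i2, H2.map_mk, ← sub_eq_zero, ← map_sub, H2.mk_eq_zero_iff]
  exact ⟨-b, fun g h => by simp [ha]; abel⟩

end SES

section SESNat

variable {G : Type u} [Group G] {A : Type v} [AddCommGroup A] [DistribMulAction G A]
  {B : Type v} [AddCommGroup B] [DistribMulAction G B]
  {C : Type v} [AddCommGroup C] [DistribMulAction G C]
  {G' : Type w} [Group G'] {A' : Type x} [AddCommGroup A'] [DistribMulAction G' A']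
  {B' : Type x} [AddCommGroup B'] [DistribMulAction G' B']
  {C' : Type x} [AddCommGroup C'] [DistribMulAction G' C']

/-- Naturality of the connecting homomorphism. -/
theorem IsSES.delta_natural {i : A →+ B} {p : B →+ C} {i' : A' →+ B'} {p' : B' →+ C'}
    (hs : IsSES G i p) (hs' : IsSES G' i' p') {φ : G' →* G} {fA : A →+ A'} {fB : B →+ B'}
    {fC : C →+ C'} (hA : CompatPair φ fA) (hB : CompatPair φ fB) (hC : CompatPair φ fC)
    (hi : ∀ a, fB (i a) = i' (fA a)) (hp : ∀ b, fC (p b) = p' (fB b)) (x : H1 G C) :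
    H2.map φ fA hA (hs.delta x) = hs'.delta (H1.map φ fC hC x) := by
  obtain ⟨c, rfl⟩ := H1.mk_surjective x
  obtain ⟨b, a, hb, ha, hd⟩ := hs.delta_spec c
  rw [hd, H2.map_mk, H1.map_mk]
  refine (hs'.delta_mk_eq _ (b := fun g => fB (b (φ g))) _ ?_ ?_).symm
  · intro g
    show p' (fB (b (φ g))) = fC ((c : G → C) (φ g))
    rw [← hp, hb]
  · intro g h
    show i' (fA ((a : G → G → A) (φ g) (φ h))) = _
    rw [← hi, ha, map_add, map_sub, hB.compat, map_mul]

end SESNat

end FLTAgent.GalCoh
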