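import Mathlib
import Fermat.Agent.GlobalDuality.Cochain

/-!
# Coinduced modules and dimension shifting

The coinduced module `Coind G A`, its vanishing cohomology, the shift `H1 (CoindQuot) ≃ H2`
(`shiftEquiv`), and the index argument: classes killed by restriction are killed by the index,
so `p`-primary classes are detected on a Sylow subgroup.
-/

set_option autoImplicit false

noncomputable section

namespace FLTAgent.GalCoh

variable (G : Type) [Group G] (A : Type) [AddCommGroup A]

/-- The coinduced module: functions on `G`, with `g` acting by right translation. -/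
def Coind : Type := G → A

instance : AddCommGroup (Coind G A) := inferInstanceAs (AddCommGroup (G → A))

instance : DistribMulAction G (Coind G A) where
  smul g f x := f (x * g)
  one_smul f := funext fun x => congrArg f (mul_one x)
  mul_smul g h f := funext fun x => congrArg f (mul_assoc x g h).symm
  smul_zero _ := rfl
  smul_add _ _ _ := rfl

variable {G A}

/-- The action on a coinduced module is by right translation. -/
theorem Coind.smul_apply (g : G) (f : Coind G A) (x : G) : (g • f) x = f (x * g) := rfl

omit [Group G] [AddCommGroup A] in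
@[ext] theorem Coind.ext {f f' : Coind G A} (h : ∀ x, f x = f' x) : f = f' := funext h

omit [Group G] in
/-- Addition in a coinduced module is pointwise. -/
theorem Coind.add_apply (f f' : Coind G A) (x : G) : (f + f') x = f x + f' x := rfl

omit [Group G] in
theorem Coind.sub_apply (f f' : Coind G A) (x : G) : (f - f') x = f x - f' x := rfl

omit [Group G] in
/-- The zero of a coinduced module. -/
theorem Coind.zero_apply (x : G) : (0 : Coind G A) x = 0 := rfl

/-- A function seen as an element of the coinduced module. -/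
def Coind.mk (u : G → A) : Coind G A := u

omit [Group G] [AddCommGroup A] in
theorem Coind.mk_apply (u : G → A) (x : G) : Coind.mk u x = u x := rfl

/-- Representative of the left coset of `x`. -/
def cosetRep (P : Subgroup G) (x : G) : G := Quotient.out (QuotientGroup.mk (s := P) x)

/-- The component of `x` in `P`. -/
def cosetPart (P : Subgroup G) (x : G) : P :=
  ⟨(cosetRep P x)⁻¹ * x, by
    have h := QuotientGroup.out_eq' (QuotientGroup.mk (s := P) x)
    exact QuotientGroup.eq.1 h⟩

theorem cosetRep_mul_cosetPart (P : Subgroup G) (x : G) :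
    cosetRep P x * (cosetPart P x : G) = x := by simp [cosetPart]

theorem cosetRep_mul (P : Subgroup G) (x : G) (h : P) : cosetRep P (x * h) = cosetRep P x := by
  unfold cosetRep
  rw [QuotientGroup.mk_mul_of_mem x h.2]

theorem cosetPart_mul (P : Subgroup G) (x : G) (h : P) :
    cosetPart P (x * h) = cosetPart P x * h := by
  ext
  simp [cosetPart, cosetRep_mul, mul_assoc]

theorem Coind.subsingleton_H1 (P : Subgroup G) : Subsingleton (H1 P (Coind G A)) := by
  rw [subsingleton_H1_iff]
  intro f hf
  refine ⟨Coind.mk fun x => (f (cosetPart P x)) (cosetRep P x), fun h => ?_⟩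
  ext x
  have := congrFun (mem_Z1_iff.1 hf (cosetPart P x) h) (cosetRep P x)
  rw [Coind.add_apply, Subgroup.smul_def, Coind.smul_apply, cosetRep_mul_cosetPart] at this
  rw [Coind.sub_apply, Subgroup.smul_def, Coind.smul_apply, Coind.mk_apply, Coind.mk_apply,
    cosetPart_mul, cosetRep_mul, this]
  abel

theorem Coind.subsingleton_H2 (P : Subgroup G) : Subsingleton (H2 P (Coind G A)) := by
  rw [subsingleton_H2_iff]
  intro f hf
  refine ⟨fun h => Coind.mk fun x => (f (cosetPart P x) h) (cosetRep P x), fun g h => ?_⟩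
  ext x
  have := congrFun (mem_Z2_iff.1 hf (cosetPart P x) g h) (cosetRep P x)
  rw [Coind.add_apply, Coind.add_apply, Subgroup.smul_def, Coind.smul_apply,
    cosetRep_mul_cosetPart] at this
  rw [Coind.add_apply, Coind.sub_apply, Subgroup.smul_def, Coind.smul_apply]
  simp only [Coind.mk_apply]
  rw [cosetPart_mul, cosetRep_mul]
  linear_combination (norm := abel) (1 : ℤ) • this.symm

variable (G A)

variable [DistribMulAction G A]

/-- The embedding `a ↦ (x ↦ x • a)`. -/
def coindIota : A →+ Coind G A where
  toFun a x := x • a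
  map_zero' := funext fun x => smul_zero x
  map_add' a b := funext fun x => smul_add x a b

variable {G A}

theorem coindIota_apply (a : A) (x : G) : coindIota G A a x = x • a := rfl

theorem coindIota_smul (g : G) (a : A) : coindIota G A (g • a) = g • coindIota G A a := by
  ext x; simp [coindIota_apply, Coind.smul_apply, mul_smul]

theorem coindIota_injective : Function.Injective (coindIota G A) := fun a b h => by
  simpa [coindIota_apply] using congrFun h 1

variable (G A)

/-- The cokernel of `coindIota`. -/
def CoindQuot : Type := Coind G A ⧸ (coindIota G A).range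

instance : AddCommGroup (CoindQuot G A) :=
  inferInstanceAs (AddCommGroup (Coind G A ⧸ (coindIota G A).range))

/-- The projection. -/
def coindProj : Coind G A →+ CoindQuot G A := QuotientAddGroup.mk' _

theorem coindProj_surjective : Function.Surjective (coindProj G A) :=
  QuotientAddGroup.mk'_surjective _

variable {G A}

theorem coindProj_eq_zero_iff (f : Coind G A) :
    coindProj G A f = 0 ↔ ∃ a, coindIota G A a = f :=
  QuotientAddGroup.eq_zero_iff f

instance : DistribMulAction G (CoindQuot G A) where
  smul g := QuotientAddGroup.map _ _ (DistribSMul.toAddMonoidHom (Coind G A) g) (by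
    rintro _ ⟨a, rfl⟩
    exact ⟨g • a, coindIota_smul g a⟩)
  one_smul x := by
    induction x using QuotientAddGroup.induction_on with
    | _ f => exact congrArg (coindProj G A) (one_smul G f)
  mul_smul g h x := by
    induction x using QuotientAddGroup.induction_on with
    | _ f => exact congrArg (coindProj G A) (mul_smul g h f)
  smul_zero g := map_zero _
  smul_add g x y := map_add _ x y

theorem coindProj_smul (g : G) (f : Coind G A) :
    coindProj G A (g • f) = g • coindProj G A f := rfl

variable (G A)

theorem coind_isSES : IsSES G (coindIota G A) (coindProj G A) :=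
  ⟨coindIota_injective, coindProj_surjective G A, coindProj_eq_zero_iff, coindIota_smul,
    coindProj_smul⟩

/-- Dimension shifting. -/
def shiftEquiv (P : Subgroup G) : H1 P (CoindQuot G A) ≃+ H2 P A :=
  AddEquiv.ofBijective ((coind_isSES G A).restrict P).delta (by
    have := Coind.subsingleton_H1 (A := A) P
    have := Coind.subsingleton_H2 (A := A) P
    refine ⟨(injective_iff_map_eq_zero _).2 fun x hx => ?_, fun x => ?_⟩
    · obtain ⟨y, rfl⟩ := ((coind_isSES G A).restrict P).exact_H1C x hx
      rw [Subsingleton.elim y 0, map_zero]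
    · exact ((coind_isSES G A).restrict P).exact_H2A x (Subsingleton.elim _ _))

theorem shiftEquiv_apply (P : Subgroup G) (x : H1 P (CoindQuot G A)) :
    shiftEquiv G A P x = ((coind_isSES G A).restrict P).delta x := rfl

theorem coind_delta_bijective : Function.Bijective (coind_isSES G A).delta := by
  have h1 := Coind.subsingleton_H1 (A := A) (⊤ : Subgroup G)
  have h2 := Coind.subsingleton_H2 (A := A) (⊤ : Subgroup G)
  have hc : CompatPair (Subgroup.topEquiv (G := G)).symm.toMonoidHom
      (AddMonoidHom.id (Coind G A)) := ⟨fun _ _ => rfl⟩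
  have e1 : Subsingleton (H1 G (Coind G A)) := subsingleton_of_forall_eq 0 fun x => by
    obtain ⟨f, rfl⟩ := H1.mk_surjective x
    obtain ⟨a, ha⟩ := (H1.mk_eq_zero_iff _).1 (Subsingleton.elim
      (H1.map (⊤ : Subgroup G).subtype (AddMonoidHom.id _) (CompatPair.subtype _) (H1.mk f)) 0)
    exact (H1.mk_eq_zero_iff f).2 ⟨a, fun g => ha ⟨g, Subgroup.mem_top g⟩⟩
  have e2 : Subsingleton (H2 G (Coind G A)) := subsingleton_of_forall_eq 0 fun x => by
    obtain ⟨f, rfl⟩ := H2.mk_surjective x
    obtain ⟨b, hb⟩ := (H2.mk_eq_zero_iff _).1 (Subsingleton.elim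
      (H2.map (⊤ : Subgroup G).subtype (AddMonoidHom.id _) (CompatPair.subtype _) (H2.mk f)) 0)
    exact (H2.mk_eq_zero_iff f).2 ⟨fun g => b ⟨g, Subgroup.mem_top g⟩,
      fun g h => hb ⟨g, Subgroup.mem_top g⟩ ⟨h, Subgroup.mem_top h⟩⟩
  refine ⟨(injective_iff_map_eq_zero _).2 fun x hx => ?_, fun x => ?_⟩
  · obtain ⟨y, rfl⟩ := (coind_isSES G A).exact_H1C x hx
    rw [Subsingleton.elim y 0, map_zero]
  · exact (coind_isSES G A).exact_H2A x (Subsingleton.elim _ _)

variable {G A}

section Functor

variable {B : Type} [AddCommGroup B] [DistribMulAction G B]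
  {C : Type} [AddCommGroup C] [DistribMulAction G C]

/-- Functoriality of `Coind`. -/
def coindMap (f : A →+ B) : Coind G A →+ Coind G B where
  toFun u x := f (u x)
  map_zero' := funext fun _ => map_zero f
  map_add' u v := funext fun x => map_add f (u x) (v x)

omit [DistribMulAction G A] [DistribMulAction G B] in
theorem coindMap_smul (f : A →+ B) (g : G) (u : Coind G A) :
    coindMap f (g • u) = g • coindMap f u := rfl

theorem coindMap_iota (f : A →+ B) (hf : ∀ (g : G) (a : A), f (g • a) = g • f a) (a : A) :
    coindMap f (coindIota G A a) = coindIota G B (f a) :=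
  funext fun x => hf x a

/-- Functoriality of `CoindQuot`. -/
def coindQuotMap (f : A →+ B) (hf : ∀ (g : G) (a : A), f (g • a) = g • f a) :
    CoindQuot G A →+ CoindQuot G B :=
  QuotientAddGroup.map _ _ (coindMap f) (by
    rintro _ ⟨a, rfl⟩
    exact ⟨f a, (coindMap_iota f hf a).symm⟩)

theorem coindQuotMap_proj (f : A →+ B) (hf : ∀ (g : G) (a : A), f (g • a) = g • f a)
    (u : Coind G A) :
    coindQuotMap f hf (coindProj G A u) = coindProj G B (coindMap f u) := rfl

theorem coindQuotMap_smul (f : A →+ B) (hf : ∀ (g : G) (a : A), f (g • a) = g • f a) (g : G)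
    (x : CoindQuot G A) : coindQuotMap f hf (g • x) = g • coindQuotMap f hf x := by
  obtain ⟨u, rfl⟩ := coindProj_surjective G A x
  rfl

theorem IsSES.coindQuot {i : A →+ B} {p : B →+ C} (hs : IsSES G i p) :
    IsSES G (coindQuotMap i hs.equiv_i) (coindQuotMap p hs.equiv_p) := by
  refine ⟨(injective_iff_map_eq_zero _).2 fun x hx => ?_, fun z => ?_, fun y => ⟨fun hy => ?_, ?_⟩,
    coindQuotMap_smul i hs.equiv_i, coindQuotMap_smul p hs.equiv_p⟩
  · obtain ⟨u, rfl⟩ := coindProj_surjective G A x
    obtain ⟨b, hb⟩ := (coindProj_eq_zero_iff _).1 hx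
    refine (coindProj_eq_zero_iff u).2 ⟨u 1, funext fun t => hs.inj ?_⟩
    have h1 := congrFun hb 1
    have ht := congrFun hb t
    simp only [coindIota_apply, one_smul] at h1 ht ⊢
    rw [hs.equiv_i]
    show t • (coindMap i u) 1 = (coindMap i u) t
    rw [← h1, ht]
  · obtain ⟨w, rfl⟩ := coindProj_surjective G C z
    choose v hv using fun t => hs.surj (w t)
    exact ⟨coindProj G B (Coind.mk v), congrArg (coindProj G C) (funext hv)⟩
  · obtain ⟨v, rfl⟩ := coindProj_surjective G B y
    obtain ⟨c, hc⟩ := (coindProj_eq_zero_iff _).1 hy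
    obtain ⟨b, rfl⟩ := hs.surj c
    have : ∀ t, ∃ a, i a = v t - t • b := fun t => (hs.exact _).1 (by
      rw [map_sub, hs.equiv_p]
      exact sub_eq_zero.2 (congrFun hc t).symm)
    choose u hu using this
    refine ⟨coindProj G A (Coind.mk u), ?_⟩
    rw [coindQuotMap_proj, ← sub_eq_zero, ← map_sub, coindProj_eq_zero_iff]
    refine ⟨-b, funext fun t => ?_⟩
    show t • -b = i (u t) - v t
    rw [hu, smul_neg]
    abel
  · rintro ⟨x, rfl⟩
    obtain ⟨u, rfl⟩ := coindProj_surjective G A x
    rw [coindQuotMap_proj, coindQuotMap_proj]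
    convert map_zero (coindProj G C)
    exact funext fun t => hs.comp_eq_zero (u t)

end Functor

section Index

/-- Index argument in degree one. -/
theorem index_nsmul_H1_eq_zero (P : Subgroup G) [P.FiniteIndex] (x : H1 G A)
    (hx : H1.map P.subtype (AddMonoidHom.id A) (CompatPair.subtype P) x = 0) :
    P.index • x = 0 := by
  classical
  have : Fintype (G ⧸ P) := Fintype.ofFinite _
  obtain ⟨c, rfl⟩ := H1.mk_surjective x
  obtain ⟨a, ha⟩ := (H1.mk_eq_zero_iff _).1 hx
  set c' : G → A := fun g => (c : G → A) g - (g • a - a) with hc'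
  have hc1 : ∀ g h, c' (g * h) = g • c' h + c' g := fun g h => by
    simp only [hc', mem_Z1_iff.1 c.2 g h, smul_sub, mul_smul]; abel
  have hP : ∀ g, ∀ h ∈ P, c' (g * h) = c' g := fun g h hh => by
    have h0 : c' h = 0 := sub_eq_zero.2 (ha ⟨h, hh⟩)
    rw [hc1, h0, smul_zero, zero_add]
  let F : G ⧸ P → A := fun q => c' q.out
  have hF : ∀ g : G, c' g = F (QuotientGroup.mk g) := fun g => by
    obtain ⟨j, hj⟩ := QuotientGroup.mk_out_eq_mul P g
    simp only [F, hj, hP g j j.2]
  set b := ∑ q, F q
  rw [← map_nsmul, H1.mk_eq_zero_iff]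
  refine ⟨P.index • a - b, fun g => ?_⟩
  have hb : g • b = b - P.index • c' g := by
    rw [Finset.smul_sum]
    have : ∀ q : G ⧸ P, g • F q = F (g • q) - c' g := fun q => by
      induction q using QuotientGroup.induction_on with
      | _ x => rw [MulAction.Quotient.smul_mk, ← hF, ← hF, smul_eq_mul, hc1]; abel
    have hsum : ∑ q, F (g • q) = b := Equiv.sum_comp (MulAction.toPerm g) F
    rw [Finset.sum_congr rfl fun q _ => this q, Finset.sum_sub_distrib, Finset.sum_const,
      hsum, Finset.card_univ, ← Nat.card_eq_fintype_card, ← Subgroup.index]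
  show P.index • (c : G → A) g = g • (P.index • a - b) - (P.index • a - b)
  rw [smul_sub, hb, smul_comm g P.index a, show (c : G → A) g = c' g + (g • a - a) by simp [hc']]
  simp only [smul_add, smul_sub]
  abel

/-- Index argument in degree two. -/
theorem index_nsmul_H2_eq_zero (P : Subgroup G) [P.FiniteIndex] (x : H2 G A)
    (hx : H2.map P.subtype (AddMonoidHom.id A) (CompatPair.subtype P) x = 0) :
    P.index • x = 0 := by
  obtain ⟨y, rfl⟩ := (coind_delta_bijective G A).2 x
  rw [(coind_isSES G A).delta_natural ((coind_isSES G A).restrict P) (CompatPair.subtype P)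
    (CompatPair.subtype P) (CompatPair.subtype P) (fun _ => rfl) (fun _ => rfl),
    ← shiftEquiv_apply, AddEquiv.map_eq_zero_iff] at hx
  rw [← map_nsmul, index_nsmul_H1_eq_zero P y hx, map_zero]

theorem subsingleton_H1_bot : Subsingleton (H1 (⊥ : Subgroup G) A) := by
  rw [subsingleton_H1_iff]
  exact fun f hf => ⟨0, fun g => by
    rw [Subsingleton.elim g 1, Z1_one hf, one_smul, sub_self]⟩

theorem subsingleton_H2_bot : Subsingleton (H2 (⊥ : Subgroup G) A) := by
  rw [subsingleton_H2_iff]
  exact fun f _ => ⟨fun _ => f 1 1, fun g h => by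
    rw [Subsingleton.elim g 1, Subsingleton.elim h 1, one_smul, sub_self, zero_add]⟩

theorem card_nsmul_H1 [Finite G] (x : H1 G A) : Nat.card G • x = 0 := by
  have := subsingleton_H1_bot (G := G) (A := A)
  rw [← Subgroup.index_bot]
  exact index_nsmul_H1_eq_zero ⊥ x (Subsingleton.elim _ _)

theorem card_nsmul_H2 [Finite G] (x : H2 G A) : Nat.card G • x = 0 := by
  have := subsingleton_H2_bot (G := G) (A := A)
  rw [← Subgroup.index_bot]
  exact index_nsmul_H2_eq_zero ⊥ x (Subsingleton.elim _ _)

theorem eq_zero_of_res_sylow_H1 [Finite G] {p : ℕ} [Fact p.Prime] (P : Sylow p G) {x : H1 G A}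
    {k : ℕ} (hk : p ^ k • x = 0)
    (hx : H1.map (P : Subgroup G).subtype (AddMonoidHom.id A) (CompatPair.subtype _) x = 0) :
    x = 0 := by
  have h1 : addOrderOf x ∣ p ^ k := addOrderOf_dvd_of_nsmul_eq_zero hk
  have h2 : addOrderOf x ∣ (P : Subgroup G).index :=
    addOrderOf_dvd_of_nsmul_eq_zero (index_nsmul_H1_eq_zero _ x hx)
  have hcop : (p ^ k).Coprime (P : Subgroup G).index :=
    ((Nat.Prime.coprime_iff_not_dvd Fact.out).2 P.not_dvd_index).pow_left k
  exact AddMonoid.addOrderOf_eq_one_iff.1 (Nat.eq_one_of_dvd_coprimes hcop h1 h2)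

theorem eq_zero_of_res_sylow_H2 [Finite G] {p : ℕ} [Fact p.Prime] (P : Sylow p G) {x : H2 G A}
    {k : ℕ} (hk : p ^ k • x = 0)
    (hx : H2.map (P : Subgroup G).subtype (AddMonoidHom.id A) (CompatPair.subtype _) x = 0) :
    x = 0 := by
  have h1 : addOrderOf x ∣ p ^ k := addOrderOf_dvd_of_nsmul_eq_zero hk
  have h2 : addOrderOf x ∣ (P : Subgroup G).index :=
    addOrderOf_dvd_of_nsmul_eq_zero (index_nsmul_H2_eq_zero _ x hx)
  have hcop : (p ^ k).Coprime (P : Subgroup G).index :=
    ((Nat.Prime.coprime_iff_not_dvd Fact.out).2 P.not_dvd_index).pow_left k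
  exact AddMonoid.addOrderOf_eq_one_iff.1 (Nat.eq_one_of_dvd_coprimes hcop h1 h2)

end Index

end FLTAgent.GalCoh
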