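import Mathlib
import Fermat.Agent.GlobalDuality.Coind

/-!
# Fixed points of a normal subgroup

Fixed points as a module of the quotient group (`fixedPts`), inflation between levels (`inf2`),
the inflation-restriction sequence in low degree, and the bound `card_H2_le` by dévissage.
-/

set_option autoImplicit false

noncomputable section

namespace FLTAgent.GalCoh

variable {Γ : Type} [Group Γ]

/-- The elements fixed by a subgroup. -/
def fixedPts (N : Subgroup Γ) (A : Type) [AddCommGroup A] [DistribMulAction Γ A] :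
    AddSubgroup A where
  carrier := {a | ∀ n ∈ N, n • a = a}
  zero_mem' n _ := smul_zero n
  add_mem' {a b} ha hb n hn := by rw [smul_add, ha n hn, hb n hn]
  neg_mem' {a} ha n hn := by rw [smul_neg, ha n hn]

variable {A : Type} [AddCommGroup A] [DistribMulAction Γ A]
  {B : Type} [AddCommGroup B] [DistribMulAction Γ B]
  {C : Type} [AddCommGroup C] [DistribMulAction Γ C]

/-- Fixed points grow as the group shrinks. -/
theorem fixedPts_antitone {N' N : Subgroup Γ} (h : N' ≤ N) : fixedPts N A ≤ fixedPts N' A :=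
  fun _ ha n hn => ha n (h hn)

theorem smul_mem_fixedPts (N : Subgroup Γ) [hN : N.Normal] (g : Γ) {a : A}
    (ha : a ∈ fixedPts N A) : g • a ∈ fixedPts N A := fun n hn => by
  have h := ha _ (hN.conj_mem n hn g⁻¹)
  rw [inv_inv, mul_smul, mul_smul] at h
  calc n • g • a = g • g⁻¹ • n • g • a := (smul_inv_smul g _).symm
    _ = g • a := by rw [h]

instance fixedPtsAction (N : Subgroup Γ) [hN : N.Normal] :
    DistribMulAction (Γ ⧸ N) (fixedPts N A) where
  smul q a := Quotient.liftOn' q (fun g => ⟨g • (a : A), smul_mem_fixedPts N g a.2⟩)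
    (fun g g' h => Subtype.ext (by
      have h' := a.2 _ (QuotientGroup.leftRel_apply.1 h)
      show g • (a : A) = g' • (a : A)
      rw [mul_smul] at h'
      calc g • (a : A) = g • g⁻¹ • g' • (a : A) := by rw [h']
        _ = g' • (a : A) := smul_inv_smul g _))
  one_smul a := Subtype.ext (one_smul Γ (a : A))
  mul_smul q q' a := by
    induction q using QuotientGroup.induction_on with
    | _ g =>
      induction q' using QuotientGroup.induction_on with
      | _ g' => exact Subtype.ext (mul_smul g g' (a : A))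
  smul_zero q := by
    induction q using QuotientGroup.induction_on with
    | _ g => exact Subtype.ext (smul_zero g)
  smul_add q a b := by
    induction q using QuotientGroup.induction_on with
    | _ g => exact Subtype.ext (smul_add g (a : A) (b : A))

theorem coe_mk_smul (N : Subgroup Γ) [N.Normal] (g : Γ) (a : fixedPts N A) :
    (((QuotientGroup.mk g : Γ ⧸ N) • a : fixedPts N A) : A) = g • (a : A) := rfl

/-- An equivariant map restricted to fixed points. -/
def fixedMap (f : A →+ B) (hf : ∀ (g : Γ) (a : A), f (g • a) = g • f a) (N : Subgroup Γ) :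
    fixedPts N A →+ fixedPts N B where
  toFun a := ⟨f a, fun n hn => by rw [← hf, a.2 n hn]⟩
  map_zero' := Subtype.ext (map_zero f)
  map_add' a b := Subtype.ext (map_add f (a : A) (b : A))

theorem coe_fixedMap (f : A →+ B) (hf : ∀ (g : Γ) (a : A), f (g • a) = g • f a) (N : Subgroup Γ)
    (a : fixedPts N A) : (fixedMap f hf N a : B) = f a := rfl

theorem fixedMap_smul (f : A →+ B) (hf : ∀ (g : Γ) (a : A), f (g • a) = g • f a) (N : Subgroup Γ)
    [N.Normal] (q : Γ ⧸ N) (a : fixedPts N A) :
    fixedMap f hf N (q • a) = q • fixedMap f hf N a := by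
  induction q using QuotientGroup.induction_on with
  | _ g => exact Subtype.ext (hf g a)

theorem IsSES.fixedPts {i : A →+ B} {p : B →+ C} (hs : IsSES Γ i p) (N : Subgroup Γ) [N.Normal]
    (hlift : ∀ c ∈ fixedPts N C, ∃ b ∈ fixedPts N B, p b = c) :
    IsSES (Γ ⧸ N) (fixedMap i hs.equiv_i N) (fixedMap p hs.equiv_p N) := by
  refine ⟨fun a b h => Subtype.ext (hs.inj (congrArg Subtype.val h)), fun c => ?_,
    fun b => ⟨fun h => ?_, ?_⟩, fixedMap_smul i _ N, fixedMap_smul p _ N⟩
  · obtain ⟨b, hb, hpb⟩ := hlift c c.2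
    exact ⟨⟨b, hb⟩, Subtype.ext hpb⟩
  · obtain ⟨a, ha⟩ := (hs.exact b).1 (congrArg Subtype.val h)
    refine ⟨⟨a, fun n hn => hs.inj ?_⟩, Subtype.ext ha⟩
    rw [hs.equiv_i, ha]
    exact b.2 n hn
  · rintro ⟨a, rfl⟩
    exact Subtype.ext (hs.comp_eq_zero a)

/-- Fixed points of a normal subgroup are fixed in the quotient sense. -/
theorem exists_lift_of_subsingleton_H1 {i : A →+ B} {p : B →+ C} (hs : IsSES Γ i p)
    (N : Subgroup Γ) (h : Subsingleton (H1 N A)) (c : C) (hc : c ∈ fixedPts N C) :
    ∃ b ∈ fixedPts N B, p b = c := by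
  obtain ⟨b, rfl⟩ := hs.surj c
  have : ∀ n : N, ∃ a, i a = (n : Γ) • b - b := fun n => (hs.exact _).1 (by
    rw [map_sub, hs.equiv_p, hc n n.2, sub_self])
  choose a ha using this
  have hz : a ∈ Z1 N A := mem_Z1_iff.2 fun g g' => hs.inj (by
    rw [map_add, Subgroup.smul_def, hs.equiv_i, ha, ha, ha, Subgroup.coe_mul, mul_smul, smul_sub]
    abel)
  obtain ⟨a0, ha0⟩ := subsingleton_H1_iff.1 h a hz
  refine ⟨b - i a0, fun n hn => ?_, by rw [map_sub, hs.comp_eq_zero, sub_zero]⟩
  have h1 := ha ⟨n, hn⟩
  rw [ha0, map_sub, Subgroup.smul_def, hs.equiv_i] at h1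
  rw [smul_sub, sub_eq_iff_eq_add]
  linear_combination (norm := abel) h1.symm

section Inflation

variable {N' N : Subgroup Γ} [N'.Normal] [N.Normal]

/-- The quotient map between two levels. -/
def quotMap (h : N' ≤ N) : Γ ⧸ N' →* Γ ⧸ N := QuotientGroup.map N' N (MonoidHom.id Γ) h

theorem quotMap_mk (h : N' ≤ N) (g : Γ) :
    quotMap h (QuotientGroup.mk g) = (QuotientGroup.mk g : Γ ⧸ N) := rfl

theorem quotMap_surjective (h : N' ≤ N) : Function.Surjective (quotMap h) := fun q => by
  induction q using QuotientGroup.induction_on with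
  | _ g => exact ⟨QuotientGroup.mk g, rfl⟩

variable (A) in
/-- The inclusion between two levels. -/
def fixedIncl {N' N : Subgroup Γ} (h : N' ≤ N) : fixedPts N A →+ fixedPts N' A :=
  AddSubgroup.inclusion (fixedPts_antitone h)

omit [N'.Normal] [N.Normal] in
theorem coe_fixedIncl (h : N' ≤ N) (a : fixedPts N A) : (fixedIncl A h a : A) = a := rfl

theorem inflation_compat (h : N' ≤ N) : CompatPair (quotMap h) (fixedIncl A h) := ⟨fun q a => by
  induction q using QuotientGroup.induction_on with
  | _ g => rfl⟩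

variable (A) in
/-- Inflation in degree two. -/
def inf2 (h : N' ≤ N) : H2 (Γ ⧸ N) (fixedPts N A) →+ H2 (Γ ⧸ N') (fixedPts N' A) :=
  H2.map (quotMap h) (fixedIncl A h) (inflation_compat h)

theorem smul_eq_of_quotMap_eq_one (h : N' ≤ N) {q : Γ ⧸ N'} (hq : quotMap h q = 1)
    (a : fixedPts N A) : q • fixedIncl A h a = fixedIncl A h a := by
  rw [← (inflation_compat h).compat, hq, one_smul]

/-- Descent of a fixed element. -/
theorem exists_fixedIncl_eq (h : N' ≤ N) (b : fixedPts N' A)
    (hb : ∀ q : Γ ⧸ N', quotMap h q = 1 → q • b = b) : ∃ a, fixedIncl A h a = b := by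
  refine ⟨⟨b, fun n hn => ?_⟩, rfl⟩
  have := hb (QuotientGroup.mk n) ((QuotientGroup.eq_one_iff n).2 hn)
  exact congrArg Subtype.val this

theorem nsmul_eq_zero_of_inf2_eq_zero (h : N' ≤ N) (m : ℕ)
    (h1 : ∀ y : H1 (quotMap h).ker (fixedPts N' A), m • y = 0)
    {x : H2 (Γ ⧸ N) (fixedPts N A)} (hx : inf2 A h x = 0) : m • x = 0 := by
  obtain ⟨c₀, rfl⟩ := H2.mk_surjective x
  rw [inf2, H2.map_mk, H2.mk_eq_zero_iff] at hx
  obtain ⟨b₀, hb₀⟩ := hx
  rw [← map_nsmul]
  set j := fixedIncl A h
  set c : Z2 (Γ ⧸ N) (fixedPts N A) := m • c₀ with hc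
  set b : Γ ⧸ N' → fixedPts N' A := m • b₀ with hbdef
  set cc := (c : Γ ⧸ N → Γ ⧸ N → fixedPts N A) with hcc
  have hb : ∀ g g', j (cc (quotMap h g) (quotMap h g')) = g • b g' - b (g * g') + b g :=
    fun g g' => by
    show j (m • (c₀ : Γ ⧸ N → Γ ⧸ N → fixedPts N A) (quotMap h g) (quotMap h g')) =
      g • (m • b₀ g') - m • b₀ (g * g') + m • b₀ g
    rw [map_nsmul, smul_comm g m, ← nsmul_sub, ← nsmul_add]
    exact congrArg (m • ·) (hb₀ g g')
  -- values of `c` with a trivial argument
  have hl : ∀ g, cc 1 g = cc 1 1 := fun g => by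
    have := mem_Z2_iff.1 c.2 1 1 g
    simp only [one_mul, one_smul] at this
    linear_combination (norm := abel) -this
  have hr : ∀ g, cc g 1 = g • cc 1 1 := fun g => by
    have := mem_Z2_iff.1 c.2 g 1 1
    simp only [mul_one] at this
    linear_combination (norm := abel) this
  set e := j (cc 1 1) with he
  -- a cocycle on the kernel
  set e₀ := j ((c₀ : Γ ⧸ N → Γ ⧸ N → fixedPts N A) 1 1) with he₀
  have hz : (fun q : (quotMap h).ker => b₀ q - e₀) ∈ Z1 (quotMap h).ker (fixedPts N' A) := by
    refine mem_Z1_iff.2 fun q q' => ?_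
    have h2 := hb₀ (q : Γ ⧸ N') (q' : Γ ⧸ N')
    simp only [MonoidHom.mem_ker.1 q.2, MonoidHom.mem_ker.1 q'.2] at h2
    rw [Subgroup.smul_def, Subgroup.coe_mul, smul_sub,
      smul_eq_of_quotMap_eq_one h (MonoidHom.mem_ker.1 q.2)]
    change e₀ = _ at h2
    linear_combination (norm := abel) h2
  have h1' := h1 (H1.mk ⟨_, hz⟩)
  rw [← map_nsmul, H1.mk_eq_zero_iff] at h1'
  obtain ⟨z, hz₀⟩ := h1'
  have hz' : ∀ q : (quotMap h).ker, b q - e = q • z - z := fun q => by
    refine Eq.trans ?_ (hz₀ q)
    show m • b₀ q - j (m • (c₀ : Γ ⧸ N → Γ ⧸ N → fixedPts N A) 1 1) = m • (b₀ q - e₀)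
    rw [map_nsmul, nsmul_sub, he₀]
  set b' : Γ ⧸ N' → fixedPts N' A := fun q => b q - (q • z - z) with hb'
  have hd : ∀ g g', j (cc (quotMap h g) (quotMap h g')) = g • b' g' - b' (g * g') + b' g := by
    intro g g'
    refine (hb g g').trans ?_
    simp only [hb', smul_sub, mul_smul]
    abel
  have hker : ∀ q, quotMap h q = 1 → b' q = e := fun q hq => by
    have h3 := hz' ⟨q, MonoidHom.mem_ker.2 hq⟩
    rw [Subgroup.smul_def] at h3
    simp only [hb']
    simp only at h3
    rw [← h3]
    abel
  -- invariance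
  have hr' : ∀ g k, quotMap h k = 1 → b' (g * k) = b' g := fun g k hk => by
    have h4 := hd g k
    rw [hk, hr, (inflation_compat h).compat, hker k hk, ← he] at h4
    linear_combination (norm := abel) h4
  have hfix : ∀ g k, quotMap h k = 1 → k • b' g = b' g := fun g k hk => by
    have h5 := hd k g
    rw [hk, hl, hker k hk, ← he] at h5
    have hk' : quotMap h (g⁻¹ * k * g) = 1 := by
      rw [map_mul, map_mul, hk, mul_one, map_inv, inv_mul_cancel]
    have h6 := hr' g _ hk'
    rw [← mul_assoc, mul_inv_cancel_left] at h6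
    rw [h6] at h5
    linear_combination (norm := abel) -h5
  choose s hs using quotMap_surjective (N' := N') h
  choose d hdd using fun g => exists_fixedIncl_eq h (b' g) (hfix g)
  refine (H2.mk_eq_zero_iff c).2 ⟨fun g => d (s g), fun g g' => ?_⟩
  have hinj : Function.Injective j := fun u v huv => Subtype.ext (congrArg Subtype.val huv :)
  refine hinj ?_
  have hmul : b' (s (g * g')) = b' (s g * s g') := by
    rw [← hr' (s g * s g') ((s g * s g')⁻¹ * s (g * g')) (by
      rw [map_mul, map_inv, map_mul, hs, hs, hs, inv_mul_cancel]), mul_inv_cancel_left]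
  have h7 := hd (s g) (s g')
  rw [hs, hs] at h7
  rw [map_add, map_sub, hdd, hdd, hmul, show g • d (s g') = quotMap h (s g) • d (s g') by rw [hs],
    (inflation_compat h).compat, hdd]
  exact h7

theorem inf2_injective (h : N' ≤ N)
    (h1 : Subsingleton (H1 (quotMap h).ker (fixedPts N' A))) :
    Function.Injective (inf2 A h) :=
  (injective_iff_map_eq_zero _).2 fun x hx => by
    simpa using nsmul_eq_zero_of_inf2_eq_zero h 1 (fun y => Subsingleton.elim _ _) hx

end Inflation

section InfRes

variable {G : Type} [Group G] {M : Type} [AddCommGroup M] [DistribMulAction G M]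

theorem infl_compat_quot (H : Subgroup G) [H.Normal] :
    CompatPair (QuotientGroup.mk' H) (fixedPts H M).subtype := ⟨fun _ _ => rfl⟩

/-- Exactness of inflation-restriction in degree one. -/
theorem exists_inflation_of_res_eq_zero (H : Subgroup G) [H.Normal] (x : H1 G M)
    (hx : H1.map H.subtype (AddMonoidHom.id M) (CompatPair.subtype H) x = 0) :
    ∃ y : H1 (G ⧸ H) (fixedPts H M),
      H1.map (QuotientGroup.mk' H) (fixedPts H M).subtype (infl_compat_quot H) y = x := by
  obtain ⟨c, rfl⟩ := H1.mk_surjective x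
  obtain ⟨a, ha⟩ := (H1.mk_eq_zero_iff _).1 hx
  set c' : G → M := fun g => (c : G → M) g - (g • a - a) with hc'
  have hc1 : ∀ g k, c' (g * k) = g • c' k + c' g := fun g k => by
    simp only [hc', mem_Z1_iff.1 c.2 g k, smul_sub, mul_smul]; abel
  have hH : ∀ k ∈ H, c' k = 0 := fun k hk => sub_eq_zero.2 (ha ⟨k, hk⟩)
  have hr : ∀ g, ∀ k ∈ H, c' (g * k) = c' g := fun g k hk => by
    rw [hc1, hH k hk, smul_zero, zero_add]
  have hfix : ∀ g, c' g ∈ fixedPts H M := fun g k hk => by
    have h1 := hc1 k g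
    rw [hH k hk, add_zero] at h1
    rw [← h1, show k * g = g * (g⁻¹ * k * g) by group, hr]
    simpa using (inferInstance : H.Normal).conj_mem k hk g⁻¹
  let d : G ⧸ H → fixedPts H M := fun q => Quotient.liftOn' q (fun g => ⟨c' g, hfix g⟩)
    (fun g g' hgg => Subtype.ext (by
      show c' g = c' g'
      rw [← hr g _ (QuotientGroup.leftRel_apply.1 hgg), mul_inv_cancel_left]))
  have hd : d ∈ Z1 (G ⧸ H) (fixedPts H M) := mem_Z1_iff.2 fun q q' => by
    induction q using QuotientGroup.induction_on with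
    | _ g =>
      induction q' using QuotientGroup.induction_on with
      | _ g' => exact Subtype.ext (hc1 g g')
  refine ⟨H1.mk ⟨d, hd⟩, ?_⟩
  rw [H1.map_mk, ← sub_eq_zero, ← map_sub, H1.mk_eq_zero_iff]
  exact ⟨-a, fun g => by
    show c' g - (c : G → M) g = _
    simp only [hc', smul_neg]; abel⟩

omit [DistribMulAction G M] in
theorem coind_fixed_subsingleton_H1 (H : Subgroup G) [H.Normal] :
    Subsingleton (H1 (G ⧸ H) (fixedPts H (Coind G M))) := by
  rw [subsingleton_H1_iff]
  intro f hf
  have hinv : ∀ (u : fixedPts H (Coind G M)) (x : G), ∀ k ∈ H,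
      (u : Coind G M) (x * k) = (u : Coind G M) x := fun u x k hk => congrFun (u.2 k hk) x
  refine ⟨⟨Coind.mk fun x => (f (QuotientGroup.mk x) : Coind G M) 1, fun k hk => ?_⟩, fun q => ?_⟩
  · ext x
    rw [Coind.smul_apply, Coind.mk_apply, Coind.mk_apply, QuotientGroup.mk_mul_of_mem x hk]
  · induction q using QuotientGroup.induction_on with
    | _ g =>
      refine Subtype.ext (Coind.ext fun x => ?_)
      have h := congrFun (congrArg Subtype.val (mem_Z1_iff.1 hf (QuotientGroup.mk x)
        (QuotientGroup.mk g))) 1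
      change (f (QuotientGroup.mk (x * g)) : Coind G M) 1 =
        (f (QuotientGroup.mk g) : Coind G M) (1 * x) + (f (QuotientGroup.mk x) : Coind G M) 1 at h
      rw [one_mul] at h
      show (f (QuotientGroup.mk g) : Coind G M) x =
        (f (QuotientGroup.mk (x * g)) : Coind G M) 1 - (f (QuotientGroup.mk x) : Coind G M) 1
      rw [h]
      abel

theorem card_H2_le (H : Subgroup G) [H.Normal] (h1 : Subsingleton (H1 H M))
    [Finite (H2 (G ⧸ H) (fixedPts H M))] [Finite (H2 H M)] :
    Finite (H2 G M) ∧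
      Nat.card (H2 G M) ≤ Nat.card (H2 (G ⧸ H) (fixedPts H M)) * Nat.card (H2 H M) := by
  let r : H1 G (CoindQuot G M) →+ H2 H M :=
    (shiftEquiv G M H).toAddMonoidHom.comp
      (H1.map H.subtype (AddMonoidHom.id _) (CompatPair.subtype H))
  let inf : H1 (G ⧸ H) (fixedPts H (CoindQuot G M)) →+ H1 G (CoindQuot G M) :=
    H1.map (QuotientGroup.mk' H) (fixedPts H _).subtype (infl_compat_quot H)
  have hses := (coind_isSES G M).fixedPts H fun c hc =>
    exists_lift_of_subsingleton_H1 (coind_isSES G M) H h1 c hc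
  have h1' := coind_fixed_subsingleton_H1 (M := M) H
  have hinj : Function.Injective hses.delta := (injective_iff_map_eq_zero _).2 fun x hx => by
    obtain ⟨y, rfl⟩ := hses.exact_H1C x hx
    rw [Subsingleton.elim y 0, map_zero]
  have : Finite (H1 (G ⧸ H) (fixedPts H (CoindQuot G M))) := Finite.of_injective _ hinj
  have hker : r.ker ≤ inf.range := fun x hx => exists_inflation_of_res_eq_zero H x
    ((shiftEquiv G M H).injective (hx.trans (map_zero _).symm))
  have : Finite inf.range := Finite.of_surjective _ inf.rangeRestrict_surjective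
  have : Finite r.ker := Finite.of_injective _ (AddSubgroup.inclusion_injective hker)
  have : Finite r.range := inferInstance
  have : Finite (H1 G (CoindQuot G M) ⧸ r.ker) :=
    Finite.of_equiv _ (QuotientAddGroup.quotientKerEquivRange r).symm.toEquiv
  have : Finite (H1 G (CoindQuot G M)) := (AddSubgroup.finite_iff_finite_and_finiteIndex r.ker).2
    ⟨‹Finite r.ker›, AddSubgroup.finiteIndex_iff_finite_quotient.2 this⟩
  let e := AddEquiv.ofBijective _ (coind_delta_bijective G M)
  refine ⟨Finite.of_equiv _ e.toEquiv, ?_⟩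
  rw [← Nat.card_congr e.toEquiv, AddSubgroup.card_eq_card_quotient_mul_card_addSubgroup r.ker,
    Nat.card_congr (QuotientAddGroup.quotientKerEquivRange r).toEquiv, mul_comm]
  exact Nat.mul_le_mul
    ((Nat.card_le_card_of_injective _ (AddSubgroup.inclusion_injective hker)).trans
      ((Nat.card_le_card_of_surjective _ inf.rangeRestrict_surjective).trans
        (Nat.card_le_card_of_injective _ hinj)))
    (Nat.card_le_card_of_injective _ Subtype.val_injective)

end InfRes

end FLTAgent.GalCoh
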