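import Mathlib
import Fermat.Prelude.Def_GroupCohomology_ContinuousUnramified
import Fermat.Agent.LocalDuality.Fields
import Fermat.Agent.GlobalDuality.Layers

/-!
# Finite ideles and idele classes of the field of algebraic numbers

All layers live inside two big modules for `Gam = Gal(ℚ̄/ℚ)`: the module `Idele` of smooth
restricted families `q ↦ (Gam → (PadicAlgCl q)ˣ)` that are equivariant for the local Galois
groups, and its quotient `IdeleClass` by the principal ideles. The ideles of a number field are
the fixed points `fixedPts N Idele` of the corresponding subgroup `N`. Archimedean components are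
left out: they are invisible for odd primes.
-/

set_option autoImplicit false

noncomputable section

namespace FLTAgent.GlobalDuality

open FLTAgent.GalCoh FLTAgent.LocalDuality

/-- The algebraic numbers. -/
abbrev QQbar : Type := AlgebraicClosure ℚ

/-- The absolute Galois group of `ℚ`. -/
abbrev Gam : Type := QQbar ≃ₐ[ℚ] QQbar

instance isAlgClosure_QQbar : IsAlgClosure ℚ QQbar :=
  ⟨inferInstance, AlgebraicClosure.isAlgebraic ℚ⟩

instance normal_QQbar : Normal ℚ QQbar := IsAlgClosure.normal ℚ QQbar

theorem finite_quotient_fixingSubgroup {K E : Type} [Field K] [Field E] [Algebra K E]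
    [Normal K E] (F : IntermediateField K E) [Normal K F] [FiniteDimensional K F]
    [F.fixingSubgroup.Normal] : Finite ((E ≃ₐ[K] E) ⧸ F.fixingSubgroup) :=
  Finite.of_equiv _ ((QuotientGroup.quotientMulEquivOfEq
      (IntermediateField.restrictNormalHom_ker F).symm).trans
    (QuotientGroup.quotientKerEquivOfSurjective _
      (AlgEquiv.restrictNormalHom_surjective E))).symm.toEquiv

instance factPrimes (q : Nat.Primes) : Fact (q : ℕ).Prime := ⟨q.2⟩

/-- The local Galois group at `q`. -/
abbrev LGal (q : Nat.Primes) : Type := LocalGal (q : ℕ)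

/-- The map from the local to the global group. -/
abbrev loc (q : Nat.Primes) : LGal q →* Gam := toGlobal (q : ℕ)

/-- The fixed embedding at `q`. -/
abbrev emb (q : Nat.Primes) : QQbar →ₐ[ℚ] PadicAlgCl (q : ℕ) := padicEmbedding (q : ℕ)

/-- A multiplicative action seen additively. -/
scoped instance additiveAction {G M : Type} [Group G] [CommGroup M] [MulDistribMulAction G M] :
    DistribMulAction G (Additive M) where
  smul g a := Additive.ofMul (g • a.toMul)
  one_smul a := congrArg Additive.ofMul (one_smul G a.toMul)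
  mul_smul g h a := congrArg Additive.ofMul (mul_smul g h a.toMul)
  smul_zero g := congrArg Additive.ofMul (smul_one g)
  smul_add g a b := congrArg Additive.ofMul (smul_mul' g a.toMul b.toMul)

/-- The units of the algebraic numbers, written additively. -/
abbrev GU : Type := Additive QQbarˣ

/-- The units of `PadicAlgCl q`, written additively. -/
abbrev LU (q : Nat.Primes) : Type := Additive (PadicAlgCl (q : ℕ))ˣ

/-- The element of a field underlying an additively written unit. -/
abbrev GU.val (a : GU) : QQbar := (a.toMul : QQbarˣ)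

/-- The element of a field underlying an additively written unit. -/
abbrev LU.val {q : Nat.Primes} (a : LU q) : PadicAlgCl (q : ℕ) :=
  (a.toMul : (PadicAlgCl (q : ℕ))ˣ)

/-- Local units are equal when their values are. -/
theorem LU.ext {q : Nat.Primes} {a b : LU q} (h : a.val = b.val) : a = b :=
  Additive.toMul.injective (Units.ext h)

/-- Global units are equal when their values are. -/
theorem GU.ext {a b : GU} (h : a.val = b.val) : a = b := Additive.toMul.injective (Units.ext h)

/-- Galois acts on the value of a global unit. -/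
theorem GU.val_smul (g : Gam) (a : GU) : (g • a).val = g a.val := rfl

/-- The local Galois group acts on the value of a local unit. -/
theorem LU.val_smul {q : Nat.Primes} (τ : LGal q) (a : LU q) : (τ • a).val = τ a.val := rfl

/-- The value of a sum is the product of the values. -/
theorem LU.val_add {q : Nat.Primes} (a b : LU q) : (a + b).val = a.val * b.val := rfl

theorem LU.val_zero {q : Nat.Primes} : (0 : LU q).val = 1 := rfl

theorem GU.val_add (a b : GU) : (a + b).val = a.val * b.val := rfl

/-- The value of a global unit is nonzero. -/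
theorem GU.val_ne_zero (a : GU) : a.val ≠ 0 := Units.ne_zero _

/-- The local units. -/
def unitsAt (q : Nat.Primes) : AddSubgroup (LU q) where
  carrier := {a | ‖a.val‖ = 1}
  zero_mem' := by simp [LU.val_zero]
  add_mem' {a b} (ha : ‖a.val‖ = 1) (hb : ‖b.val‖ = 1) := by
    show ‖(a + b).val‖ = 1
    rw [LU.val_add, norm_mul, ha, hb, mul_one]
  neg_mem' {a} (ha : ‖a.val‖ = 1) := by
    show ‖(((a.toMul)⁻¹ : (PadicAlgCl (q : ℕ))ˣ) : PadicAlgCl (q : ℕ))‖ = 1
    rw [Units.val_inv_eq_inv_val, norm_inv, ha, inv_one]

/-- The units at `q` are the elements of norm `1`. -/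
theorem mem_unitsAt_iff {q : Nat.Primes} {a : LU q} : a ∈ unitsAt q ↔ ‖a.val‖ = 1 := Iff.rfl

theorem norm_smul_LU {q : Nat.Primes} (τ : LGal q) (a : LU q) :
    ‖(τ • a).val‖ = ‖a.val‖ := by
  rw [LU.val_smul]
  exact congrArg NNReal.toReal (nnnorm_padicAlgCl_algEquiv (q : ℕ) τ a.val)

theorem smul_mem_unitsAt {q : Nat.Primes} (τ : LGal q) {a : LU q} (ha : a ∈ unitsAt q) :
    τ • a ∈ unitsAt q := by
  rw [mem_unitsAt_iff, norm_smul_LU]
  exact ha

/-- A finite Galois level. -/
structure Layer where
  /-- the field -/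
  field : IntermediateField ℚ QQbar
  finite : FiniteDimensional ℚ field
  normal : @Normal ℚ field _ _ (IntermediateField.algebra' field)

namespace Layer

/-- The subgroup fixing a layer. -/
def sub (L : Layer) : Subgroup Gam := L.field.fixingSubgroup

/-- The group of a layer is normal. -/
instance sub_normal (L : Layer) : L.sub.Normal := by
  have := L.normal
  show L.field.fixingSubgroup.Normal
  rw [← IntermediateField.restrictNormalHom_ker]
  exact MonoidHom.normal_ker _

instance finite_quotient (L : Layer) : Finite (Gam ⧸ L.sub) := by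
  have := L.normal
  have := L.finite
  have : L.field.fixingSubgroup.Normal := L.sub_normal
  exact finite_quotient_fixingSubgroup L.field

instance sub_finiteIndex (L : Layer) : L.sub.FiniteIndex := Subgroup.finiteIndex_of_finite_quotient

instance : LE Layer := ⟨fun L L' => L.field ≤ L'.field⟩

/-- The order on layers is transitive. -/
theorem le_trans {L L' L'' : Layer} (h : L ≤ L') (h' : L' ≤ L'') : L ≤ L'' :=
  _root_.le_trans (α := IntermediateField ℚ QQbar) h h'

/-- A larger layer has a smaller group. -/
theorem sub_le {L L' : Layer} (h : L ≤ L') : L'.sub ≤ L.sub :=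
  IntermediateField.fixingSubgroup_antitone h

/-- The compositum. -/
def sup (L L' : Layer) : Layer where
  field := L.field ⊔ L'.field
  finite := by
    have := L.finite; have := L'.finite
    exact IntermediateField.finiteDimensional_sup _ _
  normal := by
    have := L.normal; have := L'.normal
    exact IntermediateField.normal_sup ℚ QQbar _ _

/-- The first layer is below the join. -/
theorem le_sup_left (L L' : Layer) : L ≤ L.sup L' :=
  show L.field ≤ L.field ⊔ L'.field from _root_.le_sup_left

/-- The second layer is below the join. -/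
theorem le_sup_right (L L' : Layer) : L' ≤ L.sup L' :=
  show L'.field ≤ L.field ⊔ L'.field from _root_.le_sup_right

/-- The trivial layer. -/
def bot : Layer where
  field := ⊥
  finite := inferInstance
  normal := Normal.of_algEquiv (IntermediateField.botEquiv ℚ QQbar).symm

/-- Every number field lies in a layer. -/
theorem exists_ge (F : IntermediateField ℚ QQbar) [FiniteDimensional ℚ F] :
    ∃ L : Layer, F ≤ L.field :=
  ⟨⟨IntermediateField.normalClosure ℚ F QQbar, inferInstance,
      normalClosure.normal ℚ F QQbar⟩,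
    F.le_normalClosure⟩

/-- Layers unramified outside `S`. -/
def IsS (L : Layer) (S : Finset Nat.Primes) : Prop := L.field.IsUnramifiedOutside S

theorem IsS.sup {L L' : Layer} {S : Finset Nat.Primes} (h : L.IsS S) (h' : L'.IsS S) :
    (L.sup L').IsS S :=
  IntermediateField.IsUnramifiedOutside.sup h h'

end Layer

/-- The module coinduced from the units at `q`, smooth functions only. -/
def coindSub (q : Nat.Primes) : AddSubgroup (Gam → LU q) where
  carrier := {f | (∀ τ σ, f (loc q τ * σ) = τ • f σ) ∧
    ∃ L : Layer, ∀ σ, ∀ s ∈ L.sub, f (σ * s) = f σ}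
  zero_mem' := ⟨fun τ _ => (smul_zero τ).symm,
    ⟨Layer.bot, fun _ _ _ => rfl⟩⟩
  add_mem' {a b} ha hb := ⟨fun τ σ => by
      simp only [Pi.add_apply, smul_add, ha.1, hb.1], by
    obtain ⟨L, hL⟩ := ha.2
    obtain ⟨L', hL'⟩ := hb.2
    exact ⟨L.sup L', fun σ s hs => by
      simp only [Pi.add_apply, hL σ s (Layer.sub_le (L.le_sup_left L') hs),
        hL' σ s (Layer.sub_le (L.le_sup_right L') hs)]⟩⟩
  neg_mem' {a} ha := ⟨fun τ σ => by simp only [Pi.neg_apply, smul_neg, ha.1], by
    obtain ⟨L, hL⟩ := ha.2
    exact ⟨L, fun σ s hs => by simp only [Pi.neg_apply, hL σ s hs]⟩⟩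

/-- The finite ideles of `ℚ̄`. -/
def ideleSubgroup : AddSubgroup (∀ q : Nat.Primes, Gam → LU q) where
  carrier := {x | (∀ q τ σ, x q (loc q τ * σ) = τ • x q σ) ∧
    (∃ L : Layer, ∀ q σ, ∀ s ∈ L.sub, x q (σ * s) = x q σ) ∧
    {q : Nat.Primes | ∃ σ, x q σ ∉ unitsAt q}.Finite}
  zero_mem' := ⟨fun _ τ _ => (smul_zero τ).symm,
    ⟨Layer.bot, fun _ _ _ _ => rfl⟩,
    Set.finite_empty.subset fun q hq => by
      obtain ⟨σ, hσ⟩ := hq
      exact hσ (unitsAt q).zero_mem⟩
  add_mem' {a b} ha hb := ⟨fun q τ σ => by
      simp only [Pi.add_apply, smul_add, ha.1, hb.1], by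
    obtain ⟨L, hL⟩ := ha.2.1
    obtain ⟨L', hL'⟩ := hb.2.1
    exact ⟨L.sup L', fun q σ s hs => by
      simp only [Pi.add_apply, hL q σ s (Layer.sub_le (L.le_sup_left L') hs),
        hL' q σ s (Layer.sub_le (L.le_sup_right L') hs)]⟩,
    (ha.2.2.union hb.2.2).subset fun q hq => by
      obtain ⟨σ, hσ⟩ := hq
      by_contra h
      simp only [Set.mem_union, Set.mem_ofPred_eq, not_or, not_exists, not_not] at h
      exact hσ (add_mem (h.1 σ) (h.2 σ))⟩
  neg_mem' {a} ha := ⟨fun q τ σ => by simp only [Pi.neg_apply, smul_neg, ha.1], by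
    obtain ⟨L, hL⟩ := ha.2.1
    exact ⟨L, fun q σ s hs => by simp only [Pi.neg_apply, hL q σ s hs]⟩,
    ha.2.2.subset fun q hq => by
      obtain ⟨σ, hσ⟩ := hq
      exact ⟨σ, fun h => hσ (neg_mem h)⟩⟩

/-- The finite ideles of `ℚ̄`. -/
def Idele : Type := ideleSubgroup

instance : AddCommGroup Idele := inferInstanceAs (AddCommGroup ideleSubgroup)

/-- The value of an idele at the place `(q, σ)`. -/
def Idele.at (x : Idele) (q : Nat.Primes) (σ : Gam) : LU q := (Subtype.val x) q σ

/-- Ideles are equal when all their components are. -/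
@[ext] theorem Idele.ext {x y : Idele} (h : ∀ q σ, x.at q σ = y.at q σ) : x = y :=
  Subtype.ext (funext fun q => funext (h q))

/-- Components of a sum. -/
theorem Idele.at_add (x y : Idele) (q : Nat.Primes) (σ : Gam) :
    (x + y).at q σ = x.at q σ + y.at q σ := rfl

/-- Components of a difference. -/
theorem Idele.at_sub (x y : Idele) (q : Nat.Primes) (σ : Gam) :
    (x - y).at q σ = x.at q σ - y.at q σ := rfl

theorem Idele.at_neg (x : Idele) (q : Nat.Primes) (σ : Gam) : (-x).at q σ = -x.at q σ := rfl

/-- Components of zero. -/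
theorem Idele.at_zero (q : Nat.Primes) (σ : Gam) : (0 : Idele).at q σ = 0 := rfl

/-- Evaluation as a homomorphism. -/
def Idele.atHom (q : Nat.Primes) (σ : Gam) : Idele →+ LU q where
  toFun x := x.at q σ
  map_zero' := rfl
  map_add' _ _ := rfl

/-- Components are equivariant for the local Galois group. -/
theorem Idele.at_loc_mul (x : Idele) (q : Nat.Primes) (τ : LGal q) (σ : Gam) :
    x.at q (loc q τ * σ) = τ • x.at q σ := x.2.1 q τ σ

theorem Idele.exists_layer (x : Idele) :
    ∃ L : Layer, ∀ q σ, ∀ s ∈ L.sub, x.at q (σ * s) = x.at q σ := x.2.2.1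

/-- An idele is a unit at almost all primes. -/
theorem Idele.finite_nonunit (x : Idele) :
    {q : Nat.Primes | ∃ σ, x.at q σ ∉ unitsAt q}.Finite := x.2.2.2

theorem smul_fun_mem_ideleSubgroup (g : Gam) {x : ∀ q : Nat.Primes, Gam → LU q}
    (hx : x ∈ ideleSubgroup) : (fun q σ => x q (σ * g)) ∈ ideleSubgroup := by
  refine ⟨fun q τ σ => by simp only [mul_assoc, hx.1], ?_, hx.2.2.subset fun q hq => ?_⟩
  · obtain ⟨L, hL⟩ := hx.2.1
    refine ⟨L, fun q σ s hs => ?_⟩
    have h := hL q (σ * g) (g⁻¹ * s * g)
      (by simpa using L.sub_normal.conj_mem s hs g⁻¹)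
    rw [show σ * g * (g⁻¹ * s * g) = σ * s * g by group] at h
    exact h
  · obtain ⟨σ, hσ⟩ := hq
    exact ⟨σ * g, hσ⟩

instance : DistribMulAction Gam Idele where
  smul g x := ⟨fun q σ => (Subtype.val x) q (σ * g), smul_fun_mem_ideleSubgroup g x.2⟩
  one_smul x := Idele.ext fun q σ => congrArg ((Subtype.val x) q) (mul_one σ)
  mul_smul g h x := Idele.ext fun q σ => congrArg ((Subtype.val x) q) (mul_assoc σ g h).symm
  smul_zero _ := rfl
  smul_add _ _ _ := rfl

/-- The Galois action permutes components. -/
theorem Idele.at_smul (g : Gam) (x : Idele) (q : Nat.Primes) (σ : Gam) :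
    (g • x).at q σ = x.at q (σ * g) := rfl

/-- An idele is fixed iff its components are right invariant. -/
theorem Idele.mem_fixedPts_iff {N : Subgroup Gam} {x : Idele} :
    x ∈ fixedPts N Idele ↔ ∀ q σ, ∀ s ∈ N, x.at q (σ * s) = x.at q σ :=
  ⟨fun h q σ s hs => congrArg (fun y : Idele => y.at q σ) (h s hs),
    fun h s hs => Idele.ext fun q σ => h q σ s hs⟩

theorem Idele.exists_mem_fixedPts (x : Idele) : ∃ L : Layer, x ∈ fixedPts L.sub Idele := by
  obtain ⟨L, hL⟩ := x.exists_layer
  exact ⟨L, Idele.mem_fixedPts_iff.2 hL⟩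

/-- Local components are fixed by the local group of a level fixing the idele. -/
theorem Idele.smul_at_of_mem {L : Layer} {x : Idele} (hx : x ∈ fixedPts L.sub Idele)
    (q : Nat.Primes) (σ : Gam) {τ : LGal q} (hτ : loc q τ ∈ L.sub) : τ • x.at q σ = x.at q σ := by
  rw [← Idele.at_loc_mul,
    show loc q τ * σ = σ * (σ⁻¹ * loc q τ * σ) by group]
  exact Idele.mem_fixedPts_iff.1 hx q σ _ (by simpa using L.sub_normal.conj_mem _ hτ σ⁻¹)

/-! ### Principal ideles -/

theorem mem_valuationSubring_of_isIntegral {K : Type*} [Field K] (A : ValuationSubring K) {x : K}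
    (hx : IsIntegral ℤ x) : x ∈ A := by
  obtain ⟨y, hy⟩ := IsIntegrallyClosed.isIntegral_iff.1 (hx.tower_top (A := A))
  exact hy ▸ y.2

theorem norm_emb_le_one_of_isIntegral (q : Nat.Primes) {a : QQbar} (ha : IsIntegral ℤ a) :
    ‖emb q a‖ ≤ 1 := by
  have h : IsIntegral ℤ (emb q a) := ha.map ((emb q).restrictScalars ℤ)
  exact mem_valuationSubring_of_isIntegral (padicIntegers (q : ℕ)) h

theorem norm_intCast_eq_one {q : Nat.Primes} {m : ℤ} (hm : ¬((q : ℕ) : ℤ) ∣ m) :
    ‖(m : PadicAlgCl (q : ℕ))‖ = 1 := by
  rw [show (m : PadicAlgCl (q : ℕ)) = algebraMap ℚ_[(q : ℕ)] _ (m : ℚ_[(q : ℕ)]) by simp,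
    norm_algebraMap', Padic.norm_intCast_eq_one_iff]
  exact ((Nat.prime_iff_prime_int.1 q.2).coprime_iff_not_dvd.2 hm).symm

theorem finite_dvd_primes {m : ℤ} (hm : m ≠ 0) :
    {q : Nat.Primes | ((q : ℕ) : ℤ) ∣ m}.Finite := by
  refine ((Set.finite_le_nat m.natAbs).preimage
    Nat.Primes.coe_nat_injective.injOn).subset fun q hq => ?_
  exact Nat.le_of_dvd (Int.natAbs_pos.2 hm) (Int.natCast_dvd.1 hq)

/-- A nonzero algebraic number is a unit at almost all places. -/
theorem finite_norm_emb_ne_one (a : GU) :
    {q : Nat.Primes | ∃ σ : Gam, ‖emb q (σ a.val)‖ ≠ 1}.Finite := by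
  have key : ∀ b : QQbar, b ≠ 0 →
      {q : Nat.Primes | ∃ σ : Gam, 1 < ‖emb q (σ b)‖}.Finite := by
    intro b _
    obtain ⟨m, hm, hint⟩ := ((IsFractionRing.isAlgebraic_iff ℤ ℚ QQbar).2
      (Algebra.IsAlgebraic.isAlgebraic (R := ℚ) b)).exists_integral_multiple
    refine (finite_dvd_primes hm).subset fun q hq => ?_
    obtain ⟨σ, hσ⟩ := hq
    by_contra h
    have h1 := norm_emb_le_one_of_isIntegral q (hint.map (σ.toAlgHom.restrictScalars ℤ))
    simp only [AlgHom.restrictScalars_apply, zsmul_eq_mul, map_mul, map_intCast, norm_mul,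
      norm_intCast_eq_one h, one_mul] at h1
    exact absurd hσ (not_lt.2 (by simpa using h1))
  refine ((key a.val a.val_ne_zero).union (key a.val⁻¹ (inv_ne_zero a.val_ne_zero))).subset
    fun q hq => ?_
  obtain ⟨σ, hσ⟩ := hq
  rcases lt_or_gt_of_ne hσ with h | h
  · refine Or.inr ⟨σ, ?_⟩
    rw [map_inv₀, map_inv₀, norm_inv]
    refine one_lt_inv_iff₀.2 ⟨?_, h⟩
    rw [norm_pos_iff]
    exact fun h0 => a.val_ne_zero (σ.injective ((emb q).injective (h0.trans (by simp))))
  · exact Or.inl ⟨σ, h⟩

theorem exists_layer_fix (a : QQbar) : ∃ L : Layer, ∀ s ∈ L.sub, s a = a := by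
  have := IntermediateField.adjoin.finiteDimensional (Algebra.IsIntegral.isIntegral (R := ℚ) a)
  obtain ⟨L, hL⟩ := Layer.exists_ge (IntermediateField.adjoin ℚ {a})
  exact ⟨L, fun s hs => (IntermediateField.mem_fixingSubgroup_iff _ _).1 hs a
    (hL (IntermediateField.mem_adjoin_simple_self ℚ a))⟩

/-- The image of a global unit at the place `(q, σ)`. -/
def principalAt (q : Nat.Primes) (σ : Gam) : GU →+ LU q where
  toFun a := Additive.ofMul (Units.map (emb q).toMonoidHom (σ • a).toMul)
  map_zero' := LU.ext (show emb q (σ 1) = 1 by simp)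
  map_add' a b := LU.ext (show emb q (σ (a.val * b.val)) = _ by simp; rfl)

theorem val_principalAt (q : Nat.Primes) (σ : Gam) (a : GU) :
    (principalAt q σ a).val = emb q (σ a.val) := rfl

theorem principalFun_mem (a : GU) :
    (fun q σ => principalAt q σ a) ∈ ideleSubgroup := by
  refine ⟨fun q τ σ => LU.ext (padicEmbedding_localGaloisToGlobal (q : ℕ) τ (σ a.val)), ?_, ?_⟩
  · obtain ⟨L, hL⟩ := exists_layer_fix a.val
    exact ⟨L, fun q σ s hs => LU.ext (congrArg (fun y => emb q (σ y)) (hL s hs))⟩
  · exact (finite_norm_emb_ne_one a).subset fun q hq => by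
      obtain ⟨σ, hσ⟩ := hq
      exact ⟨σ, hσ⟩

/-- The principal ideles. -/
def principal : GU →+ Idele where
  toFun a := ⟨fun q σ => principalAt q σ a, principalFun_mem a⟩
  map_zero' := Idele.ext fun q σ => map_zero (principalAt q σ)
  map_add' a b := Idele.ext fun q σ => map_add (principalAt q σ) a b

/-- The components of a principal idele. -/
theorem at_principal (a : GU) (q : Nat.Primes) (σ : Gam) :
    ((principal a).at q σ).val = emb q (σ a.val) := rfl

/-- Principal ideles are equivariant. -/
theorem principal_smul (g : Gam) (a : GU) : principal (g • a) = g • principal a :=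
  Idele.ext fun _ _ => LU.ext rfl

theorem principal_injective : Function.Injective principal := fun a b h => by
  have h2 := congrArg (fun x : Idele => (x.at ⟨2, Nat.prime_two⟩ 1).val) h
  simp only [at_principal] at h2
  exact GU.ext ((AlgEquiv.injective (1 : Gam)) ((emb _).injective h2))

theorem eq_of_smul_principal {L : Layer} {a : GU} :
    principal a ∈ fixedPts L.sub Idele ↔ a ∈ fixedPts L.sub GU :=
  ⟨fun h s hs => principal_injective (by rw [principal_smul]; exact h s hs),
    fun h s hs => by rw [← principal_smul, h s hs]⟩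

/-- The finite idele classes of `ℚ̄`. -/
def IdeleClass : Type := Idele ⧸ principal.range

instance : AddCommGroup IdeleClass := inferInstanceAs (AddCommGroup (Idele ⧸ principal.range))

/-- The class of an idele. -/
def classMap : Idele →+ IdeleClass := QuotientAddGroup.mk' _

theorem classMap_surjective : Function.Surjective classMap := QuotientAddGroup.mk'_surjective _

/-- The kernel of the class map consists of the principal ideles. -/
theorem classMap_eq_zero_iff (x : Idele) : classMap x = 0 ↔ ∃ a, principal a = x :=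
  QuotientAddGroup.eq_zero_iff x

instance : DistribMulAction Gam IdeleClass where
  smul g := QuotientAddGroup.map _ _ (DistribSMul.toAddMonoidHom Idele g) (by
    rintro _ ⟨a, rfl⟩
    exact ⟨g • a, principal_smul g a⟩)
  one_smul x := by
    induction x using QuotientAddGroup.induction_on with
    | _ f => exact congrArg classMap (one_smul Gam f)
  mul_smul g h x := by
    induction x using QuotientAddGroup.induction_on with
    | _ f => exact congrArg classMap (mul_smul g h f)
  smul_zero g := map_zero _
  smul_add g x y := map_add _ x y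

/-- The class map is equivariant. -/
theorem classMap_smul (g : Gam) (x : Idele) : classMap (g • x) = g • classMap x := rfl

/-! ### `S`-ideles and `S`-units -/

/-- Ideles of a layer unramified outside `S` that are units outside `S`. -/
def sIdeles (S : Finset Nat.Primes) : AddSubgroup Idele where
  carrier := {x | (∃ L : Layer, L.IsS S ∧ x ∈ fixedPts L.sub Idele) ∧
    ∀ q, q ∉ S → ∀ σ, x.at q σ ∈ unitsAt q}
  zero_mem' := ⟨⟨Layer.bot,
    IntermediateField.isUnramifiedOutside_bot S, (fixedPts _ _).zero_mem⟩,
    fun q _ _ => (unitsAt q).zero_mem⟩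
  add_mem' {a b} ha hb := ⟨by
    obtain ⟨L, hL, h⟩ := ha.1
    obtain ⟨L', hL', h'⟩ := hb.1
    exact ⟨L.sup L', hL.sup hL',
      add_mem (fixedPts_antitone (Layer.sub_le (L.le_sup_left L')) h)
        (fixedPts_antitone (Layer.sub_le (L.le_sup_right L')) h')⟩,
    fun q hq σ => by rw [Idele.at_add]; exact add_mem (ha.2 q hq σ) (hb.2 q hq σ)⟩
  neg_mem' {a} ha := ⟨by
    obtain ⟨L, hL, h⟩ := ha.1
    exact ⟨L, hL, neg_mem h⟩,
    fun q hq σ => by rw [Idele.at_neg]; exact neg_mem (ha.2 q hq σ)⟩

theorem smul_mem_sIdeles (S : Finset Nat.Primes) (g : Gam) {x : Idele} (hx : x ∈ sIdeles S) :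
    g • x ∈ sIdeles S := by
  obtain ⟨L, hL, h⟩ := hx.1
  exact ⟨⟨L, hL, smul_mem_fixedPts L.sub g h⟩, fun q hq σ => hx.2 q hq _⟩

/-- The `S`-units of the maximal extension unramified outside `S`. -/
def sUnits (S : Finset Nat.Primes) : AddSubgroup GU := (sIdeles S).comap principal

theorem mem_sUnits_iff {S : Finset Nat.Primes} {a : GU} :
    a ∈ sUnits S ↔ principal a ∈ sIdeles S := Iff.rfl

/-! ### Ideles concentrated at one prime -/

/-- The family of functions with one nontrivial component. -/
def singleFun (q : Nat.Primes) (f : Gam → LU q) (r : Nat.Primes) (σ : Gam) : LU r :=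
  if h : r = q then h.symm ▸ f σ else 0

theorem singleFun_self (q : Nat.Primes) (f : Gam → LU q) (σ : Gam) : singleFun q f q σ = f σ :=
  dif_pos rfl

theorem singleFun_of_ne {q r : Nat.Primes} (h : r ≠ q) (f : Gam → LU q) (σ : Gam) :
    singleFun q f r σ = 0 := dif_neg h

theorem singleFun_mem (q : Nat.Primes) (f : coindSub q) : singleFun q f.1 ∈ ideleSubgroup := by
  refine ⟨fun r τ σ => ?_, ?_, (Set.finite_singleton q).subset fun r hr => ?_⟩
  · rcases eq_or_ne r q with rfl | h
    · simp only [singleFun_self, f.2.1]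
    · simp only [singleFun_of_ne h, smul_zero]
  · obtain ⟨L, hL⟩ := f.2.2
    refine ⟨L, fun r σ s hs => ?_⟩
    rcases eq_or_ne r q with rfl | h
    · simp only [singleFun_self, hL σ s hs]
    · simp only [singleFun_of_ne h]
  · obtain ⟨σ, hσ⟩ := hr
    by_contra h
    exact hσ (by rw [singleFun_of_ne h]; exact (unitsAt r).zero_mem)

/-- The idele with a given component at `q` and trivial components elsewhere. -/
def single (q : Nat.Primes) : coindSub q →+ Idele where
  toFun f := ⟨singleFun q f.1, singleFun_mem q f⟩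
  map_zero' := Idele.ext fun r σ => by
    show singleFun q (0 : Gam → LU q) r σ = 0
    rcases eq_or_ne r q with rfl | h
    · exact singleFun_self r 0 σ
    · exact singleFun_of_ne h 0 σ
  map_add' f g := Idele.ext fun r σ => by
    show singleFun q (f.1 + g.1) r σ = singleFun q f.1 r σ + singleFun q g.1 r σ
    rcases eq_or_ne r q with rfl | h
    · simp only [singleFun_self, Pi.add_apply]
    · simp only [singleFun_of_ne h, add_zero]

theorem at_single_self (q : Nat.Primes) (f : coindSub q) (σ : Gam) :
    (single q f).at q σ = f.1 σ := singleFun_self q f.1 σ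

/-- An idele concentrated at `q` vanishes elsewhere. -/
theorem at_single_of_ne {q r : Nat.Primes} (h : r ≠ q) (f : coindSub q) (σ : Gam) :
    (single q f).at r σ = 0 := singleFun_of_ne h f.1 σ

end FLTAgent.GlobalDuality
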