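import Mathlib
import Fermat.Agent.GlobalDuality.Layers

/-!
# Cohomology of cyclic groups

`H1` and `H2` of cyclic groups in terms of norms (`cyclicMap`), the cocycles of carries (`carry`),
and the order bound for `p`-groups by dévissage along subgroups of index `p` (`pgroup_bound`).
-/

set_option autoImplicit false

noncomputable section

namespace FLTAgent.GalCoh

variable {G : Type} [Group G] {A : Type} [AddCommGroup A] [DistribMulAction G A]

section Iso

variable {G' : Type} [Group G'] {A' : Type} [AddCommGroup A'] [DistribMulAction G' A']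

theorem H1.map_bijective {φ : G' →* G} {f : A →+ A'} (hc : CompatPair φ f)
    (hφ : Function.Bijective φ) (hf : Function.Bijective f) :
    Function.Bijective (H1.map φ f hc) := by
  let e := AddEquiv.ofBijective f hf
  let ψ := MulEquiv.ofBijective φ hφ
  refine ⟨(injective_iff_map_eq_zero _).2 fun x hx => ?_, fun y => ?_⟩
  · obtain ⟨c, rfl⟩ := H1.mk_surjective x
    obtain ⟨a, ha⟩ := (H1.mk_eq_zero_iff _).1 hx
    obtain ⟨b, rfl⟩ := hf.2 a
    refine (H1.mk_eq_zero_iff c).2 ⟨b, fun g => ?_⟩
    obtain ⟨g', rfl⟩ := hφ.2 g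
    exact hf.1 ((ha g').trans (by rw [map_sub, hc.compat]))
  · obtain ⟨c, rfl⟩ := H1.mk_surjective y
    have hd : (fun g => e.symm ((c : G' → A') (ψ.symm g))) ∈ Z1 G A := mem_Z1_iff.2 fun g h =>
      hf.1 (by
        obtain ⟨g', rfl⟩ := hφ.2 g
        rw [map_add, hc.compat]
        show e (e.symm _) = g' • e (e.symm _) + e (e.symm _)
        rw [AddEquiv.apply_symm_apply, AddEquiv.apply_symm_apply, AddEquiv.apply_symm_apply,
          map_mul, show ψ.symm (φ g') = g' from ψ.symm_apply_apply g', mem_Z1_iff.1 c.2])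
    refine ⟨H1.mk ⟨_, hd⟩, ?_⟩
    rw [H1.map_mk]
    congr 1
    ext g
    show e (e.symm ((c : G' → A') (ψ.symm (ψ g)))) = _
    rw [AddEquiv.apply_symm_apply, MulEquiv.symm_apply_apply]

theorem H2.map_bijective {φ : G' →* G} {f : A →+ A'} (hc : CompatPair φ f)
    (hφ : Function.Bijective φ) (hf : Function.Bijective f) :
    Function.Bijective (H2.map φ f hc) := by
  let e := AddEquiv.ofBijective f hf
  let ψ := MulEquiv.ofBijective φ hφ
  refine ⟨(injective_iff_map_eq_zero _).2 fun x hx => ?_, fun y => ?_⟩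
  · obtain ⟨c, rfl⟩ := H2.mk_surjective x
    obtain ⟨b, hb⟩ := (H2.mk_eq_zero_iff _).1 hx
    refine (H2.mk_eq_zero_iff c).2 ⟨fun g => e.symm (b (ψ.symm g)), fun g h => ?_⟩
    obtain ⟨g', rfl⟩ := hφ.2 g
    obtain ⟨h', rfl⟩ := hφ.2 h
    refine hf.1 ((hb g' h').trans ?_)
    rw [map_add, map_sub, hc.compat]
    show _ = g' • e (e.symm _) - e (e.symm _) + e (e.symm _)
    rw [AddEquiv.apply_symm_apply, AddEquiv.apply_symm_apply, AddEquiv.apply_symm_apply,
      map_mul, show ψ.symm (φ g') = g' from ψ.symm_apply_apply g',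
      show ψ.symm (φ h') = h' from ψ.symm_apply_apply h']
  · obtain ⟨c, rfl⟩ := H2.mk_surjective y
    have hd : (fun g h => e.symm ((c : G' → G' → A') (ψ.symm g) (ψ.symm h))) ∈ Z2 G A := by
      intro g h j
      obtain ⟨g', rfl⟩ := hφ.2 g
      obtain ⟨h', rfl⟩ := hφ.2 h
      obtain ⟨j', rfl⟩ := hφ.2 j
      refine hf.1 ?_
      rw [map_add, map_add, hc.compat]
      show e (e.symm _) + e (e.symm _) = g' • e (e.symm _) + e (e.symm _)
      simp only [AddEquiv.apply_symm_apply, map_mul,
        show ∀ t, ψ.symm (φ t) = t from ψ.symm_apply_apply]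
      exact mem_Z2_iff.1 c.2 g' h' j'
    refine ⟨H2.mk ⟨_, hd⟩, ?_⟩
    rw [H2.map_mk]
    congr 1
    ext g h
    show e (e.symm ((c : G' → G' → A') (ψ.symm (ψ g)) (ψ.symm (ψ h)))) = _
    rw [AddEquiv.apply_symm_apply, MulEquiv.symm_apply_apply, MulEquiv.symm_apply_apply]

end Iso

section CyclicGroup

variable (g : G)

/-- Partial norms along powers of `g`. -/
def psum (i : ℕ) (a : A) : A := ∑ j ∈ Finset.range i, g ^ j • a

variable {g}

theorem psum_succ (i : ℕ) (a : A) : psum g (i + 1) a = psum g i a + g ^ i • a :=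
  Finset.sum_range_succ _ _

theorem Z1_pow {f : G → A} (hf : f ∈ Z1 G A) (i : ℕ) : f (g ^ i) = psum g i (f g) := by
  induction i with
  | zero => simp [psum, Z1_one hf]
  | succ k ih => rw [pow_succ, mem_Z1_iff.1 hf, ih, psum_succ, add_comm]

theorem exists_pow_eq [Finite G] (hg : ∀ x : G, x ∈ Subgroup.zpowers g) (x : G) :
    ∃ i : ℕ, i < orderOf g ∧ g ^ i = x := by
  classical
  have := Fintype.ofFinite G
  have h := (isOfFinOrder_of_finite g).mem_zpowers_iff_mem_range_orderOf.1 (hg x)
  simpa [Finset.mem_image] using h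

/-- Vanishing of `H1` of a cyclic group. -/
theorem subsingleton_H1_cyclic [Finite G] (hg : ∀ x : G, x ∈ Subgroup.zpowers g)
    (h : ∀ a : A, psum g (orderOf g) a = 0 → ∃ d : A, a = g • d - d) :
    Subsingleton (H1 G A) := by
  rw [subsingleton_H1_iff]
  intro f hf
  obtain ⟨d, hd⟩ := h (f g) (by rw [← Z1_pow hf, pow_orderOf_eq_one, Z1_one hf])
  refine ⟨d, fun x => ?_⟩
  obtain ⟨i, _, rfl⟩ := exists_pow_eq hg x
  induction i with
  | zero => simp [Z1_one hf]
  | succ k ih =>
    rw [pow_succ, mem_Z1_iff.1 hf, ih (by omega), hd, smul_sub, mul_smul]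
    abel

/-- The invariant attached to a `2`-cochain of a cyclic group. -/
def cyclicInv (g : G) (c : G → G → A) : A := ∑ i ∈ Finset.range (orderOf g), c (g ^ i) g

theorem smul_cyclicInv {c : G → G → A} (hc : c ∈ Z2 G A) :
    g • cyclicInv g c = cyclicInv g c := by
  have key : ∀ i, g • c (g ^ i) g = c (g ^ (i + 1)) g + (c g (g ^ i) - c g (g ^ (i + 1))) :=
    fun i => by
      have h := mem_Z2_iff.1 hc g (g ^ i) g
      rw [← pow_succ', ← pow_succ] at h
      linear_combination (norm := abel) -h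
  have tele : ∀ k, ∑ i ∈ Finset.range k, (c g (g ^ i) - c g (g ^ (i + 1))) =
      c g 1 - c g (g ^ k) := fun k => by
    rw [Finset.sum_range_sub' (fun i => c g (g ^ i)), pow_zero]
  have shift : ∀ k, ∑ i ∈ Finset.range k, c (g ^ (i + 1)) g =
      (∑ i ∈ Finset.range k, c (g ^ i) g) + c (g ^ k) g - c 1 g := fun k => by
    rw [eq_sub_iff_add_eq, ← Finset.sum_range_succ (fun i => c (g ^ i) g),
      Finset.sum_range_succ' (fun i => c (g ^ i) g), pow_zero]
  rw [cyclicInv, Finset.smul_sum, Finset.sum_congr rfl fun i _ => key i, Finset.sum_add_distrib,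
    tele, shift, pow_orderOf_eq_one]
  abel

theorem cyclicInv_d1 (b : G → A) :
    cyclicInv g (d1 G A b) = psum g (orderOf g) (b g) := by
  have tele : ∀ k, ∑ i ∈ Finset.range k, (b (g ^ i) - b (g ^ (i + 1))) = b 1 - b (g ^ k) :=
    fun k => by rw [Finset.sum_range_sub' (fun i => b (g ^ i)), pow_zero]
  have : ∀ i, d1 G A b (g ^ i) g = g ^ i • b g + (b (g ^ i) - b (g ^ (i + 1))) := fun i => by
    rw [d1_apply, pow_succ]; abel
  rw [cyclicInv, Finset.sum_congr rfl fun i _ => this i, Finset.sum_add_distrib, tele,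
    pow_orderOf_eq_one, sub_self, add_zero, psum]

omit [DistribMulAction G A] in
theorem cyclicInv_add (c c' : G → G → A) :
    cyclicInv g (c + c') = cyclicInv g c + cyclicInv g c' := Finset.sum_add_distrib

theorem mk_eq_zero_of_cyclicInv [Finite G] (hg : ∀ x : G, x ∈ Subgroup.zpowers g)
    {c : Z2 G A} {b : A} (hb : cyclicInv g (c : G → G → A) = psum g (orderOf g) b) :
    H2.mk c = 0 := by
  obtain ⟨c, hc⟩ := c
  change cyclicInv g c = _ at hb
  let B : ℕ → A := fun i => psum g i b - (∑ j ∈ Finset.range i, c (g ^ j) g) + c 1 g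
  choose idx hidx hpow using exists_pow_eq hg
  have hB0 : B (orderOf g) = B 0 := by
    show psum g (orderOf g) b - cyclicInv g c + c 1 g = psum g 0 b - _ + c 1 g
    rw [hb]
    simp [psum]
  have hBi : ∀ i, i ≤ orderOf g → B (idx (g ^ i)) = B i := fun i hi => by
    rcases hi.lt_or_eq with h | rfl
    · congr 1
      exact pow_injOn_Iio_orderOf (hidx _) h (hpow _)
    · rw [hB0, show idx (g ^ orderOf g) = 0 from
        pow_injOn_Iio_orderOf (hidx _) (show 0 < orderOf g from
          (isOfFinOrder_of_finite g).orderOf_pos)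
          (by simpa [pow_orderOf_eq_one] using hpow (g ^ orderOf g))]
  set β : G → A := fun x => B (idx x) with hβ
  set c' : G → G → A := fun x y => c x y - (x • β y - β (x * y) + β x) with hc'
  have hcc : c' ∈ Z2 G A := by
    have h : c' = c - d1 G A β := rfl
    rw [h]
    exact sub_mem hc (B2_le_Z2 ⟨β, rfl⟩)
  have hbg : β g = b := by
    have h1 := hBi 1 (isOfFinOrder_of_finite g).orderOf_pos
    rw [pow_one] at h1
    show B (idx g) = b
    rw [h1]
    simp [B, psum]
  have hzero : ∀ x, c' x g = 0 := fun x => by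
    obtain ⟨i, hi, rfl⟩ := exists_pow_eq hg x
    show c (g ^ i) g - (g ^ i • β g - β (g ^ i * g) + β (g ^ i)) = 0
    rw [hbg, ← pow_succ, show β (g ^ (i + 1)) = B (i + 1) from hBi _ hi,
      show β (g ^ i) = B i from hBi _ hi.le]
    simp only [B, psum_succ, Finset.sum_range_succ]
    abel
  have hall : ∀ i x, c' x (g ^ i) = 0 := fun i => by
    induction i with
    | zero =>
      intro x
      have h := mem_Z2_iff.1 hcc x 1 g
      simp only [mul_one, one_mul, hzero, smul_zero, zero_add] at h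
      rw [pow_zero]
      exact h
    | succ k ih =>
      intro x
      have h := mem_Z2_iff.1 hcc x (g ^ k) g
      rw [hzero, hzero, ih, smul_zero, zero_add, zero_add, ← pow_succ] at h
      exact h.symm
  refine (H2.mk_eq_zero_iff _).2 ⟨β, fun x y => ?_⟩
  obtain ⟨i, _, rfl⟩ := exists_pow_eq hg y
  exact sub_eq_zero.1 (hall i x)

/-- The group of invariants modulo norms. -/
def normSub (g : G) : AddSubgroup A :=
  (AddMonoidHom.mk' (psum g (orderOf g)) fun a b => by
    simp only [psum, smul_add, Finset.sum_add_distrib] : A →+ A).range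

variable (g) in
/-- The invariant as a homomorphism on `H2`. -/
def cyclicMap : H2 G A →+ A ⧸ (normSub g : AddSubgroup A) :=
  QuotientAddGroup.lift _
    ((QuotientAddGroup.mk' (normSub g : AddSubgroup A)).comp
      (AddMonoidHom.mk' (fun c : Z2 G A => cyclicInv g (c : G → G → A))
        fun c c' => cyclicInv_add _ _))
    (fun c hc => by
      obtain ⟨b, hb⟩ := hc
      rw [AddMonoidHom.mem_ker, AddMonoidHom.comp_apply, AddMonoidHom.mk'_apply,
        QuotientAddGroup.mk'_apply, QuotientAddGroup.eq_zero_iff]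
      exact ⟨b g, by
        show psum g (orderOf g) (b g) = cyclicInv g (c : G → G → A)
        rw [← cyclicInv_d1, hb]; rfl⟩)

theorem cyclicMap_mk (c : Z2 G A) :
    cyclicMap g (H2.mk c) = QuotientAddGroup.mk (cyclicInv g (c : G → G → A)) := rfl

theorem cyclicMap_injective [Finite G] (hg : ∀ x : G, x ∈ Subgroup.zpowers g) :
    Function.Injective (cyclicMap g : H2 G A →+ A ⧸ (normSub g : AddSubgroup A)) :=
  (injective_iff_map_eq_zero _).2 fun x hx => by
    obtain ⟨c, rfl⟩ := H2.mk_surjective x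
    rw [cyclicMap_mk, QuotientAddGroup.eq_zero_iff] at hx
    obtain ⟨b, hb⟩ := hx
    exact mk_eq_zero_of_cyclicInv hg hb.symm

theorem card_H2_cyclic_le [Finite G] (hg : ∀ x : G, x ∈ Subgroup.zpowers g) (k : ℕ)
    (h : ∃ s : Finset A, s.card ≤ k ∧ ∀ a : A, g • a = a →
      ∃ t ∈ s, ∃ b : A, a = t + psum g (orderOf g) b) :
    Finite (H2 G A) ∧ Nat.card (H2 G A) ≤ k := by
  obtain ⟨s, hs, hcov⟩ := h
  have hmem : ∀ x : H2 G A, ∃ t : s, cyclicMap g x = QuotientAddGroup.mk (t : A) := fun x => by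
    obtain ⟨c, rfl⟩ := H2.mk_surjective x
    obtain ⟨t, ht, b, hb⟩ := hcov _ (smul_cyclicInv (g := g) c.2)
    refine ⟨⟨t, ht⟩, (QuotientAddGroup.eq_iff_sub_mem).2 ⟨b, ?_⟩⟩
    show psum g (orderOf g) b = cyclicInv g (c : G → G → A) - t
    rw [hb]; abel
  choose f hf using hmem
  have hinj : Function.Injective f := fun x y hxy =>
    cyclicMap_injective hg (by rw [hf x, hf y, hxy])
  have hfin : Finite (H2 G A) := Finite.of_injective f hinj
  exact ⟨hfin, (Nat.card_le_card_of_injective f hinj).trans (by simpa using hs)⟩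

end CyclicGroup

section Carry

variable {n : ℕ} [NeZero n] (χ : G →* Multiplicative (ZMod n))

/-- The carry of two values of a character. -/
def carryNat (x y : G) : ℕ := ((χ x).toAdd.val + (χ y).toAdd.val) / n

theorem carryNat_eq (x y : G) :
    ((χ x).toAdd.val : ℤ) + (χ y).toAdd.val =
      (χ (x * y)).toAdd.val + n * (carryNat χ x y : ℤ) := by
  have h1 : (χ (x * y)).toAdd.val = ((χ x).toAdd.val + (χ y).toAdd.val) % n := by
    rw [map_mul, toAdd_mul, ZMod.val_add]
  have h2 := Nat.mod_add_div ((χ x).toAdd.val + (χ y).toAdd.val) n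
  rw [← h1] at h2
  rw [carryNat]
  exact_mod_cast h2.symm

/-- The cocycle of carries times an invariant element. -/
def carry (z : A) (hz : ∀ x : G, x • z = z) : Z2 G A :=
  ⟨fun x y => carryNat χ x y • z, fun x y w => by
    show carryNat χ (x * y) w • z + carryNat χ x y • z =
      x • (carryNat χ y w • z) + carryNat χ x (y * w) • z
    rw [smul_comm x (carryNat χ y w) z, hz, ← add_nsmul, ← add_nsmul]
    congr 1
    have h1 := carryNat_eq χ (x * y) w
    have h2 := carryNat_eq χ x y
    have h3 := carryNat_eq χ y w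
    have h4 := carryNat_eq χ x (y * w)
    rw [mul_assoc] at h1
    have hn : (n : ℤ) ≠ 0 := Int.natCast_ne_zero.2 (NeZero.ne n)
    have : (n : ℤ) * ((carryNat χ (x * y) w : ℤ) + carryNat χ x y) =
        n * (carryNat χ y w + carryNat χ x (y * w)) := by linarith
    exact_mod_cast mul_left_cancel₀ hn this⟩

theorem carry_apply (z : A) (hz : ∀ x : G, x • z = z) (x y : G) :
    (carry χ z hz : G → G → A) x y = carryNat χ x y • z := rfl

theorem cyclicInv_carry (z : A) (hz : ∀ x : G, x • z = z) (g : G) (hg : orderOf g = n)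
    (hn : 1 < n) (hχ : χ g = Multiplicative.ofAdd 1) :
    cyclicInv g (carry χ z hz : G → G → A) = z := by
  have hval : ∀ i, i < n → carryNat χ (g ^ i) g = if i + 1 = n then 1 else 0 := fun i hi => by
    have h1 : (χ (g ^ i)).toAdd.val = i := by
      rw [map_pow, hχ, ← ofAdd_nsmul, toAdd_ofAdd, nsmul_one, ZMod.val_natCast, Nat.mod_eq_of_lt hi]
    have : Fact (1 < n) := ⟨hn⟩
    rw [carryNat, h1, hχ, toAdd_ofAdd, ZMod.val_one]
    split_ifs with h
    · rw [h, Nat.div_self (by omega)]
    · exact Nat.div_eq_of_lt (by omega)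
  rw [cyclicInv, hg]
  simp only [carry_apply]
  rw [Finset.sum_eq_single (n - 1)]
  · rw [hval _ (by omega), if_pos (by omega), one_nsmul]
  · intro i hi hne
    rw [hval _ (Finset.mem_range.1 hi), if_neg (by omega), zero_nsmul]
  · intro h
    exact absurd (Finset.mem_range.2 (by omega)) h

end Carry

section PGroup

variable {p : ℕ} [hp : Fact p.Prime]

theorem exists_normal_index (hG : IsPGroup p G) [Finite G] (h : Nat.card G ≠ 1) :
    ∃ H : Subgroup G, H.Normal ∧ H.index = p := by
  obtain ⟨k, hk⟩ := IsPGroup.iff_card.1 hG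
  obtain ⟨j, rfl⟩ : ∃ j, k = j + 1 := ⟨k - 1, by
    rcases k with _ | k
    · simp [hk] at h
    · rfl⟩
  obtain ⟨H, hH⟩ := Sylow.exists_subgroup_card_pow_prime p (n := j)
    (hk ▸ pow_dvd_pow p (Nat.le_succ j) : p ^ j ∣ Nat.card G)
  have hidx : H.index = p := by
    have := H.card_mul_index
    rw [hH, hk, pow_succ] at this
    exact Nat.eq_of_mul_eq_mul_left (pow_pos hp.out.pos j) this
  refine ⟨H, ?_, hidx⟩
  refine Subgroup.normal_of_index_eq_minFac_card ?_
  rw [hidx, hk, Nat.Prime.pow_minFac hp.out (Nat.succ_ne_zero j)]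

/-- The inductive step data for the dévissage. -/
def StepBound (p : ℕ) (G : Type) [Group G] (A : Type) [AddCommGroup A] [DistribMulAction G A] :
    Prop :=
  ∀ (K : Subgroup G) (K' : Subgroup K) [K'.Normal], K'.index = p →
    Subsingleton (H1 (K ⧸ K') (fixedPts K' A)) ∧
      Finite (H2 (K ⧸ K') (fixedPts K' A)) ∧ Nat.card (H2 (K ⧸ K') (fixedPts K' A)) ≤ p

theorem pgroup_bound_aux (hstep : StepBound p G A) (n : ℕ) :
    ∀ K : Subgroup G, IsPGroup p K → Finite K → Nat.card K ≤ n →
      Subsingleton (H1 K A) ∧ Finite (H2 K A) ∧ Nat.card (H2 K A) ≤ Nat.card K := by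
  induction n with
  | zero =>
    intro K _ _ h
    exact absurd h (by have := Nat.card_pos (α := K); omega)
  | succ n ih =>
    intro K hK _ hn
    by_cases h1 : Nat.card K = 1
    · have : Subsingleton K := (Nat.card_eq_one_iff_unique.1 h1).1
      have e1 : Subsingleton (H1 K A) := subsingleton_H1_iff.2 fun f hf => ⟨0, fun g => by
        rw [Subsingleton.elim g 1, Z1_one hf, one_smul, sub_self]⟩
      have e2 : Subsingleton (H2 K A) := subsingleton_H2_iff.2 fun f _ => ⟨fun _ => f 1 1,
        fun g h => by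
          rw [Subsingleton.elim g 1, Subsingleton.elim h 1, one_smul, sub_self, zero_add]⟩
      exact ⟨e1, inferInstance, by rw [Nat.card_eq_one_iff_unique.2 ⟨e2, ⟨0⟩⟩, h1]⟩
    obtain ⟨K', hK'n, hidx⟩ := exists_normal_index hK h1
    obtain ⟨s1, s2f, s2⟩ := hstep K K' hidx
    set K0 : Subgroup G := K'.map K.subtype
    let e : K' ≃* K0 := K'.equivMapOfInjective K.subtype K.subtype_injective
    have hcard : Nat.card K' * p = Nat.card K := by rw [← hidx]; exact K'.card_mul_index
    obtain ⟨i1, i2f, i2⟩ := ih K0 ((hK.to_subgroup K').of_equiv e) (Finite.of_equiv _ e.toEquiv) (by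
      rw [← Nat.card_congr e.toEquiv]
      have hpos : 0 < Nat.card K' := Nat.card_pos
      have : 2 * Nat.card K' ≤ Nat.card K' * p := by
        rw [mul_comm 2]
        exact Nat.mul_le_mul_left _ hp.out.two_le
      omega)
    have hc : CompatPair e.toMonoidHom (AddMonoidHom.id A) := ⟨fun _ _ => rfl⟩
    have b1 := H1.map_bijective hc e.bijective Function.bijective_id
    have b2 := H2.map_bijective hc e.bijective Function.bijective_id
    have j1 : Subsingleton (H1 K' A) := b1.2.subsingleton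
    have j2f : Finite (H2 K' A) := Finite.of_surjective _ b2.2
    obtain ⟨hfin, hle⟩ := card_H2_le (G := K) (M := A) K' j1
    refine ⟨?_, hfin, hle.trans ?_⟩
    · refine subsingleton_of_forall_eq 0 fun x => ?_
      obtain ⟨y, rfl⟩ := exists_inflation_of_res_eq_zero K' x (Subsingleton.elim _ _)
      rw [Subsingleton.elim y 0, map_zero]
    · rw [← hcard, mul_comm]
      exact Nat.mul_le_mul
        ((Nat.card_le_card_of_surjective _ b2.2).trans (i2.trans (Nat.card_congr e.toEquiv).ge)) s2

/-- Dévissage for a `p`-subgroup. -/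
theorem pgroup_bound (hstep : StepBound p G A) (K : Subgroup G) (hK : IsPGroup p K) [Finite K] :
    Subsingleton (H1 K A) ∧ Finite (H2 K A) ∧ Nat.card (H2 K A) ≤ Nat.card K :=
  pgroup_bound_aux hstep _ K hK ‹_› le_rfl

end PGroup

end FLTAgent.GalCoh
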