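import Mathlib
import Fermat.Agent.GlobalDuality.Idele

/-!
# Hilbert 90 and descent of idele classes

Hilbert 90 for the algebraic numbers (`exists_eq_coboundary_GU`), and the lift of a class fixed by
a subgroup to an idele fixed by it (`exists_idele_lift`).
-/

set_option autoImplicit false

noncomputable section

namespace FLTAgent.GlobalDuality

open FLTAgent.GalCoh

/-- Hilbert 90: a cocycle on a subgroup that vanishes on a layer is a coboundary. -/
theorem exists_eq_coboundary_GU (N : Subgroup Gam) (L : Layer) {a : N → GU}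
    (ha : a ∈ Z1 N GU) (hvan : ∀ n : N, (n : Gam) ∈ L.sub → a n = 0) :
    ∃ b : GU, (∀ n : N, a n = n • b - b) ∧ ∀ g ∈ L.sub ⊓ N, g • b = b := by
  classical
  set M : Subgroup N := L.sub.subgroupOf N with hM
  have : M.FiniteIndex := inferInstanceAs (L.sub.subgroupOf N).FiniteIndex
  have : Finite (N ⧸ M) := Subgroup.finite_quotient_of_finiteIndex
  have := Fintype.ofFinite (N ⧸ M)
  have hinv : ∀ n : N, ∀ m ∈ M, a (n * m) = a n := fun n m hm => by
    rw [mem_Z1_iff.1 ha, hvan m (Subgroup.mem_subgroupOf.1 hm), smul_zero, zero_add]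
  let ψ : N ⧸ M → (L.field →* QQbar) := fun q =>
    { toFun := fun z => ((Quotient.out q : N) : Gam) (z : QQbar)
      map_one' := map_one ((Quotient.out q : N) : Gam)
      map_mul' := fun u v => map_mul ((Quotient.out q : N) : Gam) (u : QQbar) (v : QQbar) }
  have hψ : Function.Injective ψ := fun q q' h => by
    rw [← q.out_eq', ← q'.out_eq', QuotientGroup.eq, Subgroup.mem_subgroupOf]
    refine (IntermediateField.mem_fixingSubgroup_iff _ _).2 fun z hz => ?_
    have h2 : ((Quotient.out q : N) : Gam) z = ((Quotient.out q' : N) : Gam) z :=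
      DFunLike.congr_fun h (⟨z, hz⟩ : L.field)
    rw [Subgroup.coe_mul, Subgroup.coe_inv, AlgEquiv.mul_apply, ← h2]
    exact ((Quotient.out q : N) : Gam).symm_apply_apply z
  have hli := (linearIndependent_monoidHom L.field QQbar).comp ψ hψ
  let coeff : N ⧸ M → QQbar := fun q => (a (Quotient.out q)).val
  obtain ⟨z, hz⟩ : ∃ z : L.field, ∑ q, coeff q * ψ q z ≠ 0 := by
    by_contra! hall
    have := Fintype.linearIndependent_iff.1 hli coeff (funext fun z => by
      rw [Finset.sum_apply]
      exact hall z) (QuotientGroup.mk 1)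
    exact GU.val_ne_zero _ this
  set y : QQbar := ∑ q, coeff q * ψ q z with hy
  have hterm : ∀ (n : N), coeff (QuotientGroup.mk n) * ψ (QuotientGroup.mk n) z =
      (a n).val * (n : Gam) z := fun n => by
    obtain ⟨m, hm⟩ := QuotientGroup.mk_out_eq_mul M n
    show (a (Quotient.out (QuotientGroup.mk n : N ⧸ M))).val *
      ((Quotient.out (QuotientGroup.mk n : N ⧸ M) : N) : Gam) z = _
    rw [hm, hinv n m m.2, Subgroup.coe_mul, AlgEquiv.mul_apply]
    congr 2
    exact (IntermediateField.mem_fixingSubgroup_iff _ _).1 (Subgroup.mem_subgroupOf.1 m.2) z z.2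
  have hsmul : ∀ n : N, (a n).val * (n : Gam) y = y := fun n => by
    rw [hy, map_sum, Finset.mul_sum]
    refine Fintype.sum_equiv (MulAction.toPerm n) _ _ fun q => ?_
    induction q using QuotientGroup.induction_on with
    | _ m =>
      rw [MulAction.toPerm_apply, MulAction.Quotient.smul_mk, smul_eq_mul, hterm, hterm,
        mem_Z1_iff.1 ha, GU.val_add, Subgroup.smul_def, GU.val_smul, map_mul, Subgroup.coe_mul,
        AlgEquiv.mul_apply]
      ring
  let b : GU := -Additive.ofMul (Units.mk0 y hz)
  have hab : ∀ n : N, a n = n • b - b := fun n => by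
    have h : a n + n • Additive.ofMul (Units.mk0 y hz) = Additive.ofMul (Units.mk0 y hz) :=
      GU.ext (hsmul n)
    show a n = n • (-Additive.ofMul (Units.mk0 y hz)) - -Additive.ofMul (Units.mk0 y hz)
    rw [smul_neg, eq_sub_of_add_eq h]
    abel
  refine ⟨b, hab, fun g hg => ?_⟩
  have := hab ⟨g, hg.2⟩
  rw [hvan ⟨g, hg.2⟩ hg.1] at this
  exact (sub_eq_zero.1 this.symm)

/-- A principal idele is fixed by a subgroup iff the number is. -/
theorem principal_mem_fixedPts_iff {N : Subgroup Gam} {a : GU} :
    principal a ∈ fixedPts N Idele ↔ a ∈ fixedPts N GU :=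
  ⟨fun h s hs => principal_injective (by rw [principal_smul]; exact h s hs),
    fun h s hs => by rw [← principal_smul, h s hs]⟩

theorem classMap_mem_fixedPts {N : Subgroup Gam} {x : Idele} (hx : x ∈ fixedPts N Idele) :
    classMap x ∈ fixedPts N IdeleClass := fun n hn => by rw [← classMap_smul, hx n hn]

/-- A class fixed by a subgroup comes from an idele fixed by it. -/
theorem exists_idele_lift (N : Subgroup Gam) {c : IdeleClass} (hc : c ∈ fixedPts N IdeleClass) :
    ∃ x ∈ fixedPts N Idele, classMap x = c := by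
  obtain ⟨x, rfl⟩ := classMap_surjective c
  obtain ⟨L, hL⟩ := x.exists_mem_fixedPts
  have hex : ∀ n : N, ∃ a, principal a = (n : Gam) • x - x := fun n =>
    (classMap_eq_zero_iff _).1 (by rw [map_sub, classMap_smul, hc n n.2, sub_self])
  choose a ha using hex
  have hz : a ∈ Z1 N GU := mem_Z1_iff.2 fun n m => principal_injective (by
    rw [map_add, Subgroup.smul_def, principal_smul, ha, ha, ha, Subgroup.coe_mul, mul_smul,
      smul_sub]
    abel)
  obtain ⟨b, hb, -⟩ := exists_eq_coboundary_GU N L hz fun n hn =>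
    principal_injective (by rw [ha, map_zero, hL n hn, sub_self])
  refine ⟨x - principal b, fun n hn => ?_, by
    rw [map_sub, (classMap_eq_zero_iff _).2 ⟨b, rfl⟩, sub_zero]⟩
  have h := ha ⟨n, hn⟩
  rw [hb, map_sub, Subgroup.smul_def, principal_smul] at h
  rw [smul_sub, sub_eq_sub_iff_sub_eq_sub]
  exact h.symm

end FLTAgent.GlobalDuality
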