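import Fermat.Agent.GlobalDuality.Cyclic

/-!
# Lifting a step of the dévissage from a quotient

A step `K' ≤ K` of index `p` in `G ⧸ M` comes from a step `N' ≤ N` of subgroups of `G` containing
`M`, and its cohomology with values in the fixed points of `M` is governed by Hilbert 90 and a
cover of the invariants modulo norms for `N' ≤ N`.
-/

set_option autoImplicit false

noncomputable section

namespace FLTAgent.GalCoh

theorem exists_step_lift {G : Type} [Group G] {A : Type} [AddCommGroup A] [DistribMulAction G A]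
    (M : Subgroup G) [M.Normal] {p : ℕ} [hp : Fact p.Prime] (K : Subgroup (G ⧸ M))
    (K' : Subgroup K) [K'.Normal] (hidx : K'.index = p) :
    ∃ (N' N : Subgroup G) (g : G), M ≤ N' ∧ N' ≤ N ∧ N'.relIndex N = p ∧
      (N'.subgroupOf N).Normal ∧ g ∈ N ∧ g ∉ N' ∧
      ((∀ c ∈ fixedPts N' A, (∑ i ∈ Finset.range p, g ^ i • c) = 0 →
          ∃ d ∈ fixedPts N' A, c = g • d - d) →
        Subsingleton (H1 (K ⧸ K') (fixedPts K' (fixedPts M A)))) ∧
      ((∃ s : Finset A, s.card ≤ p ∧ (∀ t ∈ s, t ∈ fixedPts N A) ∧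
          ∀ a ∈ fixedPts N A, ∃ t ∈ s, ∃ b ∈ fixedPts N' A,
            a = t + ∑ i ∈ Finset.range p, g ^ i • b) →
        Finite (H2 (K ⧸ K') (fixedPts K' (fixedPts M A))) ∧
          Nat.card (H2 (K ⧸ K') (fixedPts K' (fixedPts M A))) ≤ p) := by
  have hcard : Nat.card (K ⧸ K') = p := by rw [← Subgroup.index_eq_card, hidx]
  have : Finite (K ⧸ K') := Nat.finite_of_card_ne_zero (by rw [hcard]; exact hp.out.ne_zero)
  have : Nontrivial (K ⧸ K') :=
    (Finite.one_lt_card_iff_nontrivial).1 (by rw [hcard]; exact hp.out.one_lt)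
  obtain ⟨γ, hγ⟩ := exists_ne (1 : K ⧸ K')
  have hgen : ∀ x : K ⧸ K', x ∈ Subgroup.zpowers γ := fun x => mem_zpowers_of_prime_card hcard hγ
  have horder : orderOf γ = p := by rw [orderOf_eq_card_of_forall_mem_zpowers hgen, hcard]
  obtain ⟨k, rfl⟩ := QuotientGroup.mk_surjective γ
  obtain ⟨g, hg⟩ := QuotientGroup.mk_surjective (k : G ⧸ M)
  set π := QuotientGroup.mk' M
  set N : Subgroup G := K.comap π
  set N' : Subgroup G := (K'.map K.subtype).comap π with hN'
  have hle : N' ≤ N := Subgroup.comap_mono (Subgroup.map_subtype_le K')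
  have hM : M ≤ N' := fun x hx => by
    show π x ∈ K'.map K.subtype
    rw [show π x = 1 from (QuotientGroup.eq_one_iff x).2 hx]
    exact one_mem _
  have hmem : ∀ (n : G) (hn : n ∈ N), (n ∈ N' ↔ (⟨π n, hn⟩ : K) ∈ K') := fun n hn =>
    ⟨fun h => by
      obtain ⟨y, hy, hye⟩ := Subgroup.mem_map.1 (show π n ∈ K'.map K.subtype from h)
      rwa [show (⟨π n, hn⟩ : K) = y from Subtype.ext hye.symm],
      fun h => Subgroup.mem_map.2 ⟨_, h, rfl⟩⟩
  have hnormal : (N'.subgroupOf N).Normal := ⟨fun m hm n => by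
    rw [Subgroup.mem_subgroupOf, hmem _ (n * m * n⁻¹).2]
    rw [Subgroup.mem_subgroupOf, hmem _ m.2] at hm
    exact (inferInstance : K'.Normal).conj_mem _ hm ⟨π (n : G), n.2⟩⟩
  have hidx' : N'.relIndex N = p := by
    rw [hN', Subgroup.relIndex_comap, Subgroup.map_comap_eq_self_of_surjective
      (QuotientGroup.mk'_surjective _), ← hidx, Subgroup.relIndex, Subgroup.subgroupOf,
      Subgroup.comap_map_eq_self_of_injective K.subtype_injective]
  have hgN : g ∈ N := by
    show π g ∈ K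
    rw [show π g = (k : G ⧸ M) from hg]
    exact k.2
  have hgk : (⟨π g, hgN⟩ : K) = k := Subtype.ext hg
  have hg' : g ∉ N' := fun h => hγ (by
    rw [QuotientGroup.eq_one_iff, ← hgk]
    exact (hmem g hgN).1 h)
  classical
  -- back to the quotient
  have hkpow : ∀ i : ℕ, ((QuotientGroup.mk k : K ⧸ K') ^ i) = QuotientGroup.mk (k ^ i) :=
    fun i => (QuotientGroup.mk_pow K' k i).symm
  have hval : ∀ (i : ℕ) (b : fixedPts K' (fixedPts M A)),
      (((((QuotientGroup.mk k : K ⧸ K') ^ i) • b : fixedPts K' (fixedPts M A)) : fixedPts M A) :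
        A) = g ^ i • ((b : fixedPts M A) : A) := fun i b => by
    rw [hkpow, coe_mk_smul, Subgroup.smul_def, SubmonoidClass.coe_pow, ← hg,
      ← QuotientGroup.mk_pow]
    rfl
  have hpsum : ∀ b : fixedPts K' (fixedPts M A),
      ((((psum (QuotientGroup.mk k : K ⧸ K') p b : fixedPts K' (fixedPts M A))) : fixedPts M A) :
        A) = ∑ i ∈ Finset.range p, g ^ i • ((b : fixedPts M A) : A) := fun b => by
    rw [psum, AddSubgroup.val_finsetSum, AddSubgroup.val_finsetSum]
    exact Finset.sum_congr rfl fun i _ => hval i b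
  have hfixN' : ∀ x : A, x ∈ fixedPts N' A → ∃ y : fixedPts K' (fixedPts M A),
      ((y : fixedPts M A) : A) = x := fun x hx => by
    refine ⟨⟨⟨x, fun τ hτ => hx τ (hM hτ)⟩, fun c hc => ?_⟩, rfl⟩
    obtain ⟨n, hn⟩ := QuotientGroup.mk_surjective (c : G ⧸ M)
    refine Subtype.ext ?_
    rw [Subgroup.smul_def, ← hn]
    show n • x = x
    refine hx n (Subgroup.mem_map.2 ⟨c, hc, hn.symm⟩)
  refine ⟨N', N, g, hM, hle, hidx', hnormal, hgN, hg', fun h90 => ?_, ?_⟩
  · refine subsingleton_H1_cyclic hgen fun a ha => ?_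
    rw [horder] at ha
    have haN' : ((a : fixedPts M A) : A) ∈ fixedPts N' A := fun n hn => by
      obtain ⟨c, hc, hcn⟩ := Subgroup.mem_map.1 (show π n ∈ K'.map K.subtype from hn)
      have h := congrArg (Subtype.val : fixedPts M A → A) (a.2 c hc)
      rw [Subgroup.smul_def, show (c : G ⧸ M) = QuotientGroup.mk n from hcn] at h
      exact h
    obtain ⟨d, hd, had⟩ := h90 _ haN' (by rw [← hpsum, ha]; rfl)
    obtain ⟨d', hd'⟩ := hfixN' d hd
    refine ⟨d', Subtype.ext (Subtype.ext ?_)⟩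
    rw [had]
    show _ = _ - _
    have h1 := hval 1 d'
    rw [pow_one, pow_one] at h1
    rw [h1, hd']
  rintro ⟨s, hs, hsfix, hcov⟩
  let T : Finset (fixedPts K' (fixedPts M A)) :=
    s.attach.image fun t => (hfixN' t.1 (fixedPts_antitone hle (hsfix t.1 t.2))).choose
  refine card_H2_cyclic_le hgen p ⟨T, Finset.card_image_le.trans (by
    rw [Finset.card_attach]; exact hs), fun a ha => ?_⟩
  have haN : ((a : fixedPts M A) : A) ∈ fixedPts N A := fun n hn => by
    have hall : ∀ c : K ⧸ K', c • a = a := fun c => by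
      obtain ⟨i, -, rfl⟩ := exists_pow_eq hgen c
      induction i with
      | zero => rw [pow_zero, one_smul]
      | succ j ih => rw [pow_succ, mul_smul, ha, ih]
    exact congrArg (fun y : fixedPts K' (fixedPts M A) => ((y : fixedPts M A) : A))
      (hall (QuotientGroup.mk ⟨π n, hn⟩))
  obtain ⟨t, ht, b, hb, hab⟩ := hcov _ haN
  obtain ⟨b', hb'⟩ := hfixN' b hb
  have ht' := fixedPts_antitone hle (hsfix t ht)
  refine ⟨(hfixN' t ht').choose,
    Finset.mem_image.2 ⟨⟨t, ht⟩, Finset.mem_attach _ _, rfl⟩, b', Subtype.ext (Subtype.ext ?_)⟩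
  rw [hab]
  show _ = _ + _
  rw [(hfixN' t ht').choose_spec, horder, hpsum, hb']

end FLTAgent.GalCoh
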