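import Mathlib
import Fermat.Agent.GlobalDuality.Descent
import Fermat.Agent.GlobalDuality.Cyclic
import Fermat.Agent.GlobalDuality.StepLift
import Fermat.Agent.LocalDuality.NormIndex
import Fermat.Agent.LocalDuality.Kummer

/-!
# The local modules of a layer

For a layer `L` and a prime `q`, the local group `LocG L q` acts on the units `LocU L q` of the
completion. We prove Hilbert 90 and the order bound for cyclic subquotients of prime degree.
-/

set_option autoImplicit false

noncomputable section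

namespace FLTAgent.GlobalDuality

open FLTAgent.GalCoh FLTAgent.LocalDuality

/-- The local subgroup of a layer. -/
abbrev locSub (L : Layer) (q : Nat.Primes) : Subgroup (LGal q) := L.sub.comap (loc q)

/-- The local Galois group of a layer. -/
abbrev LocG (L : Layer) (q : Nat.Primes) : Type := LGal q ⧸ locSub L q

/-- The multiplicative group of the completion of a layer. -/
abbrev LocU (L : Layer) (q : Nat.Primes) : AddSubgroup (LU q) := fixedPts (locSub L q) (LU q)

/-- The decomposition map. -/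
def locMap (L : Layer) (q : Nat.Primes) : LocG L q →* Gam ⧸ L.sub :=
  QuotientGroup.map _ _ (loc q) le_rfl

theorem locMap_mk (L : Layer) (q : Nat.Primes) (τ : LGal q) :
    locMap L q (QuotientGroup.mk τ) = QuotientGroup.mk (loc q τ) := rfl

theorem locMap_injective (L : Layer) (q : Nat.Primes) : Function.Injective (locMap L q) := by
  refine (injective_iff_map_eq_one _).2 fun x hx => ?_
  induction x using QuotientGroup.induction_on with
  | _ τ =>
    rw [locMap_mk, QuotientGroup.eq_one_iff] at hx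
    exact (QuotientGroup.eq_one_iff τ).2 hx

instance locG_finite (L : Layer) (q : Nat.Primes) : Finite (LocG L q) :=
  Finite.of_injective _ (locMap_injective L q)

/-- The component at the base place. -/
def evalLoc (L : Layer) (q : Nat.Primes) : fixedPts L.sub Idele →+ LocU L q :=
  ((Idele.atHom q 1).comp (fixedPts L.sub Idele).subtype).codRestrict (LocU L q) fun x _ hτ =>
    Idele.smul_at_of_mem x.2 q 1 hτ

theorem coe_evalLoc (L : Layer) (q : Nat.Primes) (x : fixedPts L.sub Idele) :
    (evalLoc L q x : LU q) = (x : Idele).at q 1 := rfl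

theorem evalLoc_compat (L : Layer) (q : Nat.Primes) :
    CompatPair (locMap L q) (evalLoc L q) := ⟨fun d x => by
  induction d using QuotientGroup.induction_on with
  | _ τ =>
    refine Subtype.ext ?_
    show ((loc q τ • (x : Idele)).at q 1) = τ • (x : Idele).at q 1
    rw [Idele.at_smul, one_mul, ← Idele.at_loc_mul, mul_one]⟩

/-! ### Hilbert 90 -/

theorem exists_eq_coboundary_LU {q : Nat.Primes} (N : Subgroup (LGal q)) (L : Layer)
    {a : N → LU q} (ha : a ∈ Z1 N (LU q))
    (hvan : ∀ n : N, (n : LGal q) ∈ locSub L q → a n = 0) :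
    ∃ b : LU q, (∀ n : N, a n = n • b - b) ∧ ∀ g ∈ locSub L q ⊓ N, g • b = b := by
  have := L.finite
  let j : N →* LGal q := N.subtype
  obtain ⟨m, hm⟩ := hilbert90_add j (fun n => toAU j (a n).toMul)
    (fun g h => congrArg (fun x : LU q => toAU j x.toMul) (mem_Z1_iff.1 ha g h))
    ⟨L.field, L.finite, fun g s hs => congrArg (fun x : LU q => toAU j x.toMul) (by
      rw [mem_Z1_iff.1 ha, hvan s hs, smul_zero, zero_add])⟩
  have hab : ∀ n : N, a n = n • (Additive.ofMul (ofAU j m) : LU q) - Additive.ofMul (ofAU j m) :=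
    fun n => congrArg Additive.ofMul (congrArg (ofAU j) (hm n) :)
  refine ⟨Additive.ofMul (ofAU j m), hab, fun g hg => ?_⟩
  have h := hab ⟨g, hg.2⟩
  rw [hvan ⟨g, hg.2⟩ hg.1] at h
  exact sub_eq_zero.1 h.symm

theorem subsingleton_H1_LocU (L : Layer) (q : Nat.Primes) (H : Subgroup (LocG L q)) :
    Subsingleton (H1 H (LocU L q)) := by
  rw [subsingleton_H1_iff]
  intro f hf
  set N : Subgroup (LGal q) := H.comap (QuotientGroup.mk' (locSub L q))
  let π : N → H := fun n => ⟨QuotientGroup.mk (n : LGal q), n.2⟩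
  have hπ : ∀ n m, π (n * m) = π n * π m := fun n m => rfl
  have hz : (fun n => (f (π n) : LU q)) ∈ Z1 N (LU q) := mem_Z1_iff.2 fun n m => by
    rw [hπ, mem_Z1_iff.1 hf]
    rfl
  obtain ⟨b, hb, hfix⟩ := exists_eq_coboundary_LU N L hz fun n hn => by
    have : π n = 1 := Subtype.ext ((QuotientGroup.eq_one_iff (n : LGal q)).2 hn)
    rw [this, Z1_one hf]
    rfl
  have hle : locSub L q ≤ N := fun g hg => by
    show QuotientGroup.mk' (locSub L q) g ∈ H
    rw [QuotientGroup.mk'_apply, (QuotientGroup.eq_one_iff g).2 hg]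
    exact H.one_mem
  refine ⟨⟨b, fun g hg => hfix g ⟨hg, hle hg⟩⟩, fun h => ?_⟩
  obtain ⟨g, hg⟩ := QuotientGroup.mk_surjective (h : LocG L q)
  have hgN : g ∈ N := by
    show QuotientGroup.mk g ∈ H
    rw [hg]
    exact h.2
  have e : π ⟨g, hgN⟩ = h := Subtype.ext hg
  refine Subtype.ext ?_
  rw [← e]
  exact hb ⟨g, hgN⟩

/-! ### The local norm index -/

theorem exists_level_le_locSub (L : Layer) (q : Nat.Primes) :
    ∃ E : IntermediateField ℚ_[(q : ℕ)] (PadicAlgCl (q : ℕ)),
      FiniteDimensional ℚ_[(q : ℕ)] E ∧ E.fixingSubgroup ≤ locSub L q := by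
  have := L.finite
  exact exists_field_le_level (q : ℕ) L.field

theorem fixingSubgroup_fixedField_local {L : Layer} {q : Nat.Primes} {N : Subgroup (LGal q)}
    (h : locSub L q ≤ N) :
    (IntermediateField.fixedField N).fixingSubgroup = N ∧
      FiniteDimensional ℚ_[(q : ℕ)] (IntermediateField.fixedField N) := by
  obtain ⟨E, hE, hEL⟩ := exists_level_le_locSub L q
  have := hE
  have ho : IsOpen (E.fixingSubgroup : Set (LGal q)) := IntermediateField.fixingSubgroup_isOpen E
  have hc : IsClosed (N : Set (LGal q)) :=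
    N.isClosed_of_isOpen (Subgroup.isOpen_mono (hEL.trans h) ho)
  refine ⟨InfiniteGalois.fixingSubgroup_fixedField ⟨N, hc⟩, ?_⟩
  have hle : IntermediateField.fixedField N ≤ E := by
    refine le_trans (IntermediateField.fixedField_antitone (hEL.trans h)) ?_
    exact (InfiniteGalois.fixedField_fixingSubgroup E).le
  exact Module.Finite.of_injective (IntermediateField.inclusion hle).toLinearMap
    (IntermediateField.inclusion_injective hle)

/-- The local norm index: `p` classes cover the invariants of a cyclic step of degree `p`. -/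
theorem exists_norm_cover {p : ℕ} [hp : Fact p.Prime] {L : Layer} {q : Nat.Primes}
    {N' N : Subgroup (LGal q)} (hM : locSub L q ≤ N') (hle : N' ≤ N)
    (hidx : N'.relIndex N = p) [hn : (N'.subgroupOf N).Normal] {g : LGal q} (hg : g ∈ N)
    (hg' : g ∉ N') :
    ∃ s : Finset (LU q), s.card ≤ p ∧ (∀ t ∈ s, t ∈ fixedPts N (LU q)) ∧
      ∀ a ∈ fixedPts N (LU q), ∃ t ∈ s, ∃ b ∈ fixedPts N' (LU q),
        a = t + ∑ i ∈ Finset.range p, g ^ i • b := by
  classical
  obtain ⟨hF, hFf⟩ := fixingSubgroup_fixedField_local (hM.trans hle)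
  obtain ⟨hE, hEf⟩ := fixingSubgroup_fixedField_local hM
  set F := IntermediateField.fixedField N
  set E0 := IntermediateField.fixedField N'
  have hFE : F ≤ E0 := IntermediateField.fixedField_antitone hle
  have := hFf
  have := hEf
  set E := IntermediateField.extendScalars hFE
  have : FiniteDimensional ℚ_[(q : ℕ)] E := hEf
  have : FiniteDimensional F E := Module.Finite.of_restrictScalars_finite ℚ_[(q : ℕ)] F E
  have : IsGalois F (PadicAlgCl (q : ℕ)) :=
    IsGalois.tower_top_of_isGalois ℚ_[(q : ℕ)] F (PadicAlgCl (q : ℕ))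
  have hgal : IsGalois F E := by
    rw [← InfiniteGalois.normal_iff_isGalois]
    refine ⟨fun m hm n => ?_⟩
    let e := IntermediateField.fixingSubgroupEquiv F
    have hnN : ((e.symm n : F.fixingSubgroup) : LGal q) ∈ N := hF.le (e.symm n).2
    have hm' : ((e.symm m : F.fixingSubgroup) : LGal q) ∈ N' :=
      hE.le ((IntermediateField.mem_fixingSubgroup_iff _ _).2
        fun x hx => (IntermediateField.mem_fixingSubgroup_iff _ _).1 hm x hx)
    have h : (((e.symm n : F.fixingSubgroup) : LGal q) * (e.symm m : F.fixingSubgroup) *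
        ((e.symm n : F.fixingSubgroup) : LGal q)⁻¹) ∈ N' :=
      hn.conj_mem ⟨_, hle hm'⟩ hm' ⟨_, hnN⟩
    rw [IntermediateField.mem_fixingSubgroup_iff]
    exact fun x hx => (IntermediateField.mem_fixingSubgroup_iff _ _).1 (hE.ge h) x hx
  have hrank : Module.finrank F E = p := by
    have h1 : Module.finrank ℚ_[(q : ℕ)] F * Module.finrank F E =
        Module.finrank ℚ_[(q : ℕ)] E0 := Module.finrank_mul_finrank ℚ_[(q : ℕ)] F E
    have eK : Module.finrank ℚ_[(q : ℕ)] F = F.fixingSubgroup.index := by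
      convert IntermediateField.finrank_eq_fixingSubgroup_index (PadicAlgCl (q : ℕ)) F
    have eL : Module.finrank ℚ_[(q : ℕ)] E0 = E0.fixingSubgroup.index := by
      convert IntermediateField.finrank_eq_fixingSubgroup_index (PadicAlgCl (q : ℕ)) E0
    rw [eK, eL, hF, hE, ← Subgroup.relIndex_mul_index hle, hidx, mul_comm p] at h1
    refine Nat.eq_of_mul_eq_mul_left (Nat.pos_of_ne_zero ?_) h1
    rw [← hF, ← eK]
    exact Module.finrank_pos.ne'
  have : Normal F (PadicAlgCl (q : ℕ)) := IsGalois.to_normal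
  have hcard : Nat.card (E ≃ₐ[F] E) = p := by rw [IsGalois.card_aut_eq_finrank, hrank]
  have : IsCyclic (E ≃ₐ[F] E) := isCyclic_of_prime_card hcard
  have hindex := local_index_norm_range (q : ℕ) F E
  rw [hrank] at hindex
  -- the generator
  have hgF : g ∈ F.fixingSubgroup := hF.ge hg
  let g₁ : PadicAlgCl (q : ℕ) ≃ₐ[F] PadicAlgCl (q : ℕ) :=
    IntermediateField.fixingSubgroupEquiv F ⟨g, hgF⟩
  let ρ : E ≃ₐ[F] E := AlgEquiv.restrictNormal g₁ E
  have hρ : ∀ x : E, ((ρ x : E) : PadicAlgCl (q : ℕ)) = g (x : PadicAlgCl (q : ℕ)) := fun x =>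
    AlgEquiv.restrictNormal_commutes g₁ E x
  have hρ1 : ρ ≠ 1 := by
    intro h1
    refine hg' (hE.le ((IntermediateField.mem_fixingSubgroup_iff _ _).2 fun x hx => ?_))
    have := hρ ⟨x, hx⟩
    rw [h1] at this
    exact this.symm
  have hpow : ∀ (i : ℕ) (x : E),
      (((ρ ^ i) x : E) : PadicAlgCl (q : ℕ)) = (g ^ i) (x : PadicAlgCl (q : ℕ)) := by
    intro i
    induction i with
    | zero => intro x; rfl
    | succ k ih =>
      intro x
      rw [pow_succ, AlgEquiv.mul_apply, ih, hρ, pow_succ, AlgEquiv.mul_apply]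
  have hgen : ∀ σ : E ≃ₐ[F] E, σ ∈ Subgroup.zpowers ρ := fun σ =>
    mem_zpowers_of_prime_card hcard hρ1
  have horder : orderOf ρ = p := by
    rw [orderOf_eq_card_of_forall_mem_zpowers hgen, hcard]
  have hnorm : ∀ x : E, ((algebraMap F E (Algebra.norm F x) : E) : PadicAlgCl (q : ℕ)) =
      ∏ i ∈ Finset.range p, (g ^ i) (x : PadicAlgCl (q : ℕ)) := by
    intro x
    rw [Algebra.norm_eq_prod_automorphisms]
    have hbij : Function.Bijective (fun i : Fin p => ρ ^ (i : ℕ)) := by
      rw [Fintype.bijective_iff_injective_and_card]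
      refine ⟨fun i j hij => Fin.ext (pow_injOn_Iio_orderOf ?_ ?_ hij), ?_⟩
      · simp [horder, i.2]
      · simp [horder, j.2]
      · rw [Fintype.card_fin, ← Nat.card_eq_fintype_card, hcard]
    rw [← (Equiv.ofBijective _ hbij).prod_comp, ← Fin.prod_univ_eq_prod_range]
    push_cast
    exact Finset.prod_congr rfl fun i _ => hpow i x
  -- fixed points are the fields
  have memF : ∀ a : LU q, a ∈ fixedPts N (LU q) → a.val ∈ F := fun a ha =>
    (IntermediateField.mem_fixedField_iff _ _).2 fun τ hτ => congrArg LU.val (ha τ hτ)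
  set S := (Units.map (Algebra.norm F : E →* F)).range
  have : Finite (Fˣ ⧸ S) := Nat.finite_of_card_ne_zero (by
    rw [← Subgroup.index_eq_card, hindex]; exact hp.out.ne_zero)
  have := Fintype.ofFinite (Fˣ ⧸ S)
  let toLU : Fˣ → LU q := fun u =>
    Additive.ofMul (Units.map (F.val : F →* PadicAlgCl (q : ℕ)) u)
  have hfixF : ∀ u : Fˣ, toLU u ∈ fixedPts N (LU q) := fun u τ hτ => LU.ext
    ((IntermediateField.mem_fixedField_iff _ _).1 (u : F).2 τ hτ)
  refine ⟨Finset.univ.image fun c : Fˣ ⧸ S => toLU c.out, Finset.card_image_le.trans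
    (by rw [Finset.card_univ, ← Nat.card_eq_fintype_card, ← Subgroup.index_eq_card, hindex]),
    fun t ht => ?_, fun a ha => ?_⟩
  · obtain ⟨c, -, rfl⟩ := Finset.mem_image.1 ht
    exact hfixF _
  · let u : Fˣ := Units.mk0 ⟨a.val, memF a ha⟩ fun h =>
      Units.ne_zero a.toMul (congrArg Subtype.val h)
    obtain ⟨⟨_, e, rfl⟩, he⟩ := QuotientGroup.mk_out_eq_mul S u
    let b : LU q := Additive.ofMul (Units.map (E.val : E →* PadicAlgCl (q : ℕ)) e)⁻¹
    refine ⟨toLU (Quotient.out (QuotientGroup.mk u : Fˣ ⧸ S)),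
      Finset.mem_image.2 ⟨_, Finset.mem_univ _, rfl⟩, b, fun τ hτ => LU.ext ?_, ?_⟩
    · show τ (((Units.map (E.val : E →* PadicAlgCl (q : ℕ)) e)⁻¹ : (PadicAlgCl (q : ℕ))ˣ) :
        PadicAlgCl (q : ℕ)) = _
      rw [Units.val_inv_eq_inv_val, map_inv₀]
      refine (congrArg (·⁻¹)
        ((IntermediateField.mem_fixedField_iff _ _).1 ((e : E).2) τ hτ)).trans ?_
      show _ = (((Units.map (E.val : E →* PadicAlgCl (q : ℕ)) e)⁻¹ : (PadicAlgCl (q : ℕ))ˣ) :
        PadicAlgCl (q : ℕ))
      rw [Units.val_inv_eq_inv_val]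
      rfl
    · have hsum : ∑ i ∈ Finset.range p, g ^ i • b = Additive.ofMul
          (Units.map (F.val : F →* PadicAlgCl (q : ℕ)) (Units.map (Algebra.norm F) e))⁻¹ := by
        have happ : ∀ (s : Finset ℕ) (f : ℕ → LU q),
            (∑ i ∈ s, f i).val = ∏ i ∈ s, (f i).val := fun s f => by
          induction s using Finset.induction_on with
          | empty => simp [LU.val_zero]
          | insert x s hx ih => rw [Finset.sum_insert hx, Finset.prod_insert hx, LU.val_add, ih]
        refine LU.ext ?_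
        rw [happ]
        show ∏ i ∈ Finset.range p, (g ^ i) (((Units.map (E.val : E →* PadicAlgCl (q : ℕ)) e)⁻¹ :
          (PadicAlgCl (q : ℕ))ˣ) : PadicAlgCl (q : ℕ)) = (((Units.map (F.val :
          F →* PadicAlgCl (q : ℕ)) (Units.map (Algebra.norm F) e))⁻¹ : (PadicAlgCl (q : ℕ))ˣ) :
          PadicAlgCl (q : ℕ))
        simp only [Units.val_inv_eq_inv_val, map_inv₀, Finset.prod_inv_distrib]
        congr 1
        exact (hnorm (e : E)).symm
      rw [hsum, he]
      refine LU.ext ?_
      show a.val = (((u * Units.map (Algebra.norm F) e : Fˣ) : F) : PadicAlgCl (q : ℕ)) *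
        (((Units.map (F.val : F →* PadicAlgCl (q : ℕ)) (Units.map (Algebra.norm F) e))⁻¹ :
          (PadicAlgCl (q : ℕ))ˣ) : PadicAlgCl (q : ℕ))
      rw [Units.val_inv_eq_inv_val, eq_mul_inv_iff_mul_eq₀ (Units.ne_zero _)]
      rfl

/-- The dévissage hypothesis holds for the local modules. -/
theorem stepBound_LocU (p : ℕ) [hp : Fact p.Prime] (L : Layer) (q : Nat.Primes) :
    StepBound p (LocG L q) (LocU L q) := by
  intro K K' _ hidx
  have h1 : Subsingleton (H1 (K ⧸ K') (fixedPts K' (LocU L q))) := by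
    have h := subsingleton_H1_LocU L q K
    refine subsingleton_of_forall_eq 0 fun x => ?_
    obtain ⟨f, rfl⟩ := H1.mk_surjective x
    obtain ⟨a, ha⟩ := subsingleton_H1_iff.1 h
      (fun k => ((f : K ⧸ K' → fixedPts K' (LocU L q)) (QuotientGroup.mk k) : LocU L q))
      (mem_Z1_iff.2 fun k k' => congrArg Subtype.val
        (mem_Z1_iff.1 f.2 (QuotientGroup.mk k) (QuotientGroup.mk k')))
    refine (H1.mk_eq_zero_iff f).2 ⟨⟨a, fun k hk => ?_⟩, fun c => ?_⟩
    · have := ha k
      rw [(QuotientGroup.eq_one_iff k).2 hk, Z1_one f.2] at this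
      exact sub_eq_zero.1 this.symm
    · induction c using QuotientGroup.induction_on with
      | _ k => exact Subtype.ext (ha k)
  obtain ⟨N', N, g, hM, hle, hidx', hnormal, hgN, hg', -, hH2⟩ :=
    exists_step_lift (A := LU q) (locSub L q) K K' hidx
  exact ⟨h1, hH2 (exists_norm_cover hM hle hidx' hgN hg')⟩

theorem LocU.pgroup_bound' (p : ℕ) [Fact p.Prime] (L : Layer) (q : Nat.Primes)
    (K : Subgroup (LocG L q)) (hK : IsPGroup p K) :
    Finite (H2 K (LocU L q)) ∧ Nat.card (H2 K (LocU L q)) ≤ Nat.card K :=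
  (pgroup_bound (stepBound_LocU p L q) K hK).2

end FLTAgent.GlobalDuality
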