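import Mathlib
import Fermat.Agent.GlobalDuality.Local
import Fermat.Agent.IdeleClassCohomology.Divisor
import Fermat.Agent.MazurStep.Ramification

/-!
# Ramification of a layer at the base place

The inertia subgroup of the local group of a layer, the size of its index, and the values of the
absolute value on the local units of a layer.
-/

set_option autoImplicit false

noncomputable section

open scoped Pointwise NumberField

namespace FLTAgent.GlobalDuality

open FLTAgent.GalCoh FLTAgent.LocalDuality FLTAgent.IdeleClassCohomology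

instance layer_field_finite (L : Layer) : FiniteDimensional ℚ L.field := L.finite

instance layer_field_normal (L : Layer) :
    @Normal ℚ L.field _ _ (IntermediateField.algebra' L.field) := L.normal

instance layer_field_normal' (L : Layer) : Normal ℚ L.field := L.normal

instance layer_field_galois (L : Layer) : IsGalois ℚ L.field :=
  ⟨⟩

instance layer_field_numberField (L : Layer) : NumberField L.field := numberField_of_finite _

/-- The Galois group of the field of a layer. -/
abbrev LayerGal (L : Layer) : Type := L.field ≃ₐ[ℚ] L.field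

theorem restrictNormalHom_apply_coe (L : Layer) (g : Gam) (x : L.field) :
    (((AlgEquiv.restrictNormalHom L.field g) x : L.field) : QQbar) = g x :=
  AlgEquiv.restrictNormal_commutes g L.field x

theorem restrictNormalHom_eq_one_iff (L : Layer) (g : Gam) :
    AlgEquiv.restrictNormalHom L.field g = 1 ↔ g ∈ L.sub := by
  exact (MonoidHom.mem_ker).symm.trans
    (SetLike.ext_iff.1 (IntermediateField.restrictNormalHom_ker L.field) g)

/-- The local group of a layer inside the Galois group of its field. -/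
def galMap (L : Layer) (q : Nat.Primes) : LocG L q →* LayerGal L :=
  QuotientGroup.lift (locSub L q) ((AlgEquiv.restrictNormalHom L.field).comp (loc q))
    fun _ hτ => (restrictNormalHom_eq_one_iff L _).2 hτ

theorem galMap_mk (L : Layer) (q : Nat.Primes) (τ : LGal q) (x : L.field) :
    ((galMap L q (QuotientGroup.mk τ) x : L.field) : QQbar) = loc q τ x :=
  restrictNormalHom_apply_coe L _ x

theorem galMap_injective (L : Layer) (q : Nat.Primes) : Function.Injective (galMap L q) := by
  refine (injective_iff_map_eq_one _).2 fun x hx => ?_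
  induction x using QuotientGroup.induction_on with
  | _ τ => exact (QuotientGroup.eq_one_iff τ).2 ((restrictNormalHom_eq_one_iff L _).1 hx)

/-- The prime of a layer at the base place. -/
abbrev basePrime (L : Layer) (q : Nat.Primes) : Ideal (𝓞 L.field) :=
  (placeIdeal L.field q 1).asIdeal

theorem mem_basePrime (L : Layer) (q : Nat.Primes) {a : 𝓞 L.field} :
    a ∈ basePrime L q ↔ ‖emb q ((a : L.field) : QQbar)‖ < 1 := Iff.rfl

theorem natCast_mem_basePrime (L : Layer) (q : Nat.Primes) :
    ((q : ℕ) : 𝓞 L.field) ∈ basePrime L q := by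
  rw [mem_basePrime]
  simpa [IdeleClassCohomology.norm_natCast_self] using IdeleClassCohomology.inv_prime_lt_one q

theorem coe_smul_int (L : Layer) (g : LayerGal L) (a : 𝓞 L.field) :
    ((g • a : 𝓞 L.field) : L.field) = g (a : L.field) := rfl

theorem norm_galMap (L : Layer) (q : Nat.Primes) (x : LocG L q) (a : L.field) :
    ‖emb q ((galMap L q x a : L.field) : QQbar)‖ = ‖emb q (a : QQbar)‖ := by
  induction x using QuotientGroup.induction_on with
  | _ τ =>
    rw [galMap_mk]
    exact ((congrArg _ (padicEmbedding_localGaloisToGlobal (q : ℕ) τ a)).trans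
      (congrArg NNReal.toReal (nnnorm_padicAlgCl_algEquiv (q : ℕ) τ _)))

theorem galMap_mem_stabilizer (L : Layer) (q : Nat.Primes) (x : LocG L q) :
    galMap L q x ∈ MulAction.stabilizer (LayerGal L) (basePrime L q) := by
  rw [MulAction.mem_stabilizer_iff]
  refine SetLike.ext fun a => ?_
  rw [Ideal.mem_pointwise_smul_iff_inv_smul_mem, mem_basePrime, mem_basePrime, coe_smul_int,
    ← map_inv, norm_galMap]

theorem exists_galMap_eq (L : Layer) (q : Nat.Primes) {g : LayerGal L}
    (hg : g ∈ MulAction.stabilizer (LayerGal L) (basePrime L q)) :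
    ∃ x : LocG L q, galMap L q x = g := by
  obtain ⟨σ, rfl⟩ := AlgEquiv.restrictNormalHom_surjective (K₁ := L.field) QQbar g
  have hP : placeIdeal L.field q σ = placeIdeal L.field q 1 := by
    refine IsDedekindDomain.HeightOneSpectrum.ext (SetLike.ext fun a => ?_)
    have h := SetLike.ext_iff.1 (MulAction.mem_stabilizer_iff.1 hg)
      (AlgEquiv.restrictNormalHom L.field σ • a)
    rw [Ideal.smul_mem_pointwise_smul_iff] at h
    refine Iff.trans ?_ h.symm
    rw [mem_placeIdeal, mem_basePrime, coe_smul_int, restrictNormalHom_apply_coe]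
    rfl
  obtain ⟨τ, hτ⟩ := exists_loc_mul_eq (σ := 1) (σ' := σ)
    fun x => norm_eq_of_placeIdeal_eq hP x
  rw [mul_one] at hτ
  refine ⟨QuotientGroup.mk τ, ?_⟩
  have h := (restrictNormalHom_eq_one_iff L _).2 hτ
  rw [map_mul, map_inv, inv_mul_eq_one] at h
  exact h

/-- The inertia subgroup of the local group of a layer. -/
def inertiaLoc (L : Layer) (q : Nat.Primes) : Subgroup (LocG L q) :=
  ((basePrime L q).inertia (LayerGal L)).comap (galMap L q)

theorem mk_mem_inertiaLoc_iff (L : Layer) (q : Nat.Primes) (τ : LGal q) :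
    (QuotientGroup.mk τ : LocG L q) ∈ inertiaLoc L q ↔ ∀ a : 𝓞 L.field,
      ‖emb q (loc q τ ((a : L.field) : QQbar)) - emb q ((a : L.field) : QQbar)‖ < 1 := by
  refine forall_congr' fun a => ?_
  show _ ∈ basePrime L q ↔ _
  rw [mem_basePrime]
  show ‖emb q (((galMap L q (QuotientGroup.mk τ)) (a : L.field) - a : L.field) : QQbar)‖ < 1 ↔ _
  rw [AddSubgroupClass.coe_sub, galMap_mk, map_sub]

theorem map_inertiaLoc (L : Layer) (q : Nat.Primes) :
    (inertiaLoc L q).map (galMap L q) = (basePrime L q).inertia (LayerGal L) := by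
  refine Subgroup.map_comap_eq_self fun g hg => ?_
  exact exists_galMap_eq L q (Ideal.inertia_le_stabilizer (M := LayerGal L) _ hg)

theorem card_inertiaLoc (L : Layer) (q : Nat.Primes) :
    Nat.card (inertiaLoc L q) = Nat.card ((basePrime L q).inertia (LayerGal L)) := by
  rw [← map_inertiaLoc]
  exact Nat.card_congr
    ((inertiaLoc L q).equivMapOfInjective _ (galMap_injective L q)).toEquiv

/-- The index of inertia divides every exponent of the local group. -/
theorem index_inertiaLoc_dvd (L : Layer) (q : Nat.Primes) {n : ℕ}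
    (hn : ∀ x : LocG L q, x ^ n = 1) : (inertiaLoc L q).index ∣ n := by
  set P := basePrime L q
  have : P.IsMaximal := (placeIdeal L.field q 1).isMaximal
  have : (P.under ℤ).IsMaximal := Ideal.isMaximal_comap_of_isIntegral_of_isMaximal P
  let := Ideal.Quotient.field P
  let := Ideal.Quotient.field (P.under ℤ)
  have : Finite (𝓞 L.field ⧸ P) :=
    Ideal.finiteQuotientOfFreeOfNeBot _ (placeIdeal L.field q 1).ne_bot
  let φ : LocG L q →* ((𝓞 L.field ⧸ P) ≃ₐ[ℤ ⧸ P.under ℤ] (𝓞 L.field ⧸ P)) :=
    (Ideal.Quotient.stabilizerHom P (P.under ℤ) (LayerGal L)).comp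
      ((galMap L q).codRestrict _ (galMap_mem_stabilizer L q))
  have hker : inertiaLoc L q = φ.ker := by
    ext x
    rw [MonoidHom.mem_ker, MonoidHom.comp_apply, ← MonoidHom.mem_ker,
      Ideal.Quotient.ker_stabilizerHom]
    rfl
  have := Subgroup.isCyclic φ.range
  rw [hker, Subgroup.index_ker, ← IsCyclic.exponent_eq_card,
    Monoid.exponent_dvd_iff_forall_pow_eq_one]
  rintro ⟨_, x, rfl⟩
  refine Subtype.ext ?_
  rw [SubmonoidClass.coe_pow, ← map_pow, hn, map_one, OneMemClass.coe_one]

/-- The ramification index of a layer at `q`. -/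
def ramLoc (L : Layer) (q : Nat.Primes) : ℕ := Nat.card (inertiaLoc L q)

theorem ramLoc_pos (L : Layer) (q : Nat.Primes) : 0 < ramLoc L q := Nat.card_pos

theorem placeOrd_natCast_eq_ramLoc (L : Layer) (q : Nat.Primes) :
    placeOrd L.field q 1 ((q : ℕ) : L.field) = ramLoc L q := by
  set P := basePrime L q
  have hP0 : P ≠ ⊥ := (placeIdeal L.field q 1).ne_bot
  have : P.IsMaximal := (placeIdeal L.field q 1).isMaximal
  have : (P.under ℤ).IsMaximal := Ideal.isMaximal_comap_of_isIntegral_of_isMaximal P
  have : Finite (ℤ ⧸ P.under ℤ) :=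
    Ideal.finiteQuotientOfFreeOfNeBot _ fun h0 => hP0 (Ideal.eq_bot_of_comap_eq_bot h0)
  have : PerfectField (P.under ℤ).ResidueField := PerfectField.ofFinite
  have hq0 : ((q : ℕ) : ℤ) ≠ 0 := by exact_mod_cast q.2.ne_zero
  have hunder : P.under ℤ = Ideal.span {((q : ℕ) : ℤ)} := by
    symm
    refine ((Ideal.span_singleton_prime hq0).2 (Nat.prime_iff_prime_int.1 q.2)).isMaximal
      (by simpa using q.2.ne_zero) |>.eq_of_le (Ideal.IsPrime.ne_top inferInstance) ?_
    rw [Ideal.span_singleton_le_iff_mem, Ideal.under_def, Ideal.mem_comap, map_natCast]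
    exact natCast_mem_basePrime L q
  have hpne : P.under ℤ ≠ ⊥ := by
    rw [hunder, Ne, Ideal.span_singleton_eq_bot]; exact hq0
  rw [ramLoc, card_inertiaLoc, Ideal.card_inertia_eq_ramificationIdxIn (G := LayerGal L)
    (P.under ℤ) P, Ideal.ramificationIdxIn_eq_ramificationIdx (P.under ℤ) P (LayerGal L),
    ← Ideal.ramificationIdx'_eq_ramificationIdx (P.under ℤ) P hpne,
    Ideal.IsDedekindDomain.ramificationIdx'_eq_multiplicity (Ideal.map_ne_bot_of_ne_bot hpne)
      inferInstance]
  have hmap : Ideal.map (algebraMap ℤ (𝓞 L.field)) (P.under ℤ) =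
      Ideal.span {((q : ℕ) : 𝓞 L.field)} := by
    rw [hunder, Ideal.map_span, Set.image_singleton, map_natCast]
  rw [placeOrd, show ((q : ℕ) : L.field) = algebraMap (𝓞 L.field) L.field (q : ℕ) from
    (map_natCast _ _).symm, IsDedekindDomain.HeightOneSpectrum.valuation_of_algebraMap,
    IsDedekindDomain.HeightOneSpectrum.intValuation_eq_exp_neg_multiplicity _
      (Nat.cast_ne_zero.2 q.2.ne_zero), WithZero.log_exp, neg_neg, hmap]

/-- The local field of a layer contains the units fixed by its local group. -/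
theorem val_mem_locField {L : Layer} {q : Nat.Primes} (x : LocU L q) :
    (x : LU q).val ∈ locField L.field q 1 := by
  rw [← InfiniteGalois.fixedField_fixingSubgroup (locField L.field q 1),
    IntermediateField.mem_fixedField_iff]
  intro τ hτ
  have h := mem_fixingSubgroup_locField_iff.1 hτ
  rw [inv_one, one_mul, mul_one] at h
  exact congrArg LU.val (x.2 τ h)

/-- The prime `q` as an element of the local units. -/
def qUnit (q : Nat.Primes) : LU q :=
  Additive.ofMul (Units.mk0 ((q : ℕ) : PadicAlgCl (q : ℕ)) (Nat.cast_ne_zero.2 q.2.ne_zero))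

theorem val_qUnit (q : Nat.Primes) : (qUnit q).val = ((q : ℕ) : PadicAlgCl (q : ℕ)) := rfl

theorem smul_qUnit (q : Nat.Primes) (τ : LGal q) : τ • qUnit q = qUnit q :=
  LU.ext (map_natCast τ _)

theorem norm_qUnit (q : Nat.Primes) : ‖(qUnit q).val‖ = ((q : ℕ) : ℝ)⁻¹ :=
  IdeleClassCohomology.norm_natCast_self q

theorem qUnit_mem_LocU (L : Layer) (q : Nat.Primes) : qUnit q ∈ LocU L q :=
  fun τ _ => smul_qUnit q τ

/-- A uniformizer of the local field of a layer. -/
theorem exists_uniformizer (L : Layer) (q : Nat.Primes) :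
    ∃ ϖ : LocU L q, ‖(ϖ : LU q).val‖ < 1 ∧
      (∀ x : LocU L q, ∃ k : ℤ, ‖(x : LU q).val‖ = ‖(ϖ : LU q).val‖ ^ k) ∧
      ‖(ϖ : LU q).val‖ ^ ramLoc L q = ((q : ℕ) : ℝ)⁻¹ := by
  obtain ⟨c, hc, hc1, hf⟩ := exists_norm_eq_zpow L.field q 1
  obtain ⟨π, hπ⟩ := (placeIdeal L.field q 1).valuation_exists_uniformizer' L.field
  have hπ0 : (π : L.field) ≠ 0 := by
    intro h
    have h' := (congrArg ((placeIdeal L.field q 1).valuation L.field) h).symm.trans hπ
    rw [map_zero] at h'
    exact WithZero.exp_ne_zero h'.symm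
  let ϖ : LU q := Additive.ofMul (Units.mk0 (emb q ((π : L.field) : QQbar))
    fun h => hπ0 (Subtype.ext ((emb q).injective (h.trans (map_zero _).symm))))
  have hϖ : ϖ ∈ LocU L q := fun τ hτ => LU.ext
    ((padicEmbedding_localGaloisToGlobal (q : ℕ) τ _).symm.trans (congrArg (emb q)
      ((IntermediateField.mem_fixingSubgroup_iff _ _).1 hτ _ (π : L.field).2)))
  have hnorm : ‖ϖ.val‖ = c := by
    show ‖placeEmb L.field q 1 π‖ = c
    rw [hf _ hπ0, placeOrd, hπ, WithZero.log_exp, neg_neg, zpow_one]
  refine ⟨⟨ϖ, hϖ⟩, hnorm.trans_lt hc1, fun x => ?_, ?_⟩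
  · obtain ⟨a, ha, ha'⟩ := exists_norm_placeEmb_eq (val_mem_locField x) (Units.ne_zero _)
    exact ⟨placeOrd L.field q 1 a, by rw [hnorm, ← ha', hf a ha]⟩
  · have h := hf _ (Nat.cast_ne_zero.2 q.2.ne_zero : ((q : ℕ) : L.field) ≠ 0)
    rw [map_natCast, IdeleClassCohomology.norm_natCast_self, placeOrd_natCast_eq_ramLoc,
      zpow_natCast] at h
    rw [hnorm, h]

/-! ### Change of layer -/

/-- The projection of local groups along an inclusion of layers. -/
def locProj {L L' : Layer} (h : L ≤ L') (q : Nat.Primes) : LocG L' q →* LocG L q :=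
  QuotientGroup.map _ _ (MonoidHom.id _) fun _ hτ => Layer.sub_le h hτ

theorem locProj_mk {L L' : Layer} (h : L ≤ L') (q : Nat.Primes) (τ : LGal q) :
    locProj h q (QuotientGroup.mk τ) = QuotientGroup.mk τ := rfl

theorem map_inertiaLoc_le {L L' : Layer} (h : L ≤ L') (q : Nat.Primes) :
    (inertiaLoc L' q).map (locProj h q) ≤ inertiaLoc L q := by
  rintro _ ⟨x, hx, rfl⟩
  induction x using QuotientGroup.induction_on with
  | _ τ =>
    rw [locProj_mk, mk_mem_inertiaLoc_iff]
    intro a
    have hint : IsIntegral ℤ (⟨((a : L.field) : QQbar), h (a : L.field).2⟩ : L'.field) :=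
      (isIntegral_algHom_iff (L'.field.val.restrictScalars ℤ) Subtype.val_injective).1
        (a.2.map (L.field.val.restrictScalars ℤ))
    exact (mk_mem_inertiaLoc_iff L' q τ).1 hx ⟨_, hint⟩

theorem inertiaLoc_eq_bot {L : Layer} {S : Finset Nat.Primes} (hL : L.IsS S) {q : Nat.Primes}
    (hq : q ∉ S) : inertiaLoc L q = ⊥ := by
  rw [Subgroup.eq_bot_iff_forall]
  intro x hx
  obtain ⟨A, hA, σ, hσ, hσL⟩ := ECReduction.exists_inertia_lift_of_mem L.field (basePrime L q) q.2
    (natCast_mem_basePrime L q) (show galMap L q x ∈ _ from hx)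
  refine galMap_injective L q ?_
  rw [map_one]
  refine AlgEquiv.ext fun y => Subtype.ext ?_
  rw [← hσL y]
  exact (IntermediateField.mem_fixingSubgroup_iff _ _).1 (hL.2 q hq A hA hσ) _ y.2

theorem ramLoc_eq_one {L : Layer} {S : Finset Nat.Primes} (hL : L.IsS S) {q : Nat.Primes}
    (hq : q ∉ S) : ramLoc L q = 1 := by
  rw [ramLoc, inertiaLoc_eq_bot hL hq, Subgroup.card_bot]

/-- Every layer is unramified outside a finite set. -/
theorem Layer.exists_isS (L : Layer) : ∃ S : Finset Nat.Primes, L.IsS S := by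
  obtain ⟨T, hT⟩ := Density.exists_finset_forall_inertia_fixes L.field
  refine ⟨T.subtype Nat.Prime, L.finite, fun q hq A hA σ hσ => ?_⟩
  refine (IntermediateField.mem_fixingSubgroup_iff _ _).2 fun x hx => ?_
  exact hT q q.2 (fun h => hq (Finset.mem_subtype.2 h)) A hA σ hσ x hx

/-- At an unramified prime, every value is a power of `q`. -/
theorem exists_norm_eq_zpow_of_isS {L : Layer} {S : Finset Nat.Primes} (hL : L.IsS S)
    {q : Nat.Primes} (hq : q ∉ S) (x : LocU L q) :
    ∃ k : ℤ, ‖(x : LU q).val‖ = ‖(qUnit q).val‖ ^ k := by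
  obtain ⟨ϖ, -, hval, he⟩ := exists_uniformizer L q
  rw [ramLoc_eq_one hL hq, pow_one] at he
  obtain ⟨k, hk⟩ := hval x
  exact ⟨k, by rw [hk, he, norm_qUnit]⟩

end FLTAgent.GlobalDuality
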