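import Mathlib
import Fermat.Agent.GlobalDuality.Ram
import Fermat.Agent.Density.Cyclotomic

/-!
# Unramified local groups

At a prime with trivial inertia the local group of a layer is generated by the Frobenius.
-/

set_option autoImplicit false

noncomputable section

open scoped Pointwise NumberField

namespace FLTAgent.GlobalDuality

open FLTAgent.GalCoh FLTAgent.LocalDuality FLTAgent.IdeleClassCohomology

theorem exists_frobenius_loc (L : Layer) (q : Nat.Primes) (hI : inertiaLoc L q = ⊥) :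
    ∃ F : LocG L q, (∀ a : 𝓞 L.field,
        ‖emb q ((galMap L q F (a : L.field) : L.field) : QQbar) -
          emb q ((a : L.field) : QQbar) ^ (q : ℕ)‖ < 1) ∧
      ∀ x : LocG L q, x ∈ Subgroup.zpowers F := by
  set P := basePrime L q
  have hP0 : P ≠ ⊥ := (placeIdeal L.field q 1).ne_bot
  have : P.IsMaximal := (placeIdeal L.field q 1).isMaximal
  have : (P.under ℤ).IsMaximal := Ideal.isMaximal_comap_of_isIntegral_of_isMaximal P
  let := Ideal.Quotient.field P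
  let := Ideal.Quotient.field (P.under ℤ)
  have hq0 : ((q : ℕ) : ℤ) ≠ 0 := by exact_mod_cast q.2.ne_zero
  have hunder : P.under ℤ = Ideal.span {((q : ℕ) : ℤ)} := by
    symm
    refine ((Ideal.span_singleton_prime hq0).2 (Nat.prime_iff_prime_int.1 q.2)).isMaximal
      (by simpa using q.2.ne_zero) |>.eq_of_le (Ideal.IsPrime.ne_top inferInstance) ?_
    rw [Ideal.span_singleton_le_iff_mem, Ideal.under_def, Ideal.mem_comap, map_natCast]
    exact natCast_mem_basePrime L q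
  have : Finite (𝓞 L.field ⧸ P) := Ideal.finiteQuotientOfFreeOfNeBot _ hP0
  have : Finite (ℤ ⧸ P.under ℤ) :=
    Ideal.finiteQuotientOfFreeOfNeBot _ fun h0 => hP0 (Ideal.eq_bot_of_comap_eq_bot h0)
  let := Fintype.ofFinite (ℤ ⧸ P.under ℤ)
  have hcard : Fintype.card (ℤ ⧸ P.under ℤ) = (q : ℕ) := by
    rw [← Nat.card_eq_fintype_card, hunder,
      Nat.card_congr (Int.quotientSpanNatEquivZMod (q : ℕ)).toEquiv, Nat.card_zmod]
  let φ : LocG L q →* ((𝓞 L.field ⧸ P) ≃ₐ[ℤ ⧸ P.under ℤ] (𝓞 L.field ⧸ P)) :=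
    (Ideal.Quotient.stabilizerHom P (P.under ℤ) (LayerGal L)).comp
      ((galMap L q).codRestrict _ (galMap_mem_stabilizer L q))
  have hφ : Function.Injective φ := (injective_iff_map_eq_one φ).2 fun x hx => by
    rw [MonoidHom.comp_apply, ← MonoidHom.mem_ker, Ideal.Quotient.ker_stabilizerHom] at hx
    have h : x ∈ inertiaLoc L q := hx
    rwa [hI, Subgroup.mem_bot] at h
  set fr := FiniteField.frobeniusAlgEquivOfAlgebraic (ℤ ⧸ P.under ℤ) (𝓞 L.field ⧸ P)
  obtain ⟨⟨g, hg⟩, hgfr⟩ :=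
    Ideal.Quotient.stabilizerHom_surjective (LayerGal L) (P.under ℤ) P fr
  obtain ⟨F, rfl⟩ := exists_galMap_eq L q hg
  have hF : φ F = fr := hgfr
  refine ⟨F, fun a => ?_, fun x => ?_⟩
  · have h := AlgEquiv.congr_fun hF (Ideal.Quotient.mk P a)
    rw [show fr (Ideal.Quotient.mk P a) = Ideal.Quotient.mk P a ^ (q : ℕ) by
      rw [← hcard]; rfl, ← map_pow] at h
    have h' : Ideal.Quotient.mk P (galMap L q F • a) = Ideal.Quotient.mk P (a ^ (q : ℕ)) := h
    rw [Ideal.Quotient.eq, mem_basePrime] at h'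
    have h'' : ‖emb q ((galMap L q F (a : L.field) - (a : L.field) ^ (q : ℕ) : L.field) : QQbar)‖
        < 1 := h'
    rw [AddSubgroupClass.coe_sub, SubmonoidClass.coe_pow, map_sub, map_pow] at h''
    exact h''
  · obtain ⟨n, hn⟩ := (FiniteField.bijective_frobeniusAlgEquivOfAlgebraic_pow
      (ℤ ⧸ P.under ℤ) (𝓞 L.field ⧸ P)).2 (φ x)
    have hx : F ^ (n : ℕ) = x := hφ (by rw [map_pow, hF]; exact hn)
    exact hx ▸ Subgroup.npow_mem_zpowers F n

theorem isCyclic_locG (L : Layer) (q : Nat.Primes) (hI : inertiaLoc L q = ⊥) :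
    IsCyclic (LocG L q) := by
  obtain ⟨F, -, hF⟩ := exists_frobenius_loc L q hI
  exact ⟨⟨F, hF⟩⟩

/-! ### Cyclotomic layers -/

section Cyclotomic

variable (ℓ : Nat.Primes)

instance neZero_prime : NeZero (ℓ : ℕ) := ⟨ℓ.2.ne_zero⟩

theorem exists_cycRoot : ∃ ζ : QQbar, IsPrimitiveRoot ζ (ℓ : ℕ) := by
  have : NeZero ((ℓ : ℕ) : QQbar) := ⟨Nat.cast_ne_zero.mpr ℓ.2.ne_zero⟩
  exact (inferInstance : HasEnoughRootsOfUnity QQbar (ℓ : ℕ)).prim

/-- A primitive root of unity of prime order. -/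
def cycRoot : QQbar := (exists_cycRoot ℓ).choose

/-- The chosen root is a primitive `ℓ`th root of unity. -/
theorem cycRoot_spec : IsPrimitiveRoot (cycRoot ℓ) (ℓ : ℕ) := (exists_cycRoot ℓ).choose_spec

/-- The cyclotomic layer. -/
def cycLayer : Layer where
  field := IntermediateField.adjoin ℚ {cycRoot ℓ}
  finite := IntermediateField.adjoin.finiteDimensional (Algebra.IsIntegral.isIntegral _)
  normal := by
    have : @IsCyclotomicExtension {(ℓ : ℕ)} ℚ (IntermediateField.adjoin ℚ {cycRoot ℓ}) _ _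
        (IntermediateField.algebra' _) :=
      (cycRoot_spec ℓ).intermediateField_adjoin_isCyclotomicExtension (K := ℚ)
    exact (@IsCyclotomicExtension.isGalois {(ℓ : ℕ)} ℚ (IntermediateField.adjoin ℚ {cycRoot ℓ}) _ _
      (IntermediateField.algebra' _) this).to_normal

/-- The cyclotomic character. -/
def cycChar : Gam →* (ZMod (ℓ : ℕ))ˣ :=
  (modularCyclotomicCharacter QQbar (Density.card_rootsOfUnity_qbar (ℓ : ℕ))).comp
    Density.galToRingAut

variable {ℓ}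

theorem apply_of_pow_eq_one (g : Gam) {z : QQbar} (hz : z ^ (ℓ : ℕ) = 1) :
    g z = z ^ (cycChar ℓ g : ZMod (ℓ : ℕ)).val := by
  obtain ⟨u, rfl⟩ : IsUnit z := IsUnit.of_pow_eq_one hz ℓ.2.ne_zero
  exact modularCyclotomicCharacter.spec QQbar (Density.card_rootsOfUnity_qbar (ℓ : ℕ))
    (Density.galToRingAut g) (t := u)
      (by rw [mem_rootsOfUnity]; exact Units.ext (by simpa using hz))

theorem cycChar_eq_iff (g : Gam) (c : ZMod (ℓ : ℕ)) :
    (cycChar ℓ g : ZMod (ℓ : ℕ)) = c ↔ g (cycRoot ℓ) = cycRoot ℓ ^ c.val := by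
  rw [apply_of_pow_eq_one g (cycRoot_spec ℓ).pow_eq_one]
  refine ⟨fun h => by rw [h], fun h => ?_⟩
  exact ZMod.val_injective _ ((cycRoot_spec ℓ).pow_inj (ZMod.val_lt _) (ZMod.val_lt _) h)

theorem cycChar_eq_one_iff (g : Gam) : cycChar ℓ g = 1 ↔ g ∈ (cycLayer ℓ).sub := by
  have : Fact (1 < (ℓ : ℕ)) := ⟨ℓ.2.one_lt⟩
  rw [Units.ext_iff, Units.val_one, cycChar_eq_iff, ZMod.val_one, pow_one]
  refine ⟨fun h => (IntermediateField.mem_fixingSubgroup_iff _ _).2
      (Density.forall_mem_adjoin_simple_eq h), fun h =>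
    (IntermediateField.mem_fixingSubgroup_iff _ _).1 h _
      (IntermediateField.mem_adjoin_simple_self ℚ _)⟩

/-- Distinct roots of unity of order prime to `q` stay distinct modulo `q`. -/
theorem eq_of_norm_sub_lt {q : Nat.Primes} (hne : q ≠ ℓ) {z w : PadicAlgCl (q : ℕ)}
    (hz : z ^ (ℓ : ℕ) = 1) (hw : w ^ (ℓ : ℕ) = 1) (h : ‖z - w‖ < 1) : z = w := by
  by_contra hzw
  have hw0 : w ≠ 0 := fun h0 => by simp [h0, zero_pow ℓ.2.ne_zero] at hw
  have hnw : ‖w‖ = 1 := by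
    have h' := congrArg (fun x : PadicAlgCl (q : ℕ) => ‖x‖) hw
    simp only [norm_pow, norm_one] at h'
    exact (pow_eq_one_iff_of_nonneg (norm_nonneg _) ℓ.2.ne_zero).1 h'
  set t := z / w
  have ht1 : ‖t - 1‖ < 1 := by
    rw [show t - 1 = (z - w) / w by rw [sub_div, div_self hw0], norm_div, hnw, div_one]
    exact h
  have ht : t ^ (ℓ : ℕ) = 1 := by rw [div_pow, hz, hw, div_one]
  have htne : t ≠ 1 := fun e => hzw (by rwa [div_eq_one_iff_eq hw0] at e)
  have hsum : ∑ i ∈ Finset.range (ℓ : ℕ), t ^ i = 0 := by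
    have := geom_sum_mul t (ℓ : ℕ)
    rw [ht, sub_self, mul_eq_zero] at this
    exact this.resolve_right (sub_ne_zero.2 htne)
  have hnt : ‖t‖ = 1 := by
    rw [norm_div, hnw, div_one]
    have h' := congrArg (fun x : PadicAlgCl (q : ℕ) => ‖x‖) hz
    simp only [norm_pow, norm_one] at h'
    exact (pow_eq_one_iff_of_nonneg (norm_nonneg _) ℓ.2.ne_zero).1 h'
  have hlt : ∀ i, ‖t ^ i - 1‖ < 1 := fun i => by
    induction i with
    | zero => simp
    | succ k ih =>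
      rw [show t ^ (k + 1) - 1 = t ^ k * (t - 1) + (t ^ k - 1) by ring]
      refine lt_of_le_of_lt (IsUltrametricDist.norm_add_le_max _ _) (max_lt ?_ ih)
      rw [norm_mul, norm_pow, hnt, one_pow, one_mul]
      exact ht1
  have hl : ‖((ℓ : ℕ) : PadicAlgCl (q : ℕ))‖ < 1 := by
    have e : ((ℓ : ℕ) : PadicAlgCl (q : ℕ)) = -∑ i ∈ Finset.range (ℓ : ℕ), (t ^ i - 1) := by
      rw [Finset.sum_sub_distrib, hsum, Finset.sum_const, Finset.card_range, nsmul_one, zero_sub,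
        neg_neg]
    rw [e, norm_neg]
    obtain ⟨i, -, hi⟩ := IsUltrametricDist.exists_norm_finsetSum_le_of_nonempty
      (t := Finset.range (ℓ : ℕ)) (Finset.nonempty_range_iff.2 ℓ.2.ne_zero)
      (fun i => t ^ i - 1)
    exact hi.trans_lt (hlt i)
  have h1 := norm_intCast_eq_one (q := q) (m := ((ℓ : ℕ) : ℤ)) (by
    rw [Int.natCast_dvd_natCast, Nat.prime_dvd_prime_iff_eq q.2 ℓ.2]
    exact fun e => hne (Subtype.ext e))
  rw [Int.cast_natCast] at h1
  exact hl.ne h1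

/-- The root of unity as an algebraic integer of its layer. -/
def cycInt (ℓ : Nat.Primes) : 𝓞 (cycLayer ℓ).field :=
  ⟨⟨cycRoot ℓ, IntermediateField.mem_adjoin_simple_self ℚ _⟩,
    (isIntegral_algHom_iff ((cycLayer ℓ).field.val.restrictScalars ℤ) Subtype.val_injective).1
      ((cycRoot_spec ℓ).isIntegral ℓ.2.pos)⟩

theorem inertiaLoc_cycLayer {q : Nat.Primes} (hne : q ≠ ℓ) :
    inertiaLoc (cycLayer ℓ) q = ⊥ := by
  rw [Subgroup.eq_bot_iff_forall]
  intro x hx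
  induction x using QuotientGroup.induction_on with
  | _ τ =>
    refine (QuotientGroup.eq_one_iff τ).2 ?_
    show loc q τ ∈ (cycLayer ℓ).sub
    rw [← cycChar_eq_one_iff, Units.ext_iff, Units.val_one, cycChar_eq_iff]
    have : Fact (1 < (ℓ : ℕ)) := ⟨ℓ.2.one_lt⟩
    rw [ZMod.val_one, pow_one]
    refine (emb q).injective (eq_of_norm_sub_lt hne ?_ ?_
      ((mk_mem_inertiaLoc_iff (cycLayer ℓ) q τ).1 hx (cycInt ℓ)))
    · rw [← map_pow, ← map_pow]
      show emb q (loc q τ (cycRoot ℓ ^ (ℓ : ℕ))) = 1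
      rw [(cycRoot_spec ℓ).pow_eq_one, map_one, map_one]
    · rw [← map_pow]
      show emb q (cycRoot ℓ ^ (ℓ : ℕ)) = 1
      rw [(cycRoot_spec ℓ).pow_eq_one, map_one]

/-- The prime `q` as a unit modulo `ℓ`. -/
def primeUnit {q : Nat.Primes} (hne : q ≠ ℓ) : (ZMod (ℓ : ℕ))ˣ :=
  ZMod.unitOfCoprime (q : ℕ) ((Nat.coprime_primes q.2 ℓ.2).2 fun e => hne (Subtype.ext e))

/-- The Frobenius of the cyclotomic layer at `q`. -/
theorem exists_frobenius_cyc {q : Nat.Primes} (hne : q ≠ ℓ) :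
    ∃ φ : LGal q, cycChar ℓ (loc q φ) = primeUnit hne ∧
      ∀ τ : LGal q, cycChar ℓ (loc q τ) ∈ Subgroup.zpowers (primeUnit hne) := by
  obtain ⟨F, hF, hgen⟩ := exists_frobenius_loc (cycLayer ℓ) q (inertiaLoc_cycLayer hne)
  obtain ⟨φ, rfl⟩ := QuotientGroup.mk_surjective F
  have hφ : cycChar ℓ (loc q φ) = primeUnit hne := by
    refine Units.ext ((cycChar_eq_iff _ _).2 ((emb q).injective ?_))
    show emb q (loc q φ (cycRoot ℓ)) = emb q (cycRoot ℓ ^ _)
    have h1 : emb q (cycRoot ℓ) ^ (ℓ : ℕ) = 1 := by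
      rw [← map_pow, (cycRoot_spec ℓ).pow_eq_one, map_one]
    have h := hF (cycInt ℓ)
    rw [galMap_mk] at h
    rw [map_pow]
    refine eq_of_norm_sub_lt hne ?_ ?_ ?_
    · rw [← map_pow, ← map_pow, (cycRoot_spec ℓ).pow_eq_one, map_one, map_one]
    · rw [← pow_mul, mul_comm, pow_mul, h1, one_pow]
    · have e : (((primeUnit hne : (ZMod (ℓ : ℕ))ˣ) : ZMod (ℓ : ℕ))).val = (q : ℕ) % (ℓ : ℕ) :=
        ZMod.val_natCast _ _
      rw [e, ← pow_eq_pow_mod _ h1]
      exact h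
  refine ⟨φ, hφ, fun τ => ?_⟩
  obtain ⟨k, hk⟩ := Subgroup.mem_zpowers_iff.1 (hgen (QuotientGroup.mk τ))
  refine Subgroup.mem_zpowers_iff.2 ⟨k, ?_⟩
  rw [← hφ, ← map_zpow]
  have h' : (QuotientGroup.mk ((φ ^ k)⁻¹ * τ) : LocG (cycLayer ℓ) q) = 1 := by
    rw [QuotientGroup.mk_mul, QuotientGroup.mk_inv, QuotientGroup.mk_zpow, hk, inv_mul_cancel]
  have h : loc q ((φ ^ k)⁻¹ * τ) ∈ (cycLayer ℓ).sub :=
    (QuotientGroup.eq_one_iff ((φ ^ k)⁻¹ * τ)).1 h'
  rw [← cycChar_eq_one_iff, map_mul, map_inv, map_mul, map_inv, inv_mul_eq_one, map_zpow] at h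
  exact h

theorem cycChar_surjective : Function.Surjective (cycChar ℓ) := fun a => by
  obtain ⟨r, hrl, hr, hra⟩ := Nat.forall_exists_prime_gt_and_eq_mod a.isUnit (ℓ : ℕ)
  have hne : (⟨r, hr⟩ : Nat.Primes) ≠ ℓ := fun e => by
    rw [← e] at hrl
    exact lt_irrefl _ hrl
  obtain ⟨φ, hφ, -⟩ := exists_frobenius_cyc (ℓ := ℓ) hne
  exact ⟨loc _ φ, hφ.trans (Units.ext hra)⟩

end Cyclotomic

end FLTAgent.GlobalDuality
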