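import Mathlib
import Fermat.Agent.GlobalDuality.Descent
import Fermat.Agent.IdeleClassCohomology.KummerField
import Fermat.Agent.Density.Frobenius
import Fermat.Agent.Deuring.Archimedean

/-!
# Roots of `S`-units

The `S`-units of the maximal extension unramified outside `S ∋ p` are `p`-divisible.
-/

set_option autoImplicit false

noncomputable section

open scoped Pointwise

namespace FLTAgent.GlobalDuality

open FLTAgent.GalCoh FLTAgent.LocalDuality FLTAgent.IdeleClassCohomology ExtCitation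

/-- A normal open subgroup containing the inertia groups outside `S` is the group of a layer. -/
theorem exists_layer_of_subgroup {S : Finset Nat.Primes} (N : Subgroup Gam) [N.Normal]
    {M : Layer} (hle : M.sub ≤ N)
    (hur : ∀ q : Nat.Primes, q ∉ S → ∀ A : ValuationSubring QQbar,
      A.LiesOverPrime (q : ℕ) → A.inertiaSubgroupIn ℚ ≤ N) :
    ∃ L : Layer, L.IsS S ∧ L.sub = N := by
  have := M.finite
  have : Algebra.IsAlgebraic ℚ QQbar := AlgebraicClosure.isAlgebraic ℚ
  have : IsGalois ℚ QQbar := IsAlgClosure.isGalois ℚ _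
  have hopen : IsOpen (N : Set Gam) :=
    Subgroup.isOpen_mono hle (IntermediateField.fixingSubgroup_isOpen M.field)
  have hfix : (IntermediateField.fixedField N).fixingSubgroup = N :=
    InfiniteGalois.fixingSubgroup_fixedField ⟨N, OpenSubgroup.isClosed ⟨N, hopen⟩⟩
  have hEM : IntermediateField.fixedField N ≤ M.field :=
    (IntermediateField.fixedField_antitone hle).trans
      (InfiniteGalois.fixedField_fixingSubgroup M.field).le
  have hfin : FiniteDimensional ℚ (IntermediateField.fixedField N) :=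
    FiniteDimensional.of_injective (IntermediateField.inclusion hEM).toLinearMap
      (IntermediateField.inclusion_injective hEM)
  have : (IntermediateField.fixedField N).fixingSubgroup.Normal := by rw [hfix]; infer_instance
  have hgal : IsGalois ℚ (IntermediateField.fixedField N) :=
    (InfiniteGalois.normal_iff_isGalois _).1 inferInstance
  exact ⟨⟨IntermediateField.fixedField N, hfin, hgal.to_normal⟩,
    ⟨hfin, fun q hq A hA => (hur q hq A hA).trans hfix.ge⟩, hfix⟩

/-- A unit at every place over `q` is a unit of every valuation ring over `q`. -/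
theorem mem_of_forall_unitsAt {q : Nat.Primes} {A : ValuationSubring QQbar}
    (hA : A.LiesOverPrime (q : ℕ)) {a : GU}
    (h : ∀ σ : Gam, (principal a).at q σ ∈ unitsAt q) : a.val ∈ A ∧ a.val⁻¹ ∈ A := by
  have hP : (padicPlace (q : ℕ)).LiesOverPrime (q : ℕ) := by
    show ((q : ℕ) : QQbar) ∈ (padicPlace (q : ℕ)).nonunits
    rw [ValuationSubring.mem_nonunits_iff_or]
    refine Or.inr fun hmem => ?_
    rw [mem_padicPlace_iff, map_inv₀, map_natCast, ← NNReal.coe_le_coe, coe_nnnorm, norm_inv,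
      NNReal.coe_one, IdeleClassCohomology.norm_natCast_self, inv_inv] at hmem
    exact absurd hmem (not_le.2 (by exact_mod_cast q.2.one_lt))
  obtain ⟨τ, rfl⟩ := Density.exists_smul_eq_of_liesOverPrime q.2 hP hA
  have h1 : ‖emb q (τ⁻¹ a.val)‖ = 1 := by
    have h2 := h τ⁻¹
    rwa [mem_unitsAt_iff, at_principal] at h2
  simp only [ValuationSubring.mem_pointwise_smul_iff_inv_smul_mem, AlgEquiv.smul_def,
    mem_padicPlace_iff, ← NNReal.coe_le_coe, coe_nnnorm, NNReal.coe_one, map_inv₀, norm_inv]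
  exact ⟨h1.le, by rw [h1, inv_one]⟩

/-- A root of unity of order prime to the residue characteristic congruent to one is one. -/
theorem eq_one_of_sub_one_mem_nonunits {q : ℕ} [Fact q.Prime] {A : ValuationSubring QQbar}
    (hA : A.LiesOverPrime q) {n : ℕ} (hn : ¬q ∣ n) {z : QQbar} (hz : z ^ n = 1)
    (h : z - 1 ∈ A.nonunits) : z = 1 := by
  obtain ⟨hm, hu⟩ := ValuationSubring.mem_nonunits_iff_exists_mem_maximalIdeal.1 h
  by_contra hne
  have hzA : z ∈ A := by
    have := add_mem hm (one_mem A)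
    rwa [sub_add_cancel] at this
  set c : A := ⟨z, hzA⟩
  have h0 : (∑ i ∈ Finset.range n, c ^ i) * (c - 1) = 0 := by
    rw [geom_sum_mul, sub_eq_zero]
    exact Subtype.ext hz
  have h1 : c - 1 ≠ 0 := sub_ne_zero.2 fun e => hne (congrArg Subtype.val e)
  have h2 := congrArg (IsLocalRing.residue A) ((mul_eq_zero.1 h0).resolve_right h1)
  have h3 : IsLocalRing.residue A c = 1 := by
    rw [← sub_eq_zero, ← map_one (IsLocalRing.residue A), ← map_sub,
      IsLocalRing.residue_eq_zero_iff]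
    exact hu
  simp only [map_sum, map_pow, h3, one_pow, Finset.sum_const, Finset.card_range, nsmul_one,
    map_zero] at h2
  exact Deuring.natCast_residue_ne_zero hA hn h2

variable {p : ℕ} [hp : Fact p.Prime] {S : Finset Nat.Primes}

/-- Inertia outside `S` fixes the `p`-th roots of `S`-units. -/
theorem smul_root_eq_of_inertia (hpS : pPrime p ∈ S) {a r : GU} (ha : a ∈ sUnits S)
    (hr : p • r = a) {q : Nat.Primes} (hq : q ∉ S) {A : ValuationSubring QQbar}
    (hA : A.LiesOverPrime (q : ℕ)) {τ : Gam} (hτ : τ ∈ A.inertiaSubgroupIn ℚ) : τ • r = r := by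
  obtain ⟨⟨L, hL, hfix⟩, hunits⟩ := (mem_sUnits_iff (S := S)).1 ha
  have hτa : τ • a = a := (eq_of_smul_principal.1 hfix) τ (hL.2 q hq A hA hτ)
  have hru : ∀ σ : Gam, (principal r).at q σ ∈ unitsAt q := fun σ => by
    have h1 := hunits q hq σ
    rw [mem_unitsAt_iff, at_principal] at h1 ⊢
    rw [← hr, GU.val_nsmul, map_pow, map_pow, norm_pow] at h1
    exact (pow_eq_one_iff_of_nonneg (norm_nonneg _) hp.out.ne_zero).1 h1
  obtain ⟨hrA, hrA'⟩ := mem_of_forall_unitsAt hA hru
  have hqp : ¬(q : ℕ) ∣ p := fun h => hq (by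
    rwa [show q = pPrime p from Subtype.ext ((Nat.prime_dvd_prime_iff_eq q.2 hp.out).1 h)])
  refine GU.ext ?_
  rw [GU.val_smul]
  have hz : (τ r.val * r.val⁻¹) ^ p = 1 := by
    have h1 : τ r.val ^ p = r.val ^ p := by
      rw [← GU.val_nsmul, hr, ← map_pow, ← GU.val_nsmul, hr, ← GU.val_smul, hτa]
    rw [mul_pow, h1, inv_pow, mul_inv_cancel₀ (pow_ne_zero _ r.val_ne_zero)]
  have hz1 : τ r.val * r.val⁻¹ - 1 ∈ A.nonunits := by
    have h1 := (Density.mem_inertiaSubgroupIn_iff.1 hτ).2 _ hrA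
    obtain ⟨hm, hu⟩ := ValuationSubring.mem_nonunits_iff_exists_mem_maximalIdeal.1 h1
    refine ValuationSubring.mem_nonunits_iff_exists_mem_maximalIdeal.2 ⟨?_, ?_⟩
    · rw [show τ r.val * r.val⁻¹ - 1 = (τ r.val - r.val) * r.val⁻¹ by
        rw [sub_mul, mul_inv_cancel₀ r.val_ne_zero]]
      exact mul_mem hm hrA'
    · convert Ideal.mul_mem_right (⟨r.val⁻¹, hrA'⟩ : A) _ hu using 1
      refine Subtype.ext ?_
      show τ r.val * r.val⁻¹ - 1 = (τ r.val - r.val) * r.val⁻¹
      rw [sub_mul, mul_inv_cancel₀ r.val_ne_zero]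
  have : Fact (q : ℕ).Prime := ⟨q.2⟩
  have h := eq_one_of_sub_one_mem_nonunits hA hqp hz hz1
  exact (mul_inv_eq_one₀ r.val_ne_zero).1 h

/-- A root of an `S`-unit is an `S`-unit. -/
theorem mem_sUnits_of_nsmul_mem (hpS : pPrime p ∈ S) {r : GU} (hmem : p • r ∈ sUnits S) :
    r ∈ sUnits S := by
  obtain ⟨a, ha, hr⟩ : ∃ a ∈ sUnits S, p • r = a := ⟨_, hmem, rfl⟩
  obtain ⟨M, hM⟩ := exists_layer_fix r.val
  let N : Subgroup Gam :=
    { carrier := {g | ∀ τ : Gam, g • τ • r = τ • r}
      one_mem' := fun τ => one_smul _ _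
      mul_mem' := fun {g h} hg hh τ => by rw [mul_smul, hh, hg]
      inv_mem' := fun {g} hg τ => by rw [inv_smul_eq_iff, hg] }
  have hN : ∀ g, g ∈ N ↔ ∀ τ : Gam, g • τ • r = τ • r := fun g => Iff.rfl
  have : N.Normal := ⟨fun g hg h => (hN _).2 fun τ => by
    rw [mul_smul, mul_smul, ← mul_smul h⁻¹ τ r, (hN g).1 hg, mul_smul, smul_inv_smul]⟩
  have hMN : M.sub ≤ N := fun s hs => (hN s).2 fun τ => by
    rw [← mul_smul, show s * τ = τ * (τ⁻¹ * s * τ) by group, mul_smul]
    congr 1
    exact GU.ext (hM _ (by simpa using M.sub_normal.conj_mem s hs τ⁻¹))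
  have haS : ∀ τ : Gam, τ • a ∈ sUnits S := fun τ => by
    rw [mem_sUnits_iff, principal_smul]
    exact smul_mem_sIdeles S τ ha
  obtain ⟨L, hL, hLN⟩ := exists_layer_of_subgroup (S := S) N hMN fun q hq A hA g hg =>
    (hN g).2 fun τ => smul_root_eq_of_inertia hpS (haS τ) (by rw [smul_comm, hr]) hq hA hg
  refine ⟨⟨L, hL, fun g hg => ?_⟩, fun q hq σ => ?_⟩
  · rw [hLN] at hg
    rw [← principal_smul]
    conv_lhs => rw [← one_smul Gam r, (hN g).1 hg 1, one_smul]
  · have h1 := ((mem_sUnits_iff (S := S)).1 ha).2 q hq σ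
    rw [mem_unitsAt_iff, at_principal] at h1 ⊢
    rw [← hr, GU.val_nsmul, map_pow, map_pow, norm_pow] at h1
    exact (pow_eq_one_iff_of_nonneg (norm_nonneg _) hp.out.ne_zero).1 h1

theorem sUnits_exists_root (hpS : pPrime p ∈ S) {a : GU} (ha : a ∈ sUnits S) :
    ∃ r ∈ sUnits S, p • r = a := by
  obtain ⟨r, hr⟩ := exists_root p a
  exact ⟨r, mem_sUnits_of_nsmul_mem hpS (hr ▸ ha), hr⟩

end FLTAgent.GlobalDuality
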