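import Mathlib
import Fermat.Agent.GlobalDuality.Descent
import Fermat.Agent.GlobalDuality.Cyclic
import Fermat.Agent.GlobalDuality.StepLift

/-!
# Dévissage for the idele classes of a layer

From the two statements on cyclic steps of degree `p` we get the vanishing of `H1` and the order
bound on `H2` for `p`-subgroups of the Galois group of a layer.
-/

set_option autoImplicit false

noncomputable section

namespace FLTAgent.GlobalDuality

open FLTAgent.GalCoh

/-- Class field theory of a cyclic step of degree `p`: Hilbert 90 for classes, and `p` classes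
cover the invariants modulo norms. -/
def ClassStep (p : ℕ) : Prop :=
  ∀ (L : Layer) (N' N : Subgroup Gam), L.sub ≤ N' → N' ≤ N → N'.relIndex N = p →
    (N'.subgroupOf N).Normal → ∀ g ∈ N, g ∉ N' →
      (∀ c ∈ fixedPts N' IdeleClass, (∑ i ∈ Finset.range p, g ^ i • c) = 0 →
        ∃ d ∈ fixedPts N' IdeleClass, c = g • d - d) ∧
      ∃ s : Finset IdeleClass, s.card ≤ p ∧ (∀ t ∈ s, t ∈ fixedPts N IdeleClass) ∧
        ∀ a ∈ fixedPts N IdeleClass, ∃ t ∈ s, ∃ b ∈ fixedPts N' IdeleClass,
          a = t + ∑ i ∈ Finset.range p, g ^ i • b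

/-- The module of idele classes of a layer. -/
abbrev LayerC (L : Layer) : AddSubgroup IdeleClass := fixedPts L.sub IdeleClass

theorem stepBound_classes (p : ℕ) [hp : Fact p.Prime] (hstep : ClassStep p) (L : Layer) :
    StepBound p (Gam ⧸ L.sub) (LayerC L) := by
  intro K K' _ hidx
  obtain ⟨N', N, g, hM, hle, hidx', hnormal, hgN, hg', hH1, hH2⟩ :=
    exists_step_lift (A := IdeleClass) L.sub K K' hidx
  obtain ⟨h90, hcov⟩ := hstep L N' N hM hle hidx' hnormal g hgN hg'
  exact ⟨hH1 h90, hH2 hcov⟩

theorem classes_pgroup_bound (p : ℕ) [Fact p.Prime] (hstep : ClassStep p) (L : Layer)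
    (K : Subgroup (Gam ⧸ L.sub)) (hK : IsPGroup p K) :
    Subsingleton (H1 K (LayerC L)) ∧ Finite (H2 K (LayerC L)) ∧
      Nat.card (H2 K (LayerC L)) ≤ Nat.card K :=
  pgroup_bound (stepBound_classes p hstep L) K hK

end FLTAgent.GlobalDuality
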