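import Mathlib
import Fermat.Agent.GlobalDuality.ClassStep
import Fermat.Agent.LanglandsTunnell.CFT.ArtinPrime

/-!
# The two inequalities for cyclic steps of odd prime degree

`classStep` proves `ClassStep p` for `p ≠ 2` from the Artin map of a cyclic step: `H¹` of the idele
classes vanishes and the norm index is `p`. It feeds the class module of a layer.
-/

set_option autoImplicit false

noncomputable section

namespace FLTAgent.GlobalDuality

open FLTAgent.GalCoh FLTAgent.IdeleClassCohomology

theorem classStep {p : ℕ} [hp : Fact p.Prime] (hp2 : p ≠ 2) : ClassStep p := by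
  intro L N' N hL hle hidx hnorm g hg hg'
  classical
  obtain ⟨D, rfl, rfl, rfl⟩ := exists_cyclicStep hL hle hidx hnorm hg hg'
  have hinf : D.InfSplit := Or.inl hp2
  refine ⟨fun c hc hN => LanglandsTunnell.CFT.exists_eq_smul_sub D hinf hc hN, ?_⟩
  set R := (normTo IdeleClass D.top D.bot).range
  have hcard : Nat.card (fixedPts D.bot IdeleClass ⧸ R) = p :=
    R.index_eq_card.symm.trans (LanglandsTunnell.CFT.normIndex_eq D hinf)
  have : Finite (fixedPts D.bot IdeleClass ⧸ R) :=
    Nat.finite_of_card_ne_zero (by rw [hcard]; exact hp.out.ne_zero)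
  have := Fintype.ofFinite (fixedPts D.bot IdeleClass ⧸ R)
  refine ⟨Finset.univ.image fun q : fixedPts D.bot IdeleClass ⧸ R => (q.out : IdeleClass),
    Finset.card_image_le.trans (by rw [Finset.card_univ, ← Nat.card_eq_fintype_card, hcard]),
    fun t ht => ?_, fun a ha => ?_⟩
  · obtain ⟨q, -, rfl⟩ := Finset.mem_image.1 ht
    exact q.out.2
  · set q : fixedPts D.bot IdeleClass ⧸ R := QuotientAddGroup.mk ⟨a, ha⟩
    have h : -q.out + (⟨a, ha⟩ : fixedPts D.bot IdeleClass) ∈ R :=
      QuotientAddGroup.eq.1 (QuotientAddGroup.out_eq' q)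
    obtain ⟨b, hb⟩ := h
    refine ⟨(q.out : IdeleClass), Finset.mem_image.2 ⟨q, Finset.mem_univ _, rfl⟩, b, b.2, ?_⟩
    rw [← D.coe_normTo b, hb, AddSubgroup.coe_add, AddSubgroup.coe_neg, add_neg_cancel_left]

end FLTAgent.GlobalDuality
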