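import Mathlib
import Fermat.Agent.GlobalDuality.Layers

/-!
# Inflation and restriction in degree two

The exactness of inflation and restriction in degree two, up to an integer killing `H1` of the
kernel (`exists_inflation2`).
-/

set_option autoImplicit false

noncomputable section

namespace FLTAgent.GalCoh

variable {G : Type} [Group G] {G' : Type} [Group G'] {A : Type} [AddCommGroup A]
  [DistribMulAction G A] {A' : Type} [AddCommGroup A'] [DistribMulAction G' A']

theorem exists_inflation2 {φ : G' →* G} {f : A →+ A'} (hc : CompatPair φ f)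
    (hφ : Function.Surjective φ) (hf : Function.Injective f)
    (hfix : ∀ b : A', (∀ k : G', φ k = 1 → k • b = b) → ∃ a, f a = b) (m : ℕ)
    (h1 : ∀ z : H1 φ.ker A', m • z = 0) (x : H2 G' A')
    (hx : H2.map φ.ker.subtype (AddMonoidHom.id A') (CompatPair.subtype _) x = 0) :
    ∃ y : H2 G A, H2.map φ f hc y = m • x := by
  classical
  obtain ⟨⟨c, hcz⟩, rfl⟩ := H2.mk_surjective x
  obtain ⟨b₀, hb₀⟩ := (H2.mk_eq_zero_iff _).1 hx
  have hb₀' : ∀ g h : φ.ker, c g h = (g : G') • b₀ h - b₀ (g * h) + b₀ g := fun g h => hb₀ g h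
  have hco : ∀ g h j, c (g * h) j + c g h = g • c h j + c g (h * j) := hcz
  choose s₀ hs₀ using hφ
  let s : G → G' := fun q => if q = 1 then 1 else s₀ q
  have hs : ∀ q, φ (s q) = q := fun q => by
    by_cases hq : q = 1
    · simp [s, hq]
    · simp [s, hq, hs₀]
  have hs1 : s 1 = 1 := if_pos rfl
  let k : G' → φ.ker := fun g => ⟨(s (φ g))⁻¹ * g, by
    rw [MonoidHom.mem_ker, map_mul, map_inv, hs, inv_mul_cancel]⟩
  have hk : ∀ g, s (φ g) * (k g : G') = g := fun g => mul_inv_cancel_left _ _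
  set e := c 1 1 with he
  have hl : ∀ g, c 1 g = e := fun g => by
    have := hco 1 1 g
    simp only [one_mul, one_smul] at this
    exact (add_left_cancel this).symm
  have hr : ∀ g, c g 1 = g • e := fun g => by
    have := hco g 1 1
    simp only [mul_one] at this
    exact add_right_cancel this
  have hb1 : b₀ 1 = e := by
    have := hb₀' 1 1
    simp only [OneMemClass.coe_one, one_smul, mul_one, sub_self, zero_add] at this
    exact this.symm
  -- first correction
  let b : G' → A' := fun g => s (φ g) • b₀ (k g) - c (s (φ g)) (k g) + s (φ g) • e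
  let c₁ : G' → G' → A' := fun g h => c g h - (g • b h - b (g * h) + b g)
  have hc₁ : ∀ g h j, c₁ (g * h) j + c₁ g h = g • c₁ h j + c₁ g (h * j) := fun g h j => by
    simp only [c₁, smul_sub, smul_add, mul_smul, mul_assoc]
    linear_combination (norm := abel) hco g h j
  have hbH : ∀ h : φ.ker, b h = b₀ h := fun h => by
    have h0 : φ (h : G') = 1 := h.2
    have hkh : k h = h := Subtype.ext (by simp [k, h0, hs1])
    simp only [b, h0, hs1, one_smul, hkh, hl, sub_add_cancel]
  have hHH : ∀ g h : φ.ker, c₁ g h = 0 := fun g h => by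
    simp only [c₁, hbH, ← Subgroup.coe_mul, hb₀', sub_self]
  have hsk : ∀ q, ∀ h : φ.ker, c₁ (s q) h = 0 := fun q h => by
    have e1 : φ (s q * h) = q := by rw [map_mul, hs, MonoidHom.mem_ker.1 h.2, mul_one]
    have e2 : k (s q * h) = h := Subtype.ext (by simp [k, e1])
    have e3 : k (s q) = 1 := Subtype.ext (by simp [k, hs])
    have b1 : b (s q * h) = s q • b₀ h - c (s q) h + s q • e := by simp only [b, e1, e2]
    have b2 : b (s q) = s q • e := by
      simp only [b, hs, e3, hb1, OneMemClass.coe_one, hr, sub_self, zero_add]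
    simp only [c₁, hbH, b1, b2]
    abel
  have hright : ∀ g, ∀ h : φ.ker, c₁ g h = 0 := fun g h => by
    have h3 := hc₁ (s (φ g)) (k g) h
    rw [hHH, smul_zero, zero_add, ← Subgroup.coe_mul, hsk, hsk, add_zero, hk] at h3
    exact h3
  have hinv : ∀ g g', ∀ h : φ.ker, c₁ g (g' * h) = c₁ g g' := fun g g' h => by
    have h3 := hc₁ g g' h
    rw [hright, hright, smul_zero, zero_add, zero_add] at h3
    exact h3.symm
  -- second correction
  have hz : ∀ q, (fun h : φ.ker => c₁ h (s q)) ∈ Z1 φ.ker A' := fun q => mem_Z1_iff.2 fun h h' => by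
    have h3 := hc₁ h h' (s q)
    rw [hHH, add_zero] at h3
    have hkk : ((s q)⁻¹ * (h' : G') * s q) ∈ φ.ker := by
      rw [MonoidHom.mem_ker, map_mul, map_mul, MonoidHom.mem_ker.1 h'.2, mul_one, map_inv,
        inv_mul_cancel]
    rw [show (h' : G') * s q = s q * ((⟨_, hkk⟩ : φ.ker) : G') by
      show _ = s q * ((s q)⁻¹ * (h' : G') * s q); group, hinv] at h3
    rw [Subgroup.coe_mul, Subgroup.smul_def, h3]
  have hex : ∀ q, ∃ a : A', ∀ h : φ.ker, m • c₁ h (s q) = (h : G') • a - a := fun q => by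
    have := h1 (H1.mk ⟨_, hz q⟩)
    rw [← map_nsmul, H1.mk_eq_zero_iff] at this
    obtain ⟨a, ha⟩ := this
    exact ⟨a, fun h => ha h⟩
  choose a₀ ha₀ using hex
  let a : G → A' := fun q => if q = 1 then 0 else a₀ q
  have ha : ∀ q, ∀ h : φ.ker, m • c₁ h (s q) = (h : G') • a q - a q := fun q h => by
    by_cases hq : q = 1
    · subst hq
      have h0 := hHH h 1
      simp only [OneMemClass.coe_one] at h0
      simp [a, hs1, h0]
    · simp only [a, if_neg hq, ha₀]
  let c₂ : G' → G' → A' := fun g h => m • c₁ g h - (g • a (φ h) - a (φ (g * h)) + a (φ g))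
  have hc₂ : ∀ g h j, c₂ (g * h) j + c₂ g h = g • c₂ h j + c₂ g (h * j) := fun g h j => by
    have h3 := congrArg (m • ·) (hc₁ g h j)
    simp only [nsmul_add, smul_comm m g] at h3
    simp only [c₂, smul_sub, smul_add, mul_smul, mul_assoc]
    linear_combination (norm := abel) h3
  have hleft2 : ∀ (h : φ.ker) g, c₂ h g = 0 := fun h g => by
    have h0 : φ (h : G') = 1 := h.2
    have e1 : c₁ h g = c₁ h (s (φ g)) := by
      conv_lhs => rw [← hk g, hinv]
    simp only [c₂, map_mul, h0, one_mul, e1, ha]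
    simp [a]
  have hright2 : ∀ g, ∀ h : φ.ker, c₂ g h = 0 := fun g h => by
    simp only [c₂, hright, map_mul, MonoidHom.mem_ker.1 h.2, mul_one]
    simp [a]
  have hinv2 : ∀ g g', ∀ h : φ.ker, c₂ g (g' * h) = c₂ g g' := fun g g' h => by
    have h3 := hc₂ g g' h
    rw [hright2, hright2, smul_zero, zero_add, zero_add] at h3
    exact h3.symm
  have hinv3 : ∀ g g', ∀ h : φ.ker, c₂ (g * h) g' = c₂ g g' := fun g g' h => by
    have h3 := hc₂ g h g'
    rw [hleft2, hright2, smul_zero, zero_add, add_zero] at h3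
    have hkk : (g'⁻¹ * (h : G') * g') ∈ φ.ker := by
      rw [MonoidHom.mem_ker, map_mul, map_mul, MonoidHom.mem_ker.1 h.2, mul_one, map_inv,
        inv_mul_cancel]
    rw [h3, show (h : G') * g' = g' * ((⟨_, hkk⟩ : φ.ker) : G') by
      show _ = g' * (g'⁻¹ * (h : G') * g'); group, hinv2]
  have hval : ∀ g g', c₂ g g' = c₂ (s (φ g)) (s (φ g')) := fun g g' => by
    conv_lhs => rw [← hk g, ← hk g', hinv3, hinv2]
  have hfixed : ∀ g g', ∀ h : G', φ h = 1 → h • c₂ g g' = c₂ g g' := fun g g' h hh => by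
    have h3 := hc₂ h g g'
    rw [hleft2 ⟨h, hh⟩ g, hleft2 ⟨h, hh⟩ (g * g'), add_zero, add_zero] at h3
    rw [← h3, hval, map_mul, hh, one_mul, ← hval]
  choose d hd using fun q q' => hfix _ (hfixed (s q) (s q'))
  have hdz : d ∈ Z2 G A := fun g h j => hf (by
    rw [map_add, map_add, show g • d h j = φ (s g) • d h j by rw [hs], hc.compat, hd, hd, hd, hd]
    have h3 := hc₂ (s g) (s h) (s j)
    rw [hval (s g * s h), hval (s g) (s h * s j), map_mul, map_mul, hs, hs, hs] at h3
    exact h3)
  refine ⟨H2.mk ⟨d, hdz⟩, ?_⟩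
  rw [H2.map_mk, ← map_nsmul, ← sub_eq_zero, ← map_sub, H2.mk_eq_zero_iff]
  refine ⟨fun g => -(m • b g + a (φ g)), fun g h => ?_⟩
  show f (d (φ g) (φ h)) - m • c g h = _
  rw [hd, ← hval]
  simp only [c₂, c₁, nsmul_sub, smul_comm m g, smul_neg, smul_add]
  abel

end FLTAgent.GalCoh
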