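import Mathlib
import Fermat.Agent.GlobalDuality.Cyclic

/-!
# Cohomological triviality for `p`-groups

Modules of additive maps out of a lattice (`HomMod`), the socle argument for modules killed by
`p` (`exists_retract_coindIota`), free covers (`freeCover`), and the vanishing of `H1` of maps from
a lattice into a cohomologically trivial module (`subsingleton_H1_homMod_of_trivial`).
-/

set_option autoImplicit false

noncomputable section

namespace FLTAgent.GalCoh

/-- Additive maps with the conjugation action. -/
def HomMod (R W : Type) [AddCommGroup R] [AddCommGroup W] : Type := R →+ W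

variable {R W W' W'' : Type} [AddCommGroup R] [AddCommGroup W] [AddCommGroup W'] [AddCommGroup W'']

instance : AddCommGroup (HomMod R W) := inferInstanceAs (AddCommGroup (R →+ W))

instance : FunLike (HomMod R W) R W := inferInstanceAs (FunLike (R →+ W) R W)

instance : AddMonoidHomClass (HomMod R W) R W := inferInstanceAs (AddMonoidHomClass (R →+ W) R W)

/-- An additive map seen in `HomMod`. -/
def HomMod.mk (f : R →+ W) : HomMod R W := f

theorem HomMod.mk_apply (f : R →+ W) (r : R) : HomMod.mk f r = f r := rfl

@[ext] theorem HomMod.ext {f g : HomMod R W} (h : ∀ r, f r = g r) : f = g := AddMonoidHom.ext h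

theorem HomMod.add_apply (f g : HomMod R W) (r : R) : (f + g) r = f r + g r := rfl

theorem HomMod.sub_apply (f g : HomMod R W) (r : R) : (f - g) r = f r - g r := rfl

theorem HomMod.zero_apply (r : R) : (0 : HomMod R W) r = 0 := rfl

theorem HomMod.nsmul_apply (n : ℕ) (f : HomMod R W) (r : R) : (n • f) r = n • f r := rfl

variable {G : Type} [Group G] [DistribMulAction G R] [DistribMulAction G W]
  [DistribMulAction G W'] [DistribMulAction G W'']

instance : DistribMulAction G (HomMod R W) where
  smul g f := HomMod.mk ((DistribSMul.toAddMonoidHom W g).comp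
    ((f : R →+ W).comp (DistribSMul.toAddMonoidHom R g⁻¹)))
  one_smul f := HomMod.ext fun r => by
    show (1 : G) • f ((1 : G)⁻¹ • r) = f r
    rw [inv_one, one_smul, one_smul]
  mul_smul g h f := HomMod.ext fun r => by
    show (g * h) • f ((g * h)⁻¹ • r) = g • h • f (h⁻¹ • g⁻¹ • r)
    rw [mul_inv_rev, mul_smul, mul_smul]
  smul_zero g := HomMod.ext fun r => smul_zero g
  smul_add g a b := HomMod.ext fun r => smul_add g _ _

theorem HomMod.smul_apply (g : G) (f : HomMod R W) (r : R) : (g • f) r = g • f (g⁻¹ • r) := rfl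

theorem HomMod.smul_eq_self_iff (f : HomMod R W) :
    (∀ g : G, g • f = f) ↔ ∀ (g : G) (r : R), f (g • r) = g • f r := by
  refine ⟨fun h g r => ?_, fun h g => HomMod.ext fun r => ?_⟩
  · have := congrArg (fun e : HomMod R W => e (g • r)) (h g)
    simp only [HomMod.smul_apply, inv_smul_smul] at this
    exact this.symm
  · rw [HomMod.smul_apply, ← h g (g⁻¹ • r), smul_inv_smul]

/-- Postcomposition. -/
def HomMod.post (f : W →+ W') : HomMod R W →+ HomMod R W' where
  toFun φ := HomMod.mk (f.comp φ)
  map_zero' := HomMod.ext fun _ => map_zero f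
  map_add' _ _ := HomMod.ext fun _ => map_add f _ _

theorem HomMod.post_smul (f : W →+ W') (hf : ∀ (g : G) (w : W), f (g • w) = g • f w) (g : G)
    (φ : HomMod R W) : HomMod.post f (g • φ) = g • HomMod.post f φ :=
  HomMod.ext fun _ => hf g _

omit [DistribMulAction G R] in
theorem exists_lift_hom [Module.Free ℤ R] (p : W →+ W') (hp : Function.Surjective p)
    (φ : R →+ W') : ∃ ψ : R →+ W, ∀ r, p (ψ r) = φ r := by
  obtain ⟨ψ, hψ⟩ := Module.projective_lifting_property p.toIntLinearMap φ.toIntLinearMap hp
  exact ⟨ψ.toAddMonoidHom, fun r => LinearMap.congr_fun hψ r⟩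

theorem IsSES.homMod [Module.Free ℤ R] {i : W →+ W'} {p : W' →+ W''} (hs : IsSES G i p) :
    IsSES G (HomMod.post (R := R) i) (HomMod.post (R := R) p) := by
  refine ⟨fun a b h => HomMod.ext fun r => hs.inj (congrArg (fun e : HomMod R W' => e r) h),
    fun φ => ?_, fun ψ => ⟨fun h => ?_, ?_⟩, HomMod.post_smul i hs.equiv_i,
    HomMod.post_smul p hs.equiv_p⟩
  · obtain ⟨ψ, hψ⟩ := exists_lift_hom p hs.surj φ
    exact ⟨HomMod.mk ψ, HomMod.ext hψ⟩
  · have : ∀ r, ∃ a, i a = ψ r := fun r =>
      (hs.exact _).1 (congrArg (fun e : HomMod R W'' => e r) h)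
    choose a ha using this
    refine ⟨HomMod.mk (AddMonoidHom.mk' a fun x y => hs.inj ?_), HomMod.ext ha⟩
    rw [map_add, ha, ha, ha, map_add]
  · rintro ⟨a, rfl⟩
    exact HomMod.ext fun r => hs.comp_eq_zero _

section Generic

variable {A B : Type} [AddCommGroup A] [DistribMulAction G A] [AddCommGroup B]
  [DistribMulAction G B]

theorem subsingleton_H1_of_retract (i : A →+ B) (r : B →+ A)
    (hi : ∀ (g : G) (a : A), i (g • a) = g • i a) (hr : ∀ (g : G) (b : B), r (g • b) = g • r b)
    (hri : ∀ a, r (i a) = a) (h : Subsingleton (H1 G B)) : Subsingleton (H1 G A) := by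
  rw [subsingleton_H1_iff] at h ⊢
  intro f hf
  obtain ⟨b, hb⟩ := h _ ((CompatPair.of_equivariant i hi).mem_Z1 hf)
  exact ⟨r b, fun g => by
    rw [← hr, ← map_sub, show g • b - b = i (f g) from (hb g).symm, hri]⟩

theorem subsingleton_H2_of_retract (i : A →+ B) (r : B →+ A)
    (hi : ∀ (g : G) (a : A), i (g • a) = g • i a) (hr : ∀ (g : G) (b : B), r (g • b) = g • r b)
    (hri : ∀ a, r (i a) = a) (h : Subsingleton (H2 G B)) : Subsingleton (H2 G A) := by
  rw [subsingleton_H2_iff] at h ⊢
  intro f hf
  obtain ⟨b, hb⟩ := h _ ((CompatPair.of_equivariant i hi).mem_Z2 hf)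
  exact ⟨fun g => r (b g), fun g k => by
    rw [← hr, ← map_sub, ← map_add,
      show g • b k - b (g * k) + b g = i (f g k) from (hb g k).symm, hri]⟩

variable {X : Type} [AddCommGroup X]

omit [AddCommGroup A] [DistribMulAction G A] in
theorem Coind.subsingleton_H1_self : Subsingleton (H1 G (Coind G X)) := by
  have h := Coind.subsingleton_H1 (A := X) (⊤ : Subgroup G)
  have hc : CompatPair (Subgroup.topEquiv (G := G)).toMonoidHom (AddMonoidHom.id (Coind G X)) :=
    ⟨fun _ _ => rfl⟩
  exact (H1.map_bijective hc (MulEquiv.bijective _) Function.bijective_id).1.subsingleton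

omit [AddCommGroup A] [DistribMulAction G A] in
theorem Coind.subsingleton_H2_self : Subsingleton (H2 G (Coind G X)) := by
  have h := Coind.subsingleton_H2 (A := X) (⊤ : Subgroup G)
  have hc : CompatPair (Subgroup.topEquiv (G := G)).toMonoidHom (AddMonoidHom.id (Coind G X)) :=
    ⟨fun _ _ => rfl⟩
  exact (H2.map_bijective hc (MulEquiv.bijective _) Function.bijective_id).1.subsingleton

/-- Evaluation at `1` retracts `ι` on a coinduced module. -/
def coindRetract : Coind G (Coind G X) →+ Coind G X where
  toFun u := Coind.mk fun x => u x 1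
  map_zero' := rfl
  map_add' _ _ := rfl

omit [AddCommGroup A] [DistribMulAction G A] in
theorem coindRetract_iota (f : Coind G X) : coindRetract (coindIota G (Coind G X) f) = f :=
  Coind.ext fun x => by
    show f (1 * x) = f x
    rw [one_mul]

omit [AddCommGroup A] [DistribMulAction G A] in
theorem subsingleton_H2_coindQuot_coind (P : Subgroup G) :
    Subsingleton (H2 P (CoindQuot G (Coind G X))) := by
  let s0 : Coind G (Coind G X) →+ Coind G (Coind G X) :=
    AddMonoidHom.id _ - (coindIota G (Coind G X)).comp coindRetract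
  let s : CoindQuot G (Coind G X) →+ Coind G (Coind G X) :=
    QuotientAddGroup.lift _ s0 (by
      rintro _ ⟨a, rfl⟩
      show coindIota G _ a - coindIota G _ (coindRetract (coindIota G _ a)) = 0
      rw [coindRetract_iota, sub_self])
  refine subsingleton_H2_of_retract (G := P) s (coindProj G (Coind G X)) (fun g y => ?_)
    (fun g y => coindProj_smul (g : G) y) (fun y => ?_) (Coind.subsingleton_H2 P)
  · obtain ⟨u, rfl⟩ := coindProj_surjective G _ y
    show (g : G) • u - coindIota G (Coind G X) (coindRetract ((g : G) • u)) =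
      (g : G) • (u - coindIota G (Coind G X) (coindRetract u))
    rw [smul_sub, ← coindIota_smul]
    rfl
  · obtain ⟨u, rfl⟩ := coindProj_surjective G _ y
    show coindProj G _ (u - coindIota G (Coind G X) (coindRetract u)) = coindProj G _ u
    rw [map_sub, sub_eq_self, coindProj_eq_zero_iff]
    exact ⟨_, rfl⟩

variable [Finite G]

/-- The equivariant extension of an additive map to the coinduced module. -/
def coindExt (f : X →+ A) : Coind G X →+ A :=
  letI := Fintype.ofFinite G
  AddMonoidHom.mk' (fun u => ∑ x : G, x⁻¹ • f (u x)) fun u v => by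
    simp only [Coind.add_apply, map_add, smul_add, Finset.sum_add_distrib]

theorem coindExt_apply [Fintype G] (f : X →+ A) (u : Coind G X) :
    coindExt f u = ∑ x : G, x⁻¹ • f (u x) := by
  rw [coindExt, AddMonoidHom.mk'_apply]
  congr!

theorem coindExt_smul (f : X →+ A) (g : G) (u : Coind G X) :
    coindExt f (g • u) = g • coindExt f u := by
  classical
  let := Fintype.ofFinite G
  rw [coindExt_apply, coindExt_apply, Finset.smul_sum]
  refine Fintype.sum_equiv (Equiv.mulRight g) _ _ fun x => ?_
  rw [Coind.smul_apply, Equiv.coe_mulRight, mul_inv_rev, mul_smul, smul_inv_smul]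

/-- A function supported at `1`. -/
def coindSingle (a : X) : Coind G X :=
  open Classical in Coind.mk fun x => if x = 1 then a else 0

theorem coindExt_single (f : X →+ A) (a : X) : coindExt f (coindSingle (G := G) a) = f a := by
  classical
  let := Fintype.ofFinite G
  rw [coindExt_apply, Finset.sum_eq_single 1]
  · rw [coindSingle, Coind.mk_apply, if_pos rfl, inv_one, one_smul]
  · intro x _ hx
    rw [coindSingle, Coind.mk_apply, if_neg hx, map_zero, smul_zero]
  · intro h
    exact absurd (Finset.mem_univ _) h

omit [Finite G] in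
theorem coindExt_self [Fintype G] (u : Coind G X) :
    ∑ x : G, x⁻¹ • coindSingle (G := G) (u x) = u := by
  classical
  ext y
  have happ : ∀ (s : Finset G) (F : G → Coind G X), (∑ x ∈ s, F x) y = ∑ x ∈ s, F x y := fun s F =>
    map_sum (AddMonoidHom.mk' (fun v : Coind G X => v y) fun _ _ => rfl) F s
  rw [happ, Finset.sum_eq_single y]
  · rw [Coind.smul_apply, mul_inv_cancel, coindSingle, Coind.mk_apply, if_pos rfl]
  · intro x _ hx
    rw [Coind.smul_apply, coindSingle, Coind.mk_apply, if_neg]
    exact fun h => hx (mul_inv_eq_one.1 h).symm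
  · intro h
    exact absurd (Finset.mem_univ _) h

variable (A) in
/-- A free cover of a module. -/
def freeCover : Coind G (A →₀ ℤ) →+ A :=
  coindExt (Finsupp.linearCombination ℤ (id : A → A)).toAddMonoidHom

theorem freeCover_surjective : Function.Surjective (freeCover (G := G) A) := fun a =>
  ⟨coindSingle (Finsupp.single a 1), by
    rw [freeCover, coindExt_single]
    simp⟩

theorem freeCover_smul (g : G) (u : Coind G (A →₀ ℤ)) :
    freeCover A (g • u) = g • freeCover A u := coindExt_smul _ g u

omit [Finite G] in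
theorem subsingleton_H1_homMod_coind (X : Type) [AddCommGroup X] :
    Subsingleton (H1 G (HomMod R (Coind G X))) := by
  let Φ : HomMod R (Coind G X) →+ Coind G (HomMod R X) :=
    AddMonoidHom.mk' (fun f => Coind.mk fun x => HomMod.mk
      (AddMonoidHom.mk' (fun r => f (x⁻¹ • r) x) fun a b => by
        rw [smul_add, map_add, Coind.add_apply]))
      fun f g => Coind.ext fun x => HomMod.ext fun r => rfl
  let Ψ : Coind G (HomMod R X) →+ HomMod R (Coind G X) :=
    AddMonoidHom.mk' (fun u => HomMod.mk
      (AddMonoidHom.mk' (fun r => Coind.mk fun x => u x (x • r)) fun a b => Coind.ext fun x => by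
        show u x (x • (a + b)) = u x (x • a) + u x (x • b)
        rw [smul_add, map_add]))
      fun u v => HomMod.ext fun r => Coind.ext fun x => rfl
  refine subsingleton_H1_of_retract (G := G) Φ Ψ (fun g f => ?_) (fun g u => ?_) (fun f => ?_)
    Coind.subsingleton_H1_self
  · refine Coind.ext fun x => HomMod.ext fun r => ?_
    show f (g⁻¹ • x⁻¹ • r) (x * g) = f ((x * g)⁻¹ • r) (x * g)
    rw [mul_inv_rev, mul_smul]
  · refine HomMod.ext fun r => Coind.ext fun x => ?_
    show u (x * g) (x • r) = u (x * g) ((x * g) • g⁻¹ • r)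
    rw [mul_smul, smul_inv_smul]
  · refine HomMod.ext fun r => Coind.ext fun x => ?_
    show f (x⁻¹ • x • r) x = f r x
    rw [inv_smul_smul]

end Generic

section Socle

variable {p : ℕ} [hp : Fact p.Prime] [Finite G]

theorem exists_fixed_ne_zero (hG : IsPGroup p G) {Q : Type} [AddCommGroup Q]
    [DistribMulAction G Q] (hQ : ∀ x : Q, p • x = 0) {x : Q} (hx : x ≠ 0) :
    ∃ y : Q, y ≠ 0 ∧ ∀ g : G, g • y = y := by
  let U : AddSubgroup Q := AddSubgroup.closure (Set.range fun g : G => g • x)
  have : AddGroup.FG U := (AddGroup.fg_iff_addSubgroup_fg U).2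
    ((AddSubgroup.fg_iff U).2 ⟨_, rfl, Set.finite_range _⟩)
  have : Finite U := AddCommGroup.finite_of_fg_isAddTorsion U fun u =>
    isOfFinAddOrder_iff_nsmul_eq_zero.2 ⟨p, hp.out.pos, Subtype.ext (hQ u)⟩
  have hsmul : ∀ (g : G), ∀ u ∈ U, g • u ∈ U := fun g u hu => by
    induction hu using AddSubgroup.closure_induction with
    | mem v hv =>
      obtain ⟨h, rfl⟩ := hv
      exact AddSubgroup.subset_closure ⟨g * h, mul_smul g h x⟩
    | zero => rw [smul_zero]; exact U.zero_mem
    | add a b _ _ ha hb => rw [smul_add]; exact U.add_mem ha hb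
    | neg v _ hv => rw [smul_neg]; exact U.neg_mem hv
  let : MulAction G U :=
    { smul := fun g u => ⟨g • (u : Q), hsmul g u u.2⟩
      one_smul := fun u => Subtype.ext (one_smul G (u : Q))
      mul_smul := fun g h u => Subtype.ext (mul_smul g h (u : Q)) }
  have hx' : x ∈ U := AddSubgroup.subset_closure ⟨1, one_smul G x⟩
  have hdvd : p ∣ Nat.card U := by
    have h1 : addOrderOf (⟨x, hx'⟩ : U) = p :=
      addOrderOf_eq_prime (Subtype.ext (hQ x)) fun h => hx (congrArg Subtype.val h)
    exact h1 ▸ addOrderOf_dvd_natCard (⟨x, hx'⟩ : U)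
  obtain ⟨b, hb, hne⟩ := hG.exists_fixed_point_of_prime_dvd_card_of_fixed_point U hdvd
    (a := (0 : U)) (fun g => Subtype.ext (smul_zero g))
  exact ⟨b, fun h => hne (Subtype.ext h).symm, fun g => congrArg Subtype.val (hb g)⟩

omit [Finite G] in
theorem exists_addLeftInverse {A B : Type} [AddCommGroup A] [AddCommGroup B]
    (hA : ∀ a : A, p • a = 0) (hB : ∀ b : B, p • b = 0) (i : A →+ B)
    (hi : Function.Injective i) : ∃ r : B →+ A, ∀ a, r (i a) = a := by
  let := AddCommGroup.zmodModule (n := p) hA
  let := AddCommGroup.zmodModule (n := p) hB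
  obtain ⟨r, hr⟩ := LinearMap.exists_leftInverse_of_injective (K := ZMod p)
    (i.toZModLinearMap p) (LinearMap.ker_eq_bot.2 hi)
  exact ⟨r.toAddMonoidHom, fun a => LinearMap.congr_fun hr a⟩

omit [Finite G] in
theorem exists_addRightInverse {A B : Type} [AddCommGroup A] [AddCommGroup B]
    (hA : ∀ a : A, p • a = 0) (hB : ∀ b : B, p • b = 0) (f : A →+ B)
    (hf : Function.Surjective f) : ∃ r : B →+ A, ∀ b, f (r b) = b := by
  let := AddCommGroup.zmodModule (n := p) hA
  let := AddCommGroup.zmodModule (n := p) hB
  obtain ⟨r, hr⟩ := LinearMap.exists_rightInverse_of_surjective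
    (f.toZModLinearMap p) (LinearMap.range_eq_top.2 hf)
  exact ⟨r.toAddMonoidHom, fun b => LinearMap.congr_fun hr b⟩

/-- A module killed by `p` with trivial `H2` is a direct summand of a coinduced module. -/
theorem exists_retract_coindIota (hG : IsPGroup p G) {V : Type} [AddCommGroup V]
    [DistribMulAction G V] (hV : ∀ x : V, p • x = 0) (h2 : Subsingleton (H2 G V)) :
    ∃ r : Coind G V →+ V, (∀ (g : G) (u : Coind G V), r (g • u) = g • r u) ∧
      ∀ v, r (coindIota G V v) = v := by
  classical
  let := Fintype.ofFinite G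
  have hQ : ∀ x : CoindQuot G V, p • x = 0 := fun x => by
    obtain ⟨u, rfl⟩ := coindProj_surjective G V x
    rw [← map_nsmul, show p • u = 0 from funext fun t => hV (u t), map_zero]
  have hQ1 : Subsingleton (H1 G (CoindQuot G V)) := (coind_delta_bijective G V).1.subsingleton
  let Q0 : AddSubgroup (CoindQuot G V) := fixedPts (⊤ : Subgroup G) (CoindQuot G V)
  obtain ⟨π, hπ₀⟩ := exists_addLeftInverse (p := p) (fun x : Q0 => Subtype.ext (hQ x)) hQ
    Q0.subtype Subtype.val_injective
  have hπ' : ∀ a : Q0, π (a : CoindQuot G V) = a := hπ₀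
  let θ : CoindQuot G V →+ Coind G Q0 :=
    AddMonoidHom.mk' (fun q => Coind.mk fun x => π (x • q)) fun a b => Coind.ext fun x => by
      show π (x • (a + b)) = π (x • a) + π (x • b)
      rw [smul_add, map_add]
  have hθ : ∀ (g : G) q, θ (g • q) = g • θ q := fun g q => Coind.ext fun x => by
    show π (x • g • q) = π ((x * g) • q)
    rw [mul_smul]
  have hinj : Function.Injective θ := by
    refine (injective_iff_map_eq_zero _).2 fun q hq => ?_
    by_contra hne
    let KK : AddSubgroup (CoindQuot G V) := θ.ker
    let : DistribMulAction G KK :=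
      { smul := fun g k => ⟨g • (k : CoindQuot G V), by
          rw [AddMonoidHom.mem_ker, hθ, AddMonoidHom.mem_ker.1 k.2, smul_zero]⟩
        one_smul := fun k => Subtype.ext (one_smul G (k : CoindQuot G V))
        mul_smul := fun g h k => Subtype.ext (mul_smul g h (k : CoindQuot G V))
        smul_zero := fun g => Subtype.ext (smul_zero g)
        smul_add := fun g a b => Subtype.ext (smul_add g (a : CoindQuot G V) (b : CoindQuot G V)) }
    obtain ⟨y, hy, hfix⟩ := exists_fixed_ne_zero hG (Q := KK) (fun k => Subtype.ext (hQ k))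
      (x := ⟨q, hq⟩) (fun h => hne (congrArg Subtype.val h))
    have hy0 : (y : CoindQuot G V) ∈ Q0 := fun g _ => congrArg Subtype.val (hfix g)
    have h1 : π ((1 : G) • (y : CoindQuot G V)) = 0 := congrFun (AddMonoidHom.mem_ker.1 y.2) 1
    rw [one_smul, show π (y : CoindQuot G V) = ⟨y, hy0⟩ from hπ' ⟨y, hy0⟩] at h1
    exact hy (Subtype.ext (congrArg Subtype.val h1 :))
  have hsurj : Function.Surjective θ := by
    intro u
    by_contra hu
    let : DistribMulAction G (Coind G Q0 ⧸ θ.range) :=
      { smul := fun g => QuotientAddGroup.map _ _ (DistribSMul.toAddMonoidHom (Coind G Q0) g) (by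
          rintro _ ⟨a, rfl⟩
          exact ⟨g • a, hθ g a⟩)
        one_smul := fun x => by
          induction x using QuotientAddGroup.induction_on with
          | _ f => exact congrArg (QuotientAddGroup.mk' θ.range) (one_smul G f)
        mul_smul := fun g h x => by
          induction x using QuotientAddGroup.induction_on with
          | _ f => exact congrArg (QuotientAddGroup.mk' θ.range) (mul_smul g h f)
        smul_zero := fun g => map_zero _
        smul_add := fun g x y => map_add _ x y }
    have hK : ∀ k : Coind G Q0 ⧸ θ.range, p • k = 0 := fun k => by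
      induction k using QuotientAddGroup.induction_on with
      | _ f =>
        rw [← QuotientAddGroup.mk_nsmul,
          show p • f = 0 from funext fun t => Subtype.ext (hQ _), QuotientAddGroup.mk_zero]
    obtain ⟨y, hy, hfix⟩ := exists_fixed_ne_zero hG hK
      (x := (QuotientAddGroup.mk u : Coind G Q0 ⧸ θ.range))
      (fun h => hu ((QuotientAddGroup.eq_zero_iff _).1 h))
    obtain ⟨w, rfl⟩ := QuotientAddGroup.mk'_surjective θ.range y
    have : ∀ g : G, ∃ c, θ c = g • w - w := fun g => by
      have h : QuotientAddGroup.mk' θ.range (g • w) = QuotientAddGroup.mk' θ.range w := hfix g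
      exact (QuotientAddGroup.eq_zero_iff _).1
        (show QuotientAddGroup.mk' θ.range (g • w - w) = 0 by rw [map_sub, h, sub_self])
    choose c hc using this
    have hz : c ∈ Z1 G (CoindQuot G V) := mem_Z1_iff.2 fun g h => hinj (by
      rw [map_add, hθ, hc, hc, hc, mul_smul, smul_sub]; abel)
    obtain ⟨a, ha⟩ := subsingleton_H1_iff.1 hQ1 c hz
    have hw : ∀ g : G, g • (w - θ a) = w - θ a := fun g => by
      have := hc g
      rw [ha, map_sub, hθ] at this
      rw [smul_sub]
      linear_combination (norm := abel) -this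
    set b : Q0 := (w - θ a) 1
    have hb : w - θ a = θ (b : CoindQuot G V) := Coind.ext fun x => by
      show _ = π (x • (b : CoindQuot G V))
      rw [b.2 x (Subgroup.mem_top x), hπ']
      have := congrFun (hw x) 1
      rw [Coind.smul_apply, one_mul] at this
      exact this
    refine hy ((QuotientAddGroup.eq_zero_iff w).2 ⟨(b : CoindQuot G V) + a, ?_⟩)
    rw [map_add, ← hb, sub_add_cancel]
  let e := AddEquiv.ofBijective θ ⟨hinj, hsurj⟩
  obtain ⟨lift, hlift'⟩ := exists_addRightInverse (p := p)
    (fun u : Coind G V => funext fun t => hV (u t)) hQ (coindProj G V) (coindProj_surjective G V)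
  let s0 : Q0 →+ Coind G V :=
    AddMonoidHom.mk' (fun a => lift (e.symm (coindSingle a))) fun a b => by
    rw [← map_add, ← map_add]
    congr 2
    refine Coind.ext fun x => ?_
    simp only [coindSingle, Coind.mk_apply, Coind.add_apply]
    split <;> simp
  let s : CoindQuot G V →+ Coind G V := (coindExt s0).comp θ
  have hs : ∀ (g : G) q, s (g • q) = g • s q := fun g q => by
    show coindExt s0 (θ (g • q)) = _
    rw [hθ, coindExt_smul]; rfl
  have hsp : ∀ q, coindProj G V (s q) = q := fun q => by
    refine e.injective ?_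
    show θ (coindProj G V (coindExt s0 (θ q))) = θ q
    rw [coindExt_apply, map_sum, map_sum]
    refine Eq.trans (Finset.sum_congr rfl fun x _ => ?_) (coindExt_self (θ q))
    rw [coindProj_smul, hθ]
    show x⁻¹ • θ (coindProj G V (lift (e.symm _))) = _
    rw [hlift']
    exact congrArg (x⁻¹ • ·) (e.apply_symm_apply _)
  have hex : ∀ u : Coind G V, ∃ v, coindIota G V v = u - s (coindProj G V u) := fun u =>
    (coindProj_eq_zero_iff _).1 (by rw [map_sub, hsp, sub_self])
  choose r hr using hex
  refine ⟨AddMonoidHom.mk' r fun a b => coindIota_injective (by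
      rw [map_add (coindIota G V), hr, hr, hr, map_add, map_add]; abel),
    fun g u => coindIota_injective (G := G) ?_, fun v => coindIota_injective (G := G) ?_⟩
  · show coindIota G V (r (g • u)) = coindIota G V (g • r u)
    rw [coindIota_smul, hr, hr, coindProj_smul, hs, smul_sub]
  · show coindIota G V (r _) = _
    rw [hr, (coindProj_eq_zero_iff _).2 ⟨v, rfl⟩, map_zero, sub_zero]

/-- Quotient by `p`. -/
theorem homMod_acyclic (hG : IsPGroup p G) [Module.Free ℤ R]
    (htf : ∀ w : W, p • w = 0 → w = 0) (h2 : Subsingleton (H2 G W))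
    (h3 : Subsingleton (H2 G (CoindQuot G W))) :
    Subsingleton (H1 G (HomMod R W)) ∧ Subsingleton (H2 G (HomMod R W)) := by
  let pmul : W →+ W := nsmulAddMonoidHom p
  have hstable : ∀ g : G, pmul.range ≤ pmul.range.comap (DistribSMul.toAddMonoidHom W g) := by
    rintro g _ ⟨a, rfl⟩
    exact ⟨g • a, (smul_comm g p a).symm⟩
  let : DistribMulAction G (W ⧸ pmul.range) :=
    { smul := fun g => QuotientAddGroup.map _ _ (DistribSMul.toAddMonoidHom W g) (hstable g)
      one_smul := fun x => by
        induction x using QuotientAddGroup.induction_on with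
        | _ f => exact congrArg (QuotientAddGroup.mk' pmul.range) (one_smul G f)
      mul_smul := fun g h x => by
        induction x using QuotientAddGroup.induction_on with
        | _ f => exact congrArg (QuotientAddGroup.mk' pmul.range) (mul_smul g h f)
      smul_zero := fun g => map_zero _
      smul_add := fun g x y => map_add _ x y }
  have hs : IsSES G pmul (QuotientAddGroup.mk' pmul.range) :=
    ⟨(injective_iff_map_eq_zero _).2 htf, QuotientAddGroup.mk'_surjective _,
      fun b => QuotientAddGroup.eq_zero_iff b, fun g a => (smul_comm g p a).symm, fun _ _ => rfl⟩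
  have hV : ∀ x : W ⧸ pmul.range, p • x = 0 := fun x => by
    induction x using QuotientAddGroup.induction_on with
    | _ f => exact (QuotientAddGroup.eq_zero_iff _).2 ⟨f, rfl⟩
  have hQ := hs.coindQuot
  have hV1 : Subsingleton (H1 G (CoindQuot G (W ⧸ pmul.range))) := by
    have : Subsingleton (H1 G (CoindQuot G W)) := (coind_delta_bijective G W).1.subsingleton
    refine subsingleton_of_forall_eq 0 fun x => ?_
    obtain ⟨y, rfl⟩ := hQ.exact_H1C x (Subsingleton.elim _ _)
    rw [Subsingleton.elim y 0, map_zero]
  have hV2 : Subsingleton (H2 G (W ⧸ pmul.range)) :=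
    (coind_delta_bijective G (W ⧸ pmul.range)).2.subsingleton
  obtain ⟨r, hr, hri⟩ := exists_retract_coindIota hG hV hV2
  have hHV : Subsingleton (H1 G (HomMod R (W ⧸ pmul.range))) :=
    subsingleton_H1_of_retract (HomMod.post (coindIota G _)) (HomMod.post r)
      (HomMod.post_smul _ coindIota_smul) (HomMod.post_smul _ hr)
      (fun f => HomMod.ext fun t => hri _) (subsingleton_H1_homMod_coind _)
  have hH := hs.homMod (R := R)
  have hpost : ∀ f : HomMod R W, HomMod.post pmul f = p • f := fun f => HomMod.ext fun _ => rfl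
  obtain ⟨k, hk⟩ := IsPGroup.iff_card.1 hG
  constructor
  · have hdiv : ∀ x : H1 G (HomMod R W), ∃ y, p • y = x := fun x => by
      obtain ⟨y, hy⟩ := hH.exact_H1B x (Subsingleton.elim _ _)
      refine ⟨y, ?_⟩
      rw [← hy]
      obtain ⟨c, rfl⟩ := H1.mk_surjective y
      rw [IsSES.i1, H1.map_mk, ← map_nsmul]
      congr 1
    have hpow : ∀ (j : ℕ) (x : H1 G (HomMod R W)), ∃ y, p ^ j • y = x := fun j => by
      induction j with
      | zero => exact fun x => ⟨x, by simp⟩
      | succ j ih =>
        intro x
        obtain ⟨y, rfl⟩ := ih x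
        obtain ⟨z, rfl⟩ := hdiv y
        exact ⟨z, by rw [pow_succ, mul_smul]⟩
    refine subsingleton_of_forall_eq 0 fun x => ?_
    obtain ⟨y, rfl⟩ := hpow k x
    rw [← hk, card_nsmul_H1]
  · have hinj : ∀ x : H2 G (HomMod R W), p • x = 0 → x = 0 := fun x hx => by
      have : hH.i2 x = 0 := by
        rw [← hx]
        obtain ⟨c, rfl⟩ := H2.mk_surjective x
        rw [IsSES.i2, H2.map_mk, ← map_nsmul]
        congr 1
      obtain ⟨y, rfl⟩ := hH.exact_H2A x this
      rw [Subsingleton.elim y 0, map_zero]
    have hpow : ∀ (j : ℕ) (x : H2 G (HomMod R W)), p ^ j • x = 0 → x = 0 := fun j => by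
      induction j with
      | zero => exact fun x hx => by simpa using hx
      | succ j ih =>
        intro x hx
        refine hinj x (ih _ ?_)
        rwa [← mul_smul, ← pow_succ]
    exact subsingleton_of_forall_eq 0 fun x => hpow k x (by rw [← hk, card_nsmul_H2])

/-- Maps from a lattice into a cohomologically trivial module. -/
theorem subsingleton_H1_homMod_of_trivial (hG : IsPGroup p G) [Module.Free ℤ R] {U : Type}
    [AddCommGroup U] [DistribMulAction G U] (h1 : Subsingleton (H1 G U))
    (h2 : Subsingleton (H2 G U)) : Subsingleton (H1 G (HomMod R U)) := by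
  let K : AddSubgroup (Coind G (U →₀ ℤ)) := (freeCover (G := G) U).ker
  let : DistribMulAction G K :=
    { smul := fun g k => ⟨g • (k : Coind G (U →₀ ℤ)), by
        rw [AddMonoidHom.mem_ker, freeCover_smul, AddMonoidHom.mem_ker.1 k.2, smul_zero]⟩
      one_smul := fun k => Subtype.ext (one_smul G (k : Coind G (U →₀ ℤ)))
      mul_smul := fun g h k => Subtype.ext (mul_smul g h (k : Coind G (U →₀ ℤ)))
      smul_zero := fun g => Subtype.ext (smul_zero g)
      smul_add := fun g a b => Subtype.ext
        (smul_add g (a : Coind G (U →₀ ℤ)) (b : Coind G (U →₀ ℤ))) }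
  have hs : IsSES G K.subtype (freeCover (G := G) U) :=
    ⟨Subtype.val_injective, freeCover_surjective, fun b => ⟨fun h => ⟨⟨b, h⟩, rfl⟩, by
      rintro ⟨a, rfl⟩; exact a.2⟩, fun _ _ => rfl, freeCover_smul⟩
  have hF2 := Coind.subsingleton_H2_self (G := G) (X := U →₀ ℤ)
  have hK2 : Subsingleton (H2 G K) := subsingleton_of_forall_eq 0 fun x => by
    obtain ⟨y, rfl⟩ := hs.exact_H2A x (Subsingleton.elim _ _)
    rw [Subsingleton.elim y 0, map_zero]
  have hK3 : Subsingleton (H2 G (CoindQuot G K)) := by
    have hU' : Subsingleton (H1 G (CoindQuot G U)) := (coind_delta_bijective G U).1.subsingleton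
    have hF3' := subsingleton_H2_coindQuot_coind (G := G) (X := U →₀ ℤ) (⊤ : Subgroup G)
    have hc : CompatPair (Subgroup.topEquiv (G := G)).toMonoidHom
        (AddMonoidHom.id (CoindQuot G (Coind G (U →₀ ℤ)))) := ⟨fun _ _ => rfl⟩
    have hF3 : Subsingleton (H2 G (CoindQuot G (Coind G (U →₀ ℤ)))) :=
      (H2.map_bijective hc (MulEquiv.bijective _) Function.bijective_id).1.subsingleton
    refine subsingleton_of_forall_eq 0 fun x => ?_
    obtain ⟨y, rfl⟩ := hs.coindQuot.exact_H2A x (Subsingleton.elim _ _)
    rw [Subsingleton.elim y 0, map_zero]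
  have htf : ∀ w : K, p • w = 0 → w = 0 := fun w hw => Subtype.ext (funext fun t => by
    have h1 : p • ((w : Coind G (U →₀ ℤ)) t) = 0 := congrFun (congrArg Subtype.val hw) t
    exact (smul_eq_zero.1 h1).resolve_left hp.out.ne_zero)
  obtain ⟨hW1, hW2⟩ := homMod_acyclic hG (R := R) htf hK2 hK3
  have hH := hs.homMod (R := R)
  have hF1 := subsingleton_H1_homMod_coind (G := G) (R := R) (U →₀ ℤ)
  refine subsingleton_of_forall_eq 0 fun x => ?_
  obtain ⟨y, rfl⟩ := hH.exact_H1C x (Subsingleton.elim _ _)
  rw [Subsingleton.elim y 0, map_zero]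

end Socle

end FLTAgent.GalCoh
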