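import Mathlib
import Fermat.Agent.GlobalDuality.CT

/-!
# The module of the first bar differential

Stable subgroups as modules, pushforward of classes (`push2`), and the kernel `Ω = barKer G` of the
first bar differential with its universal `2`-cocycle `barOmega`: every class in degree two is its
pushforward along an equivariant map (`push2_kappa`).
-/

set_option autoImplicit false

noncomputable section

namespace FLTAgent.GalCoh

variable {G : Type} [Group G] {A : Type} [AddCommGroup A] [DistribMulAction G A]
  {B : Type} [AddCommGroup B] [DistribMulAction G B]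

/-- A subgroup stable under the action. -/
class IsStableSub (G : Type) [Group G] {A : Type} [AddCommGroup A] [DistribMulAction G A]
    (U : AddSubgroup A) : Prop where
  smul_mem : ∀ (g : G) {a : A}, a ∈ U → g • a ∈ U

instance stableSubAction (U : AddSubgroup A) [h : IsStableSub G U] : DistribMulAction G U where
  smul g u := ⟨g • (u : A), h.smul_mem g u.2⟩
  one_smul u := Subtype.ext (one_smul G (u : A))
  mul_smul g g' u := Subtype.ext (mul_smul g g' (u : A))
  smul_zero g := Subtype.ext (smul_zero g)
  smul_add g u v := Subtype.ext (smul_add g (u : A) (v : A))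

theorem coe_stableSub_smul (U : AddSubgroup A) [IsStableSub G U] (g : G) (u : U) :
    ((g • u : U) : A) = g • (u : A) := rfl

theorem IsStableSub.restrict (U : AddSubgroup A) [h : IsStableSub G U] (P : Subgroup G) :
    IsStableSub P U := ⟨fun g _ ha => h.smul_mem g ha⟩

theorem isStableSub_ker (f : A →+ B) (hf : ∀ (g : G) (a : A), f (g • a) = g • f a) :
    IsStableSub G f.ker :=
  ⟨fun g a ha => by rw [AddMonoidHom.mem_ker, hf, AddMonoidHom.mem_ker.1 ha, smul_zero]⟩

variable (G)

/-- Pushforward of classes along an equivariant map. -/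
def push2 (f : A →+ B) (hf : ∀ (g : G) (a : A), f (g • a) = g • f a) : H2 G A →+ H2 G B :=
  H2.map (MonoidHom.id G) f ⟨hf⟩

variable {G}

theorem push2_mk (f : A →+ B) (hf : ∀ (g : G) (a : A), f (g • a) = g • f a) (c : Z2 G A) :
    push2 G f hf (H2.mk c) = H2.mk ⟨fun g h => f ((c : G → G → A) g h),
      (CompatPair.of_equivariant f hf).mem_Z2 c.2⟩ := rfl

section Bar

variable (G) [Fintype G]

/-- The first bar differential. -/
def barD : Coind G (G → ℤ) →+ Coind G ℤ where
  toFun u := Coind.mk fun y => ∑ h, (u (h * y) h - u y h)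
  map_zero' := Coind.ext fun y => by simp [Coind.mk_apply, Coind.zero_apply]
  map_add' u v := Coind.ext fun y => by
    simp only [Coind.mk_apply, Coind.add_apply, Pi.add_apply, ← Finset.sum_add_distrib]
    exact Finset.sum_congr rfl fun h _ => by ring

theorem barD_apply (u : Coind G (G → ℤ)) (y : G) :
    barD G u y = ∑ h, (u (h * y) h - u y h) := rfl

theorem barD_smul (g : G) (u : Coind G (G → ℤ)) : barD G (g • u) = g • barD G u :=
  Coind.ext fun y => by
    simp only [barD_apply, Coind.smul_apply, mul_assoc]

/-- The augmentation. -/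
def barAug : Coind G ℤ →+ ℤ where
  toFun v := ∑ y, v y
  map_zero' := by simp [Coind.zero_apply]
  map_add' u v := by
    simp only [Coind.add_apply]
    exact Finset.sum_add_distrib

omit [Group G] in
theorem barAug_apply (v : Coind G ℤ) : barAug G v = ∑ y, v y := rfl

theorem barAug_smul (g : G) (v : Coind G ℤ) : barAug G (g • v) = barAug G v := by
  simp only [barAug_apply, Coind.smul_apply]
  exact Equiv.sum_comp (Equiv.mulRight g) fun y => v y

theorem barAug_barD (u : Coind G (G → ℤ)) : barAug G (barD G u) = 0 := by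
  simp only [barAug_apply, barD_apply, Finset.sum_sub_distrib]
  rw [Finset.sum_comm, sub_eq_zero, Finset.sum_comm (f := fun y h => u y h)]
  exact Finset.sum_congr rfl fun h _ => Equiv.sum_comp (Equiv.mulLeft h) fun y => u y h

/-- The augmentation ideal. -/
def augKer : AddSubgroup (Coind G ℤ) := (barAug G).ker

instance augKer_stable : IsStableSub G (augKer G) :=
  ⟨fun g a ha => by
    rw [augKer, AddMonoidHom.mem_ker, barAug_smul]
    exact AddMonoidHom.mem_ker.1 ha⟩

/-- The module `Ω`. -/
def barKer : AddSubgroup (Coind G (G → ℤ)) := (barD G).ker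

instance barKer_stable : IsStableSub G (barKer G) := isStableSub_ker _ (barD_smul G)

/-- A section of the bar differential over the augmentation ideal. -/
def barLift : Coind G ℤ →+ Coind G (G → ℤ) where
  toFun v := coindSingle fun h => v h⁻¹
  map_zero' := Coind.ext fun x => funext fun h => by
    simp only [coindSingle, Coind.mk_apply, Coind.zero_apply]
    split <;> rfl
  map_add' u v := Coind.ext fun x => funext fun h => by
    simp only [coindSingle, Coind.mk_apply, Coind.add_apply]
    split <;> simp

theorem barD_barLift {v : Coind G ℤ} (hv : barAug G v = 0) : barD G (barLift G v) = v := by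
  classical
  refine Coind.ext fun y => ?_
  show ∑ h, ((coindSingle fun k => v k⁻¹) (h * y) h - (coindSingle fun k => v k⁻¹) y h) = v y
  simp only [coindSingle, Coind.mk_apply, Finset.sum_sub_distrib]
  rw [Finset.sum_eq_single y⁻¹]
  · rw [inv_mul_cancel, if_pos rfl, inv_inv]
    rcases eq_or_ne y 1 with rfl | hy
    · simp only [if_pos]
      have h0 : ∑ k, v k⁻¹ = 0 := (Equiv.sum_comp (Equiv.inv G) fun k => v k).trans hv
      linarith
    · simp [if_neg hy]
  · intro h _ hh
    rw [if_neg fun e => hh (mul_eq_one_iff_eq_inv.1 e), Pi.zero_apply]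
  · intro h
    exact absurd (Finset.mem_univ _) h

/-- The unit vector `[1]`. -/
def augUnit : Coind G ℤ := coindSingle 1

theorem barAug_augUnit : barAug G (augUnit G) = 1 := by
  classical
  show (∑ y, if y = 1 then (1 : ℤ) else 0) = 1
  simp

variable {G}

/-- The basis element `1[g]`. -/
def barE (g : G) : Coind G (G → ℤ) := barLift G (g • augUnit G - augUnit G) +
  barLift G (augUnit G)

theorem barD_barE (g : G) :
    barD G (barE g) = g • augUnit G - augUnit G + barD G (barLift G (augUnit G)) := by
  rw [barE, map_add, barD_barLift]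
  rw [map_sub, barAug_smul, sub_self]

theorem barD_barLift_augUnit : barD G (barLift G (augUnit G)) = 0 := by
  classical
  refine Coind.ext fun y => ?_
  show ∑ h, ((coindSingle fun k => augUnit G k⁻¹) (h * y) h -
    (coindSingle fun k => augUnit G k⁻¹) y h) = 0
  simp only [coindSingle, augUnit, Coind.mk_apply, Finset.sum_sub_distrib]
  rcases eq_or_ne y 1 with rfl | hy
  · simp only [mul_one, if_pos]
    rw [sub_eq_zero]
    refine Finset.sum_congr rfl fun h _ => ?_
    by_cases hh : h = 1
    · simp [hh]
    · simp [hh]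
  · rw [Finset.sum_eq_zero, Finset.sum_eq_zero, sub_zero]
    · intro h _
      simp [hy]
    · intro h _
      by_cases hh : h * y = 1
      · rw [if_pos hh]
        simp only [inv_eq_one]
        rw [if_neg]
        rintro rfl
        exact hy (by simpa using hh)
      · simp [hh]

omit [Fintype G] in
theorem barE_apply [DecidableEq G] (g x h : G) : barE g x h = if x = 1 ∧ h = g then 1 else 0 := by
  simp only [barE, Coind.add_apply, Pi.add_apply, barLift, AddMonoidHom.coe_mk, ZeroHom.coe_mk,
    coindSingle, augUnit, Coind.mk_apply, Coind.sub_apply, Coind.smul_apply]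
  by_cases hx : x = 1
  · by_cases hh : h = g
    · simp [hx, hh]
    · have : ¬h⁻¹ * g = 1 := fun e => hh (inv_mul_eq_one.1 e)
      by_cases h1 : h = 1 <;> simp_all
  · simp [hx]

theorem omega_mem (g h : G) :
    g • barE h - barE (g * h) + barE g ∈ barKer G := by
  rw [barKer, AddMonoidHom.mem_ker, map_add, map_sub, barD_smul, barD_barE, barD_barE, barD_barE,
    barD_barLift_augUnit, add_zero, add_zero, add_zero, smul_sub, mul_smul]
  abel

variable (G)

/-- The universal cocycle. -/
def barOmega : Z2 G (barKer G) :=
  ⟨fun g h => ⟨g • barE h - barE (g * h) + barE g, omega_mem g h⟩, fun g h j => Subtype.ext (by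
    simp only [AddSubgroup.coe_add, coe_stableSub_smul, smul_add, smul_sub, mul_smul, mul_assoc]
    abel)⟩

theorem coe_barOmega (g h : G) :
    (((barOmega G : G → G → barKer G) g h : barKer G) : Coind G (G → ℤ)) =
      g • barE h - barE (g * h) + barE g := rfl

variable {G}

/-- The map `k_ρ` on the free module. -/
def kappa₀ (ρ : G → G → A) : Coind G (G → ℤ) →+ A where
  toFun u := ∑ x, ∑ h, u x h • ρ x⁻¹ h
  map_zero' := by simp [Coind.zero_apply]
  map_add' u v := by
    simp only [Coind.add_apply, Pi.add_apply, add_smul, Finset.sum_add_distrib]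

/-- The map `k_ρ : Ω → A`. -/
def kappa (ρ : G → G → A) : barKer G →+ A := (kappa₀ ρ).comp (barKer G).subtype

omit [DistribMulAction G A] in
theorem kappa₀_smul_barE {ρ : G → G → A} (g h : G) : kappa₀ ρ (g • barE h) = ρ g h := by
  classical
  show ∑ x, ∑ k, (g • barE h) x k • ρ x⁻¹ k = ρ g h
  rw [Finset.sum_eq_single g⁻¹, Finset.sum_eq_single h]
  · rw [Coind.smul_apply, inv_mul_cancel, barE_apply, if_pos ⟨rfl, rfl⟩, one_smul, inv_inv]
  · intro k _ hk
    rw [Coind.smul_apply, inv_mul_cancel, barE_apply, if_neg fun e => hk e.2, zero_smul]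
  · intro hh
    exact absurd (Finset.mem_univ _) hh
  · intro x _ hx
    refine Finset.sum_eq_zero fun k _ => ?_
    rw [Coind.smul_apply, barE_apply, if_neg fun e => hx (eq_inv_of_mul_eq_one_left e.1), zero_smul]
  · intro hh
    exact absurd (Finset.mem_univ _) hh

theorem kappa_omega {ρ : G → G → A} (hρ : ρ ∈ Z2 G A) (g h : G) :
    kappa ρ ((barOmega G : G → G → barKer G) g h) = ρ g h := by
  show kappa₀ ρ (g • barE h - barE (g * h) + barE g) = ρ g h
  rw [map_add, map_sub, kappa₀_smul_barE, ← one_smul G (barE (g * h)), ← one_smul G (barE g),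
    kappa₀_smul_barE, kappa₀_smul_barE]
  have h1 : ∀ a, ρ 1 a = ρ 1 1 := fun a => by
    have := mem_Z2_iff.1 hρ 1 1 a
    simp only [one_mul, one_smul] at this
    linear_combination (norm := abel) -this
  rw [h1 (g * h), h1 g]
  abel

theorem barE_decomp (u : Coind G (G → ℤ)) :
    ∑ x, ∑ h, u x h • (x⁻¹ • barE h) = u := by
  classical
  refine Coind.ext fun y => funext fun k => ?_
  have happ : ∀ (s : Finset G) (F : G → Coind G (G → ℤ)),
      (∑ x ∈ s, F x) y k = ∑ x ∈ s, F x y k := fun s F =>
    map_sum (AddMonoidHom.mk' (fun v : Coind G (G → ℤ) => v y k) fun _ _ => rfl) F s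
  have happ' : ∀ (n : ℤ) (F : Coind G (G → ℤ)), (n • F) y k = n • F y k := fun n F =>
    map_zsmul (AddMonoidHom.mk' (fun v : Coind G (G → ℤ) => v y k) fun _ _ => rfl) n F
  rw [happ, Finset.sum_eq_single y, happ, Finset.sum_eq_single k]
  · rw [happ', Coind.smul_apply, mul_inv_cancel, barE_apply, if_pos ⟨rfl, rfl⟩, smul_eq_mul,
      mul_one]
  · intro h _ hh
    rw [happ', Coind.smul_apply, mul_inv_cancel, barE_apply, if_neg fun e => hh e.2.symm, smul_zero]
  · intro hh
    exact absurd (Finset.mem_univ _) hh
  · intro x _ hx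
    rw [happ]
    refine Finset.sum_eq_zero fun h _ => ?_
    rw [happ', Coind.smul_apply, barE_apply, if_neg fun e => hx (mul_inv_eq_one.1 e.1).symm,
      smul_zero]
  · intro hh
    exact absurd (Finset.mem_univ _) hh

theorem barOmega_decomp (u : barKer G) :
    ∑ x, ∑ h, (u : Coind G (G → ℤ)) x h • (barOmega G : G → G → barKer G) x⁻¹ h = u := by
  classical
  set v : Coind G (G → ℤ) := (u : Coind G (G → ℤ))
  refine Subtype.ext ?_
  simp only [AddSubgroup.val_finsetSum, AddSubgroupClass.coe_zsmul, coe_barOmega, smul_add,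
    smul_sub, Finset.sum_add_distrib, Finset.sum_sub_distrib]
  rw [barE_decomp, sub_add, sub_eq_self, sub_eq_zero]
  have hu : ∀ z, ∑ h, (v (h * z) h - v z h) = 0 := fun z => congrFun u.2 z
  calc ∑ x, ∑ h, v x h • barE (x⁻¹ * h) = ∑ h, ∑ z, v (h * z) h • barE z⁻¹ := by
        rw [Finset.sum_comm]
        refine Finset.sum_congr rfl fun h _ =>
          (Fintype.sum_equiv (Equiv.mulLeft h) _ _ fun z => ?_).symm
        rw [Equiv.coe_mulLeft, mul_inv_rev, inv_mul_cancel_right]
    _ = ∑ z, ∑ h, v z h • barE z⁻¹ := by
        rw [Finset.sum_comm]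
        refine Finset.sum_congr rfl fun z _ => ?_
        rw [← Finset.sum_smul, ← Finset.sum_smul]
        congr 1
        have := hu z
        rw [Finset.sum_sub_distrib, sub_eq_zero] at this
        exact this
    _ = _ := rfl

theorem kappa_equivariant {ρ : G → G → A} (hρ : ρ ∈ Z2 G A) (g : G) (u : barKer G) :
    kappa ρ (g • u) = g • kappa ρ u := by
  have key : ∀ (g x h : G), kappa ρ (g • (barOmega G : G → G → barKer G) x h) =
      g • kappa ρ ((barOmega G : G → G → barKer G) x h) := fun g x h => by
    have h2 := mem_Z2_iff.1 (barOmega G).2 g x h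
    rw [eq_sub_of_add_eq h2.symm, map_sub, map_add, kappa_omega hρ, kappa_omega hρ,
      kappa_omega hρ, kappa_omega hρ, eq_sub_of_add_eq (mem_Z2_iff.1 hρ g x h).symm]
  conv_lhs => rw [← barOmega_decomp u]
  conv_rhs => rw [← barOmega_decomp u]
  simp only [Finset.smul_sum, map_sum, smul_comm g (_ : ℤ), map_zsmul, key]

/-- Every class is the pushforward of the universal one. -/
theorem push2_kappa (c : Z2 G A) :
    push2 G (kappa (c : G → G → A)) (kappa_equivariant c.2) (H2.mk (barOmega G)) = H2.mk c := by
  rw [push2_mk]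
  exact congrArg H2.mk (Subtype.ext (funext fun g => funext fun h => kappa_omega c.2 g h))

omit [DistribMulAction G A] in
/-- Equivariant maps on `Ω` agreeing on the universal cocycle agree. -/
theorem hom_ext_barKer {f f' : barKer G →+ A}
    (h : ∀ g k,
      f ((barOmega G : G → G → barKer G) g k) = f' ((barOmega G : G → G → barKer G) g k)) :
    f = f' := by
  ext u
  rw [← barOmega_decomp u, map_sum, map_sum]
  refine Finset.sum_congr rfl fun x _ => ?_
  rw [map_sum, map_sum]
  exact Finset.sum_congr rfl fun y _ => by rw [map_zsmul, map_zsmul, h]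

/-- Restricted to a subgroup, `H2` of `Ω` is generated by the universal class. -/
theorem exists_eq_zsmul_omega (P : Subgroup G) [IsStableSub P (barKer G)] (c : Z2 P (barKer G)) :
    ∃ (n : ℤ) (β : P → barKer G), ∀ g h : P, (c : P → P → barKer G) g h =
      n • (barOmega G : G → G → barKer G) g h + (g • β h - β (g * h) + β g) := by
  obtain ⟨β, hβ⟩ := subsingleton_H2_iff.1 (Coind.subsingleton_H2 (G := G) (A := G → ℤ) P)
    (fun g h => ((c : P → P → barKer G) g h : Coind G (G → ℤ)))
    (fun g h j => congrArg Subtype.val (mem_Z2_iff.1 c.2 g h j))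
  have hz : (fun g => barD G (β g)) ∈ Z1 P (Coind G ℤ) := mem_Z1_iff.2 fun g h => by
    have := congrArg (barD G) (hβ g h)
    rw [show barD G (((c : P → P → barKer G) g h : Coind G (G → ℤ))) = 0 from
        ((c : P → P → barKer G) g h).2, map_add, map_sub, Subgroup.smul_def, barD_smul] at this
    rw [Subgroup.smul_def]
    linear_combination (norm := abel) this
  obtain ⟨b, hb⟩ := subsingleton_H1_iff.1 (Coind.subsingleton_H1 (G := G) (A := ℤ) P) _ hz
  set n := barAug G b
  have hb' : barAug G (b - n • augUnit G) = 0 := by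
    rw [map_sub, map_zsmul, barAug_augUnit, smul_eq_mul, mul_one, sub_self]
  set l := barLift G (b - n • augUnit G)
  have hl : barD G l = b - n • augUnit G := barD_barLift G hb'
  have hmem : ∀ g : P, β g - ((g : G) • l - l) - n • barE (g : G) ∈ barKer G := fun g => by
    rw [barKer, AddMonoidHom.mem_ker]
    simp only [map_sub, map_zsmul, barD_smul, hl, barD_barE,
      barD_barLift_augUnit, add_zero, smul_sub, smul_comm (g : G) n]
    have := hb g
    simp only [Subgroup.smul_def] at this
    rw [this]
    abel
  refine ⟨n, fun g => ⟨_, hmem g⟩, fun g h => Subtype.ext ?_⟩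
  rw [hβ g h]
  simp only [AddSubgroup.coe_add, AddSubgroup.coe_sub, AddSubgroupClass.coe_zsmul, coe_barOmega,
    Subgroup.smul_def, Subgroup.coe_mul, smul_sub, smul_add, mul_smul]
  show _ = _ + ((g : G) • (β h - _ - _) - _ + _)
  simp only [smul_sub, smul_comm (g : G) n]
  abel

end Bar

end FLTAgent.GalCoh
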