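import Mathlib
import Fermat.Agent.GlobalDuality.BarModule

/-!
# The trace pairing between lattices

For lattices with a finite group action, an equivariant map whose traces against all equivariant
maps are divisible by the group order is a norm (`exists_norm_of_dvd_trace`). Used in the
Tate–Nakayama argument.
-/

set_option autoImplicit false

noncomputable section

namespace FLTAgent.GalCoh

variable {A B : Type} [AddCommGroup A] [AddCommGroup B] {C : Type} [AddCommGroup C]

/-- The trace of an additive endomorphism of a lattice. -/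
def intTrace (f : A →+ A) : ℤ := LinearMap.trace ℤ A f.toIntLinearMap

theorem intTrace_add (f f' : A →+ A) : intTrace (f + f') = intTrace f + intTrace f' := by
  rw [intTrace, intTrace, intTrace, ← map_add]
  rfl

theorem intTrace_zero : intTrace (0 : A →+ A) = 0 := by
  rw [intTrace]
  exact map_zero _

/-- `intTrace` as a homomorphism. -/
def intTraceHom : (A →+ A) →+ ℤ where
  toFun := intTrace
  map_zero' := intTrace_zero
  map_add' := intTrace_add

theorem intTrace_zsmul (n : ℤ) (f : A →+ A) : intTrace (n • f) = n * intTrace f := by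
  rw [show intTrace (n • f) = intTraceHom (n • f) from rfl, map_zsmul]
  rfl

theorem intTrace_sum {ι : Type*} (s : Finset ι) (f : ι → A →+ A) :
    intTrace (∑ i ∈ s, f i) = ∑ i ∈ s, intTrace (f i) := map_sum intTraceHom f s

theorem intTrace_comm [Module.Free ℤ A] [Module.Finite ℤ A] [Module.Free ℤ B] [Module.Finite ℤ B]
    (f : A →+ B) (g : B →+ A) : intTrace (g.comp f) = intTrace (f.comp g) :=
  LinearMap.trace_comp_comm' f.toIntLinearMap g.toIntLinearMap

variable {G : Type} [Group G] [DistribMulAction G A] [DistribMulAction G B] [DistribMulAction G C]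

/-- The underlying additive map. -/
def HomMod.hom {R W : Type} [AddCommGroup R] [AddCommGroup W] (f : HomMod R W) : R →+ W := f

/-- Composition of maps. -/
def HomMod.comp (f : HomMod B C) (g : HomMod A B) : HomMod A C :=
  HomMod.mk (f.hom.comp g.hom)

theorem HomMod.comp_apply (f : HomMod B C) (g : HomMod A B) (a : A) : f.comp g a = f (g a) := rfl

theorem HomMod.smul_comp (g : G) (f : HomMod B C) (f' : HomMod A B) :
    g • f.comp f' = (g • f).comp (g • f') := HomMod.ext fun a => by
  simp only [HomMod.smul_apply, HomMod.comp_apply, inv_smul_smul]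

/-- The trace on `HomMod`. -/
def HomMod.tr (f : HomMod A A) : ℤ := intTrace f.hom

theorem HomMod.tr_smul [Module.Free ℤ A] [Module.Finite ℤ A] (g : G) (f : HomMod A A) :
    (g • f).tr = f.tr := by
  show intTrace (((DistribSMul.toAddMonoidHom A g).comp
    (f.hom.comp (DistribSMul.toAddMonoidHom A g⁻¹)))) = intTrace f.hom
  rw [intTrace_comm]
  congr 1
  ext a
  show f (g⁻¹ • g • a) = f a
  rw [inv_smul_smul]

theorem HomMod.tr_comp_comm [Module.Free ℤ A] [Module.Finite ℤ A] [Module.Free ℤ B]
    [Module.Finite ℤ B] (f : HomMod B A) (g : HomMod A B) : (f.comp g).tr = (g.comp f).tr :=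
  intTrace_comm g.hom f.hom

/-- Rank one maps. -/
def rankOne (φ : B →+ ℤ) (a : A) : HomMod B A :=
  HomMod.mk (AddMonoidHom.mk' (fun b => φ b • a) fun x y => by rw [map_add, add_smul])

omit [DistribMulAction G A] [DistribMulAction G B] in
theorem tr_rankOne_comp [Module.Free ℤ A] [Module.Finite ℤ A] (φ : B →+ ℤ) (a : A)
    (y : HomMod A B) : ((rankOne φ a).comp y).tr = φ (y a) := by
  show LinearMap.trace ℤ A (AddMonoidHom.toIntLinearMap
    ((rankOne φ a).hom.comp y.hom)) = φ (y a)
  rw [show AddMonoidHom.toIntLinearMap ((rankOne φ a).hom.comp y.hom) =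
    (φ.comp y.hom).toIntLinearMap.smulRight a from rfl, LinearMap.trace_smulRight]
  rfl

omit [DistribMulAction G A] [DistribMulAction G B] in
theorem eq_zero_of_tr_comp [Module.Free ℤ A] [Module.Finite ℤ A] [Module.Free ℤ B]
    (z : HomMod A B) (h : ∀ l : HomMod B A, (l.comp z).tr = 0) : z = 0 := by
  refine HomMod.ext fun a => ?_
  let bb := Module.Free.chooseBasis ℤ B
  refine bb.ext_elem fun i => ?_
  have := h (rankOne (bb.coord i).toAddMonoidHom a)
  rw [tr_rankOne_comp] at this
  rw [HomMod.zero_apply, map_zero, Finsupp.zero_apply]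
  exact this

omit [DistribMulAction G A] [DistribMulAction G B] in
theorem exists_tr_comp_eq [Module.Free ℤ A] [Module.Finite ℤ A] [Module.Free ℤ B]
    [Module.Finite ℤ B] (η : HomMod B A →+ ℤ) :
    ∃ y : HomMod A B, ∀ l : HomMod B A, (l.comp y).tr = η l := by
  classical
  let bb := Module.Free.chooseBasis ℤ B
  let y : HomMod A B := HomMod.mk (AddMonoidHom.mk'
    (fun a => ∑ i, η (rankOne (bb.coord i).toAddMonoidHom a) • bb i) fun a a' => by
      rw [← Finset.sum_add_distrib]
      refine Finset.sum_congr rfl fun i _ => ?_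
      rw [← add_smul, ← map_add]
      congr 2
      exact HomMod.ext fun b => smul_add _ a a')
  refine ⟨y, fun l => ?_⟩
  have hl : l = ∑ i, rankOne (bb.coord i).toAddMonoidHom (l (bb i)) := HomMod.ext fun b => by
    have h1 : (∑ i, rankOne (bb.coord i).toAddMonoidHom (l (bb i))) b =
        ∑ i, bb.coord i b • l (bb i) :=
      map_sum (AddMonoidHom.mk' (fun f : HomMod B A => f b) fun _ _ => rfl)
        (fun i => rankOne (bb.coord i).toAddMonoidHom (l (bb i))) _
    rw [h1]
    conv_lhs => rw [← bb.sum_repr b]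
    simp only [map_sum, map_zsmul, Module.Basis.coord_apply]
  conv_rhs => rw [hl]
  rw [map_sum]
  conv_lhs => rw [hl]
  show intTrace
    ((∑ i, rankOne (bb.coord i).toAddMonoidHom (l (bb i)) : HomMod B A).hom.comp y.hom) = _
  rw [show (∑ i, rankOne (bb.coord i).toAddMonoidHom (l (bb i)) : HomMod B A).hom.comp
      y.hom = ∑ i, (rankOne (bb.coord i).toAddMonoidHom (l (bb i))).hom.comp y.hom from
    map_sum (AddMonoidHom.mk' (fun f : HomMod B A => f.hom.comp y.hom)
      fun _ _ => rfl) (fun i => rankOne (bb.coord i).toAddMonoidHom (l (bb i))) _, intTrace_sum]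
  refine Finset.sum_congr rfl fun i _ => ?_
  refine (tr_rankOne_comp (bb.coord i).toAddMonoidHom (l (bb i)) y).trans ?_
  show bb.coord i (∑ j, η (rankOne (bb.coord j).toAddMonoidHom (l (bb i))) • bb j) = _
  simp [Module.Basis.coord_apply, Finsupp.single_apply]

omit [DistribMulAction G A] [DistribMulAction G B] in
instance homMod_free [Module.Free ℤ A] [Module.Finite ℤ A] [Module.Free ℤ B]
    [Module.Finite ℤ B] : Module.Free ℤ (HomMod A B) :=
  Module.Free.of_equiv ((addMonoidHomLequivInt ℤ).symm : (A →ₗ[ℤ] B) ≃ₗ[ℤ] (A →+ B))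

omit [DistribMulAction G A] [DistribMulAction G B] in
instance homMod_finite [Module.Free ℤ A] [Module.Finite ℤ A] [Module.Free ℤ B]
    [Module.Finite ℤ B] : Module.Finite ℤ (HomMod A B) :=
  Module.Finite.equiv ((addMonoidHomLequivInt ℤ).symm : (A →ₗ[ℤ] B) ≃ₗ[ℤ] (A →+ B))

/-- An invariant functional divisible by the order on invariants is a norm. -/
theorem exists_eta [Fintype G] {L : Type} [AddCommGroup L] [DistribMulAction G L]
    [Module.Free ℤ L] [Module.Finite ℤ L] (ξ : L →+ ℤ)
    (hdiv : ∀ l : L, (∀ g : G, g • l = l) → (Fintype.card G : ℤ) ∣ ξ l) :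
    ∃ η : L →+ ℤ, ∀ l : L, (∀ g : G, g • l = l) → ξ l = Fintype.card G * η l := by
  let U : Submodule ℤ L :=
    { carrier := {l | ∀ g : G, g • l = l}
      zero_mem' := fun g => smul_zero g
      add_mem' := fun {a b} ha hb g => by rw [smul_add, ha g, hb g]
      smul_mem' := fun c {a} ha g => by rw [smul_comm, ha g] }
  have hU : ∀ l, l ∈ U ↔ ∀ g : G, g • l = l := fun l => Iff.rfl
  have hn : (Fintype.card G : ℤ) ≠ 0 := Int.natCast_ne_zero.2 Fintype.card_ne_zero
  have : Module.IsTorsionFree ℤ (L ⧸ U) := by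
    refine .of_smul_eq_zero fun c x hx => ?_
    obtain ⟨l, rfl⟩ := Submodule.mkQ_surjective U x
    rw [← map_smul, Submodule.mkQ_apply, Submodule.Quotient.mk_eq_zero, hU] at hx
    by_cases hc : c = 0
    · exact Or.inl hc
    · refine Or.inr ((Submodule.Quotient.mk_eq_zero U).2 ((hU l).2 fun g => ?_))
      have h := hx g
      rw [smul_comm] at h
      exact smul_right_injective L hc h
  have : Module.Free ℤ (L ⧸ U) := Module.free_of_finite_type_torsion_free'
  obtain ⟨s, hs⟩ := Module.projective_lifting_property U.mkQ LinearMap.id U.mkQ_surjective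
  let π : L →ₗ[ℤ] L := LinearMap.id - s.comp U.mkQ
  have hπ : ∀ l, ∀ g : G, g • π l = π l := fun l =>
    (hU _).1 ((Submodule.Quotient.mk_eq_zero U).1 (by
    show U.mkQ (l - s (U.mkQ l)) = 0
    rw [map_sub, show U.mkQ (s (U.mkQ l)) = U.mkQ l from LinearMap.congr_fun hs _, sub_self]))
  refine ⟨AddMonoidHom.mk' (fun l => ξ (π l) / Fintype.card G) fun a b => ?_, fun l hl => ?_⟩
  · rw [map_add, map_add, Int.add_ediv_of_dvd_left (hdiv _ (hπ a))]
  · have : π l = l := by
      show l - s (U.mkQ l) = l
      rw [show U.mkQ l = 0 from (Submodule.Quotient.mk_eq_zero U).2 ((hU l).2 hl), map_zero,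
        sub_zero]
    show ξ l = _ * (ξ (π l) / _)
    rw [this, Int.mul_ediv_cancel' (hdiv l hl)]

/-- The lattice lemma. -/
theorem exists_norm_of_dvd_trace [Fintype G] [Module.Free ℤ A] [Module.Finite ℤ A]
    [Module.Free ℤ B] [Module.Finite ℤ B] (x : HomMod A B) (hx : ∀ g : G, g • x = x)
    (h : ∀ l : HomMod B A, (∀ g : G, g • l = l) → (Fintype.card G : ℤ) ∣ (l.comp x).tr) :
    ∃ y : HomMod A B, x = ∑ g : G, g • y := by
  let ξ : HomMod B A →+ ℤ := AddMonoidHom.mk' (fun l => (l.comp x).tr) fun l l' => by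
    show intTrace ((l + l').hom.comp x.hom) = _
    exact intTrace_add (l.hom.comp x.hom) (l'.hom.comp x.hom)
  obtain ⟨η, hη⟩ := exists_eta (G := G) ξ h
  obtain ⟨y, hy⟩ := exists_tr_comp_eq η
  refine ⟨y, sub_eq_zero.1 (eq_zero_of_tr_comp _ fun l => ?_)⟩
  set L := ∑ g : G, g • l with hLdef
  have hL : ∀ g : G, g • L = L := fun g => by
    rw [hLdef, Finset.smul_sum]
    exact Fintype.sum_equiv (Equiv.mulLeft g) _ _ fun k => (mul_smul g k l).symm
  set N := ∑ g : G, g • y with hNdef
  have hN : ∀ g : G, g • N = N := fun g => by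
    rw [hNdef, Finset.smul_sum]
    exact Fintype.sum_equiv (Equiv.mulLeft g) _ _ fun k => (mul_smul g k y).symm
  let T : HomMod A B → HomMod B A →+ ℤ := fun z =>
    AddMonoidHom.mk' (fun l => (l.comp z).tr) fun l l' =>
      intTrace_add (l.hom.comp z.hom) (l'.hom.comp z.hom)
  let T' : HomMod B A → HomMod A B →+ ℤ := fun l =>
    AddMonoidHom.mk' (fun z => (l.comp z).tr) fun z z' => by
      show intTrace (l.hom.comp (z + z').hom) = _
      rw [show l.hom.comp (z + z').hom =
        l.hom.comp z.hom + l.hom.comp z'.hom from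
        AddMonoidHom.ext fun a => map_add l.hom (z a) (z' a)]
      exact intTrace_add _ _
  have hinv : ∀ (z : HomMod A B), (∀ g : G, g • z = z) →
      (L.comp z).tr = Fintype.card G * (l.comp z).tr := fun z hz => by
    show T z L = _
    rw [hLdef, map_sum]
    have : ∀ g : G, T z (g • l) = (l.comp z).tr := fun g => by
      show ((g • l).comp z).tr = _
      conv_lhs => rw [← hz g]
      rw [← HomMod.smul_comp, HomMod.tr_smul]
    rw [Finset.sum_congr rfl fun g _ => this g, Finset.sum_const, Finset.card_univ, nsmul_eq_mul]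
  have hNL : (L.comp N).tr = Fintype.card G * (L.comp y).tr := by
    show T' L N = _
    rw [hNdef, map_sum]
    have : ∀ g : G, T' L (g • y) = (L.comp y).tr := fun g => by
      show (L.comp (g • y)).tr = _
      conv_lhs => rw [← hL g]
      rw [← HomMod.smul_comp, HomMod.tr_smul]
    rw [Finset.sum_congr rfl fun g _ => this g, Finset.sum_const, Finset.card_univ, nsmul_eq_mul]
  have hn : (Fintype.card G : ℤ) ≠ 0 := Int.natCast_ne_zero.2 Fintype.card_ne_zero
  show T' l (x - N) = 0
  rw [map_sub, sub_eq_zero]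
  refine mul_left_cancel₀ hn ?_
  show (Fintype.card G : ℤ) * (l.comp x).tr = Fintype.card G * (l.comp N).tr
  rw [← hinv x hx, ← hinv N hN, hNL, hy]
  exact hη L hL

/-- Norms have trace divisible by the order. -/
theorem tr_norm [Fintype G] [Module.Free ℤ A] [Module.Finite ℤ A] (y : HomMod A A) :
    (∑ g : G, g • y).tr = Fintype.card G * y.tr := by
  show intTraceHom (∑ g : G, g • y : HomMod A A).hom = _
  rw [show (∑ g : G, g • y : HomMod A A).hom = ∑ g : G, (g • y : HomMod A A).hom
    from map_sum (AddMonoidHom.mk' (fun f : HomMod A A => f.hom) fun _ _ => rfl)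
      (fun g => g • y) _, map_sum,
    Finset.sum_congr rfl fun g _ => show intTraceHom (g • y : HomMod A A).hom = y.tr from
      HomMod.tr_smul g y, Finset.sum_const, Finset.card_univ, nsmul_eq_mul]

end FLTAgent.GalCoh
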