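import Mathlib
import Fermat.Agent.GlobalDuality.Lattice

/-!
# Tate–Nakayama duality at a prime `p`

For a class module of a finite group (`IsClassModule`), in the form needed for Poitou–Tate:
classes of a lattice are separated by equivariant maps into the class module
(`IsClassModule.exists_push2_ne_zero`), and equivariant maps killing all classes are norms, up to
factors prime to `p` (`IsClassModule.exists_norm`).
-/

set_option autoImplicit false

noncomputable section

namespace FLTAgent.GalCoh

variable {p : ℕ} [hp : Fact p.Prime] {G : Type} [Group G] [Fintype G]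
  {C : Type} [AddCommGroup C] [DistribMulAction G C]
  {R : Type} [AddCommGroup R] [DistribMulAction G R]
  {A B : Type} [AddCommGroup A] [DistribMulAction G A] [AddCommGroup B] [DistribMulAction G B]

/-- The `p`-part of the order of a group. -/
def pPart (p : ℕ) (G : Type) : ℕ := p ^ (Nat.card G).factorization p

/-- The prime-to-`p` part of the order of a group. -/
def pCompl (p : ℕ) (G : Type) : ℕ := Nat.card G / p ^ (Nat.card G).factorization p

omit [Group G] in
theorem not_dvd_pCompl [Nonempty G] : ¬p ∣ pCompl p G :=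
  Nat.not_dvd_ordCompl hp.out Nat.card_pos.ne'

omit [Group G] hp [Fintype G] in
theorem pPart_mul_pCompl : pPart p G * pCompl p G = Nat.card G :=
  Nat.ordProj_mul_ordCompl_eq_self _ _

theorem card_sylow (P : Sylow p G) : Nat.card (P : Subgroup G) = pPart p G :=
  P.card_eq_multiplicity

/-- The hypotheses of Tate–Nakayama at `p`. -/
structure IsClassModule (p : ℕ) (G : Type) [Group G] (C : Type) [AddCommGroup C]
    [DistribMulAction G C] : Prop where
  sylow : ∀ P : Sylow p G, Subsingleton (H1 (P : Subgroup G) C) ∧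
    Finite (H2 (P : Subgroup G) C) ∧
    Nat.card (H2 (P : Subgroup G) C) ≤ Nat.card (P : Subgroup G)
  exists_gen : ∃ u : H2 G C, ∀ j : ℕ, j • u = 0 → pPart p G ∣ j

/-! ### Pushforwards -/

omit [Fintype G] in
theorem push2_congr {f f' : A →+ B} (hf : ∀ (g : G) (a : A), f (g • a) = g • f a)
    (hf' : ∀ (g : G) (a : A), f' (g • a) = g • f' a) (h : f = f') (x : H2 G A) :
    push2 G f hf x = push2 G f' hf' x := by
  subst h; rfl

omit [Fintype G] in
theorem push2_comp {E : Type} [AddCommGroup E] [DistribMulAction G E] {f : A →+ B} {f' : B →+ E}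
    (hf : ∀ (g : G) (a : A), f (g • a) = g • f a) (hf' : ∀ (g : G) (b : B), f' (g • b) = g • f' b)
    (hff : ∀ (g : G) (a : A), f'.comp f (g • a) = g • f'.comp f a) (x : H2 G A) :
    push2 G (f'.comp f) hff x = push2 G f' hf' (push2 G f hf x) := by
  obtain ⟨c, rfl⟩ := H2.mk_surjective x
  rfl

omit [Fintype G] in
theorem push2_add {f f' : A →+ B} (hf : ∀ (g : G) (a : A), f (g • a) = g • f a)
    (hf' : ∀ (g : G) (a : A), f' (g • a) = g • f' a)
    (hff : ∀ (g : G) (a : A), (f + f') (g • a) = g • (f + f') a) (x : H2 G A) :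
    push2 G (f + f') hff x = push2 G f hf x + push2 G f' hf' x := by
  obtain ⟨c, rfl⟩ := H2.mk_surjective x
  rw [push2_mk, push2_mk, push2_mk, ← map_add]
  rfl

omit [Fintype G] in
theorem push2_nsmul {f : A →+ B} (n : ℕ) (hf : ∀ (g : G) (a : A), f (g • a) = g • f a)
    (hnf : ∀ (g : G) (a : A), (n • f) (g • a) = g • (n • f) a) (x : H2 G A) :
    push2 G (n • f) hnf x = n • push2 G f hf x := by
  obtain ⟨c, rfl⟩ := H2.mk_surjective x
  rw [push2_mk, push2_mk, ← map_nsmul]
  rfl

omit [Fintype G] in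
theorem equivariant_nsmul {f : A →+ B} (n : ℕ) (hf : ∀ (g : G) (a : A), f (g • a) = g • f a)
    (g : G) (a : A) : (n • f) (g • a) = g • (n • f) a := by
  rw [AddMonoidHom.nsmul_apply, AddMonoidHom.nsmul_apply, hf, smul_comm g n (f a)]

omit [Fintype G] in
theorem equivariant_of_fixed {f : HomMod A B} (h : ∀ g : G, g • f = f) (g : G) (a : A) :
    f.hom (g • a) = g • f.hom a := (HomMod.smul_eq_self_iff f).1 h g a

theorem normHom_eq (y : HomMod A B) (a : A) :
    (∑ g : G, g • y : HomMod A B).hom a = coindExt y.hom (coindIota G A a) := by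
  rw [coindExt_apply]
  show (∑ g : G, g • y : HomMod A B) a = _
  rw [show (∑ g : G, g • y : HomMod A B) a = ∑ g : G, (g • y) a from
    map_sum (AddMonoidHom.mk' (fun f : HomMod A B => f a) fun _ _ => rfl) (fun g => g • y) _]
  refine Fintype.sum_equiv (Equiv.inv G) _ _ fun g => ?_
  show g • y (g⁻¹ • a) = (g⁻¹)⁻¹ • y.hom (g⁻¹ • a)
  rw [inv_inv]
  rfl

theorem push2_norm (y : HomMod A B)
    (h : ∀ (g : G) (a : A), (∑ g : G, g • y : HomMod A B).hom (g • a) =
      g • (∑ g : G, g • y : HomMod A B).hom a) (x : H2 G A) :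
    push2 G (∑ g : G, g • y : HomMod A B).hom h x = 0 := by
  have he : (∑ g : G, g • y : HomMod A B).hom = (coindExt y.hom).comp (coindIota G A) :=
    AddMonoidHom.ext fun a => normHom_eq y a
  rw [push2_congr h (fun g a => by rw [← he, h]) he, push2_comp coindIota_smul (coindExt_smul _)]
  have := Coind.subsingleton_H2_self (G := G) (X := A)
  rw [Subsingleton.elim (push2 G (coindIota G A) _ x) 0, map_zero]

/-! ### The module `Ω` as a lattice -/

instance barCoind_free : Module.Free ℤ (Coind G (G → ℤ)) :=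
  inferInstanceAs (Module.Free ℤ (G → G → ℤ))

instance barCoind_finite : Module.Finite ℤ (Coind G (G → ℤ)) :=
  inferInstanceAs (Module.Finite ℤ (G → G → ℤ))

instance augCoind_free : Module.Free ℤ (Coind G ℤ) := inferInstanceAs (Module.Free ℤ (G → ℤ))

instance augCoind_finite : Module.Finite ℤ (Coind G ℤ) :=
  inferInstanceAs (Module.Finite ℤ (G → ℤ))

instance barKer_finite : Module.Finite ℤ (barKer G) := by
  have : Module.Finite ℤ (AddSubgroup.toIntSubmodule (barKer G)) := inferInstance
  exact this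

instance barKer_free : Module.Free ℤ (barKer G) := by
  have : Module.Free ℤ (AddSubgroup.toIntSubmodule (barKer G)) := inferInstance
  exact this

instance augKer_finite : Module.Finite ℤ (augKer G) := by
  have : Module.Finite ℤ (AddSubgroup.toIntSubmodule (augKer G)) := inferInstance
  exact this

instance augKer_free : Module.Free ℤ (augKer G) := by
  have : Module.Free ℤ (AddSubgroup.toIntSubmodule (augKer G)) := inferInstance
  exact this

theorem finrank_barKer :
    (Module.finrank ℤ (barKer G) : ℤ) = Fintype.card G * Fintype.card G - Fintype.card G + 1 := by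
  let e₁ : Coind G ℤ ≃+ augKer G × ℤ :=
    { toFun := fun v => (⟨v - barAug G v • augUnit G, by
          rw [augKer, AddMonoidHom.mem_ker, map_sub, map_zsmul, barAug_augUnit, smul_eq_mul,
            mul_one, sub_self]⟩, barAug G v)
      invFun := fun w => (w.1 : Coind G ℤ) + w.2 • augUnit G
      left_inv := fun v => sub_add_cancel _ _
      right_inv := fun w => by
        have h : barAug G ((w.1 : Coind G ℤ) + w.2 • augUnit G) = w.2 := by
          rw [map_add, map_zsmul, barAug_augUnit, smul_eq_mul, mul_one,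
            show barAug G (w.1 : Coind G ℤ) = 0 from w.1.2, zero_add]
        refine Prod.ext (Subtype.ext ?_) h
        show _ - barAug G _ • augUnit G = _
        rw [h, add_sub_cancel_right]
      map_add' := fun u v => Prod.ext (Subtype.ext (by
        show u + v - barAug G (u + v) • augUnit G = _
        rw [map_add, add_smul]
        show _ = (u - barAug G u • augUnit G) + (v - barAug G v • augUnit G)
        abel)) (map_add _ u v) }
  let e₂ : Coind G (G → ℤ) ≃+ barKer G × augKer G :=
    { toFun := fun u => (⟨u - barLift G (barD G u), by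
          rw [barKer, AddMonoidHom.mem_ker, map_sub, barD_barLift G (barAug_barD G u), sub_self]⟩,
        ⟨barD G u, barAug_barD G u⟩)
      invFun := fun w => (w.1 : Coind G (G → ℤ)) + barLift G (w.2 : Coind G ℤ)
      left_inv := fun v => sub_add_cancel _ _
      right_inv := fun w => by
        have h : barD G ((w.1 : Coind G (G → ℤ)) + barLift G (w.2 : Coind G ℤ)) = w.2 := by
          rw [map_add, barD_barLift G (show barAug G (w.2 : Coind G ℤ) = 0 from w.2.2),
            show barD G (w.1 : Coind G (G → ℤ)) = 0 from w.1.2, zero_add]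
        refine Prod.ext (Subtype.ext ?_) (Subtype.ext h)
        show _ - barLift G (barD G _) = _
        rw [h, add_sub_cancel_right]
      map_add' := fun u v => Prod.ext (Subtype.ext (by
        show u + v - barLift G (barD G (u + v)) = _
        rw [map_add, map_add]
        show _ = (u - barLift G (barD G u)) + (v - barLift G (barD G v))
        abel)) (Subtype.ext (map_add _ u v)) }
  have h₁ := e₁.toIntLinearEquiv.finrank_eq
  have h₂ := e₂.toIntLinearEquiv.finrank_eq
  rw [Module.finrank_prod] at h₁ h₂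
  rw [show Module.finrank ℤ (Coind G ℤ) = Fintype.card G from Module.finrank_pi ℤ,
    Module.finrank_self] at h₁
  rw [show Module.finrank ℤ (Coind G (G → ℤ)) = Fintype.card G * Fintype.card G by
    show Module.finrank ℤ (G → G → ℤ) = _
    rw [Module.finrank_pi_fintype]
    simp] at h₂
  have h₁' : (Fintype.card G : ℤ) = Module.finrank ℤ (augKer G) + 1 := by exact_mod_cast h₁
  have h₂' : (Fintype.card G : ℤ) * Fintype.card G =
      Module.finrank ℤ (barKer G) + Module.finrank ℤ (augKer G) := by exact_mod_cast h₂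
  linarith

/-- Endomorphisms act on the universal class through their trace. -/
theorem push2_barKer (e : HomMod (barKer G) (barKer G)) (he : ∀ g : G, g • e = e) :
    push2 G e.hom (equivariant_of_fixed he) (H2.mk (barOmega G)) =
      e.tr • H2.mk (barOmega G) := by
  classical
  have := IsStableSub.restrict (G := G) (barKer G) (⊤ : Subgroup G)
  let c : Z2 (⊤ : Subgroup G) (barKer G) :=
    ⟨fun g h => e.hom ((barOmega G : G → G → barKer G) g h), fun g h j =>
      mem_Z2_iff.1 ((CompatPair.of_equivariant e.hom (equivariant_of_fixed he)).mem_Z2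
        (barOmega G).2)
        (g : G) h j⟩
  obtain ⟨n, β, hβ⟩ := exists_eq_zsmul_omega (G := G) ⊤ c
  let β₀ : G → barKer G := fun g => β ⟨g, Subgroup.mem_top g⟩
  have hβ' : ∀ g h : G, e.hom ((barOmega G : G → G → barKer G) g h) =
      n • (barOmega G : G → G → barKer G) g h + (g • β₀ h - β₀ (g * h) + β₀ g) := fun g h =>
    hβ ⟨g, Subgroup.mem_top g⟩ ⟨h, Subgroup.mem_top h⟩
  let y0 : (G → ℤ) →+ barKer G :=
    AddMonoidHom.mk' (fun a => ∑ h, a h • β₀ h) fun a b => by
      simp only [Pi.add_apply, add_smul, Finset.sum_add_distrib]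
  let y : HomMod (barKer G) (barKer G) :=
    HomMod.mk (y0.comp (AddMonoidHom.mk' (fun u : barKer G => (u : Coind G (G → ℤ)) 1)
      fun _ _ => rfl))
  let idΩ : HomMod (barKer G) (barKer G) := HomMod.mk (AddMonoidHom.id _)
  have key : e = n • idΩ + ∑ g : G, g • y := by
    refine HomMod.ext fun u => DFunLike.congr_fun
      (hom_ext_barKer (f := e.hom) (f' := (n • idΩ + ∑ g : G, g • y).hom) fun g h => ?_) u
    rw [hβ']
    show _ = n • (barOmega G : G → G → barKer G) g h + (∑ g : G, g • y : HomMod _ _).hom _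
    congr 1
    rw [normHom_eq]
    have hy : coindExt y.hom (coindIota G (barKer G) ((barOmega G : G → G → barKer G) g h)) =
        coindExt y0 (((barOmega G : G → G → barKer G) g h : barKer G) : Coind G (G → ℤ)) := by
      rw [coindExt_apply, coindExt_apply]
      refine Finset.sum_congr rfl fun x _ => ?_
      show x⁻¹ • y0 ((((x • (barOmega G : G → G → barKer G) g h : barKer G)) :
        Coind G (G → ℤ)) 1) = _
      rw [coe_stableSub_smul, Coind.smul_apply, one_mul]
    have hE : ∀ a : G, coindExt y0 (barE a) = β₀ a := fun a => by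
      have : barE a = coindSingle (Pi.single a 1) := Coind.ext fun x => funext fun k => by
        rw [barE_apply, coindSingle, Coind.mk_apply]
        by_cases hx : x = 1
        · by_cases hk : k = a <;> simp [hx, hk]
        · simp [hx]
      rw [this, coindExt_single]
      show ∑ k, (Pi.single a (1 : ℤ) : G → ℤ) k • β₀ k = β₀ a
      rw [Finset.sum_eq_single a] <;> simp +contextual
    rw [hy, coe_barOmega, map_add, map_sub, coindExt_smul, hE, hE, hE]
  have htr : (Fintype.card G : ℤ) ∣ e.tr - n := by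
    have h1 : e.tr = n * intTrace (AddMonoidHom.id (barKer G)) + Fintype.card G * y.tr := by
      rw [key, ← tr_norm y]
      show intTrace ((n • idΩ + ∑ g : G, g • y).hom) = _
      rw [show (n • idΩ + ∑ g : G, g • y).hom = n • idΩ.hom + (∑ g : G, g • y : HomMod _ _).hom
        from rfl, intTrace_add, intTrace_zsmul]
      rfl
    have h2 : intTrace (AddMonoidHom.id (barKer G)) = Module.finrank ℤ (barKer G) :=
      LinearMap.trace_id ℤ (barKer G)
    rw [h1, h2, finrank_barKer]
    exact ⟨n * Fintype.card G - n + y.tr, by ring⟩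
  obtain ⟨k, hk⟩ := htr
  have hω : (Fintype.card G : ℤ) • H2.mk (barOmega G) = 0 := by
    rw [natCast_zsmul, ← Nat.card_eq_fintype_card]
    exact card_nsmul_H2 _
  rw [show e.tr = n + Fintype.card G * k by linarith, add_zsmul, mul_zsmul', hω, zsmul_zero,
    add_zero, ← sub_eq_zero, push2_mk, ← map_zsmul, ← map_sub, H2.mk_eq_zero_iff]
  refine ⟨β₀, fun g h => ?_⟩
  show e.hom _ - n • (barOmega G : G → G → barKer G) g h = _
  rw [hβ']
  abel

/-! ### Lifting -/

omit [Fintype G] in
theorem Coind.cosetPart_eq_one_iff (P : Subgroup G) (y : G) (h : P) :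
    cosetPart P (y * ((h⁻¹ : P) : G)) = 1 ↔ h = cosetPart P y := by
  rw [cosetPart_mul, mul_inv_eq_one, eq_comm]

theorem exists_retract_free (P : Subgroup G) (X : Type) [AddCommGroup X] :
    ∃ r : Coind P (Coind G X) →+ Coind G X,
      (∀ (g : P) (u : Coind P (Coind G X)), r (g • u) = g • r u) ∧
        ∀ f, r (coindIota P (Coind G X) f) = f := by
  classical
  let mask : Coind G X →+ Coind G X :=
    AddMonoidHom.mk' (fun f => Coind.mk fun x => if cosetPart P x = 1 then f x else 0) fun a b =>
      Coind.ext fun x => by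
        simp only [Coind.mk_apply, Coind.add_apply]
        split <;> simp
  refine ⟨coindExt mask, fun g u => coindExt_smul mask g u, fun f => Coind.ext fun y => ?_⟩
  have := Fintype.ofFinite P
  rw [coindExt_apply]
  have happ : ∀ (s : Finset P) (F : P → Coind G X), (∑ x ∈ s, F x) y = ∑ x ∈ s, F x y := fun s F =>
    map_sum (AddMonoidHom.mk' (fun v : Coind G X => v y) fun _ _ => rfl) F s
  rw [happ, Finset.sum_eq_single (cosetPart P y)]
  · show (if cosetPart P (y * (((cosetPart P y)⁻¹ : P) : G)) = 1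
      then f (y * (((cosetPart P y)⁻¹ : P) : G) * (cosetPart P y : G)) else 0) = f y
    rw [if_pos ((Coind.cosetPart_eq_one_iff P y _).2 rfl), Subgroup.coe_inv, inv_mul_cancel_right]
  · intro h _ hne
    show (if cosetPart P (y * ((h⁻¹ : P) : G)) = 1
      then f (y * ((h⁻¹ : P) : G) * (h : G)) else 0) = 0
    rw [if_neg fun e => hne ((Coind.cosetPart_eq_one_iff P y h).1 e)]
  · intro h
    exact absurd (Finset.mem_univ _) h

omit [Fintype G] in
theorem subsingleton_H2_coindQuot_coind_self (X : Type) [AddCommGroup X] :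
    Subsingleton (H2 G (CoindQuot G (Coind G X))) := by
  have h := subsingleton_H2_coindQuot_coind (G := G) (X := X) (⊤ : Subgroup G)
  have hc : CompatPair (Subgroup.topEquiv (G := G)).toMonoidHom
      (AddMonoidHom.id (CoindQuot G (Coind G X))) := ⟨fun _ _ => rfl⟩
  exact (H2.map_bijective hc (MulEquiv.bijective _) Function.bijective_id).1.subsingleton

theorem subsingleton_H2_coindQuot_free (P : Subgroup G) (X : Type) [AddCommGroup X] :
    Subsingleton (H2 P (CoindQuot P (Coind G X))) := by
  obtain ⟨r, hr, hri⟩ := exists_retract_free P X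
  have := Fintype.ofFinite P
  refine subsingleton_H2_of_retract (coindQuotMap (coindIota P (Coind G X)) coindIota_smul)
    (coindQuotMap r hr) (coindQuotMap_smul _ coindIota_smul) (coindQuotMap_smul _ hr) (fun x => ?_)
    (subsingleton_H2_coindQuot_coind_self (G := P) _)
  obtain ⟨u, rfl⟩ := coindProj_surjective P _ x
  rw [coindQuotMap_proj, coindQuotMap_proj]
  exact congrArg _ (Coind.ext fun t => hri _)

theorem subsingleton_H2_coindQuot_barKer (P : Subgroup G) [IsStableSub P (barKer G)] :
    Subsingleton (H2 P (CoindQuot P (barKer G))) := by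
  have := IsStableSub.restrict (G := G) (augKer G) P
  let d : Coind G (G → ℤ) →+ augKer G :=
    (barD G).codRestrict (augKer G) (barAug_barD G)
  have hs : IsSES P (barKer G).subtype d :=
    ⟨Subtype.val_injective, fun v => ⟨barLift G (v : Coind G ℤ),
      Subtype.ext (barD_barLift G (show barAug G (v : Coind G ℤ) = 0 from v.2))⟩,
      fun u => ⟨fun h => ⟨⟨u, congrArg Subtype.val h⟩, rfl⟩, by
        rintro ⟨a, rfl⟩
        exact Subtype.ext a.2⟩,
      fun _ _ => rfl, fun g u => Subtype.ext (barD_smul G (g : G) u)⟩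
  have hI : Subsingleton (H2 P (augKer G)) := by
    rw [subsingleton_H2_iff]
    intro f hf
    obtain ⟨β, hβ⟩ := subsingleton_H2_iff.1 (Coind.subsingleton_H2 (G := G) (A := ℤ) P)
      (fun g h => (f g h : Coind G ℤ)) (fun g h j => congrArg Subtype.val (mem_Z2_iff.1 hf g h j))
    have hhom : ∀ g h : P, barAug G (β (g * h)) = barAug G (β g) + barAug G (β h) := fun g h => by
      have := congrArg (barAug G) (hβ g h)
      rw [show barAug G (f g h : Coind G ℤ) = 0 from (f g h).2, map_add, map_sub,
        Subgroup.smul_def, barAug_smul] at this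
      linarith
    let χ : Additive P →+ ℤ := AddMonoidHom.mk' (fun g => barAug G (β g.toMul)) fun g h =>
      hhom g.toMul h.toMul
    have hzero : ∀ g : P, β g ∈ augKer G := fun g => by
      have h := congrArg χ (addOrderOf_nsmul_eq_zero (Additive.ofMul g))
      rw [map_nsmul, map_zero, nsmul_eq_mul, mul_eq_zero] at h
      refine h.resolve_left (Nat.cast_ne_zero.2 ?_)
      rw [addOrderOf_ofMul_eq_orderOf]
      exact (orderOf_pos g).ne'
    exact ⟨fun g => ⟨β g, hzero g⟩, fun g h => Subtype.ext (hβ g h)⟩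
  have := Fintype.ofFinite P
  have hB : Subsingleton (H2 P (CoindQuot P (Coind G (G → ℤ)))) :=
    subsingleton_H2_coindQuot_free P _
  have hI' : Subsingleton (H1 P (CoindQuot P (augKer G))) :=
    (coind_delta_bijective P (augKer G)).1.subsingleton
  refine subsingleton_of_forall_eq 0 fun x => ?_
  obtain ⟨y, rfl⟩ := hs.coindQuot.exact_H2A x (Subsingleton.elim _ _)
  rw [Subsingleton.elim y 0, map_zero]

omit [Fintype G] in
/-- The kernel of a surjection that is bijective on `H2` is acyclic for lattices. -/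
theorem subsingleton_H1_homMod_ker [Finite G] (hG : IsPGroup p G) [Module.Free ℤ R]
    (π : A →+ C) (hπ : ∀ (g : G) (a : A), π (g • a) = g • π a) (hsurj : Function.Surjective π)
    (hC1 : Subsingleton (H1 G C)) (hinj : Function.Injective (push2 G π hπ))
    (hsur : Function.Surjective (push2 G π hπ)) (hN3 : Subsingleton (H2 G (CoindQuot G A)))
    (htf : ∀ a : A, p • a = 0 → a = 0) [IsStableSub G π.ker] :
    Subsingleton (H1 G (HomMod R π.ker)) := by
  have hs : IsSES G π.ker.subtype π :=
    ⟨Subtype.val_injective, hsurj, fun b => ⟨fun h => ⟨⟨b, h⟩, rfl⟩, by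
      rintro ⟨a, rfl⟩; exact a.2⟩, fun _ _ => rfl, hπ⟩
  have h2 : Subsingleton (H2 G π.ker) := subsingleton_of_forall_eq 0 fun x => by
    have : hs.i2 x = 0 := hinj (by
      rw [map_zero]
      obtain ⟨c, rfl⟩ := H2.mk_surjective x
      rw [IsSES.i2, H2.map_mk, push2_mk, H2.mk_eq_zero_iff]
      exact ⟨fun _ => 0, fun g h => by
        rw [smul_zero, sub_zero, add_zero]
        exact ((c : G → G → π.ker) g h).2⟩)
    obtain ⟨y, rfl⟩ := hs.exact_H2A x this
    rw [Subsingleton.elim y 0, map_zero]
  have h3 : Subsingleton (H2 G (CoindQuot G π.ker)) := subsingleton_of_forall_eq 0 fun x => by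
    obtain ⟨y, rfl⟩ := hs.coindQuot.exact_H2A x (Subsingleton.elim _ _)
    obtain ⟨z, hz⟩ := hsur ((coind_isSES G C).delta y)
    obtain ⟨y', rfl⟩ := (coind_delta_bijective G A).2 z
    have hy : hs.coindQuot.p1 y' = y := by
      refine (coind_delta_bijective G C).1 ?_
      rw [← hz]
      exact ((coind_isSES G A).delta_natural (coind_isSES G C) (φ := MonoidHom.id G) (fA := π)
        (fB := coindMap π) (fC := coindQuotMap π hπ) ⟨hπ⟩ ⟨coindMap_smul π⟩
        ⟨coindQuotMap_smul π hπ⟩ (coindMap_iota π hπ) (coindQuotMap_proj π hπ) y').symm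
    rw [← hy, IsSES.delta_p1]
  exact (homMod_acyclic hG (fun w hw => Subtype.ext (htf w (congrArg Subtype.val hw))) h2 h3).1

/-- Lifting of equivariant maps up to a factor prime to `p`. -/
theorem IsClassModule.exists_lift (hC : IsClassModule p G C) [Module.Free ℤ R]
    (u₀ : Z2 G C) (hu : ∀ j : ℕ, j • H2.mk u₀ = 0 → pPart p G ∣ j)
    (φ : R →+ C) (hφ : ∀ (g : G) (r : R), φ (g • r) = g • φ r) :
    ∃ (m : ℕ) (lF : R →+ Coind G (C →₀ ℤ)) (lΩ : R →+ barKer G), ¬p ∣ m ∧
      (∀ (g : G) (r : R), lF (g • r) = g • lF r) ∧ (∀ (g : G) (r : R), lΩ (g • r) = g • lΩ r) ∧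
      ∀ r, m • φ r = freeCover C (lF r) + kappa (u₀ : G → G → C) (lΩ r) := by
  classical
  let π : Coind G (C →₀ ℤ) × barKer G →+ C :=
    (freeCover C).coprod (kappa (u₀ : G → G → C))
  have hπ : ∀ (g : G) (a : Coind G (C →₀ ℤ) × barKer G), π (g • a) = g • π a := fun g a => by
    show freeCover C (g • a.1) + kappa (u₀ : G → G → C) (g • a.2) =
      g • (freeCover C a.1 + kappa (u₀ : G → G → C) a.2)
    rw [freeCover_smul, kappa_equivariant u₀.2, smul_add]
  have hsurj : Function.Surjective π := fun c => by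
    obtain ⟨a, rfl⟩ := freeCover_surjective (G := G) c
    exact ⟨(a, 0), by simp [π]⟩
  have hst : IsStableSub G π.ker := isStableSub_ker π hπ
  obtain ⟨P⟩ : Nonempty (Sylow p G) := inferInstance
  set Ps : Subgroup G := (P : Subgroup G)
  have := IsStableSub.restrict (G := G) π.ker Ps
  have := IsStableSub.restrict (G := G) (barKer G) Ps
  have := Fintype.ofFinite Ps
  obtain ⟨hC1, hC2f, hC2⟩ := hC.sylow P
  have hcard : Nat.card Ps = pPart p G := card_sylow P
  have hidx : ¬p ∣ Ps.index := P.not_dvd_index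
  set uP : H2 Ps C := H2.map Ps.subtype (AddMonoidHom.id C) (CompatPair.subtype Ps) (H2.mk u₀)
    with huP
  have horder : ∀ j : ℕ, j • uP = 0 → pPart p G ∣ j := fun j hj => by
    have h1 := index_nsmul_H2_eq_zero Ps (j • H2.mk u₀) (by rw [map_nsmul]; exact hj)
    rw [← mul_smul] at h1
    exact ((Nat.Prime.coprime_iff_not_dvd hp.out).2 hidx |>.pow_left _).dvd_of_dvd_mul_left
      (hu _ h1)
  have horder' : ∀ j : ℤ, j • uP = 0 → (pPart p G : ℤ) ∣ j := fun j hj => by
    refine Int.natCast_dvd.2 (horder _ ?_)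
    rcases Int.natAbs_eq j with h | h
    · rw [h, natCast_zsmul] at hj
      exact hj
    · rw [h, neg_smul, neg_eq_zero, natCast_zsmul] at hj
      exact hj
  have hgen : ∀ x : H2 Ps C, ∃ j : ℤ, x = j • uP := by
    let f : Fin (pPart p G) → H2 Ps C := fun i => (i : ℕ) • uP
    have hf : Function.Injective f := fun i j hij => by
      have h1 : ((i : ℕ) : ℤ) • uP = ((j : ℕ) : ℤ) • uP := by simpa [f] using hij
      have h2 := horder' (((i : ℕ) : ℤ) - ((j : ℕ) : ℤ)) (by rw [sub_smul, h1, sub_self])
      refine Fin.ext ?_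
      have hi := i.isLt
      have hj := j.isLt
      obtain ⟨k, hk⟩ := h2
      have hk0 : k = 0 := by
        by_contra hne
        rcases lt_or_gt_of_ne hne with hlt | hgt
        · nlinarith
        · nlinarith
      subst hk0
      simp only [mul_zero] at hk
      omega
    have := Fintype.ofFinite (H2 Ps C)
    have hle : Fintype.card (H2 Ps C) ≤ Fintype.card (Fin (pPart p G)) := by
      rw [Fintype.card_fin, ← Nat.card_eq_fintype_card, ← hcard]
      exact hC2
    have hbij := (Fintype.bijective_iff_injective_and_card f).2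
      ⟨hf, le_antisymm (Fintype.card_le_of_injective f hf) hle⟩
    intro x
    obtain ⟨i, rfl⟩ := hbij.2 x
    exact ⟨(i : ℕ), (natCast_zsmul uP (i : ℕ)).symm⟩
  let ωP : H2 Ps (barKer G) :=
    H2.mk ⟨fun g h => (barOmega G : G → G → barKer G) g h,
      fun g h j => mem_Z2_iff.1 (barOmega G).2 (g : G) h j⟩
  let inr' : barKer G →+ Coind G (C →₀ ℤ) × barKer G := AddMonoidHom.inr _ _
  have hinr : ∀ (g : Ps) (a : barKer G), inr' (g • a) = g • inr' a := fun g a =>
    Prod.ext (smul_zero (g : G)).symm rfl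
  have hπP : ∀ (g : Ps) (a : Coind G (C →₀ ℤ) × barKer G), π (g • a) = g • π a :=
    fun g a => hπ g a
  have hπinr : ∀ j : ℤ, push2 Ps π hπP (push2 Ps inr' hinr (j • ωP)) = j • uP := fun j => by
    rw [map_zsmul, map_zsmul]
    congr 1
    rw [push2_mk, push2_mk, huP, H2.map_mk]
    congr 1
    ext g h
    show freeCover C 0 + kappa (u₀ : G → G → C) ((barOmega G : G → G → barKer G) g h) = _
    rw [map_zero, zero_add, kappa_omega u₀.2]
    rfl
  have hsur : Function.Surjective (push2 Ps π hπP) := fun x => by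
    obtain ⟨j, rfl⟩ := hgen x
    exact ⟨_, hπinr j⟩
  have hdecomp : ∀ x : H2 Ps (Coind G (C →₀ ℤ) × barKer G), ∃ j : ℤ,
      x = push2 Ps inr' hinr (j • ωP) := fun x => by
    obtain ⟨c, rfl⟩ := H2.mk_surjective x
    obtain ⟨b, hb⟩ := subsingleton_H2_iff.1 (Coind.subsingleton_H2 (G := G) (A := C →₀ ℤ) Ps)
      (fun g h => ((c : Ps → Ps → Coind G (C →₀ ℤ) × barKer G) g h).1)
      (fun g h j => congrArg Prod.fst (mem_Z2_iff.1 c.2 g h j))
    obtain ⟨j, β, hβ⟩ := exists_eq_zsmul_omega (G := G) Ps
      ⟨fun g h => ((c : Ps → Ps → Coind G (C →₀ ℤ) × barKer G) g h).2,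
        fun g h k => congrArg Prod.snd (mem_Z2_iff.1 c.2 g h k)⟩
    refine ⟨j, ?_⟩
    rw [← map_zsmul, push2_mk, ← sub_eq_zero, ← map_sub, H2.mk_eq_zero_iff]
    refine ⟨fun g => (b g, β g), fun g h => Prod.ext ?_ ?_⟩
    · show ((c : Ps → Ps → Coind G (C →₀ ℤ) × barKer G) g h).1 - 0 = _
      rw [sub_zero, hb]
      rfl
    · show ((c : Ps → Ps → Coind G (C →₀ ℤ) × barKer G) g h).2 -
        j • (barOmega G : G → G → barKer G) g h = _
      rw [show ((c : Ps → Ps → Coind G (C →₀ ℤ) × barKer G) g h).2 = _ from hβ g h,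
        add_sub_cancel_left]
      rfl
  have hinj : Function.Injective (push2 Ps π hπP) := (injective_iff_map_eq_zero _).2 fun x hx => by
    obtain ⟨j, rfl⟩ := hdecomp x
    rw [hπinr] at hx
    obtain ⟨k, rfl⟩ := horder' j hx
    have h0 : (pPart p G : ℤ) • ωP = 0 := by
      rw [natCast_zsmul, ← hcard]
      exact card_nsmul_H2 _
    rw [mul_comm, mul_smul, h0, smul_zero, map_zero]
  have hN3 : Subsingleton (H2 Ps (CoindQuot Ps (Coind G (C →₀ ℤ) × barKer G))) := by
    have hs : IsSES Ps (AddMonoidHom.inl (Coind G (C →₀ ℤ)) (barKer G))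
        (AddMonoidHom.snd (Coind G (C →₀ ℤ)) (barKer G)) :=
      ⟨fun a b h => congrArg Prod.fst h, fun b => ⟨(0, b), rfl⟩,
        fun x => ⟨fun h => ⟨x.1, Prod.ext rfl h.symm⟩, by rintro ⟨a, rfl⟩; rfl⟩,
        fun g a => Prod.ext rfl (smul_zero (g : G)).symm, fun _ _ => rfl⟩
    have h1 := subsingleton_H2_coindQuot_free Ps (C →₀ ℤ)
    have h2 := subsingleton_H2_coindQuot_barKer (G := G) Ps
    refine subsingleton_of_forall_eq 0 fun x => ?_
    obtain ⟨y, rfl⟩ := hs.coindQuot.exact_H2B x (Subsingleton.elim _ _)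
    rw [Subsingleton.elim y 0, map_zero]
  have htf : ∀ a : Coind G (C →₀ ℤ) × barKer G, p • a = 0 → a = 0 := fun a ha => by
    refine Prod.ext (funext fun t => ?_) (Subtype.ext (funext fun t => funext fun k => ?_))
    · have h1 : p • (a.1 t) = 0 := congrFun (congrArg Prod.fst ha) t
      exact (smul_eq_zero.1 h1).resolve_left hp.out.ne_zero
    · have h1 : p • ((a.2 : Coind G (G → ℤ)) t k) = 0 :=
        congrFun (congrFun (congrArg Subtype.val (congrArg Prod.snd ha)) t) k
      exact (smul_eq_zero.1 h1).resolve_left hp.out.ne_zero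
  have hW := subsingleton_H1_homMod_ker (G := Ps) (R := R) P.isPGroup' π hπP hsurj hC1 hinj hsur
    hN3 htf
  obtain ⟨l₀, hl₀⟩ := exists_lift_hom π hsurj φ
  let L₀ : HomMod R (Coind G (C →₀ ℤ) × barKer G) := HomMod.mk l₀
  have hker : ∀ (g : G) (r : R), (g • L₀ - L₀) r ∈ π.ker := fun g r => by
    rw [AddMonoidHom.mem_ker, HomMod.sub_apply, map_sub, HomMod.smul_apply, hπ]
    show g • π (l₀ (g⁻¹ • r)) - π (l₀ r) = 0
    rw [hl₀, hl₀, ← hφ, smul_inv_smul, sub_self]
  let c : G → HomMod R π.ker := fun g => HomMod.mk (((g • L₀ - L₀).hom).codRestrict π.ker (hker g))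
  have hc : c ∈ Z1 G (HomMod R π.ker) := mem_Z1_iff.2 fun g h => HomMod.ext fun r => Subtype.ext (by
    show ((g * h) • L₀ - L₀) r = g • ((h • L₀ - L₀) (g⁻¹ • r)) + (g • L₀ - L₀) r
    rw [mul_smul, HomMod.sub_apply, HomMod.sub_apply, HomMod.sub_apply, smul_sub,
      HomMod.smul_apply g (h • L₀), HomMod.smul_apply g L₀]
    abel)
  have hres : H1.map Ps.subtype (AddMonoidHom.id _) (CompatPair.subtype Ps)
      (H1.mk (⟨c, hc⟩ : Z1 G (HomMod R π.ker))) = 0 := hW.elim _ _
  have hw := index_nsmul_H1_eq_zero Ps _ hres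
  rw [← map_nsmul, H1.mk_eq_zero_iff] at hw
  obtain ⟨w, hw⟩ := hw
  let l : HomMod R (Coind G (C →₀ ℤ) × barKer G) :=
    Ps.index • L₀ - HomMod.post π.ker.subtype w
  have hl : ∀ g : G, g • l = l := fun g => by
    refine HomMod.ext fun r => ?_
    have h1 : Ps.index • ((g • L₀ - L₀) r) = ((g • w - w : HomMod R π.ker) r : π.ker).1 :=
      congrArg (fun f : HomMod R π.ker => ((f r : π.ker) : Coind G (C →₀ ℤ) × barKer G)) (hw g)
    rw [HomMod.sub_apply, HomMod.smul_apply, HomMod.sub_apply] at h1
    change _ = g • ((w (g⁻¹ • r) : π.ker) : Coind G (C →₀ ℤ) × barKer G) - (w r : π.ker).1 at h1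
    show g • (Ps.index • L₀ (g⁻¹ • r) - (w (g⁻¹ • r) : π.ker).1) =
      Ps.index • L₀ r - (w r : π.ker).1
    rw [smul_sub, smul_comm g Ps.index]
    rw [smul_sub] at h1
    linear_combination (norm := abel) h1
  refine ⟨Ps.index, (AddMonoidHom.fst _ _).comp l.hom, (AddMonoidHom.snd _ _).comp l.hom, hidx,
    fun g r => congrArg Prod.fst (equivariant_of_fixed hl g r),
    fun g r => congrArg Prod.snd (equivariant_of_fixed hl g r), fun r => ?_⟩
  show Ps.index • φ r = π (Ps.index • l₀ r - (w r : π.ker).1)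
  rw [map_sub, map_nsmul, hl₀, show π (w r : π.ker).1 = 0 from (w r : π.ker).2, sub_zero]

theorem push2_freeCover_comp (lF : A →+ Coind G (C →₀ ℤ))
    (hlF : ∀ (g : G) (a : A), lF (g • a) = g • lF a)
    (h : ∀ (g : G) (a : A), (freeCover C).comp lF (g • a) = g • (freeCover C).comp lF a)
    (x : H2 G A) : push2 G ((freeCover C).comp lF) h x = 0 := by
  rw [push2_comp hlF freeCover_smul]
  have := Coind.subsingleton_H2_self (G := G) (X := C →₀ ℤ)
  rw [Subsingleton.elim (push2 G lF hlF x) 0, map_zero]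

theorem push2_kappa_comp (u₀ : Z2 G C) (l : HomMod R (barKer G)) (hl : ∀ g : G, g • l = l)
    (x : HomMod (barKer G) R) (hx : ∀ g : G, g • x = x)
    (h : ∀ (g : G) (r : R),
      (kappa (u₀ : G → G → C)).comp l.hom (g • r) = g • (kappa (u₀ : G → G → C)).comp l.hom r) :
    push2 G ((kappa (u₀ : G → G → C)).comp l.hom) h
        (push2 G x.hom (equivariant_of_fixed hx) (H2.mk (barOmega G))) =
      (l.comp x).tr • H2.mk u₀ := by
  have hlx : ∀ g : G, g • l.comp x = l.comp x := fun g => by rw [HomMod.smul_comp, hl, hx]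
  rw [push2_comp (equivariant_of_fixed hl) (kappa_equivariant u₀.2),
    ← push2_comp (f := x.hom) (f' := l.hom) (equivariant_of_fixed hx) (equivariant_of_fixed hl)
      (equivariant_of_fixed (f := l.comp x) hlx)]
  show push2 G (kappa (u₀ : G → G → C)) _
    (push2 G (l.comp x).hom (equivariant_of_fixed hlx) (H2.mk (barOmega G))) = _
  rw [push2_barKer _ hlx, map_zsmul, push2_kappa]

omit hp [Fintype G] in
theorem IsClassModule.exists_cocycle (hC : IsClassModule p G C) :
    ∃ u₀ : Z2 G C, (∀ j : ℕ, j • H2.mk u₀ = 0 → pPart p G ∣ j) ∧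
      ∀ j : ℤ, j • H2.mk u₀ = 0 → (pPart p G : ℤ) ∣ j := by
  obtain ⟨u, hu⟩ := hC.exists_gen
  obtain ⟨u₀, rfl⟩ := H2.mk_surjective u
  refine ⟨u₀, hu, fun j hj => Int.natCast_dvd.2 (hu _ ?_)⟩
  rcases Int.natAbs_eq j with h | h
  · rw [h, natCast_zsmul] at hj
    exact hj
  · rw [h, neg_smul, neg_eq_zero, natCast_zsmul] at hj
    exact hj

/-- Classes of a lattice killed by `p` are detected by equivariant maps to the class module. -/
theorem IsClassModule.exists_push2_ne_zero (hC : IsClassModule p G C) [Module.Free ℤ R]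
    [Module.Finite ℤ R] {ρ : H2 G R} (hρp : p • ρ = 0) (hρ : ρ ≠ 0) :
    ∃ (φ : R →+ C) (hφ : ∀ (g : G) (r : R), φ (g • r) = g • φ r), push2 G φ hφ ρ ≠ 0 := by
  obtain ⟨u₀, -, hu⟩ := hC.exists_cocycle
  obtain ⟨c, rfl⟩ := H2.mk_surjective ρ
  by_contra! hall
  apply hρ
  set x : HomMod (barKer G) R := HomMod.mk (kappa (c : G → G → R))
  have hx : ∀ g : G, g • x = x := (HomMod.smul_eq_self_iff x).2 (kappa_equivariant c.2)
  set m := pCompl p G
  have hdiv : ∀ l : HomMod R (barKer G), (∀ g : G, g • l = l) →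
      (Fintype.card G : ℤ) ∣ (l.comp (m • x)).tr := fun l hl => by
    have hk : ∀ (g : G) (r : R), (kappa (u₀ : G → G → C)).comp l.hom (g • r) =
        g • (kappa (u₀ : G → G → C)).comp l.hom r := fun g r => by
      show kappa (u₀ : G → G → C) (l.hom (g • r)) = g • kappa (u₀ : G → G → C) (l.hom r)
      rw [equivariant_of_fixed hl, kappa_equivariant u₀.2]
    have h0 := hall ((kappa (u₀ : G → G → C)).comp l.hom) hk
    rw [← push2_kappa c] at h0
    have h1 := (push2_kappa_comp u₀ l hl x hx hk).symm.trans h0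
    have h2 : (l.comp (m • x)).tr = m * (l.comp x).tr := by
      show intTrace (l.hom.comp (m • x.hom)) = _
      rw [show l.hom.comp (m • x.hom) = (m : ℤ) • l.hom.comp x.hom from AddMonoidHom.ext fun a => by
        show l.hom (m • x.hom a) = (m : ℤ) • l.hom (x.hom a)
        rw [map_nsmul, natCast_zsmul], intTrace_zsmul]
      rfl
    rw [h2, ← Nat.card_eq_fintype_card, ← pPart_mul_pCompl (p := p), Nat.cast_mul, mul_comm]
    exact mul_dvd_mul_left _ (hu _ h1)
  have hmx : ∀ g : G, g • (m • x) = m • x := fun g => by rw [smul_comm, hx]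
  obtain ⟨y, hy⟩ := exists_norm_of_dvd_trace (m • x) hmx hdiv
  have hm0 : m • H2.mk c = 0 := by
    have h1 : push2 G (m • x : HomMod (barKer G) R).hom (equivariant_of_fixed hmx)
        (H2.mk (barOmega G)) = m • H2.mk c := by
      rw [← push2_kappa c]
      exact push2_nsmul m (kappa_equivariant c.2) _ _
    have hyf : ∀ g : G, g • (∑ g : G, g • y) = ∑ g : G, g • y := fun g => hy ▸ hmx g
    rw [← h1, push2_congr (equivariant_of_fixed hmx) (equivariant_of_fixed hyf)
      (congrArg HomMod.hom hy), push2_norm]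
  have hdvd1 : addOrderOf (H2.mk c) ∣ p := addOrderOf_dvd_of_nsmul_eq_zero hρp
  have hdvd2 : addOrderOf (H2.mk c) ∣ m := addOrderOf_dvd_of_nsmul_eq_zero hm0
  exact AddMonoid.addOrderOf_eq_one_iff.1 (Nat.eq_one_of_dvd_coprimes
    ((Nat.Prime.coprime_iff_not_dvd hp.out).2 not_dvd_pCompl) hdvd1 hdvd2)

/-- An equivariant map killing all `p`-power torsion classes is a norm up to a factor prime to
`p`. -/
theorem IsClassModule.exists_norm (hC : IsClassModule p G C) [Module.Free ℤ R]
    [Module.Finite ℤ R] (φ : R →+ C) (hφ : ∀ (g : G) (r : R), φ (g • r) = g • φ r)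
    (h : ∀ ρ : H2 G R, pPart p G • ρ = 0 → push2 G φ hφ ρ = 0) :
    ∃ (m : ℕ) (y : HomMod R C), ¬p ∣ m ∧ m • HomMod.mk φ = ∑ g : G, g • y := by
  obtain ⟨u₀, hu', hu⟩ := hC.exists_cocycle
  obtain ⟨m₀, lF, lΩ, hm₀, hlF, hlΩ, hlift⟩ := hC.exists_lift u₀ hu' φ hφ
  set l : HomMod R (barKer G) := HomMod.mk lΩ
  have hl : ∀ g : G, g • l = l := (HomMod.smul_eq_self_iff l).2 hlΩ
  set m := pCompl p G
  have hkl : ∀ (g : G) (r : R), (kappa (u₀ : G → G → C)).comp l.hom (g • r) =
      g • (kappa (u₀ : G → G → C)).comp l.hom r := fun g r => by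
    show kappa (u₀ : G → G → C) (l.hom (g • r)) = g • kappa (u₀ : G → G → C) (l.hom r)
    rw [equivariant_of_fixed hl, kappa_equivariant u₀.2]
  have hfl : ∀ (g : G) (r : R), (freeCover C).comp lF (g • r) = g • (freeCover C).comp lF r :=
    fun g r => by
      show freeCover C (lF (g • r)) = g • freeCover C (lF r)
      rw [hlF, freeCover_smul]
  have hsum : m₀ • φ = (freeCover C).comp lF + (kappa (u₀ : G → G → C)).comp l.hom :=
    AddMonoidHom.ext hlift
  have hdiv : ∀ x : HomMod (barKer G) R, (∀ g : G, g • x = x) →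
      (Fintype.card G : ℤ) ∣ (x.comp (m • l)).tr := fun x hx => by
    set ρ := push2 G x.hom (equivariant_of_fixed hx) (H2.mk (barOmega G))
    have hn : pPart p G • m • ρ = 0 := by
      rw [← mul_smul, pPart_mul_pCompl]
      exact card_nsmul_H2 _
    have hzero : m • push2 G ((kappa (u₀ : G → G → C)).comp l.hom) hkl ρ = 0 := by
      have h1 := h (m • ρ) hn
      rw [map_nsmul] at h1
      have h2 : push2 G (m₀ • φ) (equivariant_nsmul m₀ hφ) ρ =
          push2 G ((kappa (u₀ : G → G → C)).comp l.hom) hkl ρ := by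
        rw [push2_congr (equivariant_nsmul m₀ hφ) (fun g r => by
            rw [← hsum]; exact equivariant_nsmul m₀ hφ g r) hsum,
          push2_add hfl hkl, push2_freeCover_comp lF hlF hfl, zero_add]
      rw [← h2, push2_nsmul m₀ hφ, smul_comm, h1, smul_zero]
    rw [push2_kappa_comp u₀ l hl x hx hkl, ← natCast_zsmul, ← mul_smul] at hzero
    have h3 : (pPart p G : ℤ) ∣ (l.comp x).tr := by
      refine ((Int.isCoprime_iff_nat_coprime).2 ?_).dvd_of_dvd_mul_left (hu _ hzero)
      simpa [pPart] using ((Nat.Prime.coprime_iff_not_dvd hp.out).2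
        (not_dvd_pCompl (p := p) (G := G))).pow_left _
    have h4 : (x.comp (m • l)).tr = m * (l.comp x).tr := by
      rw [HomMod.tr_comp_comm x (m • l)]
      show intTrace ((m • l.hom).comp x.hom) = _
      rw [show (m • l.hom).comp x.hom = (m : ℤ) • l.hom.comp x.hom from AddMonoidHom.ext fun a => by
        show m • l.hom (x.hom a) = (m : ℤ) • l.hom (x.hom a)
        rw [natCast_zsmul], intTrace_zsmul]
      rfl
    rw [h4, ← Nat.card_eq_fintype_card, ← pPart_mul_pCompl (p := p), Nat.cast_mul, mul_comm]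
    exact mul_dvd_mul_left _ h3
  have hml : ∀ g : G, g • (m • l) = m • l := fun g => by rw [smul_comm, hl]
  obtain ⟨y, hy⟩ := exists_norm_of_dvd_trace (m • l) hml hdiv
  let single1 : HomMod R C := HomMod.mk ((freeCover C).comp (AddMonoidHom.mk'
    (fun r => coindSingle (G := G) (lF r 1)) fun a b => Coind.ext fun x => by
      simp only [coindSingle, Coind.mk_apply, Coind.add_apply, map_add]
      split <;> simp))
  refine ⟨m * m₀, m • single1 + HomMod.post (kappa (u₀ : G → G → C)) y,
    (Nat.Prime.prime hp.out).not_dvd_mul not_dvd_pCompl hm₀, HomMod.ext fun r => ?_⟩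
  have hone : (∑ g : G, g • single1 : HomMod R C).hom r = freeCover C (lF r) := by
    rw [normHom_eq]
    conv_rhs => rw [← coindExt_self (lF r)]
    rw [map_sum, coindExt_apply]
    refine Finset.sum_congr rfl fun g _ => ?_
    show g⁻¹ • freeCover C (coindSingle (lF (g • r) 1)) = _
    rw [hlF, Coind.smul_apply, one_mul, freeCover_smul]
  have hy' : m • lΩ r = (∑ g : G, g • y : HomMod R (barKer G)).hom r :=
    congrArg (fun f : HomMod R (barKer G) => f.hom r) hy
  have hpost : HomMod.post (kappa (u₀ : G → G → C)) (∑ g : G, g • y) =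
      ∑ g : G, g • HomMod.post (kappa (u₀ : G → G → C)) y := by
    rw [map_sum]
    exact Finset.sum_congr rfl fun g _ => HomMod.post_smul _ (kappa_equivariant u₀.2) g y
  rw [Finset.sum_congr rfl fun g _ =>
    smul_add g (m • single1) (HomMod.post (kappa (u₀ : G → G → C)) y), Finset.sum_add_distrib,
    Finset.sum_congr rfl fun g _ => smul_comm g m single1, ← Finset.smul_sum, ← hpost]
  show (m * m₀) • φ r = m • (∑ g : G, g • single1 : HomMod R C).hom r +
    kappa (u₀ : G → G → C) ((∑ g : G, g • y : HomMod R (barKer G)).hom r)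
  rw [hone, ← hy', map_nsmul, ← smul_add, mul_smul, hlift]

end FLTAgent.GalCoh
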