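import Mathlib
import Fermat.Agent.GlobalDuality.Unram
import Fermat.Agent.GlobalDuality.TateNakayama

/-!
# Cohomology of the units at an unramified prime

A fixed element of valuation zero of a cyclic group acting on a valued module with few classes in
`H2` is the norm of an element of valuation zero; this applies to the unramified local units.
-/

set_option autoImplicit false

noncomputable section

namespace FLTAgent.GalCoh

variable {G : Type} [Group G] [Finite G] {A : Type} [AddCommGroup A] [DistribMulAction G A]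

omit [Finite G] in
theorem map_psum {X : Type} [AddCommGroup X] (v : A →+ X) (hv : ∀ (σ : G) (a : A), v (σ • a) = v a)
    (g : G) (k : ℕ) (a : A) : v (psum g k a) = k • v a := by
  rw [psum, map_sum, Finset.sum_congr rfl fun i _ => hv (g ^ i) a, Finset.sum_const,
    Finset.card_range]

theorem psum_orderOf_eq_sum [Fintype G] {g : G} (hg : ∀ x : G, x ∈ Subgroup.zpowers g) (a : A) :
    psum g (orderOf g) a = ∑ σ : G, σ • a := by
  classical
  rw [psum]
  refine Finset.sum_bij (fun i _ => g ^ i) (fun i _ => Finset.mem_univ _) ?_ ?_ (fun i _ => rfl)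
  · intro i hi j hj h
    exact pow_injOn_Iio_orderOf (Finset.mem_range.1 hi) (Finset.mem_range.1 hj) h
  · intro σ _
    obtain ⟨i, hi, rfl⟩ := exists_pow_eq hg σ
    exact ⟨i, Finset.mem_range.2 hi, rfl⟩

theorem exists_norm_valuation_zero {g : G} (hg : ∀ x : G, x ∈ Subgroup.zpowers g) (v : A →+ ℤ)
    (hv : ∀ (σ : G) (a : A), v (σ • a) = v a) {ϖ : A} (hϖ : ∀ σ : G, σ • ϖ = ϖ)
    (hϖ1 : v ϖ = 1) [Finite (H2 G A)] (hcard : Nat.card (H2 G A) ≤ Nat.card G)
    {a : A} (ha : ∀ σ : G, σ • a = a) (ha0 : v a = 0) :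
    ∃ b : A, v b = 0 ∧ psum g (orderOf g) b = a := by
  have horder : orderOf g = Nat.card G := orderOf_eq_card_of_forall_mem_zpowers hg
  rcases Nat.lt_or_ge 1 (orderOf g) with hn | hn
  swap
  · refine ⟨a, ha0, ?_⟩
    have h1 : orderOf g = 1 := le_antisymm hn (isOfFinOrder_of_finite g).orderOf_pos
    simp [psum, h1]
  set n := orderOf g with hn_def
  have : NeZero n := ⟨by omega⟩
  let e := zmodMulEquivOfGenerator hg horder.symm
  let χ : G →* Multiplicative (ZMod n) := e.symm.toMonoidHom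
  have hχ : χ g = Multiplicative.ofAdd 1 :=
    e.injective ((e.apply_symm_apply g).trans (zmodMulEquivOfGenerator_apply_ofAdd_one hg _).symm)
  let cls : ℕ → H2 G A := fun i => i • H2.mk (carry χ ϖ hϖ)
  have hinv : ∀ (z : A) (hz : ∀ σ : G, σ • z = z),
      cyclicMap g (H2.mk (carry χ z hz)) = QuotientAddGroup.mk z := fun z hz => by
    rw [cyclicMap_mk, cyclicInv_carry χ z hz g hn_def.symm hn hχ]
  have hinj : Function.Injective fun i : Fin n => cls i := fun i j hij => by
    have h := congrArg (cyclicMap g) hij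
    simp only [cls, map_nsmul, hinv] at h
    rw [← QuotientAddGroup.mk_nsmul, ← QuotientAddGroup.mk_nsmul,
      QuotientAddGroup.eq_iff_sub_mem] at h
    obtain ⟨b, hb⟩ := h
    have h' := congrArg v hb
    change v (psum g n b) = _ at h'
    rw [map_psum v hv, map_sub, map_nsmul, map_nsmul, hϖ1] at h'
    simp only [nsmul_eq_mul, mul_one] at h'
    refine Fin.ext ?_
    have hi := i.isLt
    have hj := j.isLt
    rcases lt_trichotomy (v b) 0 with hlt | h0 | hgt
    · nlinarith
    · rw [h0] at h'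
      omega
    · nlinarith
  have := Fintype.ofFinite (H2 G A)
  obtain ⟨i, hi⟩ := ((Fintype.bijective_iff_injective_and_card _).2 ⟨hinj, le_antisymm
    (Fintype.card_le_of_injective _ hinj) (by
      rw [Fintype.card_fin, horder, ← Nat.card_eq_fintype_card]; exact hcard)⟩).2
    (H2.mk (carry χ a ha))
  have h := congrArg (cyclicMap g) hi
  simp only [cls, map_nsmul, hinv] at h
  rw [← QuotientAddGroup.mk_nsmul, QuotientAddGroup.eq_iff_sub_mem] at h
  obtain ⟨b, hb⟩ := h
  change psum g n b = _ at hb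
  have h' := congrArg v hb
  rw [map_psum v hv, map_sub, map_nsmul, hϖ1, ha0] at h'
  simp only [nsmul_eq_mul, mul_one, sub_zero] at h'
  have hb0 : v b = 0 := by
    rcases lt_trichotomy (v b) 0 with hlt | h0 | hgt
    · nlinarith [i.isLt]
    · exact h0
    · nlinarith [i.isLt]
  have hi0 : (i : ℕ) = 0 := by
    rw [hb0, mul_zero] at h'
    omega
  rw [hi0, zero_nsmul, zero_sub] at hb
  refine ⟨-b, by rw [map_neg, hb0, neg_zero], ?_⟩
  rw [show psum g n (-b) = -psum g n b by simp [psum, smul_neg, Finset.sum_neg_distrib],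
    hb, neg_neg]

end FLTAgent.GalCoh

namespace FLTAgent.GlobalDuality

open FLTAgent.GalCoh FLTAgent.LocalDuality FLTAgent.IdeleClassCohomology

variable {L : Layer} {q : Nat.Primes}

theorem exists_norm_eq_zpow_of_inertia (hI : inertiaLoc L q = ⊥) (x : LocU L q) :
    ∃ k : ℤ, ‖(x : LU q).val‖ = ‖(qUnit q).val‖ ^ k := by
  obtain ⟨ϖ, -, hval, he⟩ := exists_uniformizer L q
  rw [show ramLoc L q = 1 by rw [ramLoc, hI, Subgroup.card_bot], pow_one] at he
  obtain ⟨k, hk⟩ := hval x
  exact ⟨k, by rw [hk, he, norm_qUnit]⟩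

/-- The order at `q` on the local units of an unramified layer. -/
def locOrd (hI : inertiaLoc L q = ⊥) : LocU L q →+ ℤ :=
  AddMonoidHom.mk' (fun x => (exists_norm_eq_zpow_of_inertia hI x).choose) fun x y => by
    have hc : 0 < ‖(qUnit q).val‖ := norm_pos_iff.2 (Units.ne_zero _)
    have hc1 : ‖(qUnit q).val‖ ≠ 1 := by
      rw [norm_qUnit]; exact (IdeleClassCohomology.inv_prime_lt_one q).ne
    refine zpow_right_injective₀ hc hc1 ?_
    dsimp only
    rw [← (exists_norm_eq_zpow_of_inertia hI (x + y)).choose_spec, zpow_add₀ hc.ne',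
      ← (exists_norm_eq_zpow_of_inertia hI x).choose_spec,
      ← (exists_norm_eq_zpow_of_inertia hI y).choose_spec, AddSubgroup.coe_add, LU.val_add,
      norm_mul]

theorem norm_eq_zpow_locOrd (hI : inertiaLoc L q = ⊥) (x : LocU L q) :
    ‖(x : LU q).val‖ = ‖(qUnit q).val‖ ^ locOrd hI x :=
  (exists_norm_eq_zpow_of_inertia hI x).choose_spec

theorem locOrd_eq_of_norm (hI : inertiaLoc L q = ⊥) {x : LocU L q} {k : ℤ}
    (h : ‖(x : LU q).val‖ = ‖(qUnit q).val‖ ^ k) : locOrd hI x = k := by
  refine zpow_right_injective₀ (norm_pos_iff.2 (Units.ne_zero _)) ?_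
    ((norm_eq_zpow_locOrd hI x).symm.trans h)
  rw [norm_qUnit]; exact (IdeleClassCohomology.inv_prime_lt_one q).ne

theorem locOrd_eq_zero_iff (hI : inertiaLoc L q = ⊥) (x : LocU L q) :
    locOrd hI x = 0 ↔ (x : LU q) ∈ unitsAt q := by
  rw [mem_unitsAt_iff]
  exact ⟨fun h => by rw [norm_eq_zpow_locOrd hI, h, zpow_zero],
    fun h => locOrd_eq_of_norm hI (by rw [h, zpow_zero])⟩

theorem norm_smul_LocU (σ : LocG L q) (x : LocU L q) :
    ‖((σ • x : LocU L q) : LU q).val‖ = ‖(x : LU q).val‖ := by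
  induction σ using QuotientGroup.induction_on with
  | _ τ => exact norm_smul_LU τ _

theorem locOrd_smul (hI : inertiaLoc L q = ⊥) (σ : LocG L q) (x : LocU L q) :
    locOrd hI (σ • x) = locOrd hI x :=
  locOrd_eq_of_norm hI (by rw [norm_smul_LocU, norm_eq_zpow_locOrd hI])

/-- The prime `q` in the local units of a layer. -/
def qLocU (L : Layer) (q : Nat.Primes) : LocU L q := ⟨qUnit q, qUnit_mem_LocU L q⟩

theorem smul_qLocU (σ : LocG L q) : σ • qLocU L q = qLocU L q := by
  induction σ using QuotientGroup.induction_on with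
  | _ τ => exact Subtype.ext (smul_qUnit q τ)

theorem locOrd_qLocU (hI : inertiaLoc L q = ⊥) : locOrd hI (qLocU L q) = 1 :=
  locOrd_eq_of_norm hI (zpow_one _).symm

/-- Fixed units are norms of units, up to a factor prime to `p`. -/
theorem exists_unit_norm (p : ℕ) [hp : Fact p.Prime] (hI : inertiaLoc L q = ⊥) {a : LocU L q}
    (ha : ∀ σ : LocG L q, σ • a = a) (ha0 : (a : LU q) ∈ unitsAt q) [Fintype (LocG L q)] :
    ∃ (m : ℕ) (b : LocU L q), ¬p ∣ m ∧ (b : LU q) ∈ unitsAt q ∧
      ∑ σ : LocG L q, σ • b = m • a := by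
  obtain ⟨F, -, hF⟩ := exists_frobenius_loc L q hI
  set n := Nat.card (LocG L q)
  set m := pCompl p (LocG L q)
  have hFn : orderOf F = n := orderOf_eq_card_of_forall_mem_zpowers hF
  have hmn : pPart p (LocG L q) * m = n := pPart_mul_pCompl
  have hm : ¬p ∣ m := not_dvd_pCompl
  have hm0 : m ≠ 0 := fun h => hm (h ▸ dvd_zero p)
  set g := F ^ m with hg_def
  have hg : orderOf g = pPart p (LocG L q) := by
    rw [hg_def, orderOf_pow' F hm0, hFn, Nat.gcd_eq_right ⟨_, hmn.symm.trans (mul_comm _ _)⟩,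
      ← hmn, Nat.mul_div_cancel _ (Nat.pos_of_ne_zero hm0)]
  set P := Subgroup.zpowers g with hP
  have hgen : ∀ x : P, x ∈ Subgroup.zpowers (⟨g, Subgroup.mem_zpowers g⟩ : P) := fun x => by
    obtain ⟨k, hk⟩ := Subgroup.mem_zpowers_iff.1 x.2
    exact Subgroup.mem_zpowers_iff.2 ⟨k, Subtype.ext (by rw [SubgroupClass.coe_zpow]; exact hk)⟩
  have hPG : IsPGroup p P := IsPGroup.of_card (n := (Nat.card (LocG L q)).factorization p)
    (by rw [hP, Nat.card_zpowers, hg]; rfl)
  obtain ⟨hfin, hle⟩ := LocU.pgroup_bound' p L q P hPG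
  obtain ⟨b, hb0, hb⟩ := exists_norm_valuation_zero hgen (locOrd hI)
    (fun σ x => locOrd_smul hI (σ : LocG L q) x) (ϖ := qLocU L q) (fun σ => smul_qLocU _)
    (locOrd_qLocU hI) hle (a := a) (fun σ => ha _) ((locOrd_eq_zero_iff hI a).2 ha0)
  refine ⟨m, b, hm, (locOrd_eq_zero_iff hI b).1 hb0, ?_⟩
  have hP' : psum g (orderOf g) b = a := by
    rw [← hb, psum, psum, ← Subgroup.orderOf_coe]
    rfl
  have hsum : psum F (orderOf F) b = ∑ i ∈ Finset.range m, F ^ i • psum g (orderOf g) b := by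
    simp only [psum, Finset.smul_sum]
    rw [← Finset.sum_product', hFn]
    refine (Finset.sum_bij (fun (x : ℕ × ℕ) _ => x.1 + m * x.2) ?_ ?_ ?_ ?_).symm
    · intro x hx
      simp only [Finset.mem_product, Finset.mem_range, hg] at hx ⊢
      calc x.1 + m * x.2 < m + m * x.2 := by omega
        _ = m * (x.2 + 1) := by ring
        _ ≤ m * pPart p (LocG L q) := Nat.mul_le_mul_left _ hx.2
        _ = n := by rw [mul_comm, hmn]
    · intro x hx y hy h
      simp only [Finset.mem_product, Finset.mem_range] at hx hy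
      have h1 := congrArg (· % m) h
      simp only [Nat.add_mul_mod_self_left, Nat.mod_eq_of_lt hx.1, Nat.mod_eq_of_lt hy.1] at h1
      refine Prod.ext h1 ?_
      rw [h1, add_right_inj] at h
      exact Nat.eq_of_mul_eq_mul_left (Nat.pos_of_ne_zero hm0) h
    · intro j hj
      simp only [Finset.mem_range] at hj
      refine ⟨(j % m, j / m), ?_, Nat.mod_add_div j m⟩
      simp only [Finset.mem_product, Finset.mem_range, hg]
      exact ⟨Nat.mod_lt _ (Nat.pos_of_ne_zero hm0),
        (Nat.div_lt_iff_lt_mul (Nat.pos_of_ne_zero hm0)).2 (by rwa [hmn])⟩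
    · intro x _
      rw [← mul_smul, hg_def, ← pow_mul, ← pow_add]
  rw [← psum_orderOf_eq_sum hF, hsum, hP', Finset.sum_congr rfl fun i _ => ha (F ^ i),
    Finset.sum_const, Finset.card_range]

end FLTAgent.GlobalDuality
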