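import Mathlib
import Fermat.Agent.GlobalDuality.Units
import Fermat.Agent.GlobalDuality.Inflation

/-!
# The local class module

A class of order the `p`-part of the local degree in `H2` of the local units of a layer, obtained
by descent from an unramified cyclotomic extension.
-/

set_option autoImplicit false

noncomputable section

namespace FLTAgent.GlobalDuality

open FLTAgent.GalCoh FLTAgent.LocalDuality FLTAgent.IdeleClassCohomology

theorem exists_prime_orderOf {p : ℕ} [hp : Fact p.Prime] (hp2 : p ≠ 2) (q : Nat.Primes) {j : ℕ}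
    (hj : 0 < j) : ∃ (ℓ : Nat.Primes) (hne : q ≠ ℓ), orderOf (primeUnit hne) = p ^ j := by
  obtain ⟨i, rfl⟩ : ∃ i, j = i + 1 := ⟨j - 1, by omega⟩
  set y := (q : ℕ) ^ p ^ i with hy
  have hy2 : 2 ≤ y := le_trans q.2.two_le (Nat.le_self_pow (pow_ne_zero _ hp.out.ne_zero) _)
  set Φ := ∑ t ∈ Finset.range p, y ^ t with hΦ
  have hΦgt : p < Φ := by
    have h1 : ∑ t ∈ Finset.range p, 1 < Φ := Finset.sum_lt_sum
      (fun t _ => Nat.one_le_pow _ _ (by omega))
      ⟨1, Finset.mem_range.2 hp.out.one_lt, by rw [pow_one]; omega⟩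
    simpa using h1
  have hgeom : ∀ (R : Type) [CommRing R], ((Φ : ℕ) : R) * ((y : R) - 1) = (y : R) ^ p - 1 := by
    intro R _
    rw [hΦ, Nat.cast_sum, ← geom_sum_mul]
    simp only [Nat.cast_pow]
  have hndvd : ¬ p ^ 2 ∣ Φ := by
    intro h
    have h1 : (y : ZMod p) = 1 := by
      have := hgeom (ZMod p)
      rw [ZMod.pow_card, (ZMod.natCast_eq_zero_iff _ _).2
        (dvd_trans (dvd_pow_self p two_ne_zero) h),
        zero_mul, eq_comm, sub_eq_zero] at this
      exact this
    obtain ⟨k, hk⟩ : p ∣ y - 1 := by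
      rw [← ZMod.natCast_eq_zero_iff, Nat.cast_sub (by omega), h1, Nat.cast_one, sub_self]
    have hyk : y = 1 + p * k := by omega
    set ε : ZMod (p ^ 2) := (p : ZMod (p ^ 2)) * (k : ZMod (p ^ 2)) with hε
    have hp0 : (p : ZMod (p ^ 2)) * p = 0 := by
      rw [← pow_two, ← Nat.cast_pow, ZMod.natCast_self]
    have hε2 : ε * ε = 0 := by
      rw [hε]; linear_combination (k : ZMod (p ^ 2)) * (k : ZMod (p ^ 2)) * hp0
    have hpow : ∀ t : ℕ, (y : ZMod (p ^ 2)) ^ t = 1 + t * ε := fun t => by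
      induction t with
      | zero => simp
      | succ s ih =>
        rw [pow_succ (y : ZMod (p ^ 2)) s, ih, hyk]
        push_cast
        rw [← hε]
        linear_combination (s : ZMod (p ^ 2)) * hε2
    obtain ⟨w, hw⟩ : p ∣ ∑ t ∈ Finset.range p, t := by
      obtain ⟨r, hr⟩ := hp.out.odd_of_ne_two hp2
      refine ⟨r, ?_⟩
      have h3 := Finset.sum_range_id_mul_two p
      rw [show p - 1 = 2 * r by omega] at h3
      linarith
    have hΦ' : (Φ : ZMod (p ^ 2)) = p := by
      rw [hΦ, Nat.cast_sum, Finset.sum_congr rfl fun t _ => by rw [Nat.cast_pow, hpow],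
        Finset.sum_add_distrib, Finset.sum_const, Finset.card_range, nsmul_one,
        ← Finset.sum_mul, ← Nat.cast_sum, hw]
      push_cast
      rw [hε]
      linear_combination (w : ZMod (p ^ 2)) * (k : ZMod (p ^ 2)) * hp0
    rw [(ZMod.natCast_eq_zero_iff _ _).2 h, eq_comm, ZMod.natCast_eq_zero_iff] at hΦ'
    have h4 := Nat.le_of_dvd hp.out.pos hΦ'
    nlinarith [hp.out.two_le]
  obtain ⟨r, hr, hrΦ, hrp⟩ : ∃ r, r.Prime ∧ r ∣ Φ ∧ r ≠ p := by
    by_contra hc
    push Not at hc
    refine hndvd ?_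
    obtain ⟨c, hc'⟩ : p ∣ Φ := by
      obtain ⟨r, hr, hrΦ⟩ := Nat.exists_prime_and_dvd (n := Φ) (by have := hp.out.two_le; omega)
      exact hc r hr hrΦ ▸ hrΦ
    have hc1 : c ≠ 1 := fun e => by rw [e, mul_one] at hc'; omega
    obtain ⟨r, hr, hrc⟩ := Nat.exists_prime_and_dvd hc1
    have := hc r hr (hrc.trans ⟨p, by rw [hc', mul_comm]⟩)
    rw [pow_two, hc']
    exact Nat.mul_dvd_mul_left p (this ▸ hrc)
  have : Fact r.Prime := ⟨hr⟩
  have hΦr : (Φ : ZMod r) = 0 := (ZMod.natCast_eq_zero_iff _ _).2 hrΦ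
  have hne : q ≠ ⟨r, hr⟩ := by
    rintro rfl
    have hy0 : (y : ZMod r) = 0 := by
      rw [hy, Nat.cast_pow]
      exact (congrArg (· ^ p ^ i) (ZMod.natCast_self r)).trans
        (zero_pow (pow_ne_zero _ hp.out.ne_zero))
    have h := hgeom (ZMod r)
    rw [hΦr, hy0, zero_pow hp.out.ne_zero, zero_mul] at h
    simp at h
  have hu : ((primeUnit hne : (ZMod r)ˣ) : ZMod r) = ((q : ℕ) : ZMod r) := rfl
  refine ⟨⟨r, hr⟩, hne, orderOf_eq_prime_pow ?_ ?_⟩
  · intro h
    have h1 : (y : ZMod r) = 1 := by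
      rw [hy, Nat.cast_pow, ← hu]
      exact (Units.val_pow_eq_pow_val _ _).symm.trans (congrArg Units.val h)
    rw [hΦ, Nat.cast_sum, Finset.sum_congr rfl fun t _ => by rw [Nat.cast_pow, h1, one_pow],
      Finset.sum_const, Finset.card_range, nsmul_one, ZMod.natCast_eq_zero_iff] at hΦr
    exact hrp ((Nat.prime_dvd_prime_iff_eq hr hp.out).1 hΦr)
  · have h := hgeom (ZMod r)
    rw [hΦr, zero_mul, eq_comm, sub_eq_zero, hy, Nat.cast_pow, ← pow_mul, ← pow_succ, ← hu] at h
    exact Units.ext ((Units.val_pow_eq_pow_val _ _).trans h)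

/-- The cyclotomic character on a local group. -/
def cycLoc (ℓ q : Nat.Primes) : LocG (cycLayer ℓ) q →* (ZMod (ℓ : ℕ))ˣ :=
  QuotientGroup.lift (locSub (cycLayer ℓ) q) ((cycChar ℓ).comp (loc q)) fun _ hτ =>
    (cycChar_eq_one_iff _).2 hτ

theorem cycLoc_injective (ℓ q : Nat.Primes) : Function.Injective (cycLoc ℓ q) := by
  refine (injective_iff_map_eq_one _).2 fun x hx => ?_
  induction x using QuotientGroup.induction_on with
  | _ τ => exact (QuotientGroup.eq_one_iff τ).2 ((cycChar_eq_one_iff _).1 hx)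

theorem exists_gen_cycLoc {ℓ q : Nat.Primes} (hne : q ≠ ℓ) :
    ∃ F : LocG (cycLayer ℓ) q, (∀ x, x ∈ Subgroup.zpowers F) ∧
      orderOf F = orderOf (primeUnit hne) := by
  obtain ⟨φ, hφ, hgen⟩ := exists_frobenius_cyc hne
  refine ⟨QuotientGroup.mk φ, fun x => ?_, ?_⟩
  · induction x using QuotientGroup.induction_on with
    | _ τ =>
      obtain ⟨k, hk⟩ := Subgroup.mem_zpowers_iff.1 (hgen τ)
      refine Subgroup.mem_zpowers_iff.2 ⟨k, cycLoc_injective ℓ q ?_⟩
      rw [map_zpow]
      exact (congrArg (· ^ k) hφ).trans hk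
  · rw [← orderOf_injective (cycLoc ℓ q) (cycLoc_injective ℓ q)]
    exact congrArg orderOf hφ

theorem exists_locClass {p : ℕ} [hp : Fact p.Prime] (hp2 : p ≠ 2) (L : Layer) (q : Nat.Primes) :
    ∃ u : H2 (LocG L q) (LocU L q), ∀ j : ℕ, j • u = 0 → pPart p (LocG L q) ∣ j := by
  rcases Nat.eq_zero_or_pos ((Nat.card (LocG L q)).factorization p) with hj0 | hj0
  · exact ⟨0, fun j _ => by rw [pPart, hj0, pow_zero]; exact one_dvd j⟩
  set n := Nat.card (LocG L q)
  set d := pPart p (LocG L q) with hd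
  obtain ⟨ℓ, hne, hℓ⟩ := exists_prime_orderOf (p := p) hp2 q hj0
  set K := cycLayer ℓ
  obtain ⟨F, hgen, hFo⟩ : ∃ F : LocG K q, (∀ x, x ∈ Subgroup.zpowers F) ∧
      orderOf F = orderOf (primeUnit hne) := exists_gen_cycLoc hne
  have hF : orderOf F = d := hFo.trans hℓ
  have hcardK : Nat.card (LocG K q) = d := by
    rw [← hF, orderOf_eq_card_of_forall_mem_zpowers hgen]
  have hd1 : 1 < d := Nat.one_lt_pow hj0.ne' hp.out.one_lt
  have : NeZero d := ⟨by omega⟩
  set L' := L.sup K
  have hIK : inertiaLoc K q = ⊥ := inertiaLoc_cycLayer hne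
  have hleL : locSub L' q ≤ locSub L q := fun _ h => Layer.sub_le (L.le_sup_left K) h
  have hleK : locSub L' q ≤ locSub K q := fun _ h => Layer.sub_le (L.le_sup_right K) h
  set π : LocG L' q →* LocG L q := quotMap hleL
  set ψ : LocG L' q →* LocG K q := quotMap hleK
  have hboth : ∀ x, π x = 1 → ψ x = 1 → x = 1 := fun x => by
    induction x using QuotientGroup.induction_on with
    | _ τ =>
      intro h1 h2
      refine (QuotientGroup.eq_one_iff τ).2 ?_
      show loc q τ ∈ (L.field ⊔ K.field).fixingSubgroup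
      rw [IntermediateField.fixingSubgroup_sup]
      exact ⟨(QuotientGroup.eq_one_iff τ).1 h1, (QuotientGroup.eq_one_iff τ).1 h2⟩
  -- the class on the cyclotomic layer
  let e := zmodMulEquivOfGenerator hgen hcardK
  let χ : LocG K q →* Multiplicative (ZMod d) := e.symm.toMonoidHom
  have hχ : χ F = Multiplicative.ofAdd 1 :=
    e.injective ((e.apply_symm_apply F).trans (zmodMulEquivOfGenerator_apply_ofAdd_one hgen _).symm)
  set cK := carry χ (qLocU K q) smul_qLocU with hcK
  set H := π.ker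
  let ψH : H →* LocG K q := ψ.comp H.subtype
  have hψH : Function.Injective ψH := (injective_iff_map_eq_one _).2 fun x hx =>
    Subtype.ext (hboth x x.2 hx)
  have hcardH : Nat.card H ∣ d := hcardK ▸ Subgroup.card_dvd_of_injective ψH hψH
  have hH : IsPGroup p H := by
    obtain ⟨i, -, hi⟩ := (Nat.dvd_prime_pow hp.out).1 hcardH
    exact IsPGroup.of_card hi
  -- ramification
  set I' := inertiaLoc L' q
  have hexp : ∀ x : LocG L' q, x ^ n = 1 := fun x => hboth _
    (by rw [map_pow]; exact pow_card_eq_one')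
    (by
      rw [map_pow, ← orderOf_dvd_iff_pow_eq_one]
      exact (hcardK ▸ orderOf_dvd_natCard (ψ x)).trans (Nat.ordProj_dvd _ _))
  obtain ⟨t, ht⟩ := index_inertiaLoc_dvd L' q hexp
  have hHI : Nat.card H * t = Nat.card I' := by
    have h1 : Nat.card H * n = Nat.card I' * I'.index := by
      rw [Subgroup.card_mul_index, ← Subgroup.card_mul_index H, Subgroup.index_ker,
        MonoidHom.range_eq_top.2 (quotMap_surjective hleL), Subgroup.card_top]
    rw [ht] at h1
    refine Nat.eq_of_mul_eq_mul_right (Nat.pos_of_ne_zero I'.index_ne_zero_of_finite) ?_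
    rw [← h1]; ring
  have hπI : Nat.card I' ∣ ramLoc L q := by
    have hinj : Function.Injective (π.comp I'.subtype) :=
      (injective_iff_map_eq_one _).2 fun x hx => Subtype.ext (hboth x hx (by
        have h := map_inertiaLoc_le (L.le_sup_right K) q (Subgroup.mem_map_of_mem _ x.2)
        rw [hIK, Subgroup.mem_bot] at h
        exact h))
    rw [Nat.card_congr (MonoidHom.ofInjective hinj).toEquiv]
    refine Subgroup.card_dvd_of_le ?_
    rintro _ ⟨x, rfl⟩
    exact map_inertiaLoc_le (L.le_sup_left K) q (Subgroup.mem_map_of_mem _ x.2)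
  obtain ⟨ϖ, hϖlt, -, hϖe⟩ := exists_uniformizer L q
  obtain ⟨ϖ', hϖ'lt, hval', hϖ'e⟩ := exists_uniformizer L' q
  set ι := fixedIncl (LU q) hleL
  set w := ι ϖ with hw
  have hc0 : 0 < ‖(ϖ : LU q).val‖ := norm_pos_iff.2 (Units.ne_zero _)
  have hc0' : 0 < ‖(ϖ' : LU q).val‖ := norm_pos_iff.2 (Units.ne_zero _)
  have hval : ∀ x : LocU L' q, ∃ k : ℤ, ‖(x : LU q).val‖ = ‖(ϖ : LU q).val‖ ^ k := by
    obtain ⟨k, hk⟩ := hval' w
    have hk' : ‖(ϖ : LU q).val‖ = ‖(ϖ' : LU q).val‖ ^ k := hk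
    have hke : k * (ramLoc L q : ℤ) = ramLoc L' q := by
      refine zpow_right_injective₀ hc0' hϖ'lt.ne ?_
      dsimp only
      rw [zpow_mul, ← hk', zpow_natCast, zpow_natCast, hϖe, hϖ'e]
    obtain ⟨s, hs⟩ := hπI
    change ramLoc L q = ramLoc L' q * s at hs
    have hpos : (0 : ℤ) < ramLoc L' q := by exact_mod_cast ramLoc_pos L' q
    rw [hs, Nat.cast_mul] at hke
    have hk1 : k = 1 := by
      have h1 : k * (s : ℤ) = 1 := by
        refine mul_left_cancel₀ hpos.ne' ?_
        linarith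
      have hs1 : (0 : ℤ) ≤ s := Int.natCast_nonneg s
      rcases Int.eq_one_or_neg_one_of_mul_eq_one h1 with h | h
      · exact h
      · rw [h] at h1; linarith
    intro x
    obtain ⟨j, hj⟩ := hval' x
    exact ⟨j, by rw [hj, hk', hk1, zpow_one]⟩
  let v : LocU L' q →+ ℤ := AddMonoidHom.mk' (fun x => (hval x).choose) fun x y => by
    refine zpow_right_injective₀ hc0 hϖlt.ne ?_
    dsimp only
    rw [← (hval (x + y)).choose_spec, zpow_add₀ hc0.ne', ← (hval x).choose_spec,
      ← (hval y).choose_spec, AddSubgroup.coe_add, LU.val_add, norm_mul]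
  have hv : ∀ x : LocU L' q, ‖(x : LU q).val‖ = ‖(ϖ : LU q).val‖ ^ v x :=
    fun x => (hval x).choose_spec
  have hveq : ∀ (x : LocU L' q) (k : ℤ), ‖(x : LU q).val‖ = ‖(ϖ : LU q).val‖ ^ k → v x = k :=
    fun x k h =>
    zpow_right_injective₀ hc0 hϖlt.ne ((hv x).symm.trans h)
  have hvw : v w = 1 := hveq w 1 (zpow_one _).symm
  have hvq : v (qLocU L' q) = ramLoc L q := hveq _ _ (by
    rw [zpow_natCast, hϖe]; exact norm_qUnit q)
  have hvs : ∀ (σ : H) x, v (σ • x) = v x := fun σ x => hveq _ _ (by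
    rw [← hv x]; exact norm_smul_LocU (σ : LocG L' q) x)
  have hwfix : ∀ σ : H, σ • w = w := fun σ => smul_eq_of_quotMap_eq_one hleL σ.2 ϖ
  have : IsCyclic (LocG K q) := ⟨⟨F, hgen⟩⟩
  have : IsCyclic H := isCyclic_of_injective ψH hψH
  obtain ⟨g, hg⟩ := IsCyclic.exists_generator (α := H)
  obtain ⟨hfin, hle⟩ := LocU.pgroup_bound' p L' q H hH
  obtain ⟨b, -, hb⟩ := exists_norm_valuation_zero hg v hvs hwfix hvw hle
    (a := qLocU L' q - ramLoc L q • w) (fun σ => by
      show σ • (qLocU L' q - ramLoc L q • w) = _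
      rw [smul_sub, smul_comm, hwfix, Subgroup.smul_def, smul_qLocU])
    (by rw [map_sub, map_nsmul, hvq, hvw, nsmul_one, sub_self])
  obtain ⟨r, hr⟩ : Nat.card H ∣ ramLoc L q := (Dvd.intro t hHI).trans hπI
  have hqnorm : psum g (orderOf g) (b + r • w) = qLocU L' q := by
    have hadd : ∀ x y : LocU L' q,
        psum g (orderOf g) (x + y) = psum g (orderOf g) x + psum g (orderOf g) y := fun x y => by
      simp only [psum, smul_add, Finset.sum_add_distrib]
    have hw' : psum g (orderOf g) (r • w) = ramLoc L q • w := by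
      rw [psum, Finset.sum_congr rfl fun i _ => show g ^ i • r • w = r • w by
        rw [smul_comm, hwfix], Finset.sum_const, Finset.card_range,
        orderOf_eq_card_of_forall_mem_zpowers hg, ← mul_smul, hr]
    rw [hadd, hb, hw', sub_add_cancel]
  have hres : H2.map H.subtype (AddMonoidHom.id (LocU L' q)) (CompatPair.subtype H)
      (inf2 (LU q) hleK (H2.mk cK)) = 0 := by
    rw [inf2, H2.map_mk, H2.map_mk]
    refine mk_eq_zero_of_cyclicInv hg (b := (∑ i ∈ Finset.range (orderOf g),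
      carryNat χ (ψH (g ^ i)) (ψH g)) • (b + r • w)) ?_
    have hsm : psum g (orderOf g) ((∑ i ∈ Finset.range (orderOf g),
        carryNat χ (ψH (g ^ i)) (ψH g)) • (b + r • w)) = (∑ i ∈ Finset.range (orderOf g),
        carryNat χ (ψH (g ^ i)) (ψH g)) • psum g (orderOf g) (b + r • w) := by
      simp only [psum, Finset.smul_sum]
      exact Finset.sum_congr rfl fun i _ => smul_comm _ _ _
    rw [hsm, hqnorm, cyclicInv, Finset.sum_smul]
    refine Finset.sum_congr rfl fun i _ => ?_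
    show fixedIncl (LU q) hleK (carryNat χ (ψH (g ^ i)) (ψH g) • qLocU K q) = _
    rw [map_nsmul]
    rfl
  obtain ⟨y, hy⟩ := exists_inflation2 (inflation_compat (A := LU q) hleL)
    (quotMap_surjective hleL) (fun x z h => Subtype.ext (congrArg Subtype.val h :))
    (fun x hx => exists_fixedIncl_eq hleL x hx) 1
    (fun z => by have := subsingleton_H1_LocU L' q H; exact Subsingleton.elim _ _)
    (inf2 (LU q) hleK (H2.mk cK)) hres
  rw [one_smul] at hy
  refine ⟨y, fun j hj => ?_⟩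
  have h0 : inf2 (LU q) hleK (j • H2.mk cK) = 0 := by
    rw [map_nsmul, ← hy, ← map_nsmul, hj, map_zero]
  have h1 := (injective_iff_map_eq_zero _).1
    (inf2_injective hleK (subsingleton_H1_LocU L' q _)) _ h0
  have h2 := congrArg (cyclicMap F) h1
  rw [map_nsmul, map_zero, hcK, cyclicMap_mk, cyclicInv_carry χ _ smul_qLocU F hF hd1 hχ,
    ← QuotientAddGroup.mk_nsmul, QuotientAddGroup.eq_zero_iff] at h2
  obtain ⟨b', hb'⟩ := h2
  have h3 := congrArg (locOrd hIK) hb'
  change locOrd hIK (psum F (orderOf F) b') = _ at h3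
  rw [map_psum _ (locOrd_smul hIK), map_nsmul, locOrd_qLocU, hF, nsmul_eq_mul, nsmul_eq_mul,
    mul_one] at h3
  exact Int.natCast_dvd_natCast.1 ⟨locOrd hIK b', h3.symm⟩

/-- The local units form a class module. -/
theorem isClassModule_LocU {p : ℕ} [Fact p.Prime] (hp2 : p ≠ 2) (L : Layer) (q : Nat.Primes) :
    IsClassModule p (LocG L q) (LocU L q) :=
  ⟨fun P => ⟨subsingleton_H1_LocU L q _, LocU.pgroup_bound' p L q _ P.isPGroup'⟩,
    exists_locClass hp2 L q⟩

end FLTAgent.GlobalDuality
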