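import Mathlib
import Fermat.Agent.GlobalDuality.LocalClass

/-!
# The cyclotomic layer at its ramified prime

The cyclotomic layer of prime conductor is totally ramified at that prime, `1 - ζ` has norm the
conductor, and the norm of a unit is congruent to `1`.
-/

set_option autoImplicit false

noncomputable section

open scoped Pointwise NumberField

namespace FLTAgent.GlobalDuality

open FLTAgent.GalCoh FLTAgent.LocalDuality FLTAgent.IdeleClassCohomology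

/-- The Galois group of the cyclotomic layer as units modulo the conductor. -/
def cycEquiv (ℓ : Nat.Primes) : Gam ⧸ (cycLayer ℓ).sub ≃* (ZMod (ℓ : ℕ))ˣ :=
  QuotientGroup.liftEquiv (cycLayer ℓ).sub cycChar_surjective
    (Subgroup.ext fun g => (cycChar_eq_one_iff g).symm.trans MonoidHom.mem_ker.symm)

theorem card_cycLayer (ℓ : Nat.Primes) :
    Nat.card (Gam ⧸ (cycLayer ℓ).sub) = (ℓ : ℕ) - 1 := by
  rw [Nat.card_congr (cycEquiv ℓ).toEquiv, Nat.card_eq_fintype_card, ZMod.card_units]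

variable {ℓ : Nat.Primes}

theorem norm_emb_cycRoot (q : Nat.Primes) : ‖emb q (cycRoot ℓ)‖ = 1 := by
  have h := congrArg (fun x : PadicAlgCl (q : ℕ) => ‖x‖)
    ((map_pow (emb q) (cycRoot ℓ) (ℓ : ℕ)).symm.trans
      ((congrArg (emb q) (cycRoot_spec ℓ).pow_eq_one).trans (map_one _)))
  simp only [norm_pow, norm_one] at h
  exact (pow_eq_one_iff_of_nonneg (norm_nonneg _) ℓ.2.ne_zero).1 h

theorem norm_one_sub_pow_le {q : Nat.Primes} {z : PadicAlgCl (q : ℕ)} (hz : ‖z‖ ≤ 1) (k : ℕ) :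
    ‖1 - z ^ k‖ ≤ ‖1 - z‖ := by
  induction k with
  | zero => simp
  | succ j ih =>
    rw [show 1 - z ^ (j + 1) = (1 - z ^ j) + z ^ j * (1 - z) by ring]
    refine (IsUltrametricDist.norm_add_le_max _ _).trans (max_le ih ?_)
    rw [norm_mul, norm_pow]
    exact mul_le_of_le_one_left (norm_nonneg _) (pow_le_one₀ (norm_nonneg _) hz)

theorem one_sub_cycRoot_ne_zero (ℓ : Nat.Primes) : 1 - cycRoot ℓ ≠ 0 := fun h =>
  (cycRoot_spec ℓ).ne_one ℓ.2.one_lt (sub_eq_zero.1 h).symm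

/-- `1 - ζ` in the units of the algebraic numbers. -/
def cycPi (ℓ : Nat.Primes) : GU := Additive.ofMul (Units.mk0 _ (one_sub_cycRoot_ne_zero ℓ))

theorem norm_emb_one_sub_cycRoot (ℓ : Nat.Primes) :
    ‖emb ℓ (1 - cycRoot ℓ)‖ ^ ((ℓ : ℕ) - 1) = ((ℓ : ℕ) : ℝ)⁻¹ := by
  obtain ⟨n, hn⟩ : ∃ n, (ℓ : ℕ) = n + 1 := ⟨(ℓ : ℕ) - 1, by have := ℓ.2.pos; omega⟩
  set z := emb ℓ (cycRoot ℓ) with hz
  have hprim : IsPrimitiveRoot z (n + 1) :=
    hn ▸ (cycRoot_spec ℓ).map_of_injective (f := emb ℓ) (emb ℓ).injective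
  have hz1 : ‖z‖ ≤ 1 := (norm_emb_cycRoot ℓ).le
  have h := congrArg (fun x : PadicAlgCl (ℓ : ℕ) => ‖x‖) hprim.prod_one_sub_pow_eq_order
  simp only [norm_prod] at h
  rw [show ((n : PadicAlgCl (ℓ : ℕ)) + 1) = ((ℓ : ℕ) : PadicAlgCl (ℓ : ℕ)) from
    (Nat.cast_succ n).symm.trans (congrArg _ hn.symm), IdeleClassCohomology.norm_natCast_self] at h
  rw [← h, map_sub, map_one, show (ℓ : ℕ) - 1 = n by omega]
  conv_lhs => rw [show n = (Finset.range n).card by simp, ← Finset.prod_const]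
  refine Finset.prod_congr rfl fun k hk => le_antisymm ?_ (norm_one_sub_pow_le hz1 _)
  have hcop : (k + 1).Coprime (ℓ : ℕ) :=
    (Nat.coprime_of_lt_prime (by omega) (by have := Finset.mem_range.1 hk; omega) ℓ.2).symm
  obtain ⟨r, -, hr⟩ := Nat.exists_mul_mod_eq_one_of_coprime hcop ℓ.2.one_lt
  have hzr : (z ^ (k + 1)) ^ r = z := by
    rw [← pow_mul, ← Nat.mod_add_div ((k + 1) * r) (ℓ : ℕ), hr, pow_add, pow_one, pow_mul,
      show z ^ (ℓ : ℕ) = 1 from (congrArg (fun t => z ^ t) hn).trans hprim.pow_eq_one, one_pow,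
          mul_one]
  calc ‖1 - z‖ = ‖1 - (z ^ (k + 1)) ^ r‖ := by rw [hzr]
    _ ≤ ‖1 - z ^ (k + 1)‖ :=
      norm_one_sub_pow_le (by rw [norm_pow]; exact pow_le_one₀ (norm_nonneg _) hz1) r

theorem cycPi_mem (ℓ : Nat.Primes) : cycPi ℓ ∈ fixedPts (cycLayer ℓ).sub GU := fun _ hg =>
  GU.ext ((IntermediateField.mem_fixingSubgroup_iff _ _).1 hg _
    ((cycLayer ℓ).field.sub_mem (cycLayer ℓ).field.one_mem
      (IntermediateField.mem_adjoin_simple_self ℚ _)))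

/-- `1 - ζ` in the local units at the conductor. -/
def cycPiLoc (ℓ : Nat.Primes) : LocU (cycLayer ℓ) ℓ :=
  ⟨principalAt ℓ 1 (cycPi ℓ), fun τ hτ => LU.ext (by
    rw [LU.val_smul, val_principalAt, AlgEquiv.one_apply,
      ← padicEmbedding_localGaloisToGlobal]
    exact congrArg (emb ℓ) (congrArg GU.val (cycPi_mem ℓ _ hτ)))⟩

theorem norm_cycPiLoc (ℓ : Nat.Primes) :
    ‖(cycPiLoc ℓ : LU ℓ).val‖ = ‖emb ℓ (1 - cycRoot ℓ)‖ := rfl

theorem card_locG_cycLayer_le (ℓ : Nat.Primes) :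
    Nat.card (LocG (cycLayer ℓ) ℓ) ≤ (ℓ : ℕ) - 1 := by
  rw [← card_cycLayer ℓ]
  exact Nat.card_le_card_of_injective _ (locMap_injective _ _)

theorem cyc_totally_ramified (ℓ : Nat.Primes) :
    inertiaLoc (cycLayer ℓ) ℓ = ⊤ ∧ Nat.card (LocG (cycLayer ℓ) ℓ) = (ℓ : ℕ) - 1 ∧
      Function.Surjective (locMap (cycLayer ℓ) ℓ) ∧
      ∀ x : LocU (cycLayer ℓ) ℓ, ∃ k : ℤ,
        ‖(x : LU ℓ).val‖ = ‖(cycPiLoc ℓ : LU ℓ).val‖ ^ k := by
  obtain ⟨ϖ, hϖlt, hval, hϖe⟩ := exists_uniformizer (cycLayer ℓ) ℓ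
  obtain ⟨k, hk⟩ := hval (cycPiLoc ℓ)
  set e := ramLoc (cycLayer ℓ) ℓ
  have hc : 0 < ‖(ϖ : LU ℓ).val‖ := norm_pos_iff.2 (Units.ne_zero _)
  have hke : k * (((ℓ : ℕ) - 1 : ℕ) : ℤ) = e := by
    refine zpow_right_injective₀ hc hϖlt.ne ?_
    dsimp only
    rw [zpow_mul, ← hk, zpow_natCast, zpow_natCast, hϖe, norm_cycPiLoc, norm_emb_one_sub_cycRoot]
  have he1 : e ≤ Nat.card (LocG (cycLayer ℓ) ℓ) :=
    Nat.le_of_dvd Nat.card_pos (Subgroup.card_subgroup_dvd_card _)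
  have hle := card_locG_cycLayer_le ℓ
  have hl1 : 0 < (ℓ : ℕ) - 1 := by have := ℓ.2.two_le; omega
  have hk1 : k = 1 := by
    have he0 : (0 : ℤ) < e := by exact_mod_cast ramLoc_pos _ _
    have h2 : (e : ℤ) ≤ (((ℓ : ℕ) - 1 : ℕ) : ℤ) := by exact_mod_cast he1.trans hle
    rw [← hke] at he0 h2
    have hk0 : 0 < k := by
      by_contra h
      rw [not_lt] at h
      have : k * (((ℓ : ℕ) - 1 : ℕ) : ℤ) ≤ 0 := mul_nonpos_of_nonpos_of_nonneg h (by positivity)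
      linarith
    have : k ≤ 1 := by
      by_contra h
      rw [not_le] at h
      have hl2 : (0 : ℤ) < (((ℓ : ℕ) - 1 : ℕ) : ℤ) := by exact_mod_cast hl1
      have : 2 * (((ℓ : ℕ) - 1 : ℕ) : ℤ) ≤ k * (((ℓ : ℕ) - 1 : ℕ) : ℤ) :=
        mul_le_mul_of_nonneg_right h hl2.le
      linarith
    omega
  rw [hk1, one_mul] at hke
  have he : e = (ℓ : ℕ) - 1 := by exact_mod_cast hke.symm
  have hcard : Nat.card (LocG (cycLayer ℓ) ℓ) = (ℓ : ℕ) - 1 := le_antisymm hle (he ▸ he1)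
  refine ⟨Subgroup.eq_top_of_card_eq _ ((show Nat.card (inertiaLoc (cycLayer ℓ) ℓ) =
      (ℓ : ℕ) - 1 from he).trans hcard.symm), hcard, ?_, fun x => ?_⟩
  · exact ((Nat.bijective_iff_injective_and_card _).2
      ⟨locMap_injective _ _, hcard.trans (card_cycLayer ℓ).symm⟩).2
  · obtain ⟨j, hj⟩ := hval x
    exact ⟨j, by rw [hj, hk, hk1, zpow_one]⟩

theorem norm_mul_sub_mul_lt {q : Nat.Primes} {x x' y y' : PadicAlgCl (q : ℕ)} (hy : ‖y‖ ≤ 1)
    (hx : ‖x'‖ ≤ 1) (h1 : ‖x - x'‖ < 1) (h2 : ‖y - y'‖ < 1) : ‖x * y - x' * y'‖ < 1 := by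
  rw [show x * y - x' * y' = (x - x') * y + x' * (y - y') by ring]
  refine lt_of_le_of_lt (IsUltrametricDist.norm_add_le_max _ _) (max_lt ?_ ?_)
  · rw [norm_mul]
    exact lt_of_le_of_lt (mul_le_of_le_one_right (norm_nonneg _) hy) h1
  · rw [norm_mul]
    exact lt_of_le_of_lt (mul_le_of_le_one_left (norm_nonneg _) hx) h2

theorem sub_lt_trans {q : Nat.Primes} {x y z : PadicAlgCl (q : ℕ)} (h1 : ‖x - y‖ < 1)
    (h2 : ‖y - z‖ < 1) : ‖x - z‖ < 1 := by
  rw [show x - z = (x - y) + (y - z) by ring]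
  exact lt_of_le_of_lt (IsUltrametricDist.norm_add_le_max _ _) (max_lt h1 h2)

theorem norm_smul_sub_lt_of_mem_inertia {L : Layer} {q : Nat.Primes} {τ : LGal q}
    (hτ : (QuotientGroup.mk τ : LocG L q) ∈ inertiaLoc L q) (a : 𝓞 L.field) :
    ‖τ (emb q ((a : L.field) : QQbar)) - emb q ((a : L.field) : QQbar)‖ < 1 := by
  rw [← padicEmbedding_localGaloisToGlobal]
  exact (mk_mem_inertiaLoc_iff L q τ).1 hτ a

theorem norm_apply_LGal {q : Nat.Primes} (τ : LGal q) (x : PadicAlgCl (q : ℕ)) :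
    ‖τ x‖ = ‖x‖ :=
  congrArg NNReal.toReal (nnnorm_padicAlgCl_algEquiv (q : ℕ) τ x)

theorem exists_int_approx {L : Layer} {q : Nat.Primes} (u : LocU L q)
    (hu : (u : LU q) ∈ unitsAt q) :
    ∃ n d : 𝓞 L.field, ‖emb q ((n : L.field) : QQbar)‖ = 1 ∧
      ‖emb q ((d : L.field) : QQbar)‖ = 1 ∧
      ‖(u : LU q).val * emb q ((d : L.field) : QQbar) - emb q ((n : L.field) : QQbar)‖ < 1 := by
  obtain ⟨x, hx⟩ := exists_norm_sub_lt (val_mem_locField u) (zero_lt_one' ℝ)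
  have hx1 : ‖placeEmb L.field q 1 x‖ = 1 := by
    rw [show placeEmb L.field q 1 x = (u : LU q).val + -((u : LU q).val - placeEmb L.field q 1 x)
      by ring, IsUltrametricDist.norm_add_eq_max_of_norm_ne_norm
      (by rw [norm_neg, mem_unitsAt_iff.1 hu]; exact hx.ne'), norm_neg, mem_unitsAt_iff.1 hu,
      max_eq_left hx.le]
  obtain ⟨c, hc, hc1, hf⟩ := exists_norm_eq_zpow L.field q 1
  have hx0 : x ≠ 0 := fun h => by rw [h, map_zero, norm_zero] at hx1; exact zero_ne_one hx1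
  have hv : (placeIdeal L.field q 1).valuation L.field x = 1 := by
    have h := hf x hx0
    rw [hx1] at h
    have h' : placeOrd L.field q 1 x = 0 :=
      zpow_right_injective₀ hc hc1.ne (h.symm.trans (zpow_zero c).symm)
    rw [placeOrd, neg_eq_zero] at h'
    have hne : (placeIdeal L.field q 1).valuation L.field x ≠ 0 := (Valuation.ne_zero_iff _).2 hx0
    exact (WithZero.exp_log hne).symm.trans (by rw [h', WithZero.exp_zero])
  obtain ⟨n, d, hnd⟩ := (placeIdeal L.field q 1).exists_primeCompl_mul_eq_of_integer x hv.le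
  have hd : ‖placeEmb L.field q 1 ((d : 𝓞 L.field) : L.field)‖ = 1 :=
    le_antisymm (norm_placeEmb_le_one _) (not_lt.1 d.2)
  have hnd' : placeEmb L.field q 1 x * placeEmb L.field q 1 ((d : 𝓞 L.field) : L.field) =
      placeEmb L.field q 1 ((n : 𝓞 L.field) : L.field) := by
    rw [← map_mul]
    exact congrArg _ hnd
  refine ⟨n, d, ?_, hd, ?_⟩
  · show ‖placeEmb L.field q 1 ((n : 𝓞 L.field) : L.field)‖ = 1
    rw [← hnd', norm_mul, hx1, hd, one_mul]
  · show ‖_ * placeEmb L.field q 1 ((d : 𝓞 L.field) : L.field) -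
      placeEmb L.field q 1 ((n : 𝓞 L.field) : L.field)‖ < 1
    rw [← hnd', ← sub_mul, norm_mul, hd, mul_one]
    exact hx

/-- On a totally ramified layer, integral units are fixed modulo the maximal ideal. -/
theorem norm_smul_unit_sub_lt {L : Layer} {q : Nat.Primes} (hI : inertiaLoc L q = ⊤)
    (u : LocU L q) (hu : (u : LU q) ∈ unitsAt q) (τ : LGal q) :
    ‖τ (u : LU q).val - (u : LU q).val‖ < 1 := by
  obtain ⟨n, d, -, hd, hx⟩ := exists_int_approx u hu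
  have hmem : (QuotientGroup.mk τ : LocG L q) ∈ inertiaLoc L q := hI ▸ Subgroup.mem_top _
  set D := emb q ((d : L.field) : QQbar)
  set N := emb q ((n : L.field) : QQbar)
  have hu1 := mem_unitsAt_iff.1 hu
  have h1 : ‖τ (u : LU q).val * τ D - τ N‖ < 1 := by
    rw [← map_mul, ← map_sub, norm_apply_LGal]
    exact hx
  have h2 : ‖τ (u : LU q).val * D - τ (u : LU q).val * τ D‖ < 1 := by
    rw [← mul_sub, norm_mul, norm_apply_LGal, hu1, one_mul, norm_sub_rev]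
    exact norm_smul_sub_lt_of_mem_inertia hmem d
  have h3 : ‖τ (u : LU q).val * D - (u : LU q).val * D‖ < 1 :=
    sub_lt_trans (sub_lt_trans (sub_lt_trans h2 h1) (norm_smul_sub_lt_of_mem_inertia hmem n))
      (by rw [norm_sub_rev]; exact hx)
  rwa [← sub_mul, norm_mul, hd, mul_one] at h3

/-- The residue field of the cyclotomic layer at its conductor is the prime field. -/
theorem norm_pow_sub_lt {L : Layer} {ℓ : Nat.Primes} (hI : inertiaLoc L ℓ = ⊤) (a : 𝓞 L.field) :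
    ‖emb ℓ ((a : L.field) : QQbar) ^ (ℓ : ℕ) - emb ℓ ((a : L.field) : QQbar)‖ < 1 := by
  set P := basePrime L ℓ
  have hP0 : P ≠ ⊥ := (placeIdeal L.field ℓ 1).ne_bot
  have : P.IsMaximal := (placeIdeal L.field ℓ 1).isMaximal
  have : (P.under ℤ).IsMaximal := Ideal.isMaximal_comap_of_isIntegral_of_isMaximal P
  let := Ideal.Quotient.field P
  let := Ideal.Quotient.field (P.under ℤ)
  have hq0 : ((ℓ : ℕ) : ℤ) ≠ 0 := by exact_mod_cast ℓ.2.ne_zero
  have hunder : P.under ℤ = Ideal.span {((ℓ : ℕ) : ℤ)} := by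
    symm
    refine ((Ideal.span_singleton_prime hq0).2 (Nat.prime_iff_prime_int.1 ℓ.2)).isMaximal
      (by simpa using ℓ.2.ne_zero) |>.eq_of_le (Ideal.IsPrime.ne_top inferInstance) ?_
    rw [Ideal.span_singleton_le_iff_mem, Ideal.under_def, Ideal.mem_comap, map_natCast]
    exact natCast_mem_basePrime L ℓ
  have : Finite (𝓞 L.field ⧸ P) := Ideal.finiteQuotientOfFreeOfNeBot _ hP0
  have : Finite (ℤ ⧸ P.under ℤ) :=
    Ideal.finiteQuotientOfFreeOfNeBot _ fun h0 => hP0 (Ideal.eq_bot_of_comap_eq_bot h0)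
  let := Fintype.ofFinite (ℤ ⧸ P.under ℤ)
  have hcard : Fintype.card (ℤ ⧸ P.under ℤ) = (ℓ : ℕ) := by
    rw [← Nat.card_eq_fintype_card, hunder,
      Nat.card_congr (Int.quotientSpanNatEquivZMod (ℓ : ℕ)).toEquiv, Nat.card_zmod]
  set fr := FiniteField.frobeniusAlgEquivOfAlgebraic (ℤ ⧸ P.under ℤ) (𝓞 L.field ⧸ P)
  obtain ⟨⟨g, hg⟩, hgfr⟩ :=
    Ideal.Quotient.stabilizerHom_surjective (LayerGal L) (P.under ℤ) P fr
  have hin : g ∈ P.inertia (LayerGal L) := by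
    rw [← map_inertiaLoc, hI]
    obtain ⟨F, rfl⟩ := exists_galMap_eq L ℓ hg
    exact ⟨F, Subgroup.mem_top F, rfl⟩
  have h := AlgEquiv.congr_fun hgfr (Ideal.Quotient.mk P a)
  rw [show fr (Ideal.Quotient.mk P a) = Ideal.Quotient.mk P a ^ (ℓ : ℕ) by
    rw [← hcard]; rfl, ← map_pow] at h
  have h' : Ideal.Quotient.mk P (g • a) = Ideal.Quotient.mk P (a ^ (ℓ : ℕ)) := h
  rw [show Ideal.Quotient.mk P (g • a) = Ideal.Quotient.mk P a from Ideal.Quotient.eq.2 (hin a),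
    eq_comm, Ideal.Quotient.eq, mem_basePrime] at h'
  have h'' : ‖emb ℓ (((a : L.field) ^ (ℓ : ℕ) - (a : L.field) : L.field) : QQbar)‖ < 1 := h'
  rw [AddSubgroupClass.coe_sub, SubmonoidClass.coe_pow, map_sub, map_pow] at h''
  exact h''

theorem norm_pow_sub_one_lt (ℓ : Nat.Primes) (a : 𝓞 (cycLayer ℓ).field)
    (ha : ‖emb ℓ ((a : (cycLayer ℓ).field) : QQbar)‖ = 1) :
    ‖emb ℓ ((a : (cycLayer ℓ).field) : QQbar) ^ ((ℓ : ℕ) - 1) - 1‖ < 1 := by
  set A := emb ℓ ((a : (cycLayer ℓ).field) : QQbar)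
  have h := norm_pow_sub_lt (cyc_totally_ramified ℓ).1 a
  rw [show A ^ (ℓ : ℕ) - A = A * (A ^ ((ℓ : ℕ) - 1) - 1) by
    rw [mul_sub, mul_one, ← pow_succ', Nat.sub_add_cancel ℓ.2.pos], norm_mul, ha, one_mul] at h
  exact h

/-- The norm of a unit of the cyclotomic layer at its conductor is congruent to `1`. -/
theorem norm_locNorm_sub_one_lt (ℓ : Nat.Primes) [Fintype (LocG (cycLayer ℓ) ℓ)]
    (u : LocU (cycLayer ℓ) ℓ) (hu : (u : LU ℓ) ∈ unitsAt ℓ) :
    ‖((∑ σ : LocG (cycLayer ℓ) ℓ, σ • u : LocU (cycLayer ℓ) ℓ) : LU ℓ).val - 1‖ < 1 := by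
  classical
  obtain ⟨hI, hcard, -, -⟩ := cyc_totally_ramified ℓ
  set U := (u : LU ℓ).val with hU
  have hu1 : ‖U‖ = 1 := mem_unitsAt_iff.1 hu
  have key : ∀ s : Finset (LocG (cycLayer ℓ) ℓ),
      ‖((∑ σ ∈ s, σ • u : LocU (cycLayer ℓ) ℓ) : LU ℓ).val - U ^ s.card‖ < 1 := fun s => by
    induction s using Finset.induction_on with
    | empty => simp [LU.val_zero]
    | insert σ t hσ ih =>
      rw [Finset.sum_insert hσ, Finset.card_insert_of_notMem hσ, pow_succ', AddSubgroup.coe_add,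
        LU.val_add]
      induction σ using QuotientGroup.induction_on with
      | _ τ =>
        refine norm_mul_sub_mul_lt ?_ hu1.le (norm_smul_unit_sub_lt hI u hu τ) ih
        rw [← mem_unitsAt_iff.1 (show ((∑ σ ∈ t, σ • u : LocU (cycLayer ℓ) ℓ) : LU ℓ) ∈ unitsAt ℓ by
          rw [AddSubgroup.val_finsetSum]
          exact sum_mem fun σ _ => by rw [mem_unitsAt_iff, norm_smul_LocU]; exact hu1)]
  have h1 := key Finset.univ
  rw [Finset.card_univ, ← Nat.card_eq_fintype_card, hcard] at h1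
  refine sub_lt_trans h1 ?_
  obtain ⟨n, d, hn, hd, hx⟩ := exists_int_approx u hu
  set D := emb ℓ ((d : (cycLayer ℓ).field) : QQbar)
  set N := emb ℓ ((n : (cycLayer ℓ).field) : QQbar)
  set k := (ℓ : ℕ) - 1
  have h2 : ‖(U * D) ^ k - N ^ k‖ < 1 := by
    have hk : ∀ j : ℕ, ‖(U * D) ^ j - N ^ j‖ < 1 := fun j => by
      induction j with
      | zero => simp
      | succ i ih =>
        rw [pow_succ, pow_succ]
        exact norm_mul_sub_mul_lt (by rw [norm_mul, hu1, hd, one_mul])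
          (by rw [norm_pow, hn, one_pow])
          ih hx
    exact hk k
  have h3 : ‖U ^ k - U ^ k * D ^ k‖ < 1 := by
    rw [show U ^ k - U ^ k * D ^ k = -(U ^ k * (D ^ k - 1)) by ring, norm_neg, norm_mul, norm_pow,
      hu1, one_pow, one_mul]
    exact norm_pow_sub_one_lt ℓ d hd
  rw [mul_pow] at h2
  exact sub_lt_trans (sub_lt_trans h3 h2) (norm_pow_sub_one_lt ℓ n hn)

end FLTAgent.GlobalDuality
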