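import Mathlib
import Fermat.Agent.GlobalDuality.CycRam

/-!
# The norm residue symbol of a cyclotomic field of prime conductor

An explicit character on the idele classes of `ℚ` with values in the units modulo the conductor,
which kills the norms from the cyclotomic layer.
-/

set_option autoImplicit false

noncomputable section

namespace FLTAgent.GlobalDuality

open FLTAgent.GalCoh FLTAgent.LocalDuality FLTAgent.IdeleClassCohomology

theorem mem_bot_sub (g : Gam) : g ∈ Layer.bot.sub := by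
  refine (IntermediateField.mem_fixingSubgroup_iff _ _).2 fun x hx => ?_
  obtain ⟨r, rfl⟩ := IntermediateField.mem_bot.1 hx
  exact g.commutes r

theorem inertiaLoc_bot (r : Nat.Primes) : inertiaLoc Layer.bot r = ⊥ := by
  rw [Subgroup.eq_bot_iff_forall]
  intro x _
  induction x using QuotientGroup.induction_on with
  | _ τ => exact (QuotientGroup.eq_one_iff τ).2 (mem_bot_sub _)

/-- The rational ideles. -/
abbrev RatIdele : AddSubgroup Idele := fixedPts Layer.bot.sub Idele

/-- The order of a rational idele at `r`. -/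
def ratOrd (r : Nat.Primes) : RatIdele →+ ℤ :=
  (locOrd (inertiaLoc_bot r)).comp (evalLoc Layer.bot r)

theorem ratOrd_eq_of_norm (r : Nat.Primes) (x : RatIdele) {k : ℤ}
    (h : ‖((x : Idele).at r 1).val‖ = ‖(qUnit r).val‖ ^ k) : ratOrd r x = k :=
  locOrd_eq_of_norm (inertiaLoc_bot r) h

theorem finite_ratOrd_ne_zero (x : RatIdele) : {r | ratOrd r x ≠ 0}.Finite :=
  (x : Idele).finite_nonunit.subset fun r hr => ⟨1, fun h => hr
    ((locOrd_eq_zero_iff (inertiaLoc_bot r) _).2 h)⟩

theorem exists_nat_approx {r : Nat.Primes} (w : LocU Layer.bot r) (hw : (w : LU r) ∈ unitsAt r) :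
    ∃ n : ℕ, ‖(w : LU r).val - (n : PadicAlgCl (r : ℕ))‖ < 1 := by
  obtain ⟨c, hc⟩ := (InfiniteGalois.mem_range_algebraMap_iff_fixed (k := ℚ_[(r : ℕ)])
    (w : LU r).val).2 fun τ => congrArg LU.val (w.2 τ (mem_bot_sub _))
  have hc1 : ‖c‖ ≤ 1 := by
    have h := mem_unitsAt_iff.1 hw
    rw [← hc, norm_algebraMap'] at h
    exact h.le
  obtain ⟨n, -, hn⟩ := PadicInt.exists_mem_range (⟨c, hc1⟩ : ℤ_[(r : ℕ)])
  refine ⟨n, ?_⟩
  rw [IsLocalRing.mem_maximalIdeal, PadicInt.mem_nonunits, PadicInt.norm_def] at hn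
  rw [← hc, ← map_natCast (algebraMap ℚ_[(r : ℕ)] (PadicAlgCl (r : ℕ))), ← map_sub,
    norm_algebraMap']
  exact hn

open Classical in
/-- The residue of a unit. -/
def resVal {r : Nat.Primes} (w : LocU Layer.bot r) : ZMod (r : ℕ) :=
  if h : (w : LU r) ∈ unitsAt r then ((exists_nat_approx w h).choose : ZMod (r : ℕ)) else 1

theorem resVal_eq {r : Nat.Primes} (w : LocU Layer.bot r) (hw : (w : LU r) ∈ unitsAt r) {a : ℤ}
    (ha : ‖(w : LU r).val - (a : PadicAlgCl (r : ℕ))‖ < 1) :
    resVal w = (a : ZMod (r : ℕ)) := by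
  rw [resVal, dif_pos hw]
  set n := (exists_nat_approx w hw).choose
  have hn := (exists_nat_approx w hw).choose_spec
  have h : ‖(((n : ℤ) - a : ℤ) : PadicAlgCl (r : ℕ))‖ < 1 := by
    rw [Int.cast_sub, Int.cast_natCast]
    exact sub_lt_trans (by rw [norm_sub_rev]; exact hn) ha
  rw [← Int.cast_natCast, ← sub_eq_zero, ← Int.cast_sub, ZMod.intCast_zmod_eq_zero_iff_dvd]
  by_contra hd
  exact h.ne (norm_intCast_eq_one hd)

theorem resVal_ne_zero {r : Nat.Primes} (w : LocU Layer.bot r) : resVal w ≠ 0 := by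
  by_cases hw : (w : LU r) ∈ unitsAt r
  · rw [resVal, dif_pos hw]
    intro h
    rw [ZMod.natCast_eq_zero_iff] at h
    have hn := (exists_nat_approx w hw).choose_spec
    set n := (exists_nat_approx w hw).choose
    have h1 : ‖((n : ℤ) : PadicAlgCl (r : ℕ))‖ < 1 := by
      obtain ⟨k, hk⟩ := h
      rw [Int.cast_natCast, hk, Nat.cast_mul, norm_mul, IdeleClassCohomology.norm_natCast_self]
      refine lt_of_le_of_lt (mul_le_of_le_one_right (by positivity) ?_) (inv_prime_lt_one r)
      rw [← map_natCast (algebraMap ℚ_[(r : ℕ)] (PadicAlgCl (r : ℕ))), norm_algebraMap']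
      simpa using Padic.norm_int_le_one (p := (r : ℕ)) (k : ℤ)
    have h2 : ‖(w : LU r).val - ((0 : ℤ) : PadicAlgCl (r : ℕ))‖ < 1 := by
      refine sub_lt_trans hn ?_
      rw [Int.cast_zero, sub_zero]
      rwa [Int.cast_natCast] at h1
    rw [Int.cast_zero, sub_zero, mem_unitsAt_iff.1 hw] at h2
    exact lt_irrefl _ h2
  · rw [resVal, dif_neg hw]
    exact one_ne_zero

/-- The residue of a unit, as a unit. -/
def resUnit {r : Nat.Primes} (w : LocU Layer.bot r) : (ZMod (r : ℕ))ˣ :=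
  Units.mk0 (resVal w) (resVal_ne_zero w)

theorem resUnit_add {r : Nat.Primes} {w w' : LocU Layer.bot r} (hw : (w : LU r) ∈ unitsAt r)
    (hw' : (w' : LU r) ∈ unitsAt r) : resUnit (w + w') = resUnit w * resUnit w' := by
  refine Units.ext ?_
  obtain ⟨n, hn⟩ := exists_nat_approx w hw
  obtain ⟨n', hn'⟩ := exists_nat_approx w' hw'
  show resVal (w + w') = resVal w * resVal w'
  rw [resVal_eq w hw (a := n) (by rwa [Int.cast_natCast]),
    resVal_eq w' hw' (a := n') (by rwa [Int.cast_natCast]),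
    resVal_eq (w + w') (add_mem hw hw') (a := (n : ℤ) * n') ?_, Int.cast_mul]
  rw [AddSubgroup.coe_add, LU.val_add, Int.cast_mul, Int.cast_natCast, Int.cast_natCast]
  refine norm_mul_sub_mul_lt (mem_unitsAt_iff.1 hw').le ?_ hn hn'
  rw [← map_natCast (algebraMap ℚ_[(r : ℕ)] (PadicAlgCl (r : ℕ))), norm_algebraMap']
  simpa using Padic.norm_int_le_one (p := (r : ℕ)) (n : ℤ)

variable (ℓ : Nat.Primes)

open Classical in
/-- A prime modulo the conductor, the conductor itself giving `1`. -/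
def primeFac (r : Nat.Primes) : (ZMod (ℓ : ℕ))ˣ := if h : r ≠ ℓ then primeUnit h else 1

/-- The unit part at the conductor. -/
def unitPart : RatIdele →+ LocU Layer.bot ℓ :=
  evalLoc Layer.bot ℓ - (zmultiplesHom (LocU Layer.bot ℓ) (qLocU Layer.bot ℓ)).comp (ratOrd ℓ)

theorem unitPart_mem (x : RatIdele) : (unitPart ℓ x : LU ℓ) ∈ unitsAt ℓ := by
  refine (locOrd_eq_zero_iff (inertiaLoc_bot ℓ) _).1 ?_
  show locOrd _ (evalLoc Layer.bot ℓ x - ratOrd ℓ x • qLocU Layer.bot ℓ) = 0
  rw [map_sub, map_zsmul, locOrd_qLocU, zsmul_one, Int.cast_id]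
  exact sub_self _

theorem finite_mulSupport_primeFac (x : RatIdele) :
    (fun r => primeFac ℓ r ^ (-ratOrd r x)).HasFiniteMulSupport :=
  (finite_ratOrd_ne_zero x).subset fun r hr h => by
    rw [Function.mem_mulSupport] at hr
    exact hr (by rw [h, neg_zero, zpow_zero])

/-- The norm residue character on rational ideles. -/
def cycSymbol : RatIdele →+ Additive (ZMod (ℓ : ℕ))ˣ :=
  AddMonoidHom.mk'
    (fun x => Additive.ofMul (resUnit (unitPart ℓ x) * ∏ᶠ r, primeFac ℓ r ^ (-ratOrd r x)))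
    fun x y => by
      rw [← ofMul_mul, map_add, resUnit_add (unitPart_mem ℓ x) (unitPart_mem ℓ y),
        mul_mul_mul_comm (resUnit (unitPart ℓ x)), ← finprod_mul_distrib
          (finite_mulSupport_primeFac ℓ x) (finite_mulSupport_primeFac ℓ y)]
      refine congrArg (fun t => Additive.ofMul (_ * t)) (finprod_congr fun r => ?_)
      rw [map_add, neg_add, zpow_add]

theorem cycSymbol_apply (x : RatIdele) : cycSymbol ℓ x =
    Additive.ofMul (resUnit (unitPart ℓ x) * ∏ᶠ r, primeFac ℓ r ^ (-ratOrd r x)) := rfl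

variable {ℓ}

/-- The symbol kills norms from the cyclotomic layer. -/
theorem cycSymbol_norm [Fintype (Gam ⧸ (cycLayer ℓ).sub)]
    (y : fixedPts (cycLayer ℓ).sub Idele) (x : RatIdele)
    (hx : (x : Idele) = ((∑ g : Gam ⧸ (cycLayer ℓ).sub, g • y : fixedPts (cycLayer ℓ).sub Idele) :
      Idele)) :
    cycSymbol ℓ x = 0 := by
  classical
  let G := Gam ⧸ (cycLayer ℓ).sub
  have hev : ∀ r, ((x : Idele).at r 1) =
      ((∑ g : G, evalLoc (cycLayer ℓ) r (g • y) : LocU (cycLayer ℓ) r) : LU r) :=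
    fun r => by rw [← map_sum, coe_evalLoc, hx]
  have hfac : ∀ r, primeFac ℓ r ^ (-ratOrd r x) = 1 := fun r => by
    by_cases hr : r ≠ ℓ
    swap
    · rw [primeFac, dif_neg hr, one_zpow]
    rw [primeFac, dif_pos hr, zpow_neg, inv_eq_one]
    have hI := inertiaLoc_cycLayer hr
    have hord : ratOrd r x = ∑ g : G, locOrd hI (evalLoc (cycLayer ℓ) r (g • y)) := by
      rw [← map_sum]
      refine ratOrd_eq_of_norm r x ?_
      rw [hev, norm_eq_zpow_locOrd hI]
    obtain ⟨φ, hφ, -⟩ := exists_frobenius_cyc hr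
    set h₀ : G := locMap (cycLayer ℓ) r (QuotientGroup.mk φ)
    have hw : ∀ g : G, locOrd hI (evalLoc (cycLayer ℓ) r ((h₀ * g) • y)) =
        locOrd hI (evalLoc (cycLayer ℓ) r (g • y)) := fun g => by
      rw [mul_smul, (evalLoc_compat (cycLayer ℓ) r).compat, locOrd_smul]
    set w : G → ℤ := fun g => locOrd hI (evalLoc (cycLayer ℓ) r (g • y))
    have hh : cycEquiv ℓ h₀ = primeUnit hr := hφ
    have e := Equiv.prod_comp (Equiv.mulLeft h₀) fun g => cycEquiv ℓ g ^ w g
    simp only [Equiv.coe_mulLeft, map_mul, hh, w, hw, mul_zpow, Finset.prod_mul_distrib] at e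
    rw [mul_eq_right] at e
    rw [hord]
    refine Eq.trans ?_ e
    have hsum : ∀ (s : Finset G) (f : G → ℤ),
        (primeUnit hr) ^ (∑ g ∈ s, f g) = ∏ g ∈ s, (primeUnit hr) ^ f g := fun s f => by
      induction s using Finset.induction_on with
      | empty => simp
      | insert a t ha ih => rw [Finset.sum_insert ha, Finset.prod_insert ha, zpow_add, ih]
    rw [hsum]
  rw [cycSymbol_apply, finprod_eq_one_of_forall_eq_one hfac, mul_one, ofMul_eq_zero]
  obtain ⟨hI, hcard, hsurj, hval⟩ := cyc_totally_ramified ℓ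
  have := Fintype.ofFinite (LocG (cycLayer ℓ) ℓ)
  set z := evalLoc (cycLayer ℓ) ℓ y with hz
  have hsum : (∑ g : G, evalLoc (cycLayer ℓ) ℓ (g • y)) = ∑ d : LocG (cycLayer ℓ) ℓ, d • z := by
    refine (Fintype.sum_bijective (locMap (cycLayer ℓ) ℓ) ⟨locMap_injective _ _, hsurj⟩ _ _
      fun d => ?_).symm
    rw [(evalLoc_compat (cycLayer ℓ) ℓ).compat]
  obtain ⟨k, hk⟩ := hval z
  set u := z - k • cycPiLoc ℓ with hu
  have hu1 : (u : LU ℓ) ∈ unitsAt ℓ := by
    rw [mem_unitsAt_iff, hu, AddSubgroup.coe_sub, AddSubgroup.coe_zsmul]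
    show ‖((((z : LU ℓ).toMul) / ((cycPiLoc ℓ : LU ℓ).toMul) ^ k :
      (PadicAlgCl (ℓ : ℕ))ˣ) : PadicAlgCl (ℓ : ℕ))‖ = 1
    rw [Units.val_div_eq_div_val, Units.val_zpow_eq_zpow_val, norm_div, norm_zpow]
    show ‖(z : LU ℓ).val‖ / ‖(cycPiLoc ℓ : LU ℓ).val‖ ^ k = 1
    rw [← hk, div_self (norm_ne_zero_iff.2 (Units.ne_zero _))]
  -- the norm of `1 - ζ` is the conductor
  have hpi :
      ((∑ d : LocG (cycLayer ℓ) ℓ, d • cycPiLoc ℓ : LocU (cycLayer ℓ) ℓ) : LU ℓ) = qUnit ℓ := by
    refine LU.ext ?_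
    rw [AddSubgroup.val_finsetSum]
    have happ : ∀ (s : Finset (LocG (cycLayer ℓ) ℓ)) (f : LocG (cycLayer ℓ) ℓ → LU ℓ),
        (∑ i ∈ s, f i).val = ∏ i ∈ s, (f i).val := fun s f => by
      induction s using Finset.induction_on with
      | empty => simp [LU.val_zero]
      | insert a t ha ih => rw [Finset.sum_insert ha, Finset.prod_insert ha, LU.val_add, ih]
    rw [happ, val_qUnit]
    let χ : LocG (cycLayer ℓ) ℓ → (ZMod (ℓ : ℕ))ˣ := fun d => cycEquiv ℓ (locMap (cycLayer ℓ) ℓ d)
    have hχ : Function.Bijective χ :=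
      (cycEquiv ℓ).bijective.comp ⟨locMap_injective _ _, hsurj⟩
    obtain ⟨n, hn⟩ : ∃ n, (ℓ : ℕ) = n + 1 := ⟨(ℓ : ℕ) - 1, by have := ℓ.2.pos; omega⟩
    set ζ := emb ℓ (cycRoot ℓ)
    have hterm : ∀ d : LocG (cycLayer ℓ) ℓ, ((d • cycPiLoc ℓ : LocU (cycLayer ℓ) ℓ) : LU ℓ).val =
        1 - ζ ^ ((χ d : ZMod (ℓ : ℕ))).val := fun d => by
      induction d using QuotientGroup.induction_on with
      | _ τ =>
        show τ (emb ℓ ((1 : Gam) (1 - cycRoot ℓ))) = _
        rw [AlgEquiv.one_apply, map_sub, map_one, map_sub, map_one,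
          ← padicEmbedding_localGaloisToGlobal, apply_of_pow_eq_one _ (cycRoot_spec ℓ).pow_eq_one,
          map_pow]
        rfl
    rw [Finset.prod_congr rfl fun d _ => hterm d,
      Fintype.prod_bijective χ hχ _ (fun v : (ZMod (ℓ : ℕ))ˣ => 1 - ζ ^ (v : ZMod (ℓ : ℕ)).val)
        fun _ => rfl]
    have hprim : IsPrimitiveRoot ζ (n + 1) :=
      hn ▸ (cycRoot_spec ℓ).map_of_injective (f := emb ℓ) (emb ℓ).injective
    refine Eq.trans ?_ ((hprim.prod_one_sub_pow_eq_order).trans
      ((Nat.cast_succ n).symm.trans (congrArg _ hn.symm)))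
    have : Fact (ℓ : ℕ).Prime := ⟨ℓ.2⟩
    refine Finset.prod_bij (fun v _ => (v : ZMod (ℓ : ℕ)).val - 1) ?_ ?_ ?_ ?_
    · intro v _
      have h1 := ZMod.val_lt (v : ZMod (ℓ : ℕ))
      have h2 : (v : ZMod (ℓ : ℕ)).val ≠ 0 := fun h => v.ne_zero ((ZMod.val_eq_zero _).1 h)
      rw [Finset.mem_range]
      omega
    · intro v _ v' _ h
      have h2 : (v : ZMod (ℓ : ℕ)).val ≠ 0 := fun h => v.ne_zero ((ZMod.val_eq_zero _).1 h)
      have h3 : (v' : ZMod (ℓ : ℕ)).val ≠ 0 := fun h => v'.ne_zero ((ZMod.val_eq_zero _).1 h)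
      exact Units.ext (ZMod.val_injective _ (by omega))
    · intro k hk
      rw [Finset.mem_range] at hk
      have hk1 : ((k + 1 : ℕ) : ZMod (ℓ : ℕ)) ≠ 0 := by
        rw [Ne, ZMod.natCast_eq_zero_iff]
        exact Nat.not_dvd_of_pos_of_lt (by omega) (by omega)
      refine ⟨Units.mk0 _ hk1, Finset.mem_univ _, ?_⟩
      rw [Units.val_mk0, ZMod.val_natCast, Nat.mod_eq_of_lt (by omega)]
      omega
    · intro v _
      have h2 : (v : ZMod (ℓ : ℕ)).val ≠ 0 := fun h => v.ne_zero ((ZMod.val_eq_zero _).1 h)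
      congr 2
      omega
  have hxℓ : (x : Idele).at ℓ 1 =
      ((∑ d : LocG (cycLayer ℓ) ℓ, d • u : LocU (cycLayer ℓ) ℓ) : LU ℓ) + k • qUnit ℓ := by
    rw [hev, hsum, ← hpi, ← AddSubgroup.coe_zsmul, ← AddSubgroup.coe_add]
    congr 1
    rw [Finset.smul_sum, ← Finset.sum_add_distrib]
    refine Finset.sum_congr rfl fun d _ => ?_
    rw [hu, ← smul_comm d k, ← smul_add, sub_add_cancel]
  have hNu : ((∑ d : LocG (cycLayer ℓ) ℓ, d • u : LocU (cycLayer ℓ) ℓ) : LU ℓ) ∈ unitsAt ℓ := by
    rw [AddSubgroup.val_finsetSum]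
    exact sum_mem fun d _ => by rw [mem_unitsAt_iff, norm_smul_LocU]; exact hu1
  have hordℓ : ratOrd ℓ x = k := ratOrd_eq_of_norm ℓ x (by
    rw [hxℓ, LU.val_add, norm_mul, mem_unitsAt_iff.1 hNu, one_mul]
    show ‖((((qUnit ℓ).toMul) ^ k : (PadicAlgCl (ℓ : ℕ))ˣ) : PadicAlgCl (ℓ : ℕ))‖ = _
    rw [Units.val_zpow_eq_zpow_val, norm_zpow])
  have hup : (unitPart ℓ x : LU ℓ) =
      ((∑ d : LocG (cycLayer ℓ) ℓ, d • u : LocU (cycLayer ℓ) ℓ) : LU ℓ) := by
    show (x : Idele).at ℓ 1 - ((ratOrd ℓ x • qLocU Layer.bot ℓ : LocU Layer.bot ℓ) : LU ℓ) = _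
    rw [AddSubgroup.coe_zsmul, hordℓ, hxℓ]
    show _ + k • qUnit ℓ - k • qUnit ℓ = _
    exact add_sub_cancel_right _ _
  refine Units.ext ?_
  show resVal (unitPart ℓ x) = 1
  rw [resVal_eq _ (unitPart_mem ℓ x) (a := 1) ?_, Int.cast_one]
  rw [hup, Int.cast_one]
  exact norm_locNorm_sub_one_lt ℓ u hu1

theorem at_principal_one (a : GU) (r : Nat.Primes) :
    ((principal a).at r 1).val = emb r a.val := by
  rw [at_principal, AlgEquiv.one_apply]

/-- A natural number as a unit of the algebraic numbers. -/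
def natUnit (n : ℕ) (hn : n ≠ 0) : GU :=
  Additive.ofMul (Units.mk0 ((n : QQbar)) (Nat.cast_ne_zero.2 hn))

theorem principal_mem_rat {a : GU} (ha : ∀ g : Gam, g a.val = a.val) :
    principal a ∈ RatIdele :=
  principal_mem_fixedPts_iff.2 fun g _ => GU.ext (ha g)

theorem norm_at_principal_prime (r s : Nat.Primes) :
    ‖((principal (natUnit (r : ℕ) r.2.ne_zero)).at s 1).val‖ =
      ‖(qUnit s).val‖ ^ (if s = r then (1 : ℤ) else 0) := by
  rw [at_principal_one]
  show ‖emb s ((r : ℕ) : QQbar)‖ = _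
  rw [map_natCast]
  by_cases h : s = r
  · subst h
    rw [if_pos rfl, zpow_one, val_qUnit]
  · rw [if_neg h, zpow_zero, ← Int.cast_natCast]
    exact norm_intCast_eq_one (by
      rw [Int.natCast_dvd_natCast, Nat.prime_dvd_prime_iff_eq s.2 r.2]
      exact fun e => h (Subtype.ext e))

theorem cycSymbol_prime (r : Nat.Primes) :
    cycSymbol ℓ ⟨principal (natUnit (r : ℕ) r.2.ne_zero),
      principal_mem_rat fun g => map_natCast g _⟩ = 0 := by
  classical
  set x : RatIdele := ⟨principal (natUnit (r : ℕ) r.2.ne_zero),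
    principal_mem_rat fun g => map_natCast g _⟩
  have hord : ∀ s, ratOrd s x = if s = r then 1 else 0 := fun s =>
    ratOrd_eq_of_norm s x (norm_at_principal_prime r s)
  rw [cycSymbol_apply,
    finprod_eq_single _ r fun s hs => by rw [hord, if_neg hs, neg_zero, zpow_zero],
    hord, if_pos rfl, zpow_neg_one, ofMul_eq_zero, mul_inv_eq_one]
  refine Units.ext ?_
  have hval : (unitPart ℓ x : LU ℓ) =
      (x : Idele).at ℓ 1 - (if ℓ = r then (1 : ℤ) else 0) • qUnit ℓ := by
    show (x : Idele).at ℓ 1 - ((ratOrd ℓ x • qLocU Layer.bot ℓ : LocU Layer.bot ℓ) : LU ℓ) = _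
    rw [AddSubgroup.coe_zsmul, hord]
    rfl
  show resVal (unitPart ℓ x) = _
  by_cases h : r = ℓ
  · subst h
    rw [primeFac, dif_neg (not_not.2 rfl), Units.val_one,
      resVal_eq _ (unitPart_mem _ x) (a := 1) ?_, Int.cast_one]
    have h0 : (x : Idele).at r 1 = qUnit r := LU.ext (by
      rw [at_principal_one, val_qUnit]
      exact map_natCast (emb r) _)
    rw [hval, if_pos rfl, one_zsmul, h0, sub_self, LU.val_zero, Int.cast_one, sub_self, norm_zero]
    exact one_pos
  · rw [primeFac, dif_pos h, resVal_eq _ (unitPart_mem _ x) (a := ((r : ℕ) : ℤ)) ?_]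
    · simp only [Int.cast_natCast]; rfl
    · rw [hval, if_neg (Ne.symm h), zero_zsmul, sub_zero, at_principal_one, Int.cast_natCast]
      show ‖emb ℓ ((r : ℕ) : QQbar) - _‖ < 1
      rw [map_natCast, sub_self, norm_zero]
      exact one_pos

theorem two_nsmul_cycSymbol_neg_one :
    2 • cycSymbol ℓ ⟨principal (Additive.ofMul (-1 : QQbarˣ)),
      principal_mem_rat fun g => by
        show g (((-1 : QQbarˣ) : QQbar)) = ((-1 : QQbarˣ) : QQbar)
        simp⟩ = 0 := by
  rw [← map_nsmul]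
  convert map_zero (cycSymbol ℓ)
  refine Subtype.ext ?_
  show 2 • principal (Additive.ofMul (-1 : QQbarˣ)) = 0
  rw [← map_nsmul, ← map_zero principal]
  congr 1
  rw [← ofMul_pow]
  simp

theorem cycSymbol_natUnit (n : ℕ) (hn : n ≠ 0) :
    cycSymbol ℓ ⟨principal (natUnit n hn), principal_mem_rat fun g => map_natCast g _⟩ = 0 := by
  induction n using Nat.recOnMul with
  | zero => exact absurd rfl hn
  | one =>
    refine (congrArg (cycSymbol ℓ) ?_).trans (map_zero (cycSymbol ℓ))
    refine Subtype.ext ?_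
    show principal (natUnit 1 hn) = (0 : Idele)
    rw [← map_zero principal]
    congr 1
    exact GU.ext (show ((1 : ℕ) : QQbar) = 1 from Nat.cast_one)
  | prime r hr => exact cycSymbol_prime ⟨r, hr⟩
  | mul a b iha ihb =>
    have ha : a ≠ 0 := fun h => hn (by simp [h])
    have hb : b ≠ 0 := fun h => hn (by simp [h])
    rw [show (⟨principal (natUnit (a * b) hn), principal_mem_rat fun g => map_natCast g _⟩ :
        RatIdele) = ⟨principal (natUnit a ha), principal_mem_rat fun g => map_natCast g _⟩ +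
        ⟨principal (natUnit b hb), principal_mem_rat fun g => map_natCast g _⟩ from Subtype.ext (by
          show principal _ = principal _ + principal _
          rw [← map_add]
          congr 1
          exact GU.ext (show ((a * b : ℕ) : QQbar) = (a : QQbar) * b from Nat.cast_mul a b)),
      map_add, iha ha, ihb hb, add_zero]

theorem two_nsmul_cycSymbol_principal {a : GU} (ha : principal a ∈ RatIdele) :
    2 • cycSymbol ℓ ⟨principal a, ha⟩ = 0 := by
  have hfix : ∀ g : Gam, g a.val = a.val := fun g =>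
    congrArg GU.val ((principal_mem_fixedPts_iff.1 ha) g (mem_bot_sub g))
  obtain ⟨c, hc⟩ := (InfiniteGalois.mem_range_algebraMap_iff_fixed a.val).2 hfix
  have hc0 : c ≠ 0 := fun h => GU.val_ne_zero a (by rw [← hc, h, map_zero])
  have hnum : c.num.natAbs ≠ 0 := Int.natAbs_ne_zero.2 (Rat.num_ne_zero.2 hc0)
  have key : a.val * (c.den : QQbar) = (c.num : QQbar) := by
    rw [← hc, ← map_natCast (algebraMap ℚ QQbar), ← map_mul, Rat.mul_den_eq_num, map_intCast]
  rcases Int.natAbs_eq c.num with h | h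
  · have e : (⟨principal a, ha⟩ : RatIdele) +
        ⟨principal (natUnit c.den c.den_nz), principal_mem_rat fun g => map_natCast g _⟩ =
        ⟨principal (natUnit c.num.natAbs hnum), principal_mem_rat fun g => map_natCast g _⟩ :=
      Subtype.ext (by
        show principal a + principal _ = principal _
        rw [← map_add]
        congr 1
        refine GU.ext ?_
        show a.val * (c.den : QQbar) = (c.num.natAbs : QQbar)
        rw [key]
        conv_lhs => rw [h]
        exact Int.cast_natCast _)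
    have h2 := congrArg (cycSymbol ℓ) e
    rw [map_add, cycSymbol_natUnit, cycSymbol_natUnit, add_zero] at h2
    rw [h2, nsmul_zero]
  · have e : (⟨principal a, ha⟩ : RatIdele) +
        ⟨principal (natUnit c.den c.den_nz), principal_mem_rat fun g => map_natCast g _⟩ =
        ⟨principal (Additive.ofMul (-1 : QQbarˣ)), principal_mem_rat fun g => by
          show g (((-1 : QQbarˣ) : QQbar)) = ((-1 : QQbarˣ) : QQbar)
          simp⟩ +
        ⟨principal (natUnit c.num.natAbs hnum), principal_mem_rat fun g => map_natCast g _⟩ :=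
      Subtype.ext (by
        show principal a + principal _ = principal _ + principal _
        rw [← map_add, ← map_add]
        congr 1
        refine GU.ext ?_
        show a.val * (c.den : QQbar) = ((-1 : QQbarˣ) : QQbar) * (c.num.natAbs : QQbar)
        rw [key]
        conv_lhs => rw [h]
        simp)
    have h2 := congrArg (fun t => 2 • cycSymbol ℓ t) e
    simp only [map_add, cycSymbol_natUnit, add_zero] at h2
    rwa [two_nsmul_cycSymbol_neg_one] at h2

variable (ℓ)

/-- Twice the symbol, on rational idele classes. -/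
def cycSymbolClass : fixedPts Layer.bot.sub IdeleClass →+ Additive (ZMod (ℓ : ℕ))ˣ :=
  AddMonoidHom.mk' (fun c => 2 • cycSymbol ℓ
      ⟨(exists_idele_lift _ c.2).choose, (exists_idele_lift _ c.2).choose_spec.1⟩) fun c d => by
    obtain ⟨hc, hc'⟩ := (exists_idele_lift _ c.2).choose_spec
    obtain ⟨hd, hd'⟩ := (exists_idele_lift _ d.2).choose_spec
    obtain ⟨he, he'⟩ := (exists_idele_lift _ (c + d).2).choose_spec
    obtain ⟨a, ha⟩ := (classMap_eq_zero_iff _).1 (show classMap
        ((exists_idele_lift _ (c + d).2).choose -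
          ((exists_idele_lift _ c.2).choose + (exists_idele_lift _ d.2).choose)) = 0 by
      rw [map_sub, map_add, hc', hd', he', AddSubgroup.coe_add, sub_self])
    have hmem : principal a ∈ RatIdele := ha ▸ sub_mem he (add_mem hc hd)
    rw [← nsmul_add, ← map_add, ← sub_eq_zero, ← nsmul_sub, ← map_sub]
    convert two_nsmul_cycSymbol_principal hmem using 3
    exact Subtype.ext ha.symm

theorem cycSymbolClass_classMap (x : RatIdele) :
    cycSymbolClass ℓ ⟨classMap (x : Idele), classMap_mem_fixedPts x.2⟩ = 2 • cycSymbol ℓ x := by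
  set c : fixedPts Layer.bot.sub IdeleClass :=
    ⟨classMap (x : Idele), classMap_mem_fixedPts x.2⟩
  obtain ⟨hc, hc'⟩ := (exists_idele_lift _ c.2).choose_spec
  obtain ⟨a, ha⟩ := (classMap_eq_zero_iff _).1 (show classMap
      ((exists_idele_lift _ c.2).choose - (x : Idele)) = 0 by rw [map_sub, hc', sub_self])
  have hmem : principal a ∈ RatIdele := ha ▸ sub_mem hc x.2
  show 2 • cycSymbol ℓ _ = _
  rw [← sub_eq_zero, ← nsmul_sub, ← map_sub]
  convert two_nsmul_cycSymbol_principal hmem using 3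
  exact Subtype.ext ha.symm

end FLTAgent.GlobalDuality
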