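import Mathlib
import Fermat.Agent.GlobalDuality.Local

/-!
# Ideles supported above one prime

The idele of a layer with a prescribed component at the base place above `q`, trivial at the other
places of the layer.
-/

set_option autoImplicit false

noncomputable section

namespace FLTAgent.GlobalDuality

open FLTAgent.GalCoh

/-- The family of components on the Galois group of a layer. -/
def supFun (L : Layer) (q : Nat.Primes) (b : LocU L q) : Gam ⧸ L.sub → LU q :=
  Function.extend (locMap L q) (fun d => ((d • b : LocU L q) : LU q)) 0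

theorem supFun_locMap (L : Layer) (q : Nat.Primes) (b : LocU L q) (d : LocG L q) :
    supFun L q b (locMap L q d) = ((d • b : LocU L q) : LU q) :=
  (locMap_injective L q).extend_apply _ _ d

theorem supFun_of_not_mem (L : Layer) (q : Nat.Primes) (b : LocU L q) {g : Gam ⧸ L.sub}
    (hg : ¬∃ d, locMap L q d = g) : supFun L q b g = 0 := Function.extend_apply' _ _ _ hg

theorem supFun_loc_mul (L : Layer) (q : Nat.Primes) (b : LocU L q) (τ : LGal q) (g : Gam) :
    supFun L q b (QuotientGroup.mk (loc q τ * g)) =
      τ • supFun L q b (QuotientGroup.mk g) := by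
  rw [QuotientGroup.mk_mul, ← locMap_mk]
  by_cases h : ∃ d, locMap L q d = QuotientGroup.mk g
  · obtain ⟨d, hd⟩ := h
    rw [← hd, ← map_mul, supFun_locMap, supFun_locMap, mul_smul]
    rfl
  · rw [supFun_of_not_mem L q b h, smul_zero, supFun_of_not_mem L q b]
    rintro ⟨d, hd⟩
    exact h ⟨(QuotientGroup.mk τ)⁻¹ * d, by rw [map_mul, hd, map_inv, inv_mul_cancel_left]⟩

/-- The idele supported above `q` with component `b` at the base place. -/
def supIdele (L : Layer) (q : Nat.Primes) : LocU L q →+ fixedPts L.sub Idele where
  toFun b := ⟨single q ⟨fun σ => supFun L q b (QuotientGroup.mk σ),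
      ⟨fun τ σ => supFun_loc_mul L q b τ σ, L, fun σ s hs => by
        show supFun L q b _ = supFun L q b _
        rw [QuotientGroup.mk_mul_of_mem σ hs]⟩⟩,
    Idele.mem_fixedPts_iff.2 fun r σ s hs => by
      rcases eq_or_ne r q with rfl | h
      · simp only [at_single_self, QuotientGroup.mk_mul_of_mem σ hs]
      · simp only [at_single_of_ne h]⟩
  map_zero' := Subtype.ext (Idele.ext fun r σ => by
    rcases eq_or_ne r q with rfl | h
    · show (single r _).at r σ = 0
      rw [at_single_self]
      by_cases hd : ∃ d, locMap L r d = QuotientGroup.mk σ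
      · obtain ⟨d, hd⟩ := hd
        simp only [← hd, supFun_locMap, smul_zero, AddSubgroup.coe_zero]
      · exact supFun_of_not_mem L r 0 hd
    · exact at_single_of_ne h _ σ)
  map_add' a b := Subtype.ext (Idele.ext fun r σ => by
    rcases eq_or_ne r q with rfl | h
    · show (single r _).at r σ = (single r _).at r σ + (single r _).at r σ
      rw [at_single_self, at_single_self, at_single_self]
      by_cases hd : ∃ d, locMap L r d = QuotientGroup.mk σ
      · obtain ⟨d, hd⟩ := hd
        simp only [← hd, supFun_locMap, smul_add, AddSubgroup.coe_add]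
      · simp only [supFun_of_not_mem L r _ hd, add_zero]
    · show (single q _).at r σ = (single q _).at r σ + (single q _).at r σ
      simp only [at_single_of_ne h, add_zero])

theorem at_supIdele_self (L : Layer) (q : Nat.Primes) (b : LocU L q) (σ : Gam) :
    (supIdele L q b : Idele).at q σ = supFun L q b (QuotientGroup.mk σ) := at_single_self q _ σ

theorem at_supIdele_of_ne (L : Layer) {q r : Nat.Primes} (h : r ≠ q) (b : LocU L q) (σ : Gam) :
    (supIdele L q b : Idele).at r σ = 0 := at_single_of_ne h _ σ

theorem evalLoc_smul_supIdele (L : Layer) (q : Nat.Primes) (b : LocU L q) (g : Gam ⧸ L.sub) :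
    ((evalLoc L q (g • supIdele L q b) : LocU L q) : LU q) = supFun L q b g := by
  induction g using QuotientGroup.induction_on with
  | _ γ =>
    rw [coe_evalLoc, coe_mk_smul, Idele.at_smul, one_mul, at_supIdele_self]

theorem evalLoc_smul_supIdele_of_ne (L : Layer) {q r : Nat.Primes} (h : r ≠ q) (b : LocU L q)
    (g : Gam ⧸ L.sub) : evalLoc L r (g • supIdele L q b) = 0 := by
  refine Subtype.ext ?_
  induction g using QuotientGroup.induction_on with
  | _ γ =>
    rw [coe_evalLoc, coe_mk_smul, Idele.at_smul, one_mul, at_supIdele_of_ne L h]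
    rfl

theorem sum_evalLoc_supIdele (L : Layer) (q : Nat.Primes) (b : LocU L q)
    [Fintype (Gam ⧸ L.sub)] [Fintype (LocG L q)] :
    (∑ g : Gam ⧸ L.sub, evalLoc L q (g • supIdele L q b)) = ∑ d : LocG L q, d • b := by
  classical
  refine (Finset.sum_of_injOn (locMap L q) (locMap_injective L q).injOn (fun d _ => by simp)
    (fun g _ hg => Subtype.ext ?_) fun d _ => Subtype.ext ?_).symm
  · rw [evalLoc_smul_supIdele, supFun_of_not_mem L q b fun ⟨d, hd⟩ =>
      hg ⟨d, Finset.mem_coe.2 (Finset.mem_univ d), hd⟩]
    rfl
  · rw [evalLoc_smul_supIdele, supFun_locMap]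

end FLTAgent.GlobalDuality
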