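import Mathlib
import Fermat.Agent.GlobalDuality.ClassStep
import Fermat.Agent.GlobalDuality.NormResidue
import Fermat.Agent.GlobalDuality.Supported
import Fermat.Agent.GlobalDuality.TateNakayama

/-!
# The fundamental class of a layer

The idele classes of a layer form a class module at `p`: the fundamental class is obtained from a
cyclotomic field of prime conductor, split by the layer.
-/

set_option autoImplicit false

noncomputable section

namespace FLTAgent.GalCoh

theorem sum_smul_fiber {G G' : Type} [Group G] [Fintype G] [Group G'] [Fintype G']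
    {A : Type} [AddCommGroup A] [DistribMulAction G' A] {φ : G' →* G} [Fintype φ.ker]
    {s : G → G'} (hs : ∀ g, φ (s g) = g) (b : A) :
    ∑ g' : G', g' • b = ∑ g : G, s g • ∑ k : φ.ker, (k : G') • b := by
  classical
  have e : ∀ g : G, s g • ∑ k : φ.ker, (k : G') • b = ∑ k : φ.ker, (s g * (k : G')) • b :=
    fun g => by
    rw [Finset.smul_sum]
    exact Finset.sum_congr rfl fun k _ => (mul_smul _ _ _).symm
  simp only [e]
  rw [← Fintype.sum_prod_type']
  refine (Fintype.sum_bijective (fun x : G × φ.ker => s x.1 * (x.2 : G')) ⟨?_, ?_⟩ _ _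
    fun x => rfl).symm
  · rintro ⟨g, k⟩ ⟨g', k'⟩ h
    dsimp only at h
    have h1 := congrArg φ h
    rw [map_mul, map_mul, hs, hs, MonoidHom.mem_ker.1 k.2, MonoidHom.mem_ker.1 k'.2, mul_one,
      mul_one] at h1
    subst h1
    exact Prod.ext rfl (Subtype.ext (mul_left_cancel h))
  · intro g'
    refine ⟨⟨φ g', ⟨(s (φ g'))⁻¹ * g', ?_⟩⟩, mul_inv_cancel_left _ _⟩
    rw [MonoidHom.mem_ker, map_mul, map_inv, hs, inv_mul_cancel]

end FLTAgent.GalCoh

namespace FLTAgent.GlobalDuality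

open FLTAgent.GalCoh FLTAgent.LocalDuality FLTAgent.IdeleClassCohomology

variable {p : ℕ} [hp : Fact p.Prime]

theorem classes_H1_torsion (hstep : ClassStep p) (L : Layer) (H : Subgroup (Gam ⧸ L.sub))
    (x : H1 H (LayerC L)) : pCompl p H • x = 0 := by
  have := Fintype.ofFinite H
  obtain ⟨P⟩ : Nonempty (Sylow p H) := inferInstance
  refine eq_zero_of_res_sylow_H1 P (k := (Nat.card H).factorization p) ?_ ?_
  · rw [← mul_smul]
    show (pPart p H * pCompl p H) • x = 0
    rw [pPart_mul_pCompl, card_nsmul_H1]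
  · let e : (P : Subgroup H) ≃* ((P : Subgroup H).map H.subtype) :=
      (P : Subgroup H).equivMapOfInjective H.subtype H.subtype_injective
    obtain ⟨h1, -, -⟩ := classes_pgroup_bound p hstep L _ (P.isPGroup'.map H.subtype)
    have hc : CompatPair e.toMonoidHom (AddMonoidHom.id (LayerC L)) := ⟨fun _ _ => rfl⟩
    have : Subsingleton (H1 (P : Subgroup H) (LayerC L)) :=
      (H1.map_bijective hc e.bijective Function.bijective_id).2.subsingleton
    exact Subsingleton.elim _ _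

/-- The sum of the conjugates of a class of a layer. -/
def sumClass (L : Layer) : LayerC L →+ fixedPts Layer.bot.sub IdeleClass :=
  haveI := Fintype.ofFinite (Gam ⧸ L.sub)
  AddMonoidHom.mk' (fun a => ⟨((∑ g : Gam ⧸ L.sub, g • a : LayerC L) : IdeleClass), fun γ _ => by
    rw [← coe_mk_smul (A := IdeleClass) L.sub γ (∑ g : Gam ⧸ L.sub, g • a), Finset.smul_sum]
    congr 1
    exact Fintype.sum_equiv (Equiv.mulLeft (QuotientGroup.mk γ : Gam ⧸ L.sub)) _ _
      fun g => (mul_smul _ _ _).symm⟩)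
    fun a b => Subtype.ext (by
      show ((∑ g : Gam ⧸ L.sub, g • (a + b) : LayerC L) : IdeleClass) = _ + _
      simp only [smul_add, Finset.sum_add_distrib, AddSubgroup.coe_add])

theorem coe_sumClass (L : Layer) [Fintype (Gam ⧸ L.sub)] (a : LayerC L) :
    (sumClass L a : IdeleClass) = ((∑ g : Gam ⧸ L.sub, g • a : LayerC L) : IdeleClass) := by
  show ((@Finset.univ _ (Fintype.ofFinite (Gam ⧸ L.sub))).sum fun g => g • a).1 = _
  rw [Subsingleton.elim (Fintype.ofFinite (Gam ⧸ L.sub)) ‹Fintype (Gam ⧸ L.sub)›]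

/-- The symbol of the sum of the conjugates. -/
def symTrace (ℓ : Nat.Primes) (L : Layer) : LayerC L →+ Additive (ZMod (ℓ : ℕ))ˣ :=
  (cycSymbolClass ℓ).comp (sumClass L)

theorem symTrace_cyc (ℓ : Nat.Primes) (b : LayerC (cycLayer ℓ)) :
    symTrace ℓ (cycLayer ℓ) b = 0 := by
  have := Fintype.ofFinite (Gam ⧸ (cycLayer ℓ).sub)
  obtain ⟨y, hy, hyb⟩ := exists_idele_lift _ b.2
  set Y : fixedPts (cycLayer ℓ).sub Idele := ⟨y, hy⟩
  set X : fixedPts (cycLayer ℓ).sub Idele := ∑ g : Gam ⧸ (cycLayer ℓ).sub, g • Y with hX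
  have hfix : (X : Idele) ∈ RatIdele := fun γ _ => by
    rw [← coe_mk_smul (A := Idele) (cycLayer ℓ).sub γ X, hX, Finset.smul_sum]
    congr 1
    exact Fintype.sum_equiv (Equiv.mulLeft (QuotientGroup.mk γ : Gam ⧸ (cycLayer ℓ).sub)) _ _
      fun g => (mul_smul _ _ _).symm
  have hcl : sumClass (cycLayer ℓ) b = ⟨classMap (X : Idele), classMap_mem_fixedPts hfix⟩ := by
    refine Subtype.ext ?_
    rw [coe_sumClass]
    show _ = classMap (X : Idele)
    rw [hX, AddSubgroup.val_finsetSum, AddSubgroup.val_finsetSum, map_sum]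
    refine Finset.sum_congr rfl fun g _ => ?_
    induction g using QuotientGroup.induction_on with
    | _ γ => rw [coe_mk_smul, coe_mk_smul, classMap_smul, hyb]
  show cycSymbolClass ℓ (sumClass (cycLayer ℓ) b) = 0
  rw [hcl, cycSymbolClass_classMap ℓ ⟨(X : Idele), hfix⟩, cycSymbol_norm Y ⟨(X : Idele), hfix⟩ rfl,
    smul_zero]

theorem sumClass_eq_of_le {L L' : Layer} (h : L'.sub ≤ L.sub) (b : LayerC L') {w : LayerC L}
    [Fintype (quotMap h).ker]
    (hw : fixedIncl IdeleClass h w = ∑ k : (quotMap h).ker, (k : Gam ⧸ L'.sub) • b) :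
    sumClass L' b = sumClass L w := by
  have := Fintype.ofFinite (Gam ⧸ L.sub)
  have := Fintype.ofFinite (Gam ⧸ L'.sub)
  refine Subtype.ext ?_
  rw [coe_sumClass, coe_sumClass]
  choose s hs using quotMap_surjective h
  rw [sum_smul_fiber hs, ← coe_fixedIncl h (∑ g : Gam ⧸ L.sub, g • w), map_sum]
  congr 1
  refine Finset.sum_congr rfl fun g _ => ?_
  rw [← hw, ← (inflation_compat h).compat, hs]

/-- The symbol kills norms from layers containing the cyclotomic layer. -/
theorem symTrace_eq_zero_of_norm {ℓ : Nat.Primes} {L L' : Layer} (h : L'.sub ≤ L.sub)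
    (hK : L'.sub ≤ (cycLayer ℓ).sub) [Fintype (quotMap h).ker] (b : LayerC L') {a : LayerC L}
    (ha : fixedIncl IdeleClass h a = ∑ k : (quotMap h).ker, (k : Gam ⧸ L'.sub) • b) :
    symTrace ℓ L a = 0 := by
  have := Fintype.ofFinite (quotMap hK).ker
  obtain ⟨w, hw⟩ := exists_fixedIncl_eq hK
    (∑ k : (quotMap hK).ker, (k : Gam ⧸ L'.sub) • b) fun q hq => by
      rw [Finset.smul_sum]
      exact Fintype.sum_equiv (Equiv.mulLeft (⟨q, hq⟩ : (quotMap hK).ker)) _ _
        fun k => (mul_smul _ _ _).symm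
  show cycSymbolClass ℓ (sumClass L a) = 0
  rw [← sumClass_eq_of_le h b ha, sumClass_eq_of_le hK b hw]
  exact symTrace_cyc ℓ w

theorem nsmul_ofMul_eq_zero_iff {M : Type} [Monoid M] (x : M) (j : ℕ) :
    j • Additive.ofMul x = 0 ↔ orderOf x ∣ j := by
  rw [orderOf_dvd_iff_pow_eq_one, ← ofMul_pow, ofMul_eq_zero]

theorem dvd_of_dvd_two_mul (hp2 : p ≠ 2) {i j : ℕ} (h : p ^ i ∣ 2 * j) : p ^ i ∣ j :=
  (((Nat.coprime_primes hp.out Nat.prime_two).2 hp2).pow_left i).dvd_of_dvd_mul_left h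

theorem coprime_pow_of_not_dvd {i x : ℕ} (hx : ¬p ∣ x) : (p ^ i).Coprime x :=
  ((Nat.Prime.coprime_iff_not_dvd hp.out).2 hx).pow_left _

/-- The rational class seen in a layer. -/
def ratIncl (M : Layer) : fixedPts Layer.bot.sub IdeleClass →+ LayerC M :=
  AddSubgroup.inclusion (fixedPts_antitone fun g _ => mem_bot_sub g)

theorem smul_ratIncl (M : Layer) (a : fixedPts Layer.bot.sub IdeleClass) (g : Gam ⧸ M.sub) :
    g • ratIncl M a = ratIncl M a := by
  induction g using QuotientGroup.induction_on with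
  | _ γ =>
    refine Subtype.ext ?_
    rw [coe_mk_smul]
    exact a.2 γ (mem_bot_sub γ)

theorem sumClass_ratIncl (M : Layer) (a : fixedPts Layer.bot.sub IdeleClass) :
    sumClass M (ratIncl M a) = Nat.card (Gam ⧸ M.sub) • a := by
  have := Fintype.ofFinite (Gam ⧸ M.sub)
  refine Subtype.ext ?_
  rw [coe_sumClass, Finset.sum_congr rfl fun g _ => smul_ratIncl M a g, Finset.sum_const,
    Finset.card_univ, ← Nat.card_eq_fintype_card, AddSubgroup.coe_nsmul, AddSubgroup.coe_nsmul]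
  rfl

theorem symTrace_ratIncl (ℓ : Nat.Primes) (M : Layer) (a : fixedPts Layer.bot.sub IdeleClass) :
    symTrace ℓ M (ratIncl M a) = Nat.card (Gam ⧸ M.sub) • cycSymbolClass ℓ a := by
  show cycSymbolClass ℓ (sumClass M (ratIncl M a)) = _
  rw [sumClass_ratIncl, map_nsmul]

/-- The symbol of a supported unit idele. -/
theorem symTrace_supIdele {ℓ : Nat.Primes} (M : Layer) [Fintype (LocG M ℓ)] (b : LocU M ℓ)
    (hb : (b : LU ℓ) ∈ unitsAt ℓ) (a : ℕ) (β : (ZMod (ℓ : ℕ))ˣ)
    (hβ : (β : ZMod (ℓ : ℕ)) = (a : ZMod (ℓ : ℕ)))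
    (hsum : ‖((∑ δ : LocG M ℓ, δ • b : LocU M ℓ) : LU ℓ).val - (a : PadicAlgCl (ℓ : ℕ))‖ < 1) :
    symTrace ℓ M ⟨classMap (supIdele M ℓ b : Idele),
      classMap_mem_fixedPts (supIdele M ℓ b).2⟩ = 2 • Additive.ofMul β := by
  have := Fintype.ofFinite (Gam ⧸ M.sub)
  set X : fixedPts M.sub Idele := ∑ g : Gam ⧸ M.sub, g • supIdele M ℓ b with hX
  have hfix : (X : Idele) ∈ RatIdele := fun γ _ => by
    rw [← coe_mk_smul (A := Idele) M.sub γ X, hX, Finset.smul_sum]
    congr 1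
    exact Fintype.sum_equiv (Equiv.mulLeft (QuotientGroup.mk γ : Gam ⧸ M.sub)) _ _
      fun g => (mul_smul _ _ _).symm
  set x : RatIdele := ⟨(X : Idele), hfix⟩
  have hxℓ : (evalLoc Layer.bot ℓ x : LU ℓ) = ((∑ δ : LocG M ℓ, δ • b : LocU M ℓ) : LU ℓ) := by
    show (X : Idele).at ℓ 1 = _
    rw [← coe_evalLoc, hX, map_sum, sum_evalLoc_supIdele]
  have hunit : ((∑ δ : LocG M ℓ, δ • b : LocU M ℓ) : LU ℓ) ∈ unitsAt ℓ := by
    rw [AddSubgroup.val_finsetSum]
    exact sum_mem fun δ _ => by rw [mem_unitsAt_iff, norm_smul_LocU]; exact hb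
  have hord : ∀ s, ratOrd s x = 0 := fun s => by
    refine (locOrd_eq_zero_iff (inertiaLoc_bot s) _).2 ?_
    rcases eq_or_ne s ℓ with rfl | hs
    · rw [hxℓ]; exact hunit
    · show (X : Idele).at s 1 ∈ _
      rw [← coe_evalLoc, hX, map_sum, Finset.sum_eq_zero fun g _ =>
        evalLoc_smul_supIdele_of_ne M hs b g]
      exact zero_mem _
  have hsym : cycSymbol ℓ x = Additive.ofMul β := by
    rw [cycSymbol_apply, finprod_eq_one_of_forall_eq_one fun s => by
      rw [hord, neg_zero, zpow_zero], mul_one]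
    refine congrArg Additive.ofMul (Units.ext ?_)
    show resVal (unitPart ℓ x) = _
    rw [resVal_eq _ (unitPart_mem ℓ x) (a := (a : ℤ)) ?_, Int.cast_natCast, hβ]
    have hu : (unitPart ℓ x : LU ℓ) = (evalLoc Layer.bot ℓ x : LU ℓ) := by
      show ((evalLoc Layer.bot ℓ x - ratOrd ℓ x • qLocU Layer.bot ℓ : LocU Layer.bot ℓ) :
        LU ℓ) = _
      rw [hord, zero_zsmul, sub_zero]
    rw [hu, hxℓ, Int.cast_natCast]
    exact hsum
  have hcl : sumClass M ⟨classMap (supIdele M ℓ b : Idele),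
      classMap_mem_fixedPts (supIdele M ℓ b).2⟩ =
      ⟨classMap (X : Idele), classMap_mem_fixedPts hfix⟩ := by
    refine Subtype.ext ?_
    rw [coe_sumClass]
    show _ = classMap (X : Idele)
    rw [hX, AddSubgroup.val_finsetSum, AddSubgroup.val_finsetSum, map_sum]
    refine Finset.sum_congr rfl fun g _ => ?_
    induction g using QuotientGroup.induction_on with
    | _ γ => rw [coe_mk_smul, coe_mk_smul, classMap_smul]
  show cycSymbolClass ℓ (sumClass M _) = _
  rw [hcl, cycSymbolClass_classMap ℓ x, hsym]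

/-- A multiple of a class of the cyclotomic layer vanishes only if the symbol vanishes. -/
theorem symbol_eq_zero_of_norm {ℓ : Nat.Primes} [Fintype (Gam ⧸ (cycLayer ℓ).sub)]
    {a : fixedPts Layer.bot.sub IdeleClass} {b : LayerC (cycLayer ℓ)}
    (h : ∑ g : Gam ⧸ (cycLayer ℓ).sub, g • b = ratIncl (cycLayer ℓ) a) :
    cycSymbolClass ℓ a = 0 := by
  have hle : (cycLayer ℓ).sub ≤ Layer.bot.sub := fun g _ => mem_bot_sub g
  have := Fintype.ofFinite (quotMap hle).ker
  have h0 := symTrace_eq_zero_of_norm (ℓ := ℓ) hle le_rfl b (a := a) (by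
    refine Eq.trans ?_ (h.symm.trans ?_)
    · rfl
    · refine (Fintype.sum_bijective (fun k : (quotMap hle).ker => (k : Gam ⧸ (cycLayer ℓ).sub))
        ⟨Subtype.val_injective, fun g => ⟨⟨g, ?_⟩, rfl⟩⟩ _ _ fun _ => rfl).symm
      rw [MonoidHom.mem_ker]
      induction g using QuotientGroup.induction_on with
      | _ γ => exact (QuotientGroup.eq_one_iff γ).2 (mem_bot_sub γ))
  change symTrace ℓ Layer.bot (ratIncl Layer.bot a) = 0 at h0
  have h1 : Nat.card (Gam ⧸ Layer.bot.sub) = 1 := Nat.card_eq_one_iff_unique.2 ⟨⟨fun a b => by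
    induction a using QuotientGroup.induction_on with
    | _ γ =>
      induction b using QuotientGroup.induction_on with
      | _ δ => exact QuotientGroup.eq.2 (mem_bot_sub _)⟩, ⟨1⟩⟩
  rwa [symTrace_ratIncl, h1, one_nsmul] at h0

section Descend

variable {ℓ : Nat.Primes} {L L' : Layer} (hL : L'.sub ≤ L.sub)

/-- The carry classes of fixed elements on the relative group. -/
def carryHom {h : ℕ} [NeZero h] (χ : (quotMap hL).ker →* Multiplicative (ZMod h)) :
    LayerC L →+ H2 (quotMap hL).ker (LayerC L') :=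
  AddMonoidHom.mk' (fun a => H2.mk (carry χ (fixedIncl IdeleClass hL a)
      fun σ => smul_eq_of_quotMap_eq_one hL σ.2 a)) fun a b => by
    rw [← map_add]
    refine congrArg H2.mk (Subtype.ext (funext fun x => funext fun y => ?_))
    show carryNat χ x y • fixedIncl IdeleClass hL (a + b) =
      carryNat χ x y • fixedIncl IdeleClass hL a + carryNat χ x y • fixedIncl IdeleClass hL b
    rw [map_add, nsmul_add]

/-- Over a cyclic relative group, an element with trivial symbol is a norm, up to a factor prime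
to `p`, provided some element has a symbol of full order. -/
theorem exists_norm_of_symTrace (hstep : ClassStep p) (hK : L'.sub ≤ (cycLayer ℓ).sub)
    [Fintype (quotMap hL).ker] [IsCyclic (quotMap hL).ker] (c : LayerC L)
    (hc : ∀ t : ℤ, symTrace ℓ L (t • c) = 0 → (pPart p (quotMap hL).ker : ℤ) ∣ t)
    {a : LayerC L} (ha : symTrace ℓ L a = 0) :
    ∃ b : LayerC L', ∑ σ : (quotMap hL).ker, σ • b =
      pCompl p (quotMap hL).ker • fixedIncl IdeleClass hL a := by
  set ι := fixedIncl IdeleClass hL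
  set m0 := pCompl p (quotMap hL).ker
  set q' := pPart p (quotMap hL).ker with hq'
  obtain ⟨g, hg⟩ := IsCyclic.exists_generator (α := (quotMap hL).ker)
  by_cases h1 : Nat.card (quotMap hL).ker = 1
  · have : Subsingleton (quotMap hL).ker := (Nat.card_eq_one_iff_unique.1 h1).1
    exact ⟨m0 • ι a, by
      rw [Fintype.sum_eq_single (1 : (quotMap hL).ker) fun x hx =>
        absurd (Subsingleton.elim x 1) hx, one_smul]⟩
  have hh1 : 1 < Nat.card (quotMap hL).ker := by have := Nat.card_pos (α := (quotMap hL).ker); omega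
  have : NeZero (Nat.card (quotMap hL).ker) := ⟨by omega⟩
  let eH := zmodMulEquivOfGenerator hg (rfl : Nat.card (quotMap hL).ker = Nat.card (quotMap hL).ker)
  set χ : (quotMap hL).ker →* Multiplicative (ZMod (Nat.card (quotMap hL).ker)) :=
    eH.symm.toMonoidHom
  have hχ : χ g = Multiplicative.ofAdd 1 := eH.injective
    ((eH.apply_symm_apply g).trans (zmodMulEquivOfGenerator_apply_ofAdd_one hg _).symm)
  set Φ := carryHom hL χ
  have hΦ0 : ∀ x, Φ x = 0 → ∃ b : LayerC L', ∑ σ : (quotMap hL).ker, σ • b = ι x := fun x hx => by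
    have h2 := congrArg (cyclicMap g) hx
    change cyclicMap g (H2.mk (carry χ (ι x) fun σ => smul_eq_of_quotMap_eq_one hL σ.2 x)) = _ at h2
    rw [map_zero, cyclicMap_mk, cyclicInv_carry χ _ _ g
      (orderOf_eq_card_of_forall_mem_zpowers hg) hh1 hχ, QuotientAddGroup.eq_zero_iff] at h2
    obtain ⟨b, hb⟩ := h2
    exact ⟨b, (psum_orderOf_eq_sum hg b).symm.trans hb⟩
  have hν : ∀ x, Φ x = 0 → symTrace ℓ L x = 0 := fun x hx => by
    obtain ⟨b, hb⟩ := hΦ0 x hx
    exact symTrace_eq_zero_of_norm hL hK b hb.symm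
  clear_value Φ
  obtain ⟨P⟩ : Nonempty (Sylow p (quotMap hL).ker) := inferInstance
  let e : (P : Subgroup (quotMap hL).ker) ≃*
      ((P : Subgroup (quotMap hL).ker).map (quotMap hL).ker.subtype) :=
    (P : Subgroup (quotMap hL).ker).equivMapOfInjective (quotMap hL).ker.subtype
      (quotMap hL).ker.subtype_injective
  obtain ⟨-, hfin, hle⟩ := classes_pgroup_bound p hstep L' _
    (P.isPGroup'.map (quotMap hL).ker.subtype)
  have hce : CompatPair e.toMonoidHom (AddMonoidHom.id (LayerC L')) := ⟨fun _ _ => rfl⟩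
  have hbij := H2.map_bijective hce e.bijective Function.bijective_id
  have : Finite (H2 (P : Subgroup (quotMap hL).ker) (LayerC L')) := Finite.of_surjective _ hbij.2
  have hP : Nat.card (H2 (P : Subgroup (quotMap hL).ker) (LayerC L')) ≤ q' := by
    rw [hq', ← card_sylow P, Nat.card_congr e.toEquiv]
    exact (Nat.card_le_card_of_surjective _ hbij.2).trans hle
  set res : H2 (quotMap hL).ker (LayerC L') →+ H2 (P : Subgroup (quotMap hL).ker) (LayerC L') :=
    H2.map (P : Subgroup (quotMap hL).ker).subtype (AddMonoidHom.id (LayerC L'))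
      (CompatPair.subtype _)
  set Ψ : LayerC L →+ H2 (P : Subgroup (quotMap hL).ker) (LayerC L') :=
    res.comp (Φ.comp (nsmulAddMonoidHom m0))
  have hinj : ∀ x, Ψ x = 0 → Φ (m0 • x) = 0 := fun x hx =>
    eq_zero_of_res_sylow_H2 P (k := (Nat.card (quotMap hL).ker).factorization p) (by
      rw [map_nsmul, ← mul_smul]
      show (pPart p (quotMap hL).ker * pCompl p (quotMap hL).ker) • _ = 0
      rw [pPart_mul_pCompl, card_nsmul_H2]) hx
  clear_value Ψ
  have hdvd : ∀ t : ℤ, Ψ (t • c) = 0 → (q' : ℤ) ∣ t := fun t ht => by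
    have h3 := hν _ (hinj _ ht)
    rw [← natCast_zsmul, ← mul_smul] at h3
    have h4 := hc _ h3
    refine Int.dvd_of_dvd_mul_right_of_gcd_one h4 ?_
    rw [Int.gcd_natCast_natCast]
    exact coprime_pow_of_not_dvd not_dvd_pCompl
  have hfinj : Function.Injective fun t : Fin q' => Ψ (((t : ℕ) : ℤ) • c) := fun t t' hh => by
    obtain ⟨w, hw⟩ := hdvd (((t : ℕ) : ℤ) - (t' : ℕ)) (by
      rw [sub_zsmul, map_add, map_neg, add_neg_eq_zero]; exact hh)
    refine Fin.ext ?_
    have h3 := t.isLt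
    have h4 := t'.isLt
    rcases lt_trichotomy w 0 with h5 | h5 | h5
    · nlinarith
    · subst h5; omega
    · nlinarith
  have := Fintype.ofFinite (H2 (P : Subgroup (quotMap hL).ker) (LayerC L'))
  obtain ⟨t, ht⟩ := ((Fintype.bijective_iff_injective_and_card _).2 ⟨hfinj, le_antisymm
    (Fintype.card_le_of_injective _ hfinj) (by
      rw [Fintype.card_fin, ← Nat.card_eq_fintype_card]; exact hP)⟩).2 (Ψ a)
  dsimp only at ht
  have hdiff : Φ (m0 • (a - ((t : ℕ) : ℤ) • c)) = 0 :=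
    hinj _ ((map_sub Ψ a _).trans (sub_eq_zero.2 ht.symm))
  have h4 := hν _ hdiff
  rw [nsmul_sub, map_sub, map_nsmul, ha, smul_zero, zero_sub, neg_eq_zero, ← natCast_zsmul,
    ← mul_smul] at h4
  have h5 : (q' : ℤ) ∣ ((t : ℕ) : ℤ) := by
    refine Int.dvd_of_dvd_mul_right_of_gcd_one (hc _ h4) ?_
    rw [Int.gcd_natCast_natCast]
    exact coprime_pow_of_not_dvd not_dvd_pCompl
  rw [Nat.eq_zero_of_dvd_of_lt (Int.natCast_dvd_natCast.1 h5) t.isLt, Nat.cast_zero, zero_zsmul,
    sub_zero] at hdiff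
  obtain ⟨b, hb⟩ := hΦ0 _ hdiff
  exact ⟨b, hb.trans (map_nsmul ι m0 _)⟩

/-- Restriction of an inflated carry class to a cyclic relative group whose invariant is a norm. -/
theorem res_carry_eq_zero {K : Layer} (hK : L'.sub ≤ K.sub) {N : ℕ} [NeZero N]
    (χ : Gam ⧸ K.sub →* Multiplicative (ZMod N)) (z : LayerC K) (hz : ∀ g : Gam ⧸ K.sub, g • z = z)
    [Fintype (quotMap hL).ker] [IsCyclic (quotMap hL).ker] (m : ℕ) {b : LayerC L'}
    (hb : ∑ σ : (quotMap hL).ker, σ • b = m • fixedIncl IdeleClass hK z) :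
    H2.map (quotMap hL).ker.subtype (AddMonoidHom.id (LayerC L')) (CompatPair.subtype _)
      (m • inf2 IdeleClass hK (H2.mk (carry χ z hz))) = 0 := by
  set ψH : (quotMap hL).ker →* Gam ⧸ K.sub := (quotMap hK).comp (quotMap hL).ker.subtype
  obtain ⟨g, hg⟩ := IsCyclic.exists_generator (α := (quotMap hL).ker)
  rw [← map_nsmul (inf2 IdeleClass hK), ← map_nsmul, inf2, H2.map_mk, H2.map_mk]
  refine mk_eq_zero_of_cyclicInv hg (b := (∑ i ∈ Finset.range (orderOf g),
    carryNat χ (ψH (g ^ i)) (ψH g)) • b) ?_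
  rw [psum_orderOf_eq_sum hg, Finset.sum_congr rfl fun σ _ => smul_comm σ
    (∑ i ∈ Finset.range (orderOf g), carryNat χ (ψH (g ^ i)) (ψH g)) b,
    ← Finset.smul_sum, hb, cyclicInv, Finset.sum_smul]
  refine Finset.sum_congr rfl fun i _ => ?_
  show fixedIncl IdeleClass hK (m • carryNat χ (ψH (g ^ i)) (ψH g) • z) = _
  rw [map_nsmul, map_nsmul, smul_comm]

end Descend

theorem exists_globalClass (hp2 : p ≠ 2) (hstep : ClassStep p) (L : Layer) :
    ∃ u : H2 (Gam ⧸ L.sub) (LayerC L), ∀ j : ℕ, j • u = 0 → pPart p (Gam ⧸ L.sub) ∣ j := by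
  classical
  rcases Nat.eq_zero_or_pos ((Nat.card (Gam ⧸ L.sub)).factorization p) with hi0 | hi0
  · exact ⟨0, fun j _ => by rw [pPart, hi0, pow_zero]; exact one_dvd j⟩
  set n := Nat.card (Gam ⧸ L.sub)
  set d := pPart p (Gam ⧸ L.sub) with hd
  have hd1 : 1 < d := Nat.one_lt_pow hi0.ne' hp.out.one_lt
  have hdn : d ∣ n := Nat.ordProj_dvd _ _
  obtain ⟨T, hT⟩ := L.exists_isS
  have : NeZero d := ⟨by omega⟩
  obtain ⟨ℓ, hrgt, hr1⟩ : ∃ ℓ : Nat.Primes,
      (T.sup fun t => (t : ℕ)) < (ℓ : ℕ) ∧ ((ℓ : ℕ) : ZMod d) = 1 := by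
    obtain ⟨r, h1, h2, h3⟩ :=
      Nat.forall_exists_prime_gt_and_eq_mod (isUnit_one (M := ZMod d)) (T.sup fun t => (t : ℕ))
    exact ⟨⟨r, h2⟩, h1, h3⟩
  have hℓT : ℓ ∉ T := fun h => by
    have : (ℓ : ℕ) ≤ T.sup fun t => (t : ℕ) :=
      Finset.le_sup (f := fun t : Nat.Primes => (t : ℕ)) h
    omega
  set N := (ℓ : ℕ) - 1 with hN
  have hN0 : 0 < N := by have := ℓ.2.two_le; omega
  obtain ⟨k₀, hk₀⟩ : d ∣ N := by
    rw [← ZMod.natCast_eq_zero_iff, hN, Nat.cast_sub ℓ.2.pos, Nat.cast_one, hr1, sub_self]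
  -- the cyclotomic layer
  have : Fact (ℓ : ℕ).Prime := ⟨ℓ.2⟩
  obtain ⟨β, hβ⟩ := IsCyclic.exists_generator (α := (ZMod (ℓ : ℕ))ˣ)
  have hβo : orderOf β = N := by
    rw [orderOf_eq_card_of_forall_mem_zpowers hβ, Nat.card_eq_fintype_card, ZMod.card_units]
  have hnb : ¬ ((ℓ : ℕ) : ℤ) ∣ ((β : ZMod (ℓ : ℕ)).val : ℤ) := fun h => by
    rw [Int.natCast_dvd_natCast, ← ZMod.natCast_eq_zero_iff, ZMod.natCast_zmod_val] at h
    exact β.ne_zero h
  have hnbnorm : ‖(((β : ZMod (ℓ : ℕ)).val : ℕ) : PadicAlgCl (ℓ : ℕ))‖ = 1 := by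
    have := norm_intCast_eq_one hnb
    rwa [Int.cast_natCast] at this
  obtain ⟨bv, hbvval⟩ : ∃ bv : LU ℓ,
      bv.val = (((β : ZMod (ℓ : ℕ)).val : ℕ) : PadicAlgCl (ℓ : ℕ)) :=
    ⟨Additive.ofMul (Units.mk0 _ fun h => by
      exact zero_ne_one ((norm_eq_zero.2 h).symm.trans hnbnorm)), rfl⟩
  have hbv : bv ∈ unitsAt ℓ := by rw [mem_unitsAt_iff, hbvval]; exact hnbnorm
  have hbfix : ∀ τ : LGal ℓ, τ • bv = bv := fun τ => LU.ext (by
    rw [LU.val_smul, hbvval, map_natCast])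
  set K := cycLayer ℓ
  set L' := L.sup K
  have hL : L'.sub ≤ L.sub := Layer.sub_le (L.le_sup_left K)
  have hK : L'.sub ≤ K.sub := Layer.sub_le (L.le_sup_right K)
  have hboth : ∀ x, quotMap hL x = 1 → quotMap hK x = 1 → x = 1 := fun x => by
    induction x using QuotientGroup.induction_on with
    | _ γ =>
      intro h1 h2
      refine (QuotientGroup.eq_one_iff γ).2 ?_
      show γ ∈ (L.field ⊔ K.field).fixingSubgroup
      rw [IntermediateField.fixingSubgroup_sup]
      exact ⟨(QuotientGroup.eq_one_iff (N := L.sub) γ).1 h1,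
        (QuotientGroup.eq_one_iff (N := K.sub) γ).1 h2⟩
  set gK := (cycEquiv ℓ).symm β with hgKdef
  have hgK : ∀ x, x ∈ Subgroup.zpowers gK := fun x => by
    obtain ⟨k, hk⟩ := Subgroup.mem_zpowers_iff.1 (hβ (cycEquiv ℓ x))
    exact Subgroup.mem_zpowers_iff.2 ⟨k, (cycEquiv ℓ).injective (by
      rw [map_zpow, hgKdef, MulEquiv.apply_symm_apply]; exact hk)⟩
  have hgKo : orderOf gK = N := by rw [hgKdef, MulEquiv.orderOf_eq, hβo]
  have hN1 : 1 < N := lt_of_lt_of_le hd1 (Nat.le_of_dvd hN0 ⟨k₀, hk₀⟩)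
  have : NeZero N := ⟨hN0.ne'⟩
  have hcardK : Nat.card (Gam ⧸ K.sub) = N := card_cycLayer ℓ
  have : IsCyclic (Gam ⧸ K.sub) := ⟨⟨gK, hgK⟩⟩
  have hψ : Function.Injective ((quotMap hK).comp (quotMap hL).ker.subtype) :=
    (injective_iff_map_eq_one _).2 fun x hx => Subtype.ext (hboth x x.2 hx)
  have : IsCyclic (quotMap hL).ker := isCyclic_of_injective _ hψ
  have := Fintype.ofFinite (quotMap hL).ker
  have := Fintype.ofFinite (quotMap hK).ker
  -- the element `z`
  have hbot : Subsingleton (LocG Layer.bot ℓ) := ⟨fun a b => by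
    induction a using QuotientGroup.induction_on with
    | _ σ =>
      induction b using QuotientGroup.induction_on with
      | _ τ => exact QuotientGroup.eq.2 (mem_bot_sub _)⟩
  have := Fintype.ofFinite (LocG Layer.bot ℓ)
  set b₀ : LocU Layer.bot ℓ := ⟨bv, fun τ _ => hbfix τ⟩
  set z : fixedPts Layer.bot.sub IdeleClass :=
    k₀ • ⟨classMap (supIdele Layer.bot ℓ b₀ : Idele),
      classMap_mem_fixedPts (supIdele Layer.bot ℓ b₀).2⟩ with hzdef
  have hzsym : cycSymbolClass ℓ z = (2 * k₀) • Additive.ofMul β := by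
    have h1 := symTrace_supIdele Layer.bot b₀ hbv (β : ZMod (ℓ : ℕ)).val β
      (ZMod.natCast_zmod_val _).symm (by
        rw [Fintype.sum_subsingleton _ (1 : LocG Layer.bot ℓ), one_smul]
        show ‖bv.val - _‖ < 1
        rw [hbvval, sub_self, norm_zero]; exact one_pos)
    rw [show (⟨classMap (supIdele Layer.bot ℓ b₀ : Idele),
      classMap_mem_fixedPts (supIdele Layer.bot ℓ b₀).2⟩ : LayerC Layer.bot) =
      ratIncl Layer.bot ⟨classMap (supIdele Layer.bot ℓ b₀ : Idele),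
        classMap_mem_fixedPts (supIdele Layer.bot ℓ b₀).2⟩ from rfl, symTrace_ratIncl,
      show Nat.card (Gam ⧸ Layer.bot.sub) = 1 from Nat.card_eq_one_iff_unique.2
      ⟨⟨fun a b => by
        induction a using QuotientGroup.induction_on with
        | _ γ =>
          induction b using QuotientGroup.induction_on with
          | _ δ => exact QuotientGroup.eq.2 (mem_bot_sub _)⟩, ⟨1⟩⟩, one_nsmul] at h1
    rw [hzdef, map_nsmul, h1, ← mul_smul, mul_comm]
  let eK := zmodMulEquivOfGenerator hgK hcardK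
  set χ : Gam ⧸ K.sub →* Multiplicative (ZMod N) := eK.symm.toMonoidHom
  have hχ : χ gK = Multiplicative.ofAdd 1 := eK.injective
    ((eK.apply_symm_apply gK).trans (zmodMulEquivOfGenerator_apply_ofAdd_one hgK _).symm)
  set cK := carry χ (ratIncl K z) (smul_ratIncl K z) with hcK
  have hKdvd : ∀ j : ℕ, j • H2.mk cK = 0 → d ∣ j := fun j hj => by
    have := Fintype.ofFinite (Gam ⧸ K.sub)
    have h2 := congrArg (cyclicMap gK) hj
    rw [map_nsmul, map_zero, hcK, cyclicMap_mk, cyclicInv_carry χ _ (smul_ratIncl K z) gK hgKo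
      hN1 hχ, ← QuotientAddGroup.mk_nsmul, QuotientAddGroup.eq_zero_iff] at h2
    obtain ⟨b, hb⟩ := h2
    change psum gK (orderOf gK) b = j • ratIncl K z at hb
    rw [psum_orderOf_eq_sum hgK, ← map_nsmul] at hb
    have h6 := symbol_eq_zero_of_norm hb
    rw [map_nsmul, hzsym, ← mul_smul, nsmul_ofMul_eq_zero_iff, hβo] at h6
    have h7 : d ∣ 2 * j := by
      obtain ⟨c, hc⟩ := h6
      refine ⟨c, Nat.eq_of_mul_eq_mul_right (Nat.pos_of_ne_zero (right_ne_zero_of_mul
        (hk₀ ▸ hN0.ne'))) ?_⟩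
      rw [hk₀] at hc
      linarith
    exact dvd_of_dvd_two_mul hp2 h7
  -- an element with symbol of full order
  obtain ⟨k₁, hk₁⟩ : pPart p (quotMap hL).ker ∣ N := by
    rw [← hcardK]
    exact (Nat.ordProj_dvd _ _).trans (Subgroup.card_dvd_of_injective _ hψ)
  have := Fintype.ofFinite (LocG L ℓ)
  obtain ⟨m₁, b₁, hm₁, hb₁, hsum₁⟩ := exists_unit_norm p (inertiaLoc_eq_bot hT hℓT)
    (a := (⟨bv, fun τ _ => hbfix τ⟩ : LocU L ℓ)) (fun σ => by
      induction σ using QuotientGroup.induction_on with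
      | _ τ => exact Subtype.ext (hbfix τ)) hbv
  set c₁ : LayerC L :=
    ⟨classMap (supIdele L ℓ b₁ : Idele), classMap_mem_fixedPts (supIdele L ℓ b₁).2⟩
  have hc₁ : symTrace ℓ L c₁ = 2 • Additive.ofMul (β ^ m₁) := by
    refine symTrace_supIdele L b₁ hb₁ ((β : ZMod (ℓ : ℕ)).val ^ m₁) _
      (by rw [Nat.cast_pow, ZMod.natCast_zmod_val, Units.val_pow_eq_pow_val]) ?_
    rw [hsum₁, AddSubgroup.coe_nsmul]
    show ‖((((bv.toMul) ^ m₁ : (PadicAlgCl (ℓ : ℕ))ˣ)) : PadicAlgCl (ℓ : ℕ)) - _‖ < 1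
    rw [Units.val_pow_eq_pow_val, show ((bv.toMul : (PadicAlgCl (ℓ : ℕ))ˣ) :
      PadicAlgCl (ℓ : ℕ)) = _ from hbvval, Nat.cast_pow, sub_self, norm_zero]
    exact one_pos
  have hc : ∀ t : ℤ, symTrace ℓ L (t • k₁ • c₁) = 0 →
      (pPart p (quotMap hL).ker : ℤ) ∣ t := fun t ht => by
    rw [map_zsmul, map_nsmul, hc₁, ofMul_pow, ← mul_smul, ← mul_smul, ← natCast_zsmul,
      ← mul_smul, ← addOrderOf_dvd_iff_zsmul_eq_zero, addOrderOf_ofMul_eq_orderOf, hβo, hk₁] at ht
    obtain ⟨w, hw⟩ := ht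
    have hk0 : (k₁ : ℤ) ≠ 0 := by exact_mod_cast right_ne_zero_of_mul (hk₁ ▸ hN0.ne')
    have h5 : (pPart p (quotMap hL).ker : ℤ) ∣ t * ((2 * m₁ : ℕ) : ℤ) := by
      refine ⟨w, mul_left_cancel₀ hk0 ?_⟩
      push_cast at hw ⊢
      linarith
    refine Int.dvd_of_dvd_mul_left_of_gcd_one h5 ?_
    rw [Int.gcd_natCast_natCast]
    exact Nat.Coprime.mul_right (coprime_pow_of_not_dvd fun hh =>
        hp2 ((Nat.prime_dvd_prime_iff_eq hp.out Nat.prime_two).1 hh))
      (coprime_pow_of_not_dvd hm₁)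
  have hzL : symTrace ℓ L (ratIncl L z) = 0 := by
    rw [symTrace_ratIncl, hzsym, ← mul_smul, nsmul_ofMul_eq_zero_iff, hβo]
    obtain ⟨n', hn'⟩ := hdn
    refine ⟨n' * 2, ?_⟩
    show n * (2 * k₀) = _
    rw [hn', hk₀]
    ring
  obtain ⟨b, hb⟩ := exists_norm_of_symTrace hL hstep hK (k₁ • c₁) hc hzL
  set m0 := pCompl p (quotMap hL).ker
  have hres := res_carry_eq_zero hL hK χ (ratIncl K z) (smul_ratIncl K z) m0 (b := b) hb
  obtain ⟨y, hy⟩ := exists_inflation2 (inflation_compat (A := IdeleClass) hL)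
    (quotMap_surjective hL) (fun x z h => Subtype.ext (congrArg Subtype.val h :))
    (fun x hx => exists_fixedIncl_eq hL x hx) m0 (classes_H1_torsion hstep L' _)
    (m0 • inf2 IdeleClass hK (H2.mk cK)) hres
  refine ⟨y, fun j hj => ?_⟩
  set m2 := pCompl p (quotMap hK).ker
  have h0 : inf2 IdeleClass hK ((j * (m0 * m0)) • H2.mk cK) = 0 := by
    rw [map_nsmul, mul_smul, mul_smul, ← hy, ← map_nsmul, hj, map_zero]
  have h1 := nsmul_eq_zero_of_inf2_eq_zero hK m2 (classes_H1_torsion hstep L' _) h0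
  rw [← mul_smul] at h1
  have hm0 : ¬p ∣ m0 := not_dvd_pCompl
  have hm2 : ¬p ∣ m2 := not_dvd_pCompl
  refine (Nat.Coprime.mul_right (coprime_pow_of_not_dvd hm0)
    (coprime_pow_of_not_dvd hm0)).dvd_of_dvd_mul_right ?_
  exact (coprime_pow_of_not_dvd hm2).dvd_of_dvd_mul_left (hKdvd _ h1)

/-- The idele classes of a layer form a class module. -/
theorem isClassModule_classes (hp2 : p ≠ 2) (hstep : ClassStep p) (L : Layer) :
    IsClassModule p (Gam ⧸ L.sub) (LayerC L) :=
  ⟨fun P => classes_pgroup_bound p hstep L _ P.isPGroup', exists_globalClass hp2 hstep L⟩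

end FLTAgent.GlobalDuality
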