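import Mathlib
import Fermat.Agent.GlobalDuality.CT

/-!
# Shapiro's lemma in explicit form

A module `Y` of a group `G` with an evaluation `ε : Y → E` compatible with `j : D → G` behaves like
a coinduced module: a class that dies under evaluation gives equivariant functions on `G` that
cobound its evaluations (`shapiro2`, `shapiro2_mem`).
-/

set_option autoImplicit false

noncomputable section

namespace FLTAgent.GalCoh

variable {G : Type} [Group G] {D : Type} [Group D] {Y : Type} [AddCommGroup Y]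
  [DistribMulAction G Y] {E : Type} [AddCommGroup E] [DistribMulAction D E]
  {j : D →* G} {ε : Y →+ E}

/-- Shapiro in degree two, with values in a subgroup. -/
theorem shapiro2_mem (hc : CompatPair j ε) (hj : Function.Injective j) {f : G → G → Y}
    (hf : f ∈ Z2 G Y) {β : D → E}
    (hβ : ∀ d d', ε (f (j d) (j d')) = d • β d' - β (d * d') + β d) (U : AddSubgroup E)
    (hfU : ∀ g h, ε (f g h) ∈ U) (hβU : ∀ d, β d ∈ U) :
    ∃ b : G → G → E, (∀ g d σ, b g (j d * σ) = d • b g σ) ∧
      (∀ g h σ, ε (σ • f g h) = b h (σ * g) - b (g * h) σ + b g σ) ∧ ∀ g σ, b g σ ∈ U := by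
  classical
  let s : Setoid G := QuotientGroup.rightRel j.range
  let r : G → G := fun σ => (Quotient.mk s σ).out
  have hr : ∀ σ, ∃ d : D, σ = j d * r σ := fun σ => by
    have h : s (r σ) σ := Quotient.exact (s := s) (Quotient.out_eq (Quotient.mk s σ))
    obtain ⟨d, hd⟩ := QuotientGroup.rightRel_apply.1 h
    exact ⟨d, by rw [hd, inv_mul_cancel_right]⟩
  choose dd hdec using hr
  have hrr : ∀ d σ, r (j d * σ) = r σ := fun d σ => by
    refine congrArg Quotient.out (Quotient.sound (s := s) (QuotientGroup.rightRel_apply.2 ?_))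
    exact ⟨d⁻¹, by rw [map_inv, mul_inv_rev, ← mul_assoc, mul_inv_cancel, one_mul]⟩
  have hdd : ∀ d σ, dd (j d * σ) = d * dd σ := fun d σ => hj (by
    have h := hdec (j d * σ)
    rw [hrr] at h
    refine mul_right_cancel (b := r σ) ?_
    rw [← h, map_mul, mul_assoc, ← hdec])
  let F : G → G → E := fun σ g => ε (f σ g)
  let φ : G → E := fun σ => -F (j (dd σ)) (r σ) + β (dd σ)
  have hco : ∀ d x y, F (j d * x) y + F (j d) x = d • F x y + F (j d) (x * y) := fun d x y => by
    show ε _ + ε _ = d • ε _ + ε _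
    rw [← hc.compat, ← map_add, ← map_add, mem_Z2_iff.1 hf]
  have hφ : ∀ d σ, φ (j d * σ) = d • φ σ - F (j d) σ + β d := fun d σ => by
    show -F (j (dd (j d * σ))) (r (j d * σ)) + β (dd (j d * σ)) = _
    have h1 := hco d (j (dd σ)) (r σ)
    rw [← map_mul, ← hdec σ] at h1
    have h2 : F (j d) (j (dd σ)) = d • β (dd σ) - β (d * dd σ) + β d := hβ _ _
    rw [hdd, hrr, smul_add, smul_neg]
    linear_combination (norm := abel) h2 - h1
  refine ⟨fun g σ => F σ g + φ (σ * g) - φ σ, fun g d σ => ?_, fun g h σ => ?_, fun g σ =>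
    sub_mem (add_mem (hfU _ _) (add_mem (neg_mem (hfU _ _)) (hβU _)))
      (add_mem (neg_mem (hfU _ _)) (hβU _))⟩
  · have h1 := hco d σ g
    simp only [mul_assoc, hφ, smul_add, smul_sub]
    linear_combination (norm := abel) h1
  · have h1 : ε (σ • f g h) + F σ (g * h) = F (σ * g) h + F σ g := by
      show ε _ + ε _ = ε _ + ε _
      rw [← map_add, ← map_add, mem_Z2_iff.1 hf]
    simp only [mul_assoc]
    linear_combination (norm := abel) h1

/-- Shapiro in degree two. -/
theorem shapiro2 (hc : CompatPair j ε) (hj : Function.Injective j) {f : G → G → Y}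
    (hf : f ∈ Z2 G Y) {β : D → E}
    (hβ : ∀ d d', ε (f (j d) (j d')) = d • β d' - β (d * d') + β d) :
    ∃ b : G → G → E, (∀ g d σ, b g (j d * σ) = d • b g σ) ∧
      ∀ g h σ, ε (σ • f g h) = b h (σ * g) - b (g * h) σ + b g σ := by
  obtain ⟨b, h1, h2, -⟩ := shapiro2_mem hc hj hf hβ ⊤ (fun _ _ => trivial) fun _ => trivial
  exact ⟨b, h1, h2⟩

end FLTAgent.GalCoh
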