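import Mathlib
import Fermat.Agent.GlobalDuality.GlobalClass
import Fermat.Agent.GlobalDuality.Shapiro

/-!
# From the local Brauer groups to the idele classes

A class of ideles supported above one prime is determined by its component at that prime, and a
class of order `p` there does not die in the idele classes.
-/

set_option autoImplicit false

noncomputable section

namespace FLTAgent.GalCoh

variable {p : ℕ} [hp : Fact p.Prime] {G : Type} [Group G] [Finite G] {C : Type} [AddCommGroup C]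
  [DistribMulAction G C]

theorem IsClassModule.exists_eq_nsmul (hC : IsClassModule p G C) {a b : H2 G C}
    (ha : p • a = 0) (hb : p • b = 0) (hb0 : b ≠ 0) : ∃ k : ℕ, a = k • b := by
  have := Fintype.ofFinite G
  obtain ⟨P⟩ : Nonempty (Sylow p G) := inferInstance
  obtain ⟨-, hfin, hle⟩ := hC.sylow P
  obtain ⟨u, hu⟩ := hC.exists_gen
  set res := H2.map (P : Subgroup G).subtype (AddMonoidHom.id C) (CompatPair.subtype _)
  have hinj : ∀ {x : H2 G C} {k : ℕ}, p ^ k • x = 0 → res x = 0 → x = 0 := fun hk hx =>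
    eq_zero_of_res_sylow_H2 P hk hx
  have hdvd : ∀ j : ℕ, j • res u = 0 → Nat.card (P : Subgroup G) ∣ j := fun j hj => by
    rw [card_sylow P]
    have h0 : (pCompl p G * j) • u = 0 := hinj (k := (Nat.card G).factorization p) (by
      rw [← mul_smul, ← mul_assoc]
      show (pPart p G * pCompl p G * j) • u = 0
      rw [pPart_mul_pCompl, mul_smul, card_nsmul_H2]) (by
      rw [map_nsmul, mul_smul, hj, smul_zero])
    exact (((Nat.Prime.coprime_iff_not_dvd hp.out).2
      (not_dvd_pCompl (p := p) (G := G))).pow_left _).dvd_of_dvd_mul_left (hu _ h0)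
  have : IsAddCyclic (H2 (P : Subgroup G) C) :=
    isAddCyclic_of_addOrderOf_eq_card (res u) (le_antisymm addOrderOf_le_card
      (hle.trans (Nat.le_of_dvd (addOrderOf_pos _)
        (hdvd _ (addOrderOf_nsmul_eq_zero _)))))
  have := Fintype.ofFinite (H2 (P : Subgroup G) C)
  classical
  have hb1 : res b ≠ 0 := fun h => hb0 (hinj (k := 1) (by rw [pow_one]; exact hb) h)
  have hbo : addOrderOf (res b) = p :=
    addOrderOf_eq_prime (by rw [← map_nsmul, hb, map_zero]) hb1
  have hsub : (Finset.univ : Finset (Fin p)).image (fun k : Fin p => (k : ℕ) • res b) =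
      Finset.univ.filter fun x : H2 (P : Subgroup G) C => p • x = 0 := by
    refine Finset.eq_of_subset_of_card_le (fun x hx => ?_) ?_
    · obtain ⟨k, -, rfl⟩ := Finset.mem_image.1 hx
      rw [Finset.mem_filter, smul_comm, ← map_nsmul res p b, hb, map_zero, smul_zero]
      exact ⟨Finset.mem_univ _, rfl⟩
    · rw [Finset.card_image_of_injective, Finset.card_univ, Fintype.card_fin]
      · exact IsAddCyclic.card_nsmul_eq_zero_le hp.out.pos
      · intro k k' h
        exact Fin.ext (nsmul_injOn_Iio_addOrderOf (by rw [hbo]; exact k.isLt)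
          (by rw [hbo]; exact k'.isLt) h)
  have hmem : res a ∈ Finset.univ.filter fun x : H2 (P : Subgroup G) C => p • x = 0 :=
    Finset.mem_filter.2 ⟨Finset.mem_univ _, by rw [← map_nsmul, ha, map_zero]⟩
  rw [← hsub] at hmem
  obtain ⟨k, -, hk⟩ := Finset.mem_image.1 hmem
  exact ⟨k, sub_eq_zero.1 (hinj (k := 1) (by
      rw [pow_one, nsmul_sub, ha, smul_comm, hb, smul_zero, sub_zero])
    (by rw [map_sub, map_nsmul, hk, sub_self]))⟩

end FLTAgent.GalCoh

namespace FLTAgent.GlobalDuality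

open FLTAgent.GalCoh FLTAgent.LocalDuality FLTAgent.IdeleClassCohomology

/-- The module of ideles of a layer. -/
abbrev LayerJ (L : Layer) : AddSubgroup Idele := fixedPts L.sub Idele

/-- Restriction to the decomposition group, followed by the component at the base place. -/
def locRes (L : Layer) (q : Nat.Primes) : H2 (Gam ⧸ L.sub) (LayerJ L) →+ H2 (LocG L q) (LocU L q) :=
  H2.map (locMap L q) (evalLoc L q) (evalLoc_compat L q)

/-- The image in the idele classes. -/
def classH2 (L : Layer) : H2 (Gam ⧸ L.sub) (LayerJ L) →+ H2 (Gam ⧸ L.sub) (LayerC L) :=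
  push2 (Gam ⧸ L.sub) (fixedMap classMap classMap_smul L.sub)
    (fixedMap_smul classMap classMap_smul L.sub)

/-- A cochain whose values only have components above `q`. -/
def SuppAt (L : Layer) (q : Nat.Primes) (c : Gam ⧸ L.sub → Gam ⧸ L.sub → LayerJ L) : Prop :=
  ∀ g h, ∀ r ≠ q, ∀ σ, (c g h : Idele).at r σ = 0

/-- A class supported above `q` vanishes as soon as its component at `q` does. -/
theorem eq_zero_of_locRes_eq_zero (L : Layer) (q : Nat.Primes)
    (c : Z2 (Gam ⧸ L.sub) (LayerJ L)) (hs : SuppAt L q c) (h : locRes L q (H2.mk c) = 0) :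
    H2.mk c = 0 := by
  rw [locRes, H2.map_mk, H2.mk_eq_zero_iff] at h
  obtain ⟨β, hβ⟩ := h
  obtain ⟨b, hb1, hb2⟩ := shapiro2 (evalLoc_compat L q) (locMap_injective L q) c.2 (β := β)
    fun d d' => hβ d d'
  let B0 : Gam ⧸ L.sub → coindSub q := fun g =>
    ⟨fun σ => ((b g (QuotientGroup.mk σ) : LocU L q) : LU q),
      ⟨fun τ σ => by
        show ((b g (QuotientGroup.mk (loc q τ * σ)) : LocU L q) : LU q) = _
        rw [QuotientGroup.mk_mul, ← locMap_mk, hb1]; rfl,
        L, fun σ s hmem => by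
        show ((b g (QuotientGroup.mk (σ * s)) : LocU L q) : LU q) = _
        rw [QuotientGroup.mk_mul_of_mem σ hmem]⟩⟩
  let B : Gam ⧸ L.sub → LayerJ L := fun g =>
    ⟨single q (B0 g), Idele.mem_fixedPts_iff.2 fun r σ s hmem => by
      rcases eq_or_ne r q with rfl | hr
      · rw [at_single_self, at_single_self]
        show ((b g (QuotientGroup.mk (σ * s)) : LocU L r) : LU r) = _
        rw [QuotientGroup.mk_mul_of_mem σ hmem]
      · rw [at_single_of_ne hr, at_single_of_ne hr]⟩
  rw [H2.mk_eq_zero_iff]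
  refine ⟨B, fun g h => Subtype.ext (Idele.ext fun r σ => ?_)⟩
  rcases eq_or_ne r q with rfl | hr
  · have h2 := congrArg Subtype.val (hb2 g h (QuotientGroup.mk σ))
    rw [coe_evalLoc, coe_mk_smul, Idele.at_smul, one_mul] at h2
    rw [h2]
    induction g using QuotientGroup.induction_on with
    | _ γ =>
      show _ = ((QuotientGroup.mk γ • B h : LayerJ L) : Idele).at r σ - _ + _
      rw [coe_mk_smul, Idele.at_smul]
      show _ = (single r _).at r _ - (single r _).at r σ + (single r _).at r σ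
      rw [at_single_self, at_single_self, at_single_self]
      rfl
  · rw [hs g h r hr]
    induction g using QuotientGroup.induction_on with
    | _ γ =>
      show _ = ((QuotientGroup.mk γ • B h : LayerJ L) : Idele).at r σ - _ + _
      rw [coe_mk_smul, Idele.at_smul]
      show _ = (single q _).at r _ - (single q _).at r σ + (single q _).at r σ
      rw [at_single_of_ne hr, at_single_of_ne hr, at_single_of_ne hr, sub_zero, add_zero]

/-- A class supported above `q`. -/
def SuppClass (L : Layer) (q : Nat.Primes) (x : H2 (Gam ⧸ L.sub) (LayerJ L)) : Prop :=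
  ∃ c : Z2 (Gam ⧸ L.sub) (LayerJ L), SuppAt L q c ∧ H2.mk c = x

theorem SuppClass.eq_zero {L : Layer} {q : Nat.Primes} {x : H2 (Gam ⧸ L.sub) (LayerJ L)}
    (hx : SuppClass L q x) (h : locRes L q x = 0) : x = 0 := by
  obtain ⟨c, hc, rfl⟩ := hx
  exact eq_zero_of_locRes_eq_zero L q c hc h

theorem SuppClass.sub {L : Layer} {q : Nat.Primes} {x y : H2 (Gam ⧸ L.sub) (LayerJ L)}
    (hx : SuppClass L q x) (hy : SuppClass L q y) : SuppClass L q (x - y) := by
  obtain ⟨c, hc, rfl⟩ := hx
  obtain ⟨d, hd, rfl⟩ := hy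
  refine ⟨c - d, fun g h r hr σ => ?_, map_sub _ _ _⟩
  show Idele.atHom r σ (((c : Gam ⧸ L.sub → Gam ⧸ L.sub → LayerJ L) g h : Idele) -
    ((d : Gam ⧸ L.sub → Gam ⧸ L.sub → LayerJ L) g h : Idele)) = 0
  rw [map_sub]
  show (((c : Gam ⧸ L.sub → Gam ⧸ L.sub → LayerJ L) g h : Idele)).at r σ -
    (((d : Gam ⧸ L.sub → Gam ⧸ L.sub → LayerJ L) g h : Idele)).at r σ = 0
  rw [hc g h r hr, hd g h r hr, sub_zero]

theorem SuppClass.nsmul {L : Layer} {q : Nat.Primes} {x : H2 (Gam ⧸ L.sub) (LayerJ L)}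
    (hx : SuppClass L q x) (k : ℕ) : SuppClass L q (k • x) := by
  obtain ⟨c, hc, rfl⟩ := hx
  refine ⟨k • c, fun g h r hr σ => ?_, map_nsmul _ _ _⟩
  show Idele.atHom r σ (k • ((c : Gam ⧸ L.sub → Gam ⧸ L.sub → LayerJ L) g h : Idele)) = 0
  rw [map_nsmul]
  show k • (((c : Gam ⧸ L.sub → Gam ⧸ L.sub → LayerJ L) g h : Idele)).at r σ = 0
  rw [hc g h r hr, smul_zero]

/-- The idele equal to `q` above `q`. -/
def primeIdele (q : Nat.Primes) : RatIdele := supIdele Layer.bot q (qLocU Layer.bot q)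

theorem at_primeIdele_self (q : Nat.Primes) (σ : Gam) :
    (primeIdele q : Idele).at q σ = qUnit q := by
  show (supIdele Layer.bot q _ : Idele).at q σ = _
  rw [at_supIdele_self, show (QuotientGroup.mk σ : Gam ⧸ Layer.bot.sub) = locMap Layer.bot q 1 from
    (map_one (locMap Layer.bot q)).symm ▸ (QuotientGroup.eq_one_iff σ).2 (mem_bot_sub σ),
    supFun_locMap, one_smul]
  rfl

/-- The idele `q` above `q`, seen in a layer. -/
def primeJ (M : Layer) (q : Nat.Primes) : LayerJ M :=
  AddSubgroup.inclusion (fixedPts_antitone fun g _ => mem_bot_sub g) (primeIdele q)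

theorem smul_primeJ (M : Layer) (q : Nat.Primes) (g : Gam ⧸ M.sub) :
    g • primeJ M q = primeJ M q := by
  induction g using QuotientGroup.induction_on with
  | _ γ =>
    refine Subtype.ext ?_
    rw [coe_mk_smul]
    exact (primeIdele q).2 γ (mem_bot_sub γ)

theorem cycSymbol_primeIdele {ℓ q : Nat.Primes} (hne : q ≠ ℓ) :
    cycSymbol ℓ (primeIdele q) = Additive.ofMul (primeUnit hne)⁻¹ := by
  classical
  have hord : ∀ s, ratOrd s (primeIdele q) = if s = q then 1 else 0 := fun s => by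
    refine ratOrd_eq_of_norm s _ ?_
    by_cases h : s = q
    · subst h
      rw [at_primeIdele_self, if_pos rfl, zpow_one]
    · show ‖((supIdele Layer.bot q _ : Idele).at s 1).val‖ = _
      rw [at_supIdele_of_ne Layer.bot h, LU.val_zero, norm_one, if_neg h, zpow_zero]
  rw [cycSymbol_apply, finprod_eq_single _ q fun s hs => by
    rw [hord, if_neg hs, neg_zero, zpow_zero], hord, if_pos rfl, zpow_neg_one, primeFac,
    dif_pos hne]
  refine congrArg Additive.ofMul ?_
  rw [mul_eq_right]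
  refine Units.ext ?_
  show resVal (unitPart ℓ (primeIdele q)) = 1
  rw [resVal_eq _ (unitPart_mem ℓ _) (a := 1) ?_, Int.cast_one]
  have hu : (unitPart ℓ (primeIdele q) : LU ℓ) = 0 := by
    show ((evalLoc Layer.bot ℓ (primeIdele q) -
      ratOrd ℓ (primeIdele q) • qLocU Layer.bot ℓ : LocU Layer.bot ℓ) : LU ℓ) = _
    rw [hord, if_neg (Ne.symm hne), zero_zsmul, sub_zero, coe_evalLoc]
    exact at_supIdele_of_ne Layer.bot (Ne.symm hne) _ 1
  rw [hu, LU.val_zero, Int.cast_one, sub_self, norm_zero]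
  exact one_pos

theorem classH2_carry (M : Layer) (q : Nat.Primes) {N : ℕ} [NeZero N]
    (χ : Gam ⧸ M.sub →* Multiplicative (ZMod N)) :
    classH2 M (H2.mk (carry χ (primeJ M q) (smul_primeJ M q))) =
      H2.mk (carry χ (ratIncl M ⟨classMap (primeIdele q : Idele),
        classMap_mem_fixedPts (primeIdele q).2⟩) (smul_ratIncl M _)) := by
  rw [classH2, push2_mk]
  refine congrArg H2.mk (Subtype.ext (funext fun x => funext fun y => Subtype.ext ?_))
  show classMap ((carryNat χ x y • primeJ M q : LayerJ M) : Idele) =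
    ((carryNat χ x y • ratIncl M _ : LayerC M) : IdeleClass)
  rw [AddSubgroup.coe_nsmul, AddSubgroup.coe_nsmul, map_nsmul]
  rfl

theorem locRes_inf2 {L L' : Layer} (h : L'.sub ≤ L.sub) (q : Nat.Primes)
    (hl : locSub L' q ≤ locSub L q) (x : H2 (Gam ⧸ L.sub) (LayerJ L)) :
    locRes L' q (inf2 Idele h x) = inf2 (LU q) hl (locRes L q x) := by
  obtain ⟨c, rfl⟩ := H2.mk_surjective x
  rw [inf2, inf2, locRes, locRes, H2.map_mk, H2.map_mk, H2.map_mk, H2.map_mk]
  refine congrArg H2.mk (Subtype.ext (funext fun x => funext fun y => ?_))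
  induction x using QuotientGroup.induction_on with
  | _ σ =>
    induction y using QuotientGroup.induction_on with
    | _ τ => rfl

theorem classH2_inf2 {L L' : Layer} (h : L'.sub ≤ L.sub) (x : H2 (Gam ⧸ L.sub) (LayerJ L)) :
    classH2 L' (inf2 Idele h x) = inf2 IdeleClass h (classH2 L x) := by
  obtain ⟨c, rfl⟩ := H2.mk_surjective x
  rfl

theorem SuppClass.inf {L L' : Layer} (h : L'.sub ≤ L.sub) {q : Nat.Primes}
    {x : H2 (Gam ⧸ L.sub) (LayerJ L)} (hx : SuppClass L q x) :
    SuppClass L' q (inf2 Idele h x) := by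
  obtain ⟨c, hc, rfl⟩ := hx
  refine ⟨⟨_, (inflation_compat h).mem_Z2 c.2⟩, fun x y r hr σ => ?_, (H2.map_mk _ _).symm⟩
  exact hc _ _ r hr σ

theorem suppClass_carry (M : Layer) (q : Nat.Primes) {N : ℕ} [NeZero N]
    (χ : Gam ⧸ M.sub →* Multiplicative (ZMod N)) :
    SuppClass M q (H2.mk (carry χ (primeJ M q) (smul_primeJ M q))) := by
  refine ⟨_, fun g h r hr σ => ?_, rfl⟩
  show Idele.atHom r σ (((carryNat χ g h • primeJ M q : LayerJ M)) : Idele) = 0
  rw [AddSubgroup.coe_nsmul, map_nsmul]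
  show _ • (supIdele Layer.bot q _ : Idele).at r σ = 0
  rw [at_supIdele_of_ne Layer.bot hr, smul_zero]

variable {p : ℕ} [hp : Fact p.Prime]

/-- A layer with a class supported above `q`, killed by `p` there, whose multiples die in the
idele classes only at multiples of `p`. -/
theorem exists_cycClass (hp2 : p ≠ 2) (q : Nat.Primes) :
    ∃ (K : Layer) (w : H2 (Gam ⧸ K.sub) (LayerJ K)),
      SuppClass K q w ∧ p • locRes K q w = 0 ∧ ∀ k : ℕ, k • classH2 K w = 0 → p ∣ k := by
  obtain ⟨ℓ, hne, hℓ⟩ := exists_prime_orderOf (p := p) hp2 q (j := 1) one_pos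
  rw [pow_one] at hℓ
  set K := cycLayer ℓ
  have := Fintype.ofFinite (Gam ⧸ K.sub)
  have : Fact (ℓ : ℕ).Prime := ⟨ℓ.2⟩
  obtain ⟨β, hβ⟩ := IsCyclic.exists_generator (α := (ZMod (ℓ : ℕ))ˣ)
  set gK := (cycEquiv ℓ).symm β with hgKdef
  have hgK : ∀ x, x ∈ Subgroup.zpowers gK := fun x => by
    obtain ⟨k, hk⟩ := Subgroup.mem_zpowers_iff.1 (hβ (cycEquiv ℓ x))
    exact Subgroup.mem_zpowers_iff.2 ⟨k, (cycEquiv ℓ).injective (by
      rw [map_zpow, hgKdef, MulEquiv.apply_symm_apply]; exact hk)⟩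
  set N := Nat.card (Gam ⧸ K.sub) with hN
  have hpN : p ∣ N := by
    rw [hN, card_cycLayer, ← ZMod.card_units (ℓ : ℕ), ← hℓ]
    exact orderOf_dvd_card
  have hN1 : 1 < N := lt_of_lt_of_le hp.out.one_lt (Nat.le_of_dvd Nat.card_pos hpN)
  have : NeZero N := ⟨by omega⟩
  let eK := zmodMulEquivOfGenerator hgK hN.symm
  set χ : Gam ⧸ K.sub →* Multiplicative (ZMod N) := eK.symm.toMonoidHom
  have hχ : χ gK = Multiplicative.ofAdd 1 := eK.injective
    ((eK.apply_symm_apply gK).trans (zmodMulEquivOfGenerator_apply_ofAdd_one hgK _).symm)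
  have hcard : Nat.card (LocG K q) = p := by
    obtain ⟨F, hF, hFo⟩ := exists_gen_cycLoc hne
    rw [← orderOf_eq_card_of_forall_mem_zpowers hF, hFo, hℓ]
  have := Fintype.ofFinite (LocG K q)
  refine ⟨K, H2.mk (carry χ (primeJ K q) (smul_primeJ K q)), suppClass_carry K q χ, ?_,
    fun k hk => ?_⟩
  · rw [← hcard]
    exact card_nsmul_H2 _
  · rw [classH2_carry] at hk
    have h2 := congrArg (cyclicMap gK) hk
    rw [map_nsmul, map_zero, cyclicMap_mk, cyclicInv_carry χ _ _ gK
      (orderOf_eq_card_of_forall_mem_zpowers hgK) hN1 hχ,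
      ← QuotientAddGroup.mk_nsmul, QuotientAddGroup.eq_zero_iff] at h2
    obtain ⟨b, hb⟩ := h2
    change psum gK (orderOf gK) b = _ at hb
    rw [psum_orderOf_eq_sum hgK, ← map_nsmul] at hb
    have h6 := symbol_eq_zero_of_norm hb
    rw [map_nsmul, cycSymbolClass_classMap, cycSymbol_primeIdele hne, ← mul_smul,
      nsmul_ofMul_eq_zero_iff, orderOf_inv, hℓ] at h6
    exact ((Nat.coprime_primes hp.out Nat.prime_two).2 hp2).dvd_of_dvd_mul_right h6

/-- A class of order `p` supported above one prime dies in the idele classes only if it is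
trivial. -/
theorem locRes_eq_zero_of_classH2 (hp2 : p ≠ 2) (hstep : ClassStep p) (L : Layer) (q : Nat.Primes)
    {y : H2 (Gam ⧸ L.sub) (LayerJ L)} (hs : SuppClass L q y)
    (hpx : p • locRes L q y = 0) (h : classH2 L y = 0) : locRes L q y = 0 := by
  obtain ⟨K, w, hw0, hp0, hA⟩ := exists_cycClass hp2 q
  set L' := L.sup K
  have hL : L'.sub ≤ L.sub := Layer.sub_le (L.le_sup_left K)
  have hK : L'.sub ≤ K.sub := Layer.sub_le (L.le_sup_right K)
  have hlL : locSub L' q ≤ locSub L q := fun _ hh => hL hh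
  have hlK : locSub L' q ≤ locSub K q := fun _ hh => hK hh
  have := Fintype.ofFinite (Gam ⧸ K.sub)
  set w' := inf2 Idele hK w with hw'
  have := Fintype.ofFinite (quotMap hK).ker
  set m := pCompl p (quotMap hK).ker
  have hm : ¬p ∣ m := not_dvd_pCompl
  have hA' : ∀ k : ℕ, k • classH2 L' w' = 0 → p ∣ k := fun k hk => by
    rw [hw', classH2_inf2, ← map_nsmul] at hk
    have h1 := nsmul_eq_zero_of_inf2_eq_zero hK m (classes_H1_torsion hstep L' _) hk
    rw [← mul_smul] at h1
    exact ((Nat.Prime.coprime_iff_not_dvd hp.out).2 hm).dvd_of_dvd_mul_left (hA _ h1)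
  have hsw : SuppClass L' q w' := hw0.inf hK
  have hB : ∀ k : ℕ, k • locRes L' q w' = 0 → p ∣ k := fun k hk => hA' k (by
    rw [← map_nsmul, (hsw.nsmul k).eq_zero (by rw [map_nsmul, hk]), map_zero])
  -- multiples of the test class exhaust the classes of order `p`
  have := Fintype.ofFinite (LocG L' q)
  set n := Nat.card (LocG L' q) with hn
  have hpn : p ∣ n := hB n (by rw [hn]; exact card_nsmul_H2 _)
  obtain ⟨n', hn'⟩ := hpn
  obtain ⟨j, hj⟩ : ∃ j, p ^ (j + 1) ∣ n ∧ ¬p ^ (j + 2) ∣ n := by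
    obtain ⟨e, n'', hnd, he⟩ := Nat.exists_eq_pow_mul_and_not_dvd Nat.card_pos.ne' p hp.out.ne_one
      (n := n)
    have he0 : e ≠ 0 := fun h0 => hnd (by
      rw [h0, pow_zero, one_mul] at he
      exact he ▸ ⟨n', hn'⟩)
    obtain ⟨j, rfl⟩ : ∃ j, e = j + 1 := ⟨e - 1, by omega⟩
    refine ⟨j, Dvd.intro _ he.symm, fun ⟨t, ht⟩ => hnd ⟨t, ?_⟩⟩
    have := he.symm.trans ht
    rw [show p ^ (j + 2) * t = p ^ (j + 1) * (p * t) by ring] at this
    exact mul_left_cancel₀ (pow_ne_zero _ hp.out.ne_zero) this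
  obtain ⟨t, ht⟩ := hj.1
  -- some multiple of the test class has order exactly `p`
  classical
  have hex : ∃ i, p ^ i • t • locRes L' q w' = 0 := ⟨j + 1, by
    rw [← mul_smul, ← ht, hn]; exact card_nsmul_H2 _⟩
  have hi0 : Nat.find hex ≠ 0 := fun h0 => by
    have := Nat.find_spec hex
    rw [h0, pow_zero, one_smul] at this
    obtain ⟨t', rfl⟩ := hB t this
    exact hj.2 ⟨t', by rw [ht]; ring⟩
  obtain ⟨i, hi⟩ : ∃ i, Nat.find hex = i + 1 := ⟨Nat.find hex - 1, by omega⟩
  set x := locRes L q y with hx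
  set x' := inf2 (LU q) hlL x with hx'
  obtain ⟨k, hk⟩ := (isClassModule_LocU (p := p) hp2 L' q).exists_eq_nsmul (a := x')
    (b := p ^ i • t • locRes L' q w')
    (by rw [hx', ← map_nsmul, hpx, map_zero])
    (by rw [← mul_smul, ← pow_succ', ← hi]; exact Nat.find_spec hex)
    fun h0 => Nat.find_min hex (show i < Nat.find hex by omega) h0
  rw [← mul_smul, ← mul_smul] at hk
  set s := k * p ^ i * t with hs'
  have hp2' : p ∣ s := hA' s (by
    have hz : inf2 Idele hL y - s • w' = 0 := ((hs.inf hL).sub (hsw.nsmul s)).eq_zero (by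
      rw [map_sub, map_nsmul, sub_eq_zero, locRes_inf2 hL q hlL, ← hx, ← hx', hk])
    have := congrArg (classH2 L') hz
    rwa [map_sub, map_nsmul, classH2_inf2, h, map_zero, map_zero, zero_sub, neg_eq_zero] at this)
  obtain ⟨s', hs''⟩ := hp2'
  -- the test class has order `p` already at its own layer
  have hpw : p • locRes L' q w' = 0 := by
    rw [hw', locRes_inf2 hK q hlK, ← map_nsmul]
    exact (congrArg _ hp0).trans (map_zero _)
  have hx0 : x' = 0 := by rw [hk, hs'', mul_comm, mul_smul, hpw, smul_zero]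
  exact (injective_iff_map_eq_zero _).1
    (inf2_injective hlL (subsingleton_H1_LocU L' q _)) _ hx0

end FLTAgent.GlobalDuality
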