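import Mathlib
import Fermat.Agent.GlobalDuality.LocalGlobal
import Fermat.Agent.GlobalDuality.ClassStepProof

/-!
# The line of classes of order `p`

The classes of order `p` in `H2` of the idele classes of all layers form a line, and inflation
preserves a coordinate on it.
-/

set_option autoImplicit false

noncomputable section

namespace FLTAgent.GalCoh

variable {Γ : Type} [Group Γ] {A : Type} [AddCommGroup A] [DistribMulAction Γ A]

theorem inf2_inf2 {N'' N' N : Subgroup Γ} [N''.Normal] [N'.Normal] [N.Normal] (h : N' ≤ N)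
    (h' : N'' ≤ N') (x : H2 (Γ ⧸ N) (fixedPts N A)) :
    inf2 A h' (inf2 A h x) = inf2 A (h'.trans h) x := by
  obtain ⟨c, rfl⟩ := H2.mk_surjective x
  rw [inf2, inf2, inf2, H2.map_mk, H2.map_mk, H2.map_mk]
  refine congrArg H2.mk (Subtype.ext (funext fun a => funext fun b => ?_))
  induction a using QuotientGroup.induction_on with
  | _ γ =>
    induction b using QuotientGroup.induction_on with
    | _ δ => rfl

end FLTAgent.GalCoh

namespace FLTAgent.GlobalDuality

open FLTAgent.GalCoh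

variable {p : ℕ} [hp : Fact p.Prime]

theorem eq_zero_of_inf2_classes (hp2 : p ≠ 2) {L L' : Layer} (h : L'.sub ≤ L.sub)
    {x : H2 (Gam ⧸ L.sub) (LayerC L)} {k : ℕ} (hx : p ^ k • x = 0)
    (h0 : inf2 IdeleClass h x = 0) : x = 0 := by
  have := Fintype.ofFinite (quotMap h).ker
  have h1 := nsmul_eq_zero_of_inf2_eq_zero h (pCompl p (quotMap h).ker)
    (classes_H1_torsion (classStep hp2) L' _) h0
  exact AddMonoid.addOrderOf_eq_one_iff.1 (Nat.eq_one_of_dvd_coprimes
    (coprime_pow_of_not_dvd (i := k) (not_dvd_pCompl (p := p) (G := (quotMap h).ker)))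
    (addOrderOf_dvd_of_nsmul_eq_zero hx) (addOrderOf_dvd_of_nsmul_eq_zero h1))

theorem exists_base_class (hp2 : p ≠ 2) :
    ∃ (K : Layer) (e : H2 (Gam ⧸ K.sub) (LayerC K)), p • e = 0 ∧ e ≠ 0 := by
  obtain ⟨ℓ, hne, hℓ⟩ :=
    exists_prime_orderOf (p := p) hp2 ⟨2, Nat.prime_two⟩ (j := 1) one_pos
  have : Fact (ℓ : ℕ).Prime := ⟨ℓ.2⟩
  have hdvd : p ∣ Nat.card (Gam ⧸ (cycLayer ℓ).sub) := by
    rw [pow_one] at hℓ
    rw [card_cycLayer, ← ZMod.card_units (ℓ : ℕ), ← hℓ]
    exact orderOf_dvd_card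
  have := Fintype.ofFinite (Gam ⧸ (cycLayer ℓ).sub)
  obtain ⟨u, hu⟩ := exists_globalClass hp2 (classStep hp2) (cycLayer ℓ)
  obtain ⟨n', hn'⟩ := hdvd
  refine ⟨cycLayer ℓ, n' • u, ?_, fun h => ?_⟩
  · rw [← mul_smul, ← hn', card_nsmul_H2]
  · have h1 := hu n' h
    have h2 : p * p ^ (Nat.card (Gam ⧸ (cycLayer ℓ).sub)).factorization p ∣
        Nat.card (Gam ⧸ (cycLayer ℓ).sub) := by
      have h3 := Nat.mul_dvd_mul_left p h1
      rw [← hn'] at h3
      exact h3
    exact Nat.pow_succ_factorization_not_dvd Nat.card_pos.ne' hp.out (by rwa [pow_succ'])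

variable (hp2 : p ≠ 2)

/-- The layer of the base class. -/
def baseLayer : Layer := (exists_base_class hp2).choose

/-- A class of order `p`. -/
def baseClass : H2 (Gam ⧸ (baseLayer hp2).sub) (LayerC (baseLayer hp2)) :=
  (exists_base_class hp2).choose_spec.choose

theorem nsmul_baseClass : p • baseClass hp2 = 0 :=
  (exists_base_class hp2).choose_spec.choose_spec.1

theorem baseClass_ne_zero : baseClass hp2 ≠ 0 :=
  (exists_base_class hp2).choose_spec.choose_spec.2

/-- The base class in a layer containing the base layer. -/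
def baseAt {M : Layer} (h : M.sub ≤ (baseLayer hp2).sub) : H2 (Gam ⧸ M.sub) (LayerC M) :=
  inf2 IdeleClass h (baseClass hp2)

theorem nsmul_baseAt {M : Layer} (h : M.sub ≤ (baseLayer hp2).sub) : p • baseAt hp2 h = 0 := by
  rw [baseAt, ← map_nsmul, nsmul_baseClass, map_zero]

theorem baseAt_ne_zero {M : Layer} (h : M.sub ≤ (baseLayer hp2).sub) : baseAt hp2 h ≠ 0 :=
  fun h0 => baseClass_ne_zero hp2
    (eq_zero_of_inf2_classes hp2 h (k := 1) (by rw [pow_one]; exact nsmul_baseClass hp2) h0)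

theorem nsmul_baseAt_mod {M : Layer} (h : M.sub ≤ (baseLayer hp2).sub) (k : ℕ) :
    (k : ZMod p).val • baseAt hp2 h = k • baseAt hp2 h := by
  conv_rhs => rw [← Nat.mod_add_div k p, add_nsmul, mul_nsmul, nsmul_baseAt, nsmul_zero, add_zero]
  rw [ZMod.val_natCast]

theorem baseAt_inj {M : Layer} (h : M.sub ≤ (baseLayer hp2).sub) {t t' : ZMod p}
    (ht : t.val • baseAt hp2 h = t'.val • baseAt hp2 h) : t = t' := by
  have ho : addOrderOf (baseAt hp2 h) = p :=
    addOrderOf_eq_prime (nsmul_baseAt hp2 h) (baseAt_ne_zero hp2 h)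
  exact ZMod.val_injective p (nsmul_injOn_Iio_addOrderOf
    (by rw [ho]; exact ZMod.val_lt t) (by rw [ho]; exact ZMod.val_lt t') ht)

theorem exists_eq_baseAt {M : Layer} (h : M.sub ≤ (baseLayer hp2).sub)
    {z : H2 (Gam ⧸ M.sub) (LayerC M)} (hz : p • z = 0) :
    ∃ t : ZMod p, z = t.val • baseAt hp2 h := by
  have := Fintype.ofFinite (Gam ⧸ M.sub)
  obtain ⟨k, hk⟩ := (isClassModule_classes hp2 (classStep hp2) M).exists_eq_nsmul hz
    (nsmul_baseAt hp2 h) (baseAt_ne_zero hp2 h)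
  exact ⟨(k : ZMod p), by rw [hk, nsmul_baseAt_mod]⟩

open Classical in
/-- The coordinate of a class. -/
def coord (L : Layer) (x : H2 (Gam ⧸ L.sub) (LayerC L)) : ZMod p :=
  if h : ∃ t : ZMod p, inf2 IdeleClass (Layer.sub_le (L.le_sup_left (baseLayer hp2))) x =
      t.val • baseAt hp2 (Layer.sub_le (L.le_sup_right (baseLayer hp2))) then h.choose else 0

theorem coord_spec {L M : Layer} (hLM : M.sub ≤ L.sub) (h : M.sub ≤ (baseLayer hp2).sub)
    {x : H2 (Gam ⧸ L.sub) (LayerC L)} (hx : p • x = 0) :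
    inf2 IdeleClass hLM x = (coord hp2 L x).val • baseAt hp2 h := by
  classical
  set M₀ := L.sup (baseLayer hp2)
  have hex := exists_eq_baseAt hp2 (Layer.sub_le (L.le_sup_right (baseLayer hp2)))
    (z := inf2 IdeleClass (Layer.sub_le (L.le_sup_left (baseLayer hp2))) x)
    (by rw [← map_nsmul, hx, map_zero])
  have h0 : inf2 IdeleClass (Layer.sub_le (L.le_sup_left (baseLayer hp2))) x =
      (coord hp2 L x).val • baseAt hp2 (Layer.sub_le (L.le_sup_right (baseLayer hp2))) := by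
    rw [coord, dif_pos hex]
    exact hex.choose_spec
  set M' := M.sup M₀
  have h1 : M'.sub ≤ M.sub := Layer.sub_le (M.le_sup_left M₀)
  have h2 : M'.sub ≤ M₀.sub := Layer.sub_le (M.le_sup_right M₀)
  have e1 := congrArg (inf2 IdeleClass h2) h0
  rw [map_nsmul, baseAt, inf2_inf2, inf2_inf2] at e1
  obtain ⟨t, ht⟩ := exists_eq_baseAt hp2 h (z := inf2 IdeleClass hLM x)
    (by rw [← map_nsmul, hx, map_zero])
  have e2 := congrArg (inf2 IdeleClass h1) ht
  rw [map_nsmul, baseAt, inf2_inf2, inf2_inf2] at e2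
  rw [baseAt_inj hp2 (h1.trans h) (t := coord hp2 L x) (t' := t) (e1.symm.trans e2)]
  exact ht

theorem coord_eq_of_spec {L M : Layer} (hLM : M.sub ≤ L.sub) (h : M.sub ≤ (baseLayer hp2).sub)
    {x : H2 (Gam ⧸ L.sub) (LayerC L)} (hx : p • x = 0) {t : ZMod p}
    (ht : inf2 IdeleClass hLM x = t.val • baseAt hp2 h) : coord hp2 L x = t :=
  baseAt_inj hp2 h ((coord_spec hp2 hLM h hx).symm.trans ht)

theorem coord_inf {L L' : Layer} (h : L'.sub ≤ L.sub) {x : H2 (Gam ⧸ L.sub) (LayerC L)}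
    (hx : p • x = 0) : coord hp2 L' (inf2 IdeleClass h x) = coord hp2 L x := by
  refine (coord_eq_of_spec hp2 (M := L'.sup (baseLayer hp2))
    ((Layer.sub_le (L'.le_sup_left _)).trans h) (Layer.sub_le (L'.le_sup_right _)) hx ?_).symm
  rw [← inf2_inf2 h (Layer.sub_le (L'.le_sup_left _))]
  exact coord_spec hp2 _ _ (by rw [← map_nsmul, hx, map_zero])

theorem coord_add {L : Layer} {x y : H2 (Gam ⧸ L.sub) (LayerC L)} (hx : p • x = 0)
    (hy : p • y = 0) : coord hp2 L (x + y) = coord hp2 L x + coord hp2 L y := by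
  refine coord_eq_of_spec hp2 (Layer.sub_le (L.le_sup_left _))
    (Layer.sub_le (L.le_sup_right (baseLayer hp2))) (by rw [nsmul_add, hx, hy, add_zero]) ?_
  rw [map_add, coord_spec hp2 _ (Layer.sub_le (L.le_sup_right (baseLayer hp2))) hx,
    coord_spec hp2 _ (Layer.sub_le (L.le_sup_right (baseLayer hp2))) hy, ← add_nsmul,
    ← nsmul_baseAt_mod,
    Nat.cast_add, ZMod.natCast_zmod_val, ZMod.natCast_zmod_val]

theorem coord_zero (L : Layer) : coord hp2 L 0 = 0 :=
  coord_eq_of_spec hp2 (Layer.sub_le (L.le_sup_left _))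
    (Layer.sub_le (L.le_sup_right (baseLayer hp2))) (smul_zero _)
    (by rw [map_zero, ZMod.val_zero, zero_nsmul])

theorem eq_zero_of_coord {L : Layer} {x : H2 (Gam ⧸ L.sub) (LayerC L)} (hx : p • x = 0)
    (h : coord hp2 L x = 0) : x = 0 := by
  refine eq_zero_of_inf2_classes hp2 (Layer.sub_le (L.le_sup_left (baseLayer hp2)))
    (k := 1) (by rw [pow_one]; exact hx) ?_
  rw [coord_spec hp2 _ (Layer.sub_le (L.le_sup_right (baseLayer hp2))) hx, h, ZMod.val_zero,
    zero_nsmul]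

end FLTAgent.GlobalDuality
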