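import Mathlib
import Fermat.Agent.GlobalDuality.Inflation
import Fermat.Agent.GlobalDuality.CT
import Fermat.Agent.GlobalDuality.Lattice

/-!
# Relatively projective lattices

Cohomology with values in `Hom(P, W)` for a lattice `P` that is induced over a finite quotient,
extension of maps by roots, and duality for finite abelian groups.
-/

set_option autoImplicit false

noncomputable section

namespace FLTAgent.GalCoh

section RelProj

variable {Γ : Type} [Group Γ] {Q : Type} [Group Q] [Fintype Q] {P : Type} [AddCommGroup P]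
  [DistribMulAction Γ P] {W : Type} [AddCommGroup W] [DistribMulAction Γ W]

/-- A decomposition of a module indexed by a quotient and permuted by the group. -/
structure RelProj (ρ : Γ →* Q) (P : Type) [AddCommGroup P] [DistribMulAction Γ P] where
  /-- the projectors -/
  proj : Q → P →+ P
  sum_proj : ∀ y, ∑ x, proj x y = y
  proj_smul : ∀ (g : Γ) (x : Q) (y : P), proj (ρ g * x) (g • y) = g • proj x y

variable {ρ : Γ →* Q}

theorem RelProj.proj_inv (π : RelProj ρ P) (g : Γ) (x : Q) (y : P) :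
    π.proj x (g⁻¹ • y) = g⁻¹ • π.proj (ρ g * x) y := by
  conv_rhs => rw [← smul_inv_smul g y, π.proj_smul, inv_smul_smul]

omit [Fintype Q] in
theorem exists_sect (ρ : Γ →* Q) : ∃ s : Q → Γ, ∀ g x, ρ (s (ρ g * x)) = ρ (g * s x) := by
  let st : Setoid Q := QuotientGroup.rightRel ρ.range
  let r : Q → Q := fun x => (Quotient.mk st x).out
  have hr : ∀ x, ∃ d : Γ, x = ρ d * r x := fun x => by
    have h : st (r x) x := Quotient.exact (s := st) (Quotient.out_eq (Quotient.mk st x))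
    obtain ⟨d, hd⟩ := QuotientGroup.rightRel_apply.1 h
    exact ⟨d, by rw [hd, inv_mul_cancel_right]⟩
  choose s hs using hr
  refine ⟨s, fun g x => ?_⟩
  have hrr : r (ρ g * x) = r x := congrArg Quotient.out (Quotient.sound (s := st)
    (QuotientGroup.rightRel_apply.2 ⟨g⁻¹, by
      rw [map_inv, mul_inv_rev, ← mul_assoc, mul_inv_cancel, one_mul]⟩))
  have h := hs (ρ g * x)
  rw [hrr] at h
  refine mul_right_cancel (b := r x) ?_
  rw [← h, map_mul, mul_assoc, ← hs x]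

omit [Fintype Q] in
theorem exists_mul_of_map_eq {g g' : Γ} (h : ρ g = ρ g') : ∃ n, ρ n = 1 ∧ g' = g * n :=
  ⟨g⁻¹ * g', by rw [map_mul, map_inv, h, inv_mul_cancel], (mul_inv_cancel_left _ _).symm⟩

omit [Fintype Q] in
theorem Z1_apply_eq_of_map_eq {A : Type} [AddCommGroup A] [DistribMulAction Γ A] {φ : Γ → A}
    (hφ : φ ∈ Z1 Γ A) (h0 : ∀ n, ρ n = 1 → φ n = 0) {g g' : Γ} (h : ρ g = ρ g') : φ g' = φ g := by
  obtain ⟨n, hn, rfl⟩ := exists_mul_of_map_eq h
  rw [mem_Z1_iff.1 hφ, h0 n hn, smul_zero, zero_add]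

theorem RelProj.exists_cobound (π : RelProj ρ P) {φ : Γ → HomMod P W}
    (hφ : φ ∈ Z1 Γ (HomMod P W)) (h0 : ∀ n, ρ n = 1 → φ n = 0) :
    ∃ K : HomMod P W, ∀ g, φ g = g • K - K := by
  classical
  obtain ⟨s, hs⟩ := exists_sect ρ
  let K : HomMod P W := HomMod.mk (-∑ x, (φ (s x)).hom.comp (π.proj x))
  have hK : ∀ y, K y = -∑ x, φ (s x) (π.proj x y) := fun y => by
    show (-∑ x, (φ (s x)).hom.comp (π.proj x)) y = _
    rw [AddMonoidHom.neg_apply, AddMonoidHom.finsetSum_apply]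
    rfl
  refine ⟨K, fun g => HomMod.ext fun y => ?_⟩
  rw [HomMod.sub_apply, HomMod.smul_apply, hK, hK, smul_neg, Finset.smul_sum]
  have e : ∀ x, g • φ (s x) (π.proj x (g⁻¹ • y)) =
      φ (s (ρ g * x)) (π.proj (ρ g * x) y) - φ g (π.proj (ρ g * x) y) := fun x => by
    rw [Z1_apply_eq_of_map_eq hφ h0 (hs g x).symm, mem_Z1_iff.1 hφ, HomMod.add_apply,
      HomMod.smul_apply, add_sub_cancel_right, π.proj_inv]
  rw [Finset.sum_congr rfl fun x _ => e x, Finset.sum_sub_distrib,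
    show ∑ x, φ (s (ρ g * x)) (π.proj (ρ g * x) y) = ∑ x, φ (s x) (π.proj x y) from
      Equiv.sum_comp (Equiv.mulLeft (ρ g)) fun x => φ (s x) (π.proj x y),
    show ∑ x, φ g (π.proj (ρ g * x) y) = ∑ x, φ g (π.proj x y) from
      Equiv.sum_comp (Equiv.mulLeft (ρ g)) fun x => φ g (π.proj x y), ← map_sum, π.sum_proj]
  abel

theorem RelProj.exists_cobound_self (π : RelProj ρ P) {φ : Γ → P} (hφ : φ ∈ Z1 Γ P)
    (h0 : ∀ n, ρ n = 1 → φ n = 0) : ∃ K : P, ∀ g, φ g = g • K - K := by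
  classical
  obtain ⟨s, hs⟩ := exists_sect ρ
  refine ⟨-∑ x, π.proj x (φ (s x)), fun g => ?_⟩
  have e : ∀ x, g • π.proj x (φ (s x)) =
      π.proj (ρ g * x) (φ (s (ρ g * x))) - π.proj (ρ g * x) (φ g) := fun x => by
    rw [Z1_apply_eq_of_map_eq hφ h0 (hs g x).symm, mem_Z1_iff.1 hφ, map_add,
      add_sub_cancel_right, π.proj_smul]
  rw [smul_neg, Finset.smul_sum, Finset.sum_congr rfl fun x _ => e x, Finset.sum_sub_distrib,
    show ∑ x, π.proj (ρ g * x) (φ (s (ρ g * x))) = ∑ x, π.proj x (φ (s x)) from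
      Equiv.sum_comp (Equiv.mulLeft (ρ g)) fun x => π.proj x (φ (s x)),
    show ∑ x, π.proj (ρ g * x) (φ g) = ∑ x, π.proj x (φ g) from
      Equiv.sum_comp (Equiv.mulLeft (ρ g)) fun x => π.proj x (φ g), π.sum_proj]
  abel

theorem RelProj.exists_cobound2 (π : RelProj ρ P) {b : Γ → Γ → HomMod P W}
    (hb : b ∈ Z2 Γ (HomMod P W)) (hinv : ∀ g h n, ρ n = 1 → b g (h * n) = b g h) :
    ∃ β : Γ → HomMod P W, ∀ g h, b g h = g • β h - β (g * h) + β g := by
  classical
  obtain ⟨s, hs⟩ := exists_sect ρ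
  let β : Γ → HomMod P W := fun g =>
    HomMod.mk (∑ x, (b g (s x)).hom.comp (π.proj (ρ g * x)))
  have hβ : ∀ g y, β g y = ∑ x, b g (s x) (π.proj (ρ g * x) y) := fun g y => by
    show (∑ x, (b g (s x)).hom.comp (π.proj (ρ g * x))) y = _
    rw [AddMonoidHom.finsetSum_apply]
    rfl
  refine ⟨β, fun g h => HomMod.ext fun y => ?_⟩
  have eg : β g y = ∑ x, b g (h * s x) (π.proj (ρ g * (ρ h * x)) y) := by
    rw [hβ, ← show ∑ x, b g (s (ρ h * x)) (π.proj (ρ g * (ρ h * x)) y) =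
        ∑ x, b g (s x) (π.proj (ρ g * x) y) from
      Equiv.sum_comp (Equiv.mulLeft (ρ h)) fun x => b g (s x) (π.proj (ρ g * x) y)]
    refine Finset.sum_congr rfl fun x _ => ?_
    obtain ⟨n, hn, hn'⟩ := exists_mul_of_map_eq (hs h x).symm
    rw [hn', hinv g (h * s x) n hn]
  have eh : (g • β h) y = ∑ x, (g • b h (s x)) (π.proj (ρ g * (ρ h * x)) y) := by
    rw [HomMod.smul_apply, hβ, Finset.smul_sum]
    exact Finset.sum_congr rfl fun x _ => by rw [HomMod.smul_apply, π.proj_inv]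
  rw [HomMod.add_apply, HomMod.sub_apply, eh, hβ (g * h), eg, ← Finset.sum_sub_distrib,
    ← Finset.sum_add_distrib]
  have hsum : b g h y = ∑ x, b g h (π.proj (ρ g * (ρ h * x)) y) := by
    rw [← map_sum, show ∑ x, π.proj (ρ g * (ρ h * x)) y = ∑ x, π.proj (ρ g * x) y from
        Equiv.sum_comp (Equiv.mulLeft (ρ h)) fun x => π.proj (ρ g * x) y,
      show ∑ x, π.proj (ρ g * x) y = ∑ x, π.proj x y from
        Equiv.sum_comp (Equiv.mulLeft (ρ g)) fun x => π.proj x y, π.sum_proj]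
  rw [hsum]
  refine Finset.sum_congr rfl fun x _ => ?_
  have h2 := congrArg (fun f : HomMod P W => f (π.proj (ρ g * (ρ h * x)) y))
    (mem_Z2_iff.1 hb g h (s x))
  simp only [HomMod.add_apply] at h2
  rw [map_mul ρ g h, mul_assoc]
  linear_combination (norm := abel) h2

variable [Module.Free ℤ P] [Module.Finite ℤ P]

omit [Module.Finite ℤ P] in
theorem exists_cobound_pointwise {N : Type} [Group N] [DistribMulAction N P]
    [DistribMulAction N W] (hP : ∀ (n : N) (y : P), n • y = y) {m : ℕ}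
    (h1 : ∀ z : H1 N W, m • z = 0) {φ : N → HomMod P W} (hφ : φ ∈ Z1 N (HomMod P W)) :
    ∃ K : HomMod P W, ∀ n, m • φ n = n • K - K := by
  let bb := Module.Free.chooseBasis ℤ P
  have hz : ∀ j, (fun n => φ n (bb j)) ∈ Z1 N W := fun j => mem_Z1_iff.2 fun n n' => by
    rw [mem_Z1_iff.1 hφ, HomMod.add_apply, HomMod.smul_apply, hP]
  have hex : ∀ j, ∃ k : W, ∀ n : N, m • φ n (bb j) = n • k - k := fun j => by
    obtain ⟨k, hk⟩ := (H1.mk_eq_zero_iff _).1
      ((map_nsmul H1.mk m (⟨_, hz j⟩ : Z1 N W)).trans (h1 _))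
    exact ⟨k, hk⟩
  choose k hk using hex
  refine ⟨HomMod.mk (bb.constr ℕ k).toAddMonoidHom, fun n => HomMod.ext fun y => ?_⟩
  refine DFunLike.congr_fun (f := (m • φ n).hom.toIntLinearMap)
    (g := ((n • HomMod.mk (bb.constr ℕ k).toAddMonoidHom : HomMod P W) -
      HomMod.mk (bb.constr ℕ k).toAddMonoidHom).hom.toIntLinearMap) (bb.ext fun j => ?_) y
  show m • φ n (bb j) = n • (bb.constr ℕ k) (n⁻¹ • bb j) - (bb.constr ℕ k) (bb j)
  rw [hP, Module.Basis.constr_basis, hk]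

omit [Module.Finite ℤ P] in
theorem exists_cobound2_pointwise {N : Type} [Group N] [DistribMulAction N P]
    [DistribMulAction N W] (hP : ∀ (n : N) (y : P), n • y = y) {m : ℕ}
    (h2 : ∀ z : H2 N W, m • z = 0) {b : N → N → HomMod P W} (hb : b ∈ Z2 N (HomMod P W)) :
    ∃ β : N → HomMod P W, ∀ g h, m • b g h = g • β h - β (g * h) + β g := by
  let bb := Module.Free.chooseBasis ℤ P
  have hz : ∀ j, (fun g h => b g h (bb j)) ∈ Z2 N W := fun j g h i => by
    have e := congrArg (fun f : HomMod P W => f (bb j)) (mem_Z2_iff.1 hb g h i)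
    simpa only [HomMod.add_apply, HomMod.smul_apply, hP] using e
  have hex : ∀ j, ∃ k : N → W, ∀ g h : N, m • b g h (bb j) = g • k h - k (g * h) + k g :=
    fun j => by
    obtain ⟨k, hk⟩ := (H2.mk_eq_zero_iff _).1
      ((map_nsmul H2.mk m (⟨_, hz j⟩ : Z2 N W)).trans (h2 _))
    exact ⟨k, hk⟩
  choose k hk using hex
  refine ⟨fun g => HomMod.mk (bb.constr ℕ fun j => k j g).toAddMonoidHom,
    fun g h => HomMod.ext fun y => ?_⟩
  let β : N → HomMod P W := fun g => HomMod.mk (bb.constr ℕ fun j => k j g).toAddMonoidHom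
  refine DFunLike.congr_fun (f := (m • b g h).hom.toIntLinearMap)
    (g := (g • β h - β (g * h) + β g).hom.toIntLinearMap) (bb.ext fun j => ?_) y
  show m • b g h (bb j) = g • (bb.constr ℕ fun j => k j h) (g⁻¹ • bb j) -
    (bb.constr ℕ fun j => k j (g * h)) (bb j) + (bb.constr ℕ fun j => k j g) (bb j)
  simp only [hP, Module.Basis.constr_basis, hk]

omit [Module.Finite ℤ P] in
/-- `H1(Γ, Hom(P, W))` is killed by what kills `H1` of the kernel. -/
theorem RelProj.exists_cobound_nsmul (π : RelProj ρ P)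
    (hP : ∀ n, ρ n = 1 → ∀ y : P, n • y = y) {m : ℕ} (h1 : ∀ z : H1 ρ.ker W, m • z = 0)
    {φ : Γ → HomMod P W} (hφ : φ ∈ Z1 Γ (HomMod P W)) :
    ∃ K : HomMod P W, ∀ g, m • φ g = g • K - K := by
  obtain ⟨K₀, hK₀⟩ := exists_cobound_pointwise (N := ρ.ker) (fun n y => hP n n.2 y) h1
    (φ := fun n => φ n) (mem_Z1_iff.2 fun n n' => mem_Z1_iff.1 hφ (n : Γ) n')
  set φ' : Γ → HomMod P W := fun g => m • φ g - (g • K₀ - K₀)
  have hφ' : φ' ∈ Z1 Γ (HomMod P W) :=
    sub_mem (nsmul_mem hφ m) (B1_le_Z1 ⟨K₀, rfl⟩)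
  obtain ⟨K, hK⟩ := π.exists_cobound hφ' fun n hn => by
    show m • φ n - (n • K₀ - K₀) = 0
    rw [sub_eq_zero, hK₀ ⟨n, hn⟩]
    rfl
  exact ⟨K₀ + K, fun g => by
    have := hK g
    rw [smul_add]
    linear_combination (norm := (simp only [φ']; abel)) this⟩

omit [Module.Finite ℤ P] in
/-- `H2(Γ, Hom(P, W))` is killed by the product of what kills `H1` and `H2` of the kernel. -/
theorem RelProj.exists_cobound2_nsmul (π : RelProj ρ P)
    (hP : ∀ n, ρ n = 1 → ∀ y : P, n • y = y) {m m' : ℕ} (h1 : ∀ z : H1 ρ.ker W, m • z = 0)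
    (h2 : ∀ z : H2 ρ.ker W, m' • z = 0) (c : Z2 Γ (HomMod P W)) :
    ∃ β : Γ → HomMod P W, ∀ g h,
      (m * m') • (c : Γ → Γ → HomMod P W) g h = g • β h - β (g * h) + β g := by
  set N := ρ.ker
  set φq := QuotientGroup.mk' N
  have hker : φq.ker = N := QuotientGroup.ker_mk' N
  have hPk : ∀ (n : φq.ker) (y : P), n • y = y := fun n y =>
    hP n (MonoidHom.mem_ker.1 (hker.le n.2)) y
  let e : φq.ker ≃* N := MulEquiv.subgroupCongr hker
  have he : CompatPair e.toMonoidHom (AddMonoidHom.id W) := ⟨fun _ _ => rfl⟩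
  have h1' : ∀ z : H1 φq.ker W, m • z = 0 := fun z => by
    obtain ⟨z', rfl⟩ := (H1.map_bijective he e.bijective Function.bijective_id).2 z
    rw [← map_nsmul, h1, map_zero]
  have h2' : ∀ z : H2 φq.ker W, m' • z = 0 := fun z => by
    obtain ⟨z', rfl⟩ := (H2.map_bijective he e.bijective Function.bijective_id).2 z
    rw [← map_nsmul, h2, map_zero]
  obtain ⟨β₀, hβ₀⟩ := exists_cobound2_pointwise hPk h2'
    (b := fun g h : φq.ker => (c : Γ → Γ → HomMod P W) g h)
    fun g h j => mem_Z2_iff.1 c.2 (g : Γ) h j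
  have hx : H2.map φq.ker.subtype (AddMonoidHom.id (HomMod P W)) (CompatPair.subtype _)
      (H2.mk (m' • c)) = 0 := by
    rw [H2.map_mk, H2.mk_eq_zero_iff]
    exact ⟨β₀, hβ₀⟩
  obtain ⟨y, hy⟩ := exists_inflation2 (G := Γ ⧸ N) (A := fixedPts N (HomMod P W)) (φ := φq)
    (f := (fixedPts N (HomMod P W)).subtype) ⟨fun g a => (coe_mk_smul N g a).symm⟩
    (QuotientGroup.mk'_surjective N) Subtype.val_injective
    (fun b hb => ⟨⟨b, fun n hn => hb n ((QuotientGroup.eq_one_iff n).2 hn)⟩, rfl⟩) m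
    (fun z => by
      obtain ⟨φ, rfl⟩ := H1.mk_surjective z
      rw [← map_nsmul, H1.mk_eq_zero_iff]
      obtain ⟨K, hK⟩ := exists_cobound_pointwise hPk h1' φ.2
      exact ⟨K, hK⟩) _ hx
  obtain ⟨c', rfl⟩ := H2.mk_surjective y
  rw [H2.map_mk, ← map_nsmul, ← sub_eq_zero, ← map_sub, H2.mk_eq_zero_iff] at hy
  obtain ⟨β₁, hβ₁⟩ := hy
  set b : Γ → Γ → HomMod P W := fun g h =>
    (((c' : Γ ⧸ N → Γ ⧸ N → fixedPts N (HomMod P W)) (φq g) (φq h) :
      fixedPts N (HomMod P W)) : HomMod P W)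
  obtain ⟨β₂, hβ₂⟩ := π.exists_cobound2 (b := b) (fun g h j => by
    have e2 := congrArg (Subtype.val : fixedPts N (HomMod P W) → HomMod P W)
      (mem_Z2_iff.1 c'.2 (φq g) (φq h) (φq j))
    simp only [AddSubgroup.coe_add, φq, QuotientGroup.mk'_apply, coe_mk_smul] at e2
    show b (g * h) j + b g h = g • b h j + b g (h * j)
    simp only [b, φq, QuotientGroup.mk'_apply]
    exact e2)
    fun g h n hn => by
      have h1n : φq n = 1 := (QuotientGroup.eq_one_iff n).2 hn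
      show (((c' : Γ ⧸ N → Γ ⧸ N → fixedPts N (HomMod P W)) (φq g) (φq (h * n)) :
        fixedPts N (HomMod P W)) : HomMod P W) = _
      rw [map_mul, h1n, mul_one]
  refine ⟨fun g => β₂ g - β₁ g, fun g h => ?_⟩
  have e1 : b g h - m • m' • (c : Γ → Γ → HomMod P W) g h =
      g • β₁ h - β₁ (g * h) + β₁ g := hβ₁ g h
  rw [mul_smul, eq_sub_of_add_eq' (sub_eq_iff_eq_add.1 e1).symm, hβ₂]
  show _ = g • (β₂ h - β₁ h) - (β₂ (g * h) - β₁ (g * h)) + (β₂ g - β₁ g)
  rw [smul_sub]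
  abel

end RelProj

/-! ### Extension by roots -/

theorem exists_extend_root {p : ℕ} [hp : Fact p.Prime] {P : Type} [AddCommGroup P]
    [Module.Free ℤ P] [Module.Finite ℤ P] {W : Type} [AddCommGroup W] (R : AddSubgroup P)
    (hR : ∀ y, p • y ∈ R) (hdiv : ∀ w : W, ∃ v, p • v = w) (f : R →+ W) :
    ∃ F : P →+ W, ∀ r : R, F r = f r := by
  let bb := Module.Free.chooseBasis ℤ P
  choose v hv using fun j => hdiv (f ⟨p • bb j, hR _⟩)
  set F₀ : P →+ W := (bb.constr ℕ v).toAddMonoidHom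
  let mulp : P →+ R := (nsmulAddMonoidHom p).codRestrict R hR
  have hagree : ∀ y, f (mulp y) = F₀ (p • y) := fun y => by
    refine DFunLike.congr_fun (f := (f.comp mulp).toIntLinearMap)
      (g := (F₀.comp (nsmulAddMonoidHom p)).toIntLinearMap) (bb.ext fun j => ?_) y
    show f (mulp (bb j)) = F₀ (p • bb j)
    rw [map_nsmul]
    show _ = p • (bb.constr ℕ v) (bb j)
    rw [Module.Basis.constr_basis, hv]
    rfl
  set Wp : AddSubgroup W := (nsmulAddMonoidHom p : W →+ W).ker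
  set Q := P ⧸ (nsmulAddMonoidHom p : P →+ P).range
  let e : R →+ Wp := (f - F₀.comp R.subtype).codRestrict Wp fun r => by
    show p • (f r - F₀ r) = 0
    rw [nsmul_sub, ← map_nsmul, ← map_nsmul, sub_eq_zero]
    exact (congrArg f (Subtype.ext rfl)).trans (hagree r)
  let ψ : R →+ Q := (QuotientAddGroup.mk' _).comp R.subtype
  have hker : ψ.rangeRestrict.ker ≤ e.ker := fun r hr => by
    rw [AddMonoidHom.ker_rangeRestrict] at hr
    obtain ⟨y, hy⟩ := (QuotientAddGroup.eq_zero_iff _).1 (AddMonoidHom.mem_ker.1 hr)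
    refine AddMonoidHom.mem_ker.2 (Subtype.ext ?_)
    show f r - F₀ r = 0
    have hy' : p • y = (r : P) := hy
    rw [sub_eq_zero, ← hy']
    exact (congrArg f (Subtype.ext hy'.symm)).trans (hagree y)
  set e₁ : ψ.range →+ Wp :=
    AddMonoidHom.liftOfSurjective ψ.rangeRestrict ψ.rangeRestrict_surjective ⟨e, hker⟩
  have he₁ : ∀ r, e₁ (ψ.rangeRestrict r) = e r := fun r =>
    AddMonoidHom.liftOfRightInverse_comp_apply _ _ _ ⟨e, hker⟩ r
  have hQ : ∀ x : Q, p • x = 0 := fun x => by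
    induction x using QuotientAddGroup.induction_on with
    | _ y => exact (QuotientAddGroup.eq_zero_iff _).2 ⟨y, rfl⟩
  have hW : ∀ x : Wp, p • x = 0 := fun x => Subtype.ext x.2
  let := AddCommGroup.zmodModule (n := p) hQ
  let := AddCommGroup.zmodModule (n := p) hW
  let U : Submodule (ZMod p) Q := AddSubgroup.toZModSubmodule p ψ.range
  let e₂ : U →+ Wp := AddMonoidHom.mk' (fun u => e₁ ⟨u.1, u.2⟩) fun a b =>
    (congrArg e₁ (Subtype.ext rfl)).trans (map_add e₁ ⟨a.1, a.2⟩ ⟨b.1, b.2⟩)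
  obtain ⟨E, hE⟩ := LinearMap.exists_extend (e₂.toZModLinearMap p)
  refine ⟨F₀ + Wp.subtype.comp (E.toAddMonoidHom.comp (QuotientAddGroup.mk' _)), fun r => ?_⟩
  have h1 : E (ψ r) = e r :=
    (LinearMap.congr_fun hE (⟨ψ r, ⟨r, rfl⟩⟩ : U)).trans (he₁ r)
  show F₀ r + (E (ψ r) : Wp) = f r
  rw [h1]
  show F₀ r + (f r - F₀ r) = f r
  abel

/-! ### Finite abelian groups -/

theorem card_hom_zmod_le (A : Type) [AddCommGroup A] [Finite A] (d : ℕ) [NeZero d] :
    Nat.card (A →+ ZMod d) ≤ Nat.card A := by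
  have := Fintype.ofFinite A
  refine le_trans (Nat.card_le_card_of_injective
    (fun φ : A →+ ZMod d => (ZMod.stdAddChar (N := d)).compAddMonoidHom φ) fun φ ψ h => ?_)
    (le_of_eq (by rw [Nat.card_eq_fintype_card, Nat.card_eq_fintype_card, AddChar.card_eq]))
  exact AddMonoidHom.ext fun a => ZMod.injective_stdAddChar (DFunLike.congr_fun h a)

theorem mem_of_separating {T : Type} [AddCommGroup T] [Finite T] {d : ℕ} [NeZero d]
    (X : AddSubgroup (T →+ ZMod d)) (χ : T →+ ZMod d)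
    (h : ∀ t, (∀ ξ ∈ X, ξ t = 0) → χ t = 0) : χ ∈ X := by
  let ev : T →+ (X →+ ZMod d) := AddMonoidHom.mk'
    (fun t => AddMonoidHom.mk' (fun ξ : X => (ξ : T →+ ZMod d) t) fun a b => rfl) fun t t' =>
      AddMonoidHom.ext fun ξ => map_add (ξ : T →+ ZMod d) t t'
  set T' := T ⧸ ev.ker
  have hmemX : ∀ (ξ : T →+ ZMod d), (∀ t ∈ ev.ker, ξ t = 0) →
      ∃ ξ' : T' →+ ZMod d, ∀ t : T, ξ' (t : T') = ξ t := fun ξ hξ =>
    ⟨QuotientAddGroup.lift ev.ker ξ hξ, fun t => rfl⟩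
  have hker : ∀ t ∈ ev.ker, χ t = 0 := fun t ht => h t fun ξ hξ =>
    DFunLike.congr_fun (AddMonoidHom.mem_ker.1 ht) ⟨ξ, hξ⟩
  have hkerX : ∀ ξ : X, ∀ t ∈ ev.ker, (ξ : T →+ ZMod d) t = 0 := fun ξ t ht =>
    DFunLike.congr_fun (AddMonoidHom.mem_ker.1 ht) ξ
  choose ι hι using fun ξ : X => hmemX _ (hkerX ξ)
  have hιinj : Function.Injective ι := fun a b hab => Subtype.ext (AddMonoidHom.ext fun t => by
    rw [← hι a t, ← hι b t, hab])
  obtain ⟨χ', hχ'⟩ := hmemX χ hker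
  have : Finite (T →+ ZMod d) := Finite.of_injective _ DFunLike.coe_injective
  have : Finite (T' →+ ZMod d) := Finite.of_injective _ DFunLike.coe_injective
  have : Finite (X →+ ZMod d) := Finite.of_injective _ DFunLike.coe_injective
  have hcard : Nat.card (T' →+ ZMod d) ≤ Nat.card X :=
    (card_hom_zmod_le T' d).trans ((Nat.card_le_card_of_injective _
      (QuotientAddGroup.kerLift_injective ev)).trans (card_hom_zmod_le X d))
  obtain ⟨ξ, hξ⟩ := ((Nat.bijective_iff_injective_and_card ι).2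
    ⟨hιinj, le_antisymm (Nat.card_le_card_of_injective ι hιinj) hcard⟩).2 χ'
  have : χ = ξ := AddMonoidHom.ext fun t => by rw [← hι ξ t, hξ, hχ']
  exact this ▸ ξ.2

/-- `H2` of a finite group in a finitely generated module is finite. -/
theorem finite_H2 {G : Type} [Group G] [Finite G] {R : Type} [AddCommGroup R]
    [DistribMulAction G R] [Module.Finite ℤ R] : Finite (H2 G R) := by
  have : Module.Finite ℤ (G → G → R) := inferInstance
  have : IsNoetherian ℤ (G → G → R) := isNoetherian_of_isNoetherianRing_of_finite ℤ _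
  have : Module.Finite ℤ (AddSubgroup.toIntSubmodule (Z2 G R)) := inferInstance
  have : Module.Finite ℤ (Z2 G R) := this
  have : Module.Finite ℤ (H2 G R) :=
    Module.Finite.of_surjective (H2.mk (G := G) (A := R)).toIntLinearMap H2.mk_surjective
  have : AddGroup.FG (H2 G R) := Module.Finite.iff_addGroup_fg.1 inferInstance
  exact AddCommGroup.finite_of_fg_isAddTorsion _ fun x =>
    isOfFinAddOrder_iff_nsmul_eq_zero.2 ⟨Nat.card G, Nat.card_pos, card_nsmul_H2 x⟩

end FLTAgent.GalCoh
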