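import Mathlib
import Fermat.Agent.GlobalDuality.Units
import Fermat.Agent.GlobalDuality.RelFree

/-!
# The units of an unramified local layer

They are cohomologically trivial at `p`, and so are maps from lattices into them.
-/

set_option autoImplicit false

noncomputable section

namespace FLTAgent.GalCoh

variable {p : ℕ} [hp : Fact p.Prime] {G : Type} [Group G] [Finite G] {A : Type} [AddCommGroup A]
  [DistribMulAction G A]

omit hp [Finite G] in
theorem pCompl_dvd_of_injective {H : Type} [Group H] [Finite H] {f : H →* G}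
    (hf : Function.Injective f) : pCompl p H ∣ pCompl p G :=
  Nat.ordCompl_dvd_ordCompl_of_dvd (Subgroup.card_dvd_of_injective f hf) p

omit hp in
theorem card_eq_pow_mul_pCompl (H : Type) [Group H] [Finite H] :
    Nat.card H = p ^ (Nat.card H).factorization p * pCompl p H :=
  (Nat.ordProj_mul_ordCompl_eq_self _ _).symm

theorem pCompl_nsmul_H1 (h : ∀ P : Subgroup G, IsPGroup p P → Subsingleton (H1 P A))
    (H : Subgroup G) (z : H1 H A) : pCompl p G • z = 0 := by
  have := Fintype.ofFinite H
  obtain ⟨P⟩ : Nonempty (Sylow p H) := inferInstance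
  have hzero :
      H1.map (P : Subgroup H).subtype (AddMonoidHom.id A) (CompatPair.subtype _) z = 0 := by
    let e : (P : Subgroup H) ≃* ((P : Subgroup H).map H.subtype) :=
      (P : Subgroup H).equivMapOfInjective H.subtype H.subtype_injective
    have hc : CompatPair e.toMonoidHom (AddMonoidHom.id A) := ⟨fun _ _ => rfl⟩
    have := h _ (P.isPGroup'.map H.subtype)
    have : Subsingleton (H1 (P : Subgroup H) A) :=
      (H1.map_bijective hc e.bijective Function.bijective_id).2.subsingleton
    exact Subsingleton.elim _ _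
  have h1 : pCompl p H • z = 0 := by
    refine eq_zero_of_res_sylow_H1 P (k := (Nat.card H).factorization p) ?_ ?_
    · rw [← mul_smul, ← card_eq_pow_mul_pCompl H, card_nsmul_H1]
    · rw [map_nsmul, hzero, smul_zero]
  obtain ⟨k, hk⟩ := pCompl_dvd_of_injective (p := p) H.subtype_injective
  rw [hk, mul_comm, mul_smul, h1, smul_zero]

theorem pCompl_nsmul_H2 (h : ∀ P : Subgroup G, IsPGroup p P → Subsingleton (H2 P A))
    (H : Subgroup G) (z : H2 H A) : pCompl p G • z = 0 := by
  have := Fintype.ofFinite H
  obtain ⟨P⟩ : Nonempty (Sylow p H) := inferInstance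
  have hzero :
      H2.map (P : Subgroup H).subtype (AddMonoidHom.id A) (CompatPair.subtype _) z = 0 := by
    let e : (P : Subgroup H) ≃* ((P : Subgroup H).map H.subtype) :=
      (P : Subgroup H).equivMapOfInjective H.subtype H.subtype_injective
    have hc : CompatPair e.toMonoidHom (AddMonoidHom.id A) := ⟨fun _ _ => rfl⟩
    have := h _ (P.isPGroup'.map H.subtype)
    have : Subsingleton (H2 (P : Subgroup H) A) :=
      (H2.map_bijective hc e.bijective Function.bijective_id).2.subsingleton
    exact Subsingleton.elim _ _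
  have h1 : pCompl p H • z = 0 := by
    refine eq_zero_of_res_sylow_H2 P (k := (Nat.card H).factorization p) ?_ ?_
    · rw [← mul_smul, ← card_eq_pow_mul_pCompl H, card_nsmul_H2]
    · rw [map_nsmul, hzero, smul_zero]
  obtain ⟨k, hk⟩ := pCompl_dvd_of_injective (p := p) H.subtype_injective
  rw [hk, mul_comm, mul_smul, h1, smul_zero]

end FLTAgent.GalCoh

namespace FLTAgent.GlobalDuality

open FLTAgent.GalCoh FLTAgent.LocalDuality

/-- The units of a local layer. -/
def LocO (L : Layer) (q : Nat.Primes) : AddSubgroup (LocU L q) :=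
  (unitsAt q).comap (LocU L q).subtype

instance locO_stable (L : Layer) (q : Nat.Primes) : IsStableSub (LocG L q) (LocO L q) :=
  ⟨fun σ x hx => by
    show ((σ • x : LocU L q) : LU q) ∈ unitsAt q
    rw [mem_unitsAt_iff, norm_smul_LocU]
    exact hx⟩

instance locO_stable_sub (L : Layer) (q : Nat.Primes) (H : Subgroup (LocG L q)) :
    IsStableSub H (LocO L q) := IsStableSub.restrict _ H

variable {L : Layer} {q : Nat.Primes}

theorem subsingleton_H1_LocO (hI : inertiaLoc L q = ⊥) (H : Subgroup (LocG L q)) :
    Subsingleton (H1 H (LocO L q)) := by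
  rw [subsingleton_H1_iff]
  intro f hf
  obtain ⟨w, hw⟩ := subsingleton_H1_iff.1 (subsingleton_H1_LocU L q H)
    (fun h => ((f h : LocO L q) : LocU L q))
    (mem_Z1_iff.2 fun g h => congrArg Subtype.val (mem_Z1_iff.1 hf g h))
  set w' : LocU L q := w - locOrd hI w • qLocU L q with hw'
  have hmem : w' ∈ LocO L q := by
    show ((w' : LocU L q) : LU q) ∈ unitsAt q
    rw [← locOrd_eq_zero_iff hI, hw', map_sub, map_zsmul, locOrd_qLocU, zsmul_one, Int.cast_id,
      sub_self]
  refine ⟨⟨w', hmem⟩, fun h => Subtype.ext ?_⟩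
  show ((f h : LocO L q) : LocU L q) = h • w' - w'
  rw [hw h, hw', smul_sub, smul_comm h (locOrd hI w) (qLocU L q), Subgroup.smul_def,
    Subgroup.smul_def, smul_qLocU]
  abel

variable {p : ℕ} [hp : Fact p.Prime]

theorem subsingleton_H2_LocO (hI : inertiaLoc L q = ⊥) (H : Subgroup (LocG L q))
    (hH : IsPGroup p H) : Subsingleton (H2 H (LocO L q)) := by
  have := isCyclic_locG L q hI
  obtain ⟨g, hg⟩ := IsCyclic.exists_generator (α := H)
  refine subsingleton_of_forall_eq 0 fun x => ?_
  obtain ⟨c, rfl⟩ := H2.mk_surjective x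
  set a := cyclicInv g (c : H → H → LocO L q) with ha_def
  have ha : ∀ σ : H, σ • (a : LocU L q) = (a : LocU L q) := fun σ => by
    have h0 : σ • a = a := by
      obtain ⟨i, -, rfl⟩ := exists_pow_eq hg σ
      induction i with
      | zero => rw [pow_zero, one_smul]
      | succ j ih => rw [pow_succ, mul_smul, smul_cyclicInv c.2, ih]
    exact congrArg Subtype.val h0
  obtain ⟨hfin, hle⟩ := LocU.pgroup_bound' p L q H hH
  obtain ⟨b, hb0, hb⟩ := exists_norm_valuation_zero hg (locOrd hI)
    (fun σ y => locOrd_smul hI (σ : LocG L q) y) (ϖ := qLocU L q) (fun σ => smul_qLocU _)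
    (locOrd_qLocU hI) hle (a := (a : LocU L q)) ha ((locOrd_eq_zero_iff hI _).2 a.2)
  refine mk_eq_zero_of_cyclicInv hg (b := ⟨b, (locOrd_eq_zero_iff hI b).1 hb0⟩) (Subtype.ext ?_)
  rw [← ha_def, ← hb, psum, psum, AddSubgroup.val_finsetSum]
  rfl

theorem pCompl_nsmul_H2_LocO (hI : inertiaLoc L q = ⊥) (H : Subgroup (LocG L q))
    (z : H2 H (LocO L q)) : pCompl p (LocG L q) • z = 0 :=
  pCompl_nsmul_H2 (fun P hP => subsingleton_H2_LocO hI P hP) H z

/-- Maps from a lattice into the units have no `H1`, up to the prime-to-`p` part of the order. -/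
theorem pCompl_nsmul_H1_homMod_LocO (hI : inertiaLoc L q = ⊥) {R : Type} [AddCommGroup R]
    [DistribMulAction (LocG L q) R] [Module.Free ℤ R] (H : Subgroup (LocG L q))
    (z : H1 H (HomMod R (LocO L q))) : pCompl p (LocG L q) • z = 0 := by
  refine pCompl_nsmul_H1 (fun P hP => ?_) H z
  exact subsingleton_H1_homMod_of_trivial (R := R) hP (subsingleton_H1_LocO hI P)
    (subsingleton_H2_LocO hI P hP)

end FLTAgent.GlobalDuality
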