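import Mathlib
import Fermat.Agent.GlobalDuality.LocalUnits
import Fermat.Agent.GlobalDuality.Shapiro

/-!
# Maps into the ideles of a layer

Homomorphisms from a module of a layer into the ideles of the layer are assembled from their
components, and their cohomology classes in degrees one and two are detected locally.
-/

set_option autoImplicit false

noncomputable section

namespace FLTAgent.GalCoh

/-- A module seen as a module of another group along a homomorphism. -/
def Pull {Γ Q : Type} [Group Γ] [Group Q] (_ρ : Γ →* Q) (P : Type) : Type := P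

variable {Γ Q : Type} [Group Γ] [Group Q] (ρ : Γ →* Q) {P : Type} [AddCommGroup P]

instance : AddCommGroup (Pull ρ P) := inferInstanceAs (AddCommGroup P)

instance [Module.Free ℤ P] : Module.Free ℤ (Pull ρ P) := inferInstanceAs (Module.Free ℤ P)

instance [Module.Finite ℤ P] : Module.Finite ℤ (Pull ρ P) := inferInstanceAs (Module.Finite ℤ P)

instance [DistribMulAction Q P] : DistribMulAction Γ (Pull ρ P) where
  smul g y := (ρ g • (show P from y) : P)
  one_smul y := show ρ 1 • (show P from y) = _ by rw [map_one, one_smul]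
  mul_smul g h y := show ρ (g * h) • (show P from y) = ρ g • ρ h • (show P from y) by
    rw [map_mul, mul_smul]
  smul_zero g := smul_zero (A := P) (ρ g)
  smul_add g y z := smul_add (A := P) (ρ g) y z

/-- An element of a module seen in the pulled back module. -/
def Pull.mk (y : P) : Pull ρ P := y

end FLTAgent.GalCoh

namespace FLTAgent.GlobalDuality

open FLTAgent.GalCoh FLTAgent.LocalDuality

variable {L : Layer} {P : Type} [AddCommGroup P] [DistribMulAction (Gam ⧸ L.sub) P]

/-- A module of a layer at a prime. -/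
abbrev PLoc (L : Layer) (q : Nat.Primes) (P : Type) : Type := Pull (locMap L q) P

/-- The component at the base place of a map into ideles. -/
def evalHom (L : Layer) (P : Type) [AddCommGroup P] (q : Nat.Primes) :
    HomMod P (fixedPts L.sub Idele) →+ HomMod (PLoc L q P) (LocU L q) where
  toFun φ := HomMod.mk ((evalLoc L q).comp φ.hom)
  map_zero' := HomMod.ext fun _ => map_zero (evalLoc L q)
  map_add' _ _ := HomMod.ext fun _ => map_add (evalLoc L q) _ _

omit [DistribMulAction (Gam ⧸ L.sub) P] in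
theorem evalHom_apply (q : Nat.Primes) (φ : HomMod P (fixedPts L.sub Idele)) (y : P) :
    evalHom L P q φ y = evalLoc L q (φ y) := rfl

theorem evalHom_compat (q : Nat.Primes) : CompatPair (locMap L q) (evalHom L P q) :=
  ⟨fun d φ => HomMod.ext fun y => by
    show evalLoc L q (locMap L q d • φ ((locMap L q d)⁻¹ • (show P from y))) =
      d • evalLoc L q (φ (show P from (d⁻¹ • y : PLoc L q P)))
    rw [(evalLoc_compat L q).compat]
    show _ = d • evalLoc L q (φ (locMap L q d⁻¹ • (show P from y)))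
    rw [map_inv]⟩

theorem at_eq_evalHom (φ : HomMod P (fixedPts L.sub Idele)) (q : Nat.Primes) (γ : Gam) (y : P) :
    (φ y : Idele).at q γ =
      ((evalHom L P q ((QuotientGroup.mk γ : Gam ⧸ L.sub) • φ)
        ((QuotientGroup.mk γ : Gam ⧸ L.sub) • y) : LocU L q) : LU q) := by
  rw [evalHom_apply, coe_evalLoc, HomMod.smul_apply, inv_smul_smul, coe_mk_smul, Idele.at_smul,
    one_mul]

theorem homJ_ext {φ ψ : HomMod P (fixedPts L.sub Idele)}
    (h : ∀ q (σ : Gam ⧸ L.sub), evalHom L P q (σ • φ) = evalHom L P q (σ • ψ)) : φ = ψ :=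
  HomMod.ext fun y => Subtype.ext (Idele.ext fun q γ => by rw [at_eq_evalHom, at_eq_evalHom, h])

/-- A map into the ideles of a layer with prescribed components. -/
theorem exists_homJ (X : ∀ q, Gam ⧸ L.sub → HomMod (PLoc L q P) (LocU L q))
    (heq : ∀ q d σ, X q (locMap L q d * σ) = d • X q σ) (T : Finset Nat.Primes)
    (hu : ∀ q, q ∉ T → ∀ σ y, X q σ y ∈ LocO L q) :
    ∃ φ : HomMod P (fixedPts L.sub Idele), ∀ q σ, evalHom L P q (σ • φ) = X q σ := by
  let f : P → ∀ q : Nat.Primes, Gam → LU q := fun y q γ =>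
    ((X q (QuotientGroup.mk γ) ((QuotientGroup.mk γ : Gam ⧸ L.sub) • y) : LocU L q) : LU q)
  have hsm : ∀ y q σ, ∀ s ∈ L.sub, f y q (σ * s) = f y q σ := fun y q σ s hs => by
    show ((X q (QuotientGroup.mk (σ * s)) ((QuotientGroup.mk (σ * s) : Gam ⧸ L.sub) • y) :
      LocU L q) : LU q) = _
    rw [QuotientGroup.mk_mul_of_mem σ hs]
  have hmem : ∀ y, f y ∈ ideleSubgroup := fun y => by
    refine ⟨fun q τ σ => ?_, ⟨L, hsm y⟩, T.finite_toSet.subset fun q hq => ?_⟩
    · show ((X q (QuotientGroup.mk (loc q τ * σ))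
        ((QuotientGroup.mk (loc q τ * σ) : Gam ⧸ L.sub) • y) : LocU L q) : LU q) = _
      rw [QuotientGroup.mk_mul, ← locMap_mk, heq]
      show τ • ((X q (QuotientGroup.mk σ) (locMap L q (QuotientGroup.mk τ)⁻¹ •
        (locMap L q (QuotientGroup.mk τ) * QuotientGroup.mk σ) • y : P) : LocU L q) : LU q) = _
      rw [← mul_smul, map_inv, inv_mul_cancel_left]
    · by_contra hqT
      obtain ⟨σ, hσ⟩ := hq
      exact hσ (hu q hqT _ _)
  let φ : P → fixedPts L.sub Idele := fun y =>
    ⟨⟨f y, hmem y⟩, Idele.mem_fixedPts_iff.2 fun q σ s hs => hsm y q σ s hs⟩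
  refine ⟨HomMod.mk (AddMonoidHom.mk' φ fun y z => Subtype.ext (Idele.ext fun q γ => ?_)),
    fun q σ => HomMod.ext fun y => Subtype.ext ?_⟩
  · show f (y + z) q γ = f y q γ + f z q γ
    show ((X q _ ((QuotientGroup.mk γ : Gam ⧸ L.sub) • (y + z)) : LocU L q) : LU q) = _
    rw [smul_add]
    exact congrArg Subtype.val
      (map_add (X q (QuotientGroup.mk γ)) (Pull.mk _ ((QuotientGroup.mk γ : Gam ⧸ L.sub) • y))
        (Pull.mk _ ((QuotientGroup.mk γ : Gam ⧸ L.sub) • z)))
  · induction σ using QuotientGroup.induction_on with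
    | _ γ =>
      show (((QuotientGroup.mk γ : Gam ⧸ L.sub) •
        φ ((QuotientGroup.mk γ : Gam ⧸ L.sub)⁻¹ • (show P from y)) : fixedPts L.sub Idele) :
          Idele).at q 1 = _
      rw [coe_mk_smul, Idele.at_smul, one_mul]
      show ((X q _ ((QuotientGroup.mk γ : Gam ⧸ L.sub) •
        ((QuotientGroup.mk γ : Gam ⧸ L.sub)⁻¹ • (show P from y))) : LocU L q) : LU q) = _
      rw [smul_inv_smul]

/-- `H1` of maps into the ideles is detected locally. -/
theorem exists_cobound_homJ {f : Gam ⧸ L.sub → HomMod P (fixedPts L.sub Idele)}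
    (hf : f ∈ Z1 (Gam ⧸ L.sub) (HomMod P (fixedPts L.sub Idele))) (T : Finset Nat.Primes)
    (e : ∀ q, HomMod (PLoc L q P) (LocU L q))
    (he : ∀ q d, evalHom L P q (f (locMap L q d)) = d • e q - e q)
    (hu : ∀ q, q ∉ T → ∀ y, e q y ∈ LocO L q)
    (hfu : ∀ q, q ∉ T → ∀ g y, evalHom L P q (f g) y ∈ LocO L q) :
    ∃ K : HomMod P (fixedPts L.sub Idele), (∀ g, f g = g • K - K) ∧
      ∀ q, q ∉ T → ∀ γ y, (K y : Idele).at q γ ∈ unitsAt q := by
  let X : ∀ q, Gam ⧸ L.sub → HomMod (PLoc L q P) (LocU L q) := fun q σ =>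
    evalHom L P q (f σ) + e q
  have hX : ∀ q d σ, X q (locMap L q d * σ) = d • X q σ := fun q d σ => by
    show evalHom L P q (f (locMap L q d * σ)) + e q = d • (evalHom L P q (f σ) + e q)
    rw [mem_Z1_iff.1 hf, map_add, (evalHom_compat q).compat, he, smul_add]
    abel
  have hXu : ∀ q, q ∉ T → ∀ σ y, X q σ y ∈ LocO L q := fun q hq σ y =>
    add_mem (hfu q hq σ y) (hu q hq y)
  obtain ⟨K, hK⟩ := exists_homJ X hX T hXu
  refine ⟨K, fun g => homJ_ext fun q σ => ?_, fun q hq γ y => ?_⟩
  · rw [smul_sub, map_sub, ← mul_smul, hK, hK]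
    have h1 : σ • f g = f (σ * g) - f σ := by rw [mem_Z1_iff.1 hf, add_sub_cancel_right]
    rw [h1, map_sub]
    show _ = evalHom L P q (f (σ * g)) + e q - (evalHom L P q (f σ) + e q)
    abel
  · rw [at_eq_evalHom, hK]
    exact hXu q hq _ _

/-- `H2` of maps into the ideles is detected locally. -/
theorem exists_cobound2_homJ {c : Gam ⧸ L.sub → Gam ⧸ L.sub → HomMod P (fixedPts L.sub Idele)}
    (hc : c ∈ Z2 (Gam ⧸ L.sub) (HomMod P (fixedPts L.sub Idele))) (T : Finset Nat.Primes)
    (β : ∀ q, LocG L q → HomMod (PLoc L q P) (LocU L q))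
    (hβ : ∀ q d d', evalHom L P q (c (locMap L q d) (locMap L q d')) =
      d • β q d' - β q (d * d') + β q d)
    (hu : ∀ q, q ∉ T → ∀ d y, β q d y ∈ LocO L q)
    (hcu : ∀ q, q ∉ T → ∀ g h y, evalHom L P q (c g h) y ∈ LocO L q) :
    ∃ B : Gam ⧸ L.sub → HomMod P (fixedPts L.sub Idele),
      (∀ g h, c g h = g • B h - B (g * h) + B g) ∧
      ∀ q, q ∉ T → ∀ g γ y, (B g y : Idele).at q γ ∈ unitsAt q := by
  classical
  let U : ∀ q, AddSubgroup (HomMod (PLoc L q P) (LocU L q)) := fun q =>
    if q ∈ T then ⊤ else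
      { carrier := {φ | ∀ y, φ y ∈ LocO L q}
        zero_mem' := fun _ => (LocO L q).zero_mem
        add_mem' := fun {a b} ha hb y => add_mem (ha y) (hb y)
        neg_mem' := fun {a} ha y => neg_mem (ha y) }
  have hU : ∀ q φ, q ∉ T → φ ∈ U q → ∀ y, φ y ∈ LocO L q := fun q φ hq h => by
    simp only [U, if_neg hq] at h
    exact h
  have hU' : ∀ q φ, (q ∉ T → ∀ y, φ y ∈ LocO L q) → φ ∈ U q := fun q φ h => by
    by_cases hq : q ∈ T
    · simp only [U, if_pos hq]
      trivial
    · simp only [U, if_neg hq]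
      exact h hq
  choose b hb1 hb2 hb3 using fun q => shapiro2_mem (evalHom_compat q) (locMap_injective L q) hc
    (β := β q) (fun d d' => hβ q d d') (U q) (fun g h => hU' q _ fun hq => hcu q hq g h)
    fun d => hU' q _ fun hq => hu q hq d
  choose B hB using fun g => exists_homJ (fun q σ => b q g σ) (fun q d σ => hb1 q g d σ) T
    fun q hq σ => hU q _ hq (hb3 q g σ)
  refine ⟨B, fun g h => homJ_ext fun q σ => ?_, fun q hq g γ y => ?_⟩
  · rw [hb2, smul_add, smul_sub, map_add, map_sub, ← mul_smul, hB, hB, hB]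
  · rw [at_eq_evalHom, hB]
    exact hU q _ hq (hb3 q g _) _

end FLTAgent.GlobalDuality
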