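import Mathlib
import Fermat.Agent.GlobalDuality.Coord
import Fermat.Agent.GlobalDuality.IdeleHom

/-!
# Presentations and the pairing with maps into idele classes

A finite module is presented by a lattice induced over a layer; maps from the relation lattice
into `S`-ideles with equivariant classes are paired with locally trivial classes of the module.
-/

set_option autoImplicit false

noncomputable section

namespace FLTAgent.GalCoh

/-- Relative projectivity pulls back. -/
def RelProj.pull {Γ Γ' Q : Type} [Group Γ] [Group Γ'] [Group Q] [Fintype Q] {P : Type}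
    [AddCommGroup P] [DistribMulAction Γ P] {ρ : Γ →* Q} (π : RelProj ρ P) (f : Γ' →* Γ) :
    RelProj (ρ.comp f) (Pull f P) where
  proj := π.proj
  sum_proj := π.sum_proj
  proj_smul g x y := π.proj_smul (f g) x y

section Level

variable {Γ : Type} [Group Γ] {T : Type}

/-- A function on a group seen on a quotient. -/
def lvl1 (N : Subgroup Γ) (f : Γ → T) : Γ ⧸ N → T := fun a => f a.out

/-- A function of two variables seen on a quotient. -/
def lvl2 (N : Subgroup Γ) (f : Γ → Γ → T) : Γ ⧸ N → Γ ⧸ N → T := fun a b => f a.out b.out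

theorem lvl1_mk (N : Subgroup Γ) {f : Γ → T} (hf : ∀ g, ∀ s ∈ N, f (g * s) = f g) (g : Γ) :
    lvl1 N f (QuotientGroup.mk g) = f g := by
  obtain ⟨s, hs⟩ := QuotientGroup.mk_out_eq_mul N g
  show f (Quotient.out (QuotientGroup.mk g : Γ ⧸ N)) = _
  rw [hs, hf g s s.2]

theorem lvl2_mk (N : Subgroup Γ) {f : Γ → Γ → T}
    (hf : ∀ g k, ∀ s ∈ N, ∀ t ∈ N, f (g * s) (k * t) = f g k) (g k : Γ) :
    lvl2 N f (QuotientGroup.mk g) (QuotientGroup.mk k) = f g k := by
  obtain ⟨s, hs⟩ := QuotientGroup.mk_out_eq_mul N g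
  obtain ⟨t, ht⟩ := QuotientGroup.mk_out_eq_mul N k
  show f (Quotient.out (QuotientGroup.mk g : Γ ⧸ N)) (Quotient.out (QuotientGroup.mk k : Γ ⧸ N)) = _
  rw [hs, ht, hf g k s s.2 t t.2]

end Level

end FLTAgent.GalCoh

namespace FLTAgent.GlobalDuality

open FLTAgent.GalCoh

/-- A module of the Galois group of a layer, seen as a Galois module. -/
abbrev GMod (L0 : Layer) (P : Type) : Type := Pull (QuotientGroup.mk' L0.sub) P

theorem smul_GMod_of_mem {L0 : Layer} {P : Type} [AddCommGroup P]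
    [DistribMulAction (Gam ⧸ L0.sub) P] {g : Gam} (hg : g ∈ L0.sub) (y : GMod L0 P) :
    g • y = y := by
  show ((QuotientGroup.mk g : Gam ⧸ L0.sub) • (show P from y) : P) = y
  rw [(QuotientGroup.eq_one_iff g).2 hg, one_smul]

theorem smul_eq_smul_of_mul {L0 : Layer} {P : Type} [AddCommGroup P]
    [DistribMulAction (Gam ⧸ L0.sub) P] (g : Gam) {s : Gam} (hs : s ∈ L0.sub) (y : GMod L0 P) :
    (g * s) • y = g • y := by
  rw [mul_smul, smul_GMod_of_mem hs]

/-- A presentation of a module killed by `p`. -/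
structure Pres (p : ℕ) (L0 : Layer) (P A : Type) [AddCommGroup P]
    [DistribMulAction (Gam ⧸ L0.sub) P] [AddCommGroup A] [DistribMulAction (Gam ⧸ L0.sub) A]
    [Fintype (Gam ⧸ L0.sub)] where
  /-- the presentation map -/
  q : P →+ A
  surj : Function.Surjective q
  equiv : ∀ (g : Gam ⧸ L0.sub) (y : P), q (g • y) = g • q y
  torsion : ∀ a : A, p • a = 0
  /-- the projectors -/
  proj : RelProj (MonoidHom.id (Gam ⧸ L0.sub)) P

variable {p : ℕ} {L0 : Layer} [Fintype (Gam ⧸ L0.sub)] {P A : Type}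
  [AddCommGroup P] [DistribMulAction (Gam ⧸ L0.sub) P] [AddCommGroup A]
  [DistribMulAction (Gam ⧸ L0.sub) A]

/-- The relation lattice. -/
def Pres.R (X : Pres p L0 P A) : AddSubgroup P := X.q.ker

instance Pres.stable (X : Pres p L0 P A) : IsStableSub (Gam ⧸ L0.sub) X.R :=
  isStableSub_ker X.q X.equiv

instance Pres.R_finite (X : Pres p L0 P A) [Module.Free ℤ P] [Module.Finite ℤ P] :
    Module.Finite ℤ X.R := by
  have : Module.Finite ℤ (AddSubgroup.toIntSubmodule X.R) := inferInstance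
  exact this

instance Pres.R_free (X : Pres p L0 P A) [Module.Free ℤ P] [Module.Finite ℤ P] :
    Module.Free ℤ X.R := by
  have : Module.Free ℤ (AddSubgroup.toIntSubmodule X.R) := inferInstance
  exact this

theorem Pres.nsmul_mem (X : Pres p L0 P A) (y : P) : p • y ∈ X.R :=
  AddMonoidHom.mem_ker.2 (by rw [map_nsmul, X.torsion])

/-- The presentation as a map of Galois modules. -/
def Pres.qG (X : Pres p L0 P A) : GMod L0 P →+ GMod L0 A := X.q

/-- The inclusion of the relations as a map of Galois modules. -/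
def Pres.iG (X : Pres p L0 P A) : GMod L0 X.R →+ GMod L0 P := X.R.subtype

theorem Pres.qG_smul (X : Pres p L0 P A) (g : Gam) (y : GMod L0 P) :
    X.qG (g • y) = g • X.qG y :=
  X.equiv _ _

theorem Pres.iG_smul (X : Pres p L0 P A) (g : Gam) (r : GMod L0 X.R) :
    X.iG (g • r) = g • X.iG r :=
  rfl

theorem Pres.iG_injective (X : Pres p L0 P A) : Function.Injective X.iG :=
  Subtype.val_injective

theorem Pres.qG_iG (X : Pres p L0 P A) (r : GMod L0 X.R) : X.qG (X.iG r) = 0 :=
  AddMonoidHom.mem_ker.1 (show (show X.R from r).1 ∈ X.q.ker from (show X.R from r).2)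

theorem Pres.exists_iG_eq (X : Pres p L0 P A) {y : GMod L0 P} (hy : X.qG y = 0) :
    ∃ r, X.iG r = y :=
  ⟨(⟨y, AddMonoidHom.mem_ker.2 hy⟩ : X.R), rfl⟩

theorem Pres.qG_surjective (X : Pres p L0 P A) : Function.Surjective X.qG :=
  X.surj

/-- A section of the presentation. -/
def Pres.sect (X : Pres p L0 P A) (a : GMod L0 A) : GMod L0 P := Function.surjInv X.surj a

theorem Pres.qG_sect (X : Pres p L0 P A) (a : GMod L0 A) : X.qG (X.sect a) = a :=
  Function.surjInv_eq X.surj a

theorem Pres.delta_mem (X : Pres p L0 P A) (y : Z1 Gam (GMod L0 A)) (g k : Gam) :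
    X.qG (g • X.sect ((y : Gam → GMod L0 A) k) - X.sect ((y : Gam → GMod L0 A) (g * k)) +
      X.sect ((y : Gam → GMod L0 A) g)) = 0 := by
  rw [map_add, map_sub, X.qG_smul, X.qG_sect, X.qG_sect, X.qG_sect, mem_Z1_iff.1 y.2]
  abel

/-- The connecting cochain of a cocycle. -/
def Pres.delta (X : Pres p L0 P A) (y : Z1 Gam (GMod L0 A)) (g k : Gam) : GMod L0 X.R :=
  (X.exists_iG_eq (X.delta_mem y g k)).choose

theorem Pres.iG_delta (X : Pres p L0 P A) (y : Z1 Gam (GMod L0 A)) (g k : Gam) :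
    X.iG (X.delta y g k) = g • X.sect ((y : Gam → GMod L0 A) k) -
      X.sect ((y : Gam → GMod L0 A) (g * k)) + X.sect ((y : Gam → GMod L0 A) g) :=
  (X.exists_iG_eq (X.delta_mem y g k)).choose_spec

theorem Pres.delta_level (X : Pres p L0 P A) {L : Layer} (hL : L.sub ≤ L0.sub)
    (y : Z1 Gam (GMod L0 A))
    (hy : ∀ g, ∀ s ∈ L.sub, (y : Gam → GMod L0 A) (g * s) = (y : Gam → GMod L0 A) g)
    (g k : Gam) (s : Gam) (hs : s ∈ L.sub) (t : Gam) (ht : t ∈ L.sub) :
    X.delta y (g * s) (k * t) = X.delta y g k := by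
  refine X.iG_injective ?_
  rw [X.iG_delta, X.iG_delta, hy g s hs, hy k t ht, smul_eq_smul_of_mul g (hL hs),
    show g * s * (k * t) = g * k * (k⁻¹ * s * k * t) by group,
    hy _ _ (mul_mem (by simpa using L.sub_normal.conj_mem s hs k⁻¹) ht)]

theorem Pres.delta_cocycle (X : Pres p L0 P A) (y : Z1 Gam (GMod L0 A)) (g k j : Gam) :
    X.delta y (g * k) j + X.delta y g k = g • X.delta y k j + X.delta y g (k * j) := by
  refine X.iG_injective ?_
  rw [map_add, map_add, X.iG_smul, X.iG_delta, X.iG_delta, X.iG_delta, X.iG_delta, mul_assoc,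
    mul_smul, smul_add, smul_sub]
  abel

variable (X : Pres p L0 P A)

/-- Maps from relations into `S`-ideles with equivariant classes. -/
def Pres.HS (S : Finset Nat.Primes) : AddSubgroup (HomMod (GMod L0 X.R) Idele) where
  carrier := {h | (∀ r, h r ∈ sIdeles S) ∧
    ∀ (g : Gam) r, classMap (h (g • r)) = g • classMap (h r)}
  zero_mem' := ⟨fun _ => (sIdeles S).zero_mem, fun g r => by
    rw [HomMod.zero_apply, HomMod.zero_apply, map_zero, smul_zero]⟩
  add_mem' {a b} ha hb := ⟨fun r => add_mem (ha.1 r) (hb.1 r), fun g r => by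
    rw [HomMod.add_apply, HomMod.add_apply, map_add, map_add, smul_add, ha.2, hb.2]⟩
  neg_mem' {a} ha := ⟨fun r => neg_mem (ha.1 r), fun g r => by
    show classMap (-(a (g • r))) = g • classMap (-(a r))
    rw [map_neg, map_neg, smul_neg, ha.2]⟩

/-- The class of maps lifted by `F` is `b`. -/
def Pres.Rel (S : Finset Nat.Primes) (h : HomMod (GMod L0 X.R) Idele)
    (b : Gam → Gam → HomMod (GMod L0 A) GU) : Prop :=
  ∃ (L : Layer) (F : Gam → HomMod (GMod L0 P) GU), L.IsS S ∧ L.sub ≤ L0.sub ∧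
    (∀ g, ∀ s ∈ L.sub, F (g * s) = F g) ∧
    (∀ g y, F g y ∈ fixedPts L.sub GU ∧ F g y ∈ sUnits S) ∧
    (∀ g (r : GMod L0 X.R), principal (F g (X.iG r)) = (g • h) r - h r) ∧
    ∀ g k (y : GMod L0 P), b g k (X.qG y) = (g • F k) y - F (g * k) y + F g y

/-- Classes of the module, trivial at `S`. -/
def Sha1 (S : Finset Nat.Primes) (y : Z1 Gam (GMod L0 A)) : Prop :=
  (∃ L : Layer, L.IsS S ∧
    ∀ g, ∀ s ∈ L.sub, (y : Gam → GMod L0 A) (g * s) = (y : Gam → GMod L0 A) g) ∧
  ∀ q ∈ S, ∃ a : GMod L0 A, ∀ τ : LGal q,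
    (y : Gam → GMod L0 A) (loc q τ) = loc q τ • a - a

/-- Classes of the dual module in degree two, trivial at `S`. -/
def Sha2 (S : Finset Nat.Primes) (b : Gam → Gam → HomMod (GMod L0 A) GU) : Prop :=
  b ∈ Z2 Gam (HomMod (GMod L0 A) GU) ∧
  (∃ L : Layer, L.IsS S ∧ ∀ g k, ∀ s ∈ L.sub, ∀ t ∈ L.sub, b (g * s) (k * t) = b g k) ∧
  ∀ q ∈ S, ∃ (M : Layer) (x : LGal q → HomMod (GMod L0 A) GU),
    (∀ τ s, loc q s ∈ M.sub → x (τ * s) = x τ) ∧
    ∀ τ τ', b (loc q τ) (loc q τ') = loc q τ • x τ' - x (τ * τ') + x τ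

omit [Fintype (Gam ⧸ L0.sub)] in
theorem exists_common_layer {S : Finset Nat.Primes} (hL0 : L0.IsS S) {ι : Type} (s : Finset ι)
    (x : ι → Idele) (hx : ∀ i ∈ s, x i ∈ sIdeles S) :
    ∃ L : Layer, L.IsS S ∧ L.sub ≤ L0.sub ∧ ∀ i ∈ s, x i ∈ fixedPts L.sub Idele := by
  classical
  induction s using Finset.induction_on with
  | empty => exact ⟨L0, hL0, le_rfl, fun i hi => absurd hi (Finset.notMem_empty i)⟩
  | insert a t ha ih =>
    obtain ⟨L, hL, hle, hfix⟩ := ih fun i hi => hx i (Finset.mem_insert_of_mem hi)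
    obtain ⟨⟨M, hM, hMfix⟩, -⟩ := hx a (Finset.mem_insert_self a t)
    refine ⟨L.sup M, hL.sup hM, (Layer.sub_le (L.le_sup_left M)).trans hle, fun i hi => ?_⟩
    rcases Finset.mem_insert.1 hi with rfl | hi
    · exact fixedPts_antitone (Layer.sub_le (L.le_sup_right M)) hMfix
    · exact fixedPts_antitone (Layer.sub_le (L.le_sup_left M)) (hfix i hi)

omit [Fintype (Gam ⧸ L0.sub)] in
/-- The values of a map from a lattice into `S`-ideles lie in one layer. -/
theorem exists_layer_values {S : Finset Nat.Primes} (hL0 : L0.IsS S) {R : Type} [AddCommGroup R]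
    [Module.Free ℤ R] [Module.Finite ℤ R] (h : R →+ Idele) (hh : ∀ r, h r ∈ sIdeles S) :
    ∃ L : Layer, L.IsS S ∧ L.sub ≤ L0.sub ∧ ∀ r, h r ∈ fixedPts L.sub Idele := by
  let bb := Module.Free.chooseBasis ℤ R
  obtain ⟨L, hL, hle, hfix⟩ := exists_common_layer hL0 Finset.univ (fun j => h (bb j))
    fun j _ => hh _
  refine ⟨L, hL, hle, fun r => ?_⟩
  rw [← bb.sum_repr r, map_sum]
  exact sum_mem fun j _ => by
    rw [map_zsmul]
    exact zsmul_mem (hfix j (Finset.mem_univ j)) _

section Value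

variable {L : Layer} (hL : L.sub ≤ L0.sub) (h : HomMod (GMod L0 X.R) Idele)
  (hc : ∀ (g : Gam) r, classMap (h (g • r)) = g • classMap (h r))
  (hh : ∀ r, h r ∈ fixedPts L.sub Idele) (y : Z1 Gam (GMod L0 A))
  (hy : ∀ g, ∀ s ∈ L.sub, (y : Gam → GMod L0 A) (g * s) = (y : Gam → GMod L0 A) g)

include hL hc hy in
theorem Pres.phiFun_mem :
    lvl2 L.sub (fun g k => (⟨classMap (h (X.delta y g k)), classMap_mem_fixedPts (hh _)⟩ :
      LayerC L)) ∈ Z2 (Gam ⧸ L.sub) (LayerC L) := by
  have hinv : ∀ g k, ∀ s ∈ L.sub, ∀ t ∈ L.sub,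
      (⟨classMap (h (X.delta y (g * s) (k * t))), classMap_mem_fixedPts (hh _)⟩ : LayerC L) =
        ⟨classMap (h (X.delta y g k)), classMap_mem_fixedPts (hh _)⟩ := fun g k s hs t ht =>
    Subtype.ext (congrArg (fun r => classMap (h r)) (X.delta_level hL y hy g k s hs t ht))
  refine mem_Z2_iff.2 fun a b c => ?_
  induction a using QuotientGroup.induction_on with
  | _ g =>
    induction b using QuotientGroup.induction_on with
    | _ k =>
      induction c using QuotientGroup.induction_on with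
      | _ j =>
        refine Subtype.ext ?_
        rw [← QuotientGroup.mk_mul, ← QuotientGroup.mk_mul, lvl2_mk _ hinv, lvl2_mk _ hinv,
          lvl2_mk _ hinv, lvl2_mk _ hinv, AddSubgroup.coe_add, AddSubgroup.coe_add, coe_mk_smul]
        show classMap (h _) + classMap (h _) = g • classMap (h _) + classMap (h _)
        rw [← hc, ← map_add classMap, ← map_add classMap, ← map_add h, ← map_add h,
          X.delta_cocycle]

/-- The class of the pairing in the idele classes of a layer. -/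
def Pres.phiCls : H2 (Gam ⧸ L.sub) (LayerC L) :=
  H2.mk ⟨_, X.phiFun_mem hL h hc hh y hy⟩

include hc hh in
/-- Cochains of relations differing by a coboundary give the same class. -/
theorem Pres.phi_diff_eq_zero (e : Gam → GMod L0 X.R) (he : ∀ g, ∀ s ∈ L.sub, e (g * s) = e g)
    (c : Z2 (Gam ⧸ L.sub) (LayerC L))
    (hce : ∀ g k, ((c : Gam ⧸ L.sub → Gam ⧸ L.sub → LayerC L) (QuotientGroup.mk g)
      (QuotientGroup.mk k) : IdeleClass) = classMap (h (g • e k - e (g * k) + e g))) :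
    H2.mk c = 0 := by
  rw [H2.mk_eq_zero_iff]
  have hinv : ∀ g, ∀ s ∈ L.sub,
      (⟨classMap (h (e (g * s))), classMap_mem_fixedPts (hh _)⟩ : LayerC L) =
        ⟨classMap (h (e g)), classMap_mem_fixedPts (hh _)⟩ := fun g s hs =>
    Subtype.ext (by rw [he g s hs])
  refine ⟨lvl1 L.sub fun g => ⟨classMap (h (e g)), classMap_mem_fixedPts (hh _)⟩, fun a b => ?_⟩
  induction a using QuotientGroup.induction_on with
  | _ g =>
    induction b using QuotientGroup.induction_on with
    | _ k =>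
      refine Subtype.ext ?_
      rw [hce, ← QuotientGroup.mk_mul, lvl1_mk _ hinv, lvl1_mk _ hinv, lvl1_mk _ hinv,
        AddSubgroup.coe_add, AddSubgroup.coe_sub, coe_mk_smul, map_add h, map_sub h, map_add,
        map_sub, hc]

theorem Pres.nsmul_phiCls : p • X.phiCls hL h hc hh y hy = 0 := by
  rw [Pres.phiCls, ← map_nsmul]
  refine X.phi_diff_eq_zero h hc hh
    (fun g => (⟨p • (show P from X.sect ((y : Gam → GMod L0 A) g)), X.nsmul_mem _⟩ : X.R))
    (fun g s hs => Subtype.ext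
      (by show p • (show P from X.sect _) = p • (show P from X.sect _); rw [hy g s hs])) _
    fun g k => ?_
  show ((p • lvl2 L.sub (fun g k => (⟨classMap (h (X.delta y g k)), classMap_mem_fixedPts (hh _)⟩ :
      LayerC L)) (QuotientGroup.mk g) (QuotientGroup.mk k) : LayerC L) : IdeleClass) = _
  rw [lvl2_mk _ fun g k s hs t ht => Subtype.ext
    (congrArg (fun r => classMap (h r)) (X.delta_level hL y hy g k s hs t ht)),
    AddSubgroup.coe_nsmul, ← map_nsmul, ← map_nsmul]
  refine congrArg (fun r => classMap (h r)) (X.iG_injective ?_)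
  rw [map_nsmul, X.iG_delta]
  show _ = g • (p • X.sect _) - p • X.sect _ + p • X.sect _
  rw [nsmul_add, nsmul_sub, smul_comm p g]

theorem Pres.phiCls_inf {L' : Layer} (hle : L'.sub ≤ L.sub) :
    inf2 IdeleClass hle (X.phiCls hL h hc hh y hy) =
      X.phiCls (hle.trans hL) h hc (fun r => fixedPts_antitone hle (hh r)) y
        (fun g s hs => hy g s (hle hs)) := by
  rw [Pres.phiCls, Pres.phiCls, inf2, H2.map_mk]
  refine congrArg H2.mk (Subtype.ext (funext fun a => funext fun b => ?_))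
  induction a using QuotientGroup.induction_on with
  | _ g =>
    induction b using QuotientGroup.induction_on with
    | _ k =>
      refine Subtype.ext ?_
      show ((lvl2 L.sub _ (QuotientGroup.mk g) (QuotientGroup.mk k) : LayerC L) : IdeleClass) = _
      rw [lvl2_mk _ fun g k s hs t ht => Subtype.ext
        (congrArg (fun r => classMap (h r)) (X.delta_level hL y hy g k s hs t ht))]
      show _ = ((lvl2 L'.sub _ (QuotientGroup.mk g) (QuotientGroup.mk k) : LayerC L') : IdeleClass)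
      rw [lvl2_mk _ fun g k s hs t ht => Subtype.ext
        (congrArg (fun r => classMap (h r))
          (X.delta_level (hle.trans hL) y (fun g s hs => hy g s (hle hs)) g k s hs t ht))]

end Value

variable [hp : Fact p.Prime]

open Classical in
/-- The pairing. -/
def Pres.Phi (hp2 : p ≠ 2) (h : HomMod (GMod L0 X.R) Idele) (y : Z1 Gam (GMod L0 A)) : ZMod p :=
  if H : (∀ (g : Gam) r, classMap (h (g • r)) = g • classMap (h r)) ∧
      ∃ L : Layer, L.sub ≤ L0.sub ∧ (∀ r, h r ∈ fixedPts L.sub Idele) ∧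
        ∀ g, ∀ s ∈ L.sub, (y : Gam → GMod L0 A) (g * s) = (y : Gam → GMod L0 A) g then
    coord hp2 H.2.choose (X.phiCls H.2.choose_spec.1 h H.1 H.2.choose_spec.2.1 y
      H.2.choose_spec.2.2)
  else 0

theorem Pres.Phi_eq (hp2 : p ≠ 2) {L : Layer} (hL : L.sub ≤ L0.sub)
    (h : HomMod (GMod L0 X.R) Idele)
    (hc : ∀ (g : Gam) r, classMap (h (g • r)) = g • classMap (h r))
    (hh : ∀ r, h r ∈ fixedPts L.sub Idele) (y : Z1 Gam (GMod L0 A))
    (hy : ∀ g, ∀ s ∈ L.sub, (y : Gam → GMod L0 A) (g * s) = (y : Gam → GMod L0 A) g) :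
    X.Phi hp2 h y = coord hp2 L (X.phiCls hL h hc hh y hy) := by
  classical
  have H : (∀ (g : Gam) r, classMap (h (g • r)) = g • classMap (h r)) ∧
      ∃ L : Layer, L.sub ≤ L0.sub ∧ (∀ r, h r ∈ fixedPts L.sub Idele) ∧
        ∀ g, ∀ s ∈ L.sub, (y : Gam → GMod L0 A) (g * s) = (y : Gam → GMod L0 A) g :=
    ⟨hc, L, hL, hh, hy⟩
  rw [Pres.Phi, dif_pos H]
  obtain ⟨h1, h2, h3⟩ := H.2.choose_spec
  set M := H.2.choose
  rw [← coord_inf hp2 (Layer.sub_le (M.le_sup_left L)) (X.nsmul_phiCls h1 h H.1 h2 y h3),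
    ← coord_inf hp2 (Layer.sub_le (M.le_sup_right L)) (X.nsmul_phiCls hL h hc hh y hy),
    X.phiCls_inf, X.phiCls_inf]

omit hp in
theorem Pres.exists_common_level {S : Finset Nat.Primes} (hL0 : L0.IsS S) [Module.Free ℤ P]
    [Module.Finite ℤ P] {h : HomMod (GMod L0 X.R) Idele} (hh : h ∈ X.HS S)
    {y : Z1 Gam (GMod L0 A)} (hy : Sha1 S y) :
    ∃ L : Layer, L.IsS S ∧ L.sub ≤ L0.sub ∧ (∀ r, h r ∈ fixedPts L.sub Idele) ∧
      ∀ g, ∀ s ∈ L.sub, (y : Gam → GMod L0 A) (g * s) = (y : Gam → GMod L0 A) g := by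
  obtain ⟨L, hL, hle, hfix⟩ := exists_layer_values (R := GMod L0 X.R) hL0 h.hom hh.1
  obtain ⟨⟨M, hM, hMy⟩, -⟩ := hy
  exact ⟨L.sup M, hL.sup hM, (Layer.sub_le (L.le_sup_left M)).trans hle,
    fun r => fixedPts_antitone (Layer.sub_le (L.le_sup_left M)) (hfix r),
    fun g s hs => hMy g s (Layer.sub_le (L.le_sup_right M) hs)⟩

end FLTAgent.GlobalDuality
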