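import Mathlib
import Fermat.Agent.GlobalDuality.Setting
import Fermat.Agent.GlobalDuality.Ram

/-!
# The pairing only depends on the class

A map whose class is zero pairs to zero with every class trivial at `S`.
-/

set_option autoImplicit false

noncomputable section

namespace FLTAgent.GlobalDuality

open FLTAgent.GalCoh FLTAgent.LocalDuality

/-- A cocycle of maps from a relatively projective lattice into `S`-ideles of a layer is a
coboundary of such maps. -/
theorem exists_split {S : Finset Nat.Primes} {L : Layer} (hL : L.IsS S) {Q : Type} [Group Q]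
    [Fintype Q] {P : Type} [AddCommGroup P] [DistribMulAction (Gam ⧸ L.sub) P] [Module.Free ℤ P]
    [Module.Finite ℤ P] {ρ : Gam ⧸ L.sub →* Q} (π : RelProj ρ P)
    (hP : ∀ n, ρ n = 1 → ∀ y : P, n • y = y)
    {f : Gam ⧸ L.sub → HomMod P (fixedPts L.sub Idele)}
    (hf : f ∈ Z1 (Gam ⧸ L.sub) (HomMod P (fixedPts L.sub Idele)))
    (hfu : ∀ q, q ∉ S → ∀ g γ y, (f g y : Idele).at q γ ∈ unitsAt q) :
    ∃ K : HomMod P (fixedPts L.sub Idele), (∀ g, f g = g • K - K) ∧
      ∀ q, q ∉ S → ∀ γ y, (K y : Idele).at q γ ∈ unitsAt q := by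
  classical
  have key : ∀ q, ∃ e : HomMod (PLoc L q P) (LocU L q),
      (∀ d, evalHom L P q (f (locMap L q d)) = d • e - e) ∧ (q ∉ S → ∀ y, e y ∈ LocO L q) := by
    intro q
    set φ : LocG L q → HomMod (PLoc L q P) (LocU L q) :=
      fun d => evalHom L P q (f (locMap L q d)) with hφdef
    have hφ : φ ∈ Z1 (LocG L q) (HomMod (PLoc L q P) (LocU L q)) := mem_Z1_iff.2 fun d d' => by
      simp only [hφdef]
      rw [map_mul, mem_Z1_iff.1 hf, map_add, (evalHom_compat q).compat]
    by_cases hq : q ∈ S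
    · have := subsingleton_H1_LocU L q (ρ.comp (locMap L q)).ker
      obtain ⟨K, hK⟩ := (π.pull (locMap L q)).exists_cobound_nsmul
        (fun n hn y => hP (locMap L q n) hn y) (m := 1) (fun z => Subsingleton.elim _ _) hφ
      exact ⟨K, fun d => by rw [← hK d, one_nsmul], fun h => absurd hq h⟩
    · have := subsingleton_H1_LocO (inertiaLoc_eq_bot hL hq) (ρ.comp (locMap L q)).ker
      have hmem : ∀ d y, φ d y ∈ LocO L q := fun d y => hfu q hq _ 1 y
      let φ' : LocG L q → HomMod (PLoc L q P) (LocO L q) := fun d =>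
        HomMod.mk ((φ d).hom.codRestrict (LocO L q) (hmem d))
      have hφ' : φ' ∈ Z1 (LocG L q) (HomMod (PLoc L q P) (LocO L q)) := mem_Z1_iff.2 fun d d' =>
        HomMod.ext fun y => Subtype.ext (congrArg (fun u => u y) (mem_Z1_iff.1 hφ d d') :)
      obtain ⟨K, hK⟩ := (π.pull (locMap L q)).exists_cobound_nsmul
        (fun n hn y => hP (locMap L q n) hn y) (m := 1) (fun z => Subsingleton.elim _ _) hφ'
      exact ⟨HomMod.mk ((LocO L q).subtype.comp K.hom), fun d => HomMod.ext fun y =>
        (congrArg (fun u : HomMod (PLoc L q P) (LocO L q) => (u y : LocU L q))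
          ((one_nsmul (φ' d)).symm.trans (hK d)) :), fun _ y => (K y).2⟩
  choose e he heu using key
  exact exists_cobound_homJ hf S e he heu fun q hq g y => hfu q hq g 1 y

/-! ### Cochains of ideles -/

/-- The integers with trivial action. -/
abbrev TrivZ (L : Layer) : Type := Pull (1 : Gam ⧸ L.sub →* ℤˣ) ℤ

theorem smul_TrivZ {L : Layer} (g : Gam ⧸ L.sub) (n : TrivZ L) : g • n = n := by
  show ((1 : ℤˣ) • (show ℤ from n) : ℤ) = n
  rw [one_smul]

/-- The integer underlying an element. -/
def valTriv {L : Layer} (n : TrivZ L) : ℤ := n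

/-- An idele seen as a map on the integers. -/
def toTriv (L : Layer) (a : fixedPts L.sub Idele) : HomMod (TrivZ L) (fixedPts L.sub Idele) :=
  HomMod.mk (show TrivZ L →+ fixedPts L.sub Idele from zmultiplesHom (fixedPts L.sub Idele) a)

theorem toTriv_apply (L : Layer) (a : fixedPts L.sub Idele) (n : TrivZ L) :
    toTriv L a n = valTriv n • a := rfl

/-- The unit of the integers with trivial action. -/
def oneTriv (L : Layer) : TrivZ L := (1 : ℤ)

/-- `H2` of the ideles is detected locally. -/
theorem exists_cobound2_idele {L : Layer}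
    {c : Gam ⧸ L.sub → Gam ⧸ L.sub → fixedPts L.sub Idele}
    (hc : c ∈ Z2 (Gam ⧸ L.sub) (fixedPts L.sub Idele)) (T : Finset Nat.Primes)
    (β : ∀ q, LocG L q → LocU L q)
    (hβ : ∀ q d d', evalLoc L q (c (locMap L q d) (locMap L q d')) =
      d • β q d' - β q (d * d') + β q d)
    (hu : ∀ q, q ∉ T → ∀ d, β q d ∈ LocO L q)
    (hcu : ∀ q, q ∉ T → ∀ g h, evalLoc L q (c g h) ∈ LocO L q) :
    ∃ B : Gam ⧸ L.sub → fixedPts L.sub Idele, ∀ g h, c g h = g • B h - B (g * h) + B g := by
  let c' : Gam ⧸ L.sub → Gam ⧸ L.sub → HomMod (TrivZ L) (fixedPts L.sub Idele) :=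
    fun g h => toTriv L (c g h)
  have hc' : c' ∈ Z2 (Gam ⧸ L.sub) (HomMod (TrivZ L) (fixedPts L.sub Idele)) :=
    mem_Z2_iff.2 fun g h j => HomMod.ext fun n => by
      simp only [c', HomMod.add_apply, HomMod.smul_apply, smul_TrivZ, toTriv_apply]
      rw [← smul_comm (valTriv n) g, ← zsmul_add, ← zsmul_add, mem_Z2_iff.1 hc]
  let β' : ∀ q, LocG L q → HomMod (PLoc L q (TrivZ L)) (LocU L q) := fun q d =>
    HomMod.mk (show PLoc L q (TrivZ L) →+ LocU L q from zmultiplesHom (LocU L q) (β q d))
  obtain ⟨B, hB, -⟩ := exists_cobound2_homJ hc' T β'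
    (fun q d d' => HomMod.ext fun n => by
      show evalLoc L q ((show ℤ from n) • c (locMap L q d) (locMap L q d')) =
        d • ((show ℤ from (d⁻¹ • n : PLoc L q (TrivZ L))) • β q d') -
          (show ℤ from n) • β q (d * d') +
          (show ℤ from n) • β q d
      rw [show (show ℤ from (d⁻¹ • n : PLoc L q (TrivZ L))) = (show ℤ from n) from
        smul_TrivZ (locMap L q d⁻¹) n, map_zsmul, hβ, zsmul_add, zsmul_sub,
        smul_comm (show ℤ from n) d])
    (fun q hq d n => zsmul_mem (hu q hq d) _)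
    (fun q hq g h n => by
      show evalLoc L q ((show ℤ from n) • c g h) ∈ LocO L q
      rw [map_zsmul]
      exact zsmul_mem (hcu q hq g h) _)
  refine ⟨fun g => B g (oneTriv L), fun g h => ?_⟩
  have h1 := congrArg (fun u : HomMod (TrivZ L) (fixedPts L.sub Idele) => u (oneTriv L)) (hB g h)
  simp only [c', HomMod.add_apply, HomMod.sub_apply, HomMod.smul_apply, smul_TrivZ,
    toTriv_apply] at h1
  exact (one_zsmul _).symm.trans h1

variable {p : ℕ} [hp : Fact p.Prime] {L0 : Layer} [Fintype (Gam ⧸ L0.sub)] {P A : Type}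
  [AddCommGroup P] [DistribMulAction (Gam ⧸ L0.sub) P] [AddCommGroup A]
  [DistribMulAction (Gam ⧸ L0.sub) A] (X : Pres p L0 P A)

omit hp in
/-- The connecting cochain of a class trivial at a prime is a coboundary there. -/
theorem Pres.exists_local_delta {L : Layer} (hle : L.sub ≤ L0.sub) {y : Z1 Gam (GMod L0 A)}
    (hy : ∀ g, ∀ s ∈ L.sub, (y : Gam → GMod L0 A) (g * s) = (y : Gam → GMod L0 A) g)
    {q : Nat.Primes} {a : GMod L0 A}
    (ha : ∀ τ : LGal q, (y : Gam → GMod L0 A) (loc q τ) = loc q τ • a - a) :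
    ∃ e : LGal q → GMod L0 X.R, (∀ τ s, loc q s ∈ L.sub → e (τ * s) = e τ) ∧
      ∀ τ τ', X.delta y (loc q τ) (loc q τ') = loc q τ • e τ' - e (τ * τ') + e τ := by
  have hmem : ∀ τ : LGal q, X.qG (X.sect ((y : Gam → GMod L0 A) (loc q τ)) -
      (loc q τ • X.sect a - X.sect a)) = 0 := fun τ => by
    rw [map_sub, map_sub, X.qG_smul, X.qG_sect, X.qG_sect, ha, sub_self]
  choose e he using fun τ => X.exists_iG_eq (hmem τ)
  refine ⟨e, fun τ s hs => X.iG_injective ?_, fun τ τ' => X.iG_injective ?_⟩
  · rw [he, he, map_mul, hy _ _ hs, smul_eq_smul_of_mul (loc q τ) (hle hs)]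
  · rw [X.iG_delta, map_add, map_sub, X.iG_smul, he, he, he, map_mul, smul_sub, smul_sub,
      mul_smul]
    abel

variable [Module.Free ℤ P] [Module.Finite ℤ P]

omit [Module.Free ℤ P] [Module.Finite ℤ P] in
/-- An equivariant map of relations into `S`-ideles pairs to zero. -/
theorem Pres.nsmul_phiCls_eq_zero {S : Finset Nat.Primes} {L : Layer} (hL : L.IsS S)
    (hle : L.sub ≤ L0.sub) (h : HomMod (GMod L0 X.R) Idele)
    (heq : ∀ (g : Gam) r, h (g • r) = g • h r) (hu : ∀ r, h r ∈ sIdeles S)
    (hh : ∀ r, h r ∈ fixedPts L.sub Idele)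
    (hc : ∀ (g : Gam) r, classMap (h (g • r)) = g • classMap (h r))
    (y : Z1 Gam (GMod L0 A))
    (hy : ∀ g, ∀ s ∈ L.sub, (y : Gam → GMod L0 A) (g * s) = (y : Gam → GMod L0 A) g)
    (hloc : ∀ q ∈ S, ∃ a : GMod L0 A, ∀ τ : LGal q,
      (y : Gam → GMod L0 A) (loc q τ) = loc q τ • a - a) :
    X.phiCls hle h hc hh y hy = 0 := by
  classical
  have := L.finite
  have := Fintype.ofFinite (Gam ⧸ L.sub)
  set m := pCompl p (Gam ⧸ L.sub)
  have hinv : ∀ g k, ∀ s ∈ L.sub, ∀ t ∈ L.sub,
      (⟨h (X.delta y (g * s) (k * t)), hh _⟩ : fixedPts L.sub Idele) = ⟨h (X.delta y g k), hh _⟩ :=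
    fun g k s hs t ht =>
      Subtype.ext (congrArg h (X.delta_level hle y hy g k s hs t ht))
  set c : Gam ⧸ L.sub → Gam ⧸ L.sub → fixedPts L.sub Idele :=
    lvl2 L.sub fun g k => ⟨h (X.delta y g k), hh _⟩
  have hc2 : c ∈ Z2 (Gam ⧸ L.sub) (fixedPts L.sub Idele) := mem_Z2_iff.2 fun a b d => by
    induction a using QuotientGroup.induction_on with
    | _ g =>
      induction b using QuotientGroup.induction_on with
      | _ k =>
        induction d using QuotientGroup.induction_on with
        | _ j =>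
          refine Subtype.ext ?_
          simp only [c]
          rw [← QuotientGroup.mk_mul, ← QuotientGroup.mk_mul, lvl2_mk _ hinv, lvl2_mk _ hinv,
            lvl2_mk _ hinv, lvl2_mk _ hinv, AddSubgroup.coe_add, AddSubgroup.coe_add, coe_mk_smul]
          show h _ + h _ = g • h _ + h _
          rw [← heq, ← map_add, ← map_add, X.delta_cocycle]
  have hunit : ∀ q, q ∉ S → ∀ g k, evalLoc L q (c g k) ∈ LocO L q := fun q hq g k => (hu _).2 q hq 1
  have key : ∀ q, ∃ β : LocG L q → LocU L q,
      (∀ d d', evalLoc L q (m • c (locMap L q d) (locMap L q d')) =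
        d • β d' - β (d * d') + β d) ∧ (q ∉ S → ∀ d, β d ∈ LocO L q) := by
    intro q
    by_cases hq : q ∈ S
    · obtain ⟨a, ha⟩ := hloc q hq
      obtain ⟨e, he1, he2⟩ := X.exists_local_delta hle hy ha
      have hinv1 : ∀ τ, ∀ s ∈ locSub L q, (⟨h (e (τ * s)), hh _⟩ : fixedPts L.sub Idele) =
          ⟨h (e τ), hh _⟩ := fun τ s hs => Subtype.ext (congrArg h (he1 τ s hs))
      refine ⟨fun d => evalLoc L q (m • lvl1 (locSub L q)
        (fun τ => (⟨h (e τ), hh _⟩ : fixedPts L.sub Idele)) d), fun d d' => ?_,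
        fun h' => absurd hq h'⟩
      induction d using QuotientGroup.induction_on with
      | _ τ =>
        induction d' using QuotientGroup.induction_on with
        | _ τ' =>
          rw [← QuotientGroup.mk_mul, locMap_mk, locMap_mk]
          simp only [c]
          rw [lvl2_mk _ hinv, lvl1_mk _ hinv1, lvl1_mk _ hinv1, lvl1_mk _ hinv1,
            ← (evalLoc_compat L q).compat, ← map_sub, ← map_add, locMap_mk]
          refine congrArg _ (Subtype.ext ?_)
          rw [AddSubgroup.coe_add, AddSubgroup.coe_sub, coe_mk_smul, AddSubgroup.coe_nsmul,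
            AddSubgroup.coe_nsmul, AddSubgroup.coe_nsmul, AddSubgroup.coe_nsmul]
          show m • h _ = loc q τ • (m • h _) - m • h _ + m • h _
          rw [smul_comm (loc q τ) m, ← heq, ← nsmul_sub, ← nsmul_add, ← map_sub, ← map_add,
            ← he2]
    · let cq : Z2 (LocG L q) (LocO L q) :=
        ⟨fun d d' => ⟨_, hunit q hq (locMap L q d) (locMap L q d')⟩,
          mem_Z2_iff.2 fun a b d => Subtype.ext (by
            show evalLoc L q (c (locMap L q (a * b)) (locMap L q d)) +
              evalLoc L q (c (locMap L q a) (locMap L q b)) =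
              a • evalLoc L q (c (locMap L q b) (locMap L q d)) +
                evalLoc L q (c (locMap L q a) (locMap L q (b * d)))
            rw [← (evalLoc_compat L q).compat, ← map_add, ← map_add, map_mul, map_mul,
              mem_Z2_iff.1 hc2])⟩
      have h0 : pCompl p (LocG L q) • H2.mk cq = 0 := by
        let eT : (⊤ : Subgroup (LocG L q)) ≃* LocG L q := Subgroup.topEquiv
        have hc' : CompatPair eT.toMonoidHom (AddMonoidHom.id (LocO L q)) := ⟨fun _ _ => rfl⟩
        refine (H2.map_bijective hc' eT.bijective Function.bijective_id).1 ?_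
        rw [map_nsmul, map_zero]
        exact pCompl_nsmul_H2_LocO (inertiaLoc_eq_bot hL hq) _ _
      obtain ⟨k, hk⟩ : pCompl p (LocG L q) ∣ m := pCompl_dvd_of_injective (locMap_injective L q)
      have h1 : m • H2.mk cq = 0 := by rw [hk, mul_comm, mul_smul, h0, smul_zero]
      rw [← map_nsmul, H2.mk_eq_zero_iff] at h1
      obtain ⟨b, hb⟩ := h1
      refine ⟨fun d => (b d : LocU L q), fun d d' => ?_, fun _ d => (b d).2⟩
      rw [map_nsmul]
      exact (congrArg Subtype.val (hb d d') :)
  choose β hβ hβu using key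
  obtain ⟨B, hB⟩ := exists_cobound2_idele (c := m • c)
    (AddSubgroup.nsmul_mem (Z2 (Gam ⧸ L.sub) (fixedPts L.sub Idele)) hc2 m) S β hβ hβu
      fun q hq g k => by
      show evalLoc L q (m • c g k) ∈ LocO L q
      rw [map_nsmul]
      exact AddSubgroup.nsmul_mem _ (hunit q hq g k) m
  have h0 : m • X.phiCls hle h hc hh y hy = 0 := by
    rw [Pres.phiCls, ← map_nsmul, H2.mk_eq_zero_iff]
    refine ⟨fun g => ⟨classMap (B g : Idele), classMap_mem_fixedPts (B g).2⟩, fun a b => ?_⟩
    induction a using QuotientGroup.induction_on with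
    | _ g =>
      induction b using QuotientGroup.induction_on with
      | _ k =>
        refine Subtype.ext ?_
        have h1 := congrArg (Subtype.val : fixedPts L.sub Idele → Idele)
          (hB (QuotientGroup.mk g) (QuotientGroup.mk k))
        have hck : c (QuotientGroup.mk g) (QuotientGroup.mk k) = ⟨h (X.delta y g k), hh _⟩ :=
          lvl2_mk _ hinv g k
        simp only [Pi.smul_apply, hck, AddSubgroup.coe_nsmul, AddSubgroup.coe_add,
          AddSubgroup.coe_sub, coe_mk_smul] at h1
        show ((m • lvl2 L.sub _ (QuotientGroup.mk g) (QuotientGroup.mk k) : LayerC L) :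
          IdeleClass) = g • classMap _ - classMap _ + classMap _
        rw [lvl2_mk _ fun g k s hs t ht => Subtype.ext
          (congrArg (fun r => classMap (h r)) (X.delta_level hle y hy g k s hs t ht)),
          AddSubgroup.coe_nsmul, ← map_nsmul, ← classMap_smul, ← map_sub, ← map_add, h1]
  exact AddMonoid.addOrderOf_eq_one_iff.1 (Nat.eq_one_of_dvd_coprimes
    (coprime_pow_of_not_dvd (i := 1) (not_dvd_pCompl (p := p) (G := Gam ⧸ L.sub)))
    (addOrderOf_dvd_of_nsmul_eq_zero
      (show p ^ 1 • _ = 0 by rw [pow_one]; exact X.nsmul_phiCls hle h hc hh y hy))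
    (addOrderOf_dvd_of_nsmul_eq_zero h0))

/-- Well-definedness: a map whose class vanishes pairs to zero. -/
theorem Pres.phi_eq_zero_of_rel (hp2 : p ≠ 2) {S : Finset Nat.Primes} (hL0 : L0.IsS S)
    {h : HomMod (GMod L0 X.R) Idele} (hh : h ∈ X.HS S) (hrel : X.Rel S h 0)
    {y : Z1 Gam (GMod L0 A)} (hy : Sha1 S y) : X.Phi hp2 h y = 0 := by
  classical
  obtain ⟨L1, F, hL1, hle1, hF, hv, hr, hb⟩ := hrel
  obtain ⟨L2, hL2, hle2, hfix, hlev⟩ := X.exists_common_level hL0 hh hy
  set L := L1.sup L2
  have hL : L.IsS S := hL1.sup hL2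
  have e1 : L.sub ≤ L1.sub := Layer.sub_le (L1.le_sup_left L2)
  have e2 : L.sub ≤ L2.sub := Layer.sub_le (L1.le_sup_right L2)
  have hle : L.sub ≤ L0.sub := e1.trans hle1
  have hy' : ∀ g, ∀ s ∈ L.sub, (y : Gam → GMod L0 A) (g * s) = (y : Gam → GMod L0 A) g :=
    fun g s hs => hlev g s (e2 hs)
  -- the principal cocycle
  let f₀ : Gam → HomMod (Pull (quotMap hle) P) (fixedPts L.sub Idele) := fun g =>
    HomMod.mk ((principal.comp (F g).hom).codRestrict (fixedPts L.sub Idele) fun y =>
      fixedPts_antitone e1 (principal_mem_fixedPts_iff.2 (hv g y).1))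
  have hinv : ∀ g, ∀ s ∈ L.sub, f₀ (g * s) = f₀ g := fun g s hs => HomMod.ext fun y =>
    Subtype.ext (congrArg (fun u : HomMod (GMod L0 P) GU => principal (u y)) (hF g s (e1 hs)))
  have hf : lvl1 L.sub f₀ ∈ Z1 (Gam ⧸ L.sub) (HomMod (Pull (quotMap hle) P)
    (fixedPts L.sub Idele)) :=
    mem_Z1_iff.2 fun a b => by
      induction a using QuotientGroup.induction_on with
      | _ g =>
        induction b using QuotientGroup.induction_on with
        | _ k =>
          rw [← QuotientGroup.mk_mul, lvl1_mk _ hinv, lvl1_mk _ hinv, lvl1_mk _ hinv]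
          have key : ∀ z : GMod L0 P, principal (F (g * k) z) =
              g • principal (F k (g⁻¹ • z)) + principal (F g z) := fun z => by
            have h1 : (0 : GU) = (g • F k) z - F (g * k) z + F g z := hb g k z
            rw [← principal_smul, ← map_add]
            refine congrArg _ ?_
            rw [HomMod.smul_apply] at h1
            linear_combination (norm := abel) h1
          exact HomMod.ext fun y => Subtype.ext (key y)
  obtain ⟨K, hK, hKu⟩ := exists_split (P := Pull (quotMap hle) P) hL (X.proj.pull (quotMap hle))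
    (fun n hn y => by
      show ((quotMap hle n : Gam ⧸ L0.sub) • (show P from y) : P) = y
      rw [show quotMap hle n = 1 from hn, one_smul]) hf
    fun q hq a γ y => (hv _ _).2.2 q hq γ
  let K' : HomMod (GMod L0 P) Idele :=
    HomMod.mk (show GMod L0 P →+ Idele from (fixedPts L.sub Idele).subtype.comp K.hom)
  have hK' : ∀ g y, principal (F g y) = g • K' (g⁻¹ • y) - K' y := fun g y => by
    have h1 := congrArg (fun u : HomMod (Pull (quotMap hle) P) (fixedPts L.sub Idele) =>
      ((u y : fixedPts L.sub Idele) : Idele)) (hK (QuotientGroup.mk g))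
    simp only [lvl1_mk _ hinv] at h1
    exact h1
  have hKc : ∀ (g : Gam) y, classMap (K' (g • y)) = g • classMap (K' y) := fun g y => by
    have h1 := congrArg classMap (hK' g (g • y))
    rw [(classMap_eq_zero_iff _).2 ⟨_, rfl⟩, inv_smul_smul, map_sub, classMap_smul] at h1
    exact (sub_eq_zero.1 h1.symm).symm
  let h0 : HomMod (GMod L0 X.R) Idele := HomMod.mk (h.hom - K'.hom.comp X.iG)
  have heq : ∀ (g : Gam) r, h0 (g • r) = g • h0 r := fun g r => by
    have h1 := hr g (g • r)
    rw [hK', HomMod.smul_apply, inv_smul_smul, ← X.iG_smul, inv_smul_smul] at h1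
    show h (g • r) - K' (X.iG (g • r)) = g • (h r - K' (X.iG r))
    rw [smul_sub]
    linear_combination (norm := abel) h1
  have hfixh : ∀ r, h0 r ∈ fixedPts L.sub Idele := fun r =>
    sub_mem (fixedPts_antitone e2 (hfix r)) (K (show Pull (quotMap hle) P from X.iG r)).2
  have hu0 : ∀ r, h0 r ∈ sIdeles S := fun r => sub_mem (hh.1 r)
    ⟨⟨L, hL, (K (show Pull (quotMap hle) P from X.iG r)).2⟩, fun q hq γ => hKu q hq γ _⟩
  have hc0 : ∀ (g : Gam) r, classMap (h0 (g • r)) = g • classMap (h0 r) := fun g r => by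
    rw [heq, classMap_smul]
  have hzero := X.nsmul_phiCls_eq_zero hL hle h0 heq hu0 hfixh hc0 y hy' hy.2
  rw [X.Phi_eq hp2 hle h hh.2 (fun r => fixedPts_antitone e2 (hfix r)) y hy']
  suffices hsuff : X.phiCls hle h hh.2 (fun r => fixedPts_antitone e2 (hfix r)) y hy' = 0 by
    rw [hsuff, coord_zero]
  refine (eq_of_sub_eq_zero ?_).trans hzero
  rw [Pres.phiCls, Pres.phiCls, ← map_sub, H2.mk_eq_zero_iff]
  refine ⟨lvl1 L.sub fun g => ⟨classMap (K' (X.sect ((y : Gam → GMod L0 A) g))),
    classMap_mem_fixedPts (K (show Pull (quotMap hle) P from X.sect _)).2⟩, fun a b => ?_⟩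
  induction a using QuotientGroup.induction_on with
  | _ g =>
    induction b using QuotientGroup.induction_on with
    | _ k =>
      have hinv1 : ∀ g, ∀ s ∈ L.sub,
          (⟨classMap (K' (X.sect ((y : Gam → GMod L0 A) (g * s)))),
            classMap_mem_fixedPts (K (show Pull (quotMap hle) P from X.sect _)).2⟩ : LayerC L) =
          ⟨classMap (K' (X.sect ((y : Gam → GMod L0 A) g))),
            classMap_mem_fixedPts (K (show Pull (quotMap hle) P from X.sect _)).2⟩ :=
        fun g s hs => Subtype.ext (by rw [hy' g s hs])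
      refine Subtype.ext ?_
      rw [← QuotientGroup.mk_mul, lvl1_mk _ hinv1, lvl1_mk _ hinv1, lvl1_mk _ hinv1]
      show ((lvl2 L.sub _ (QuotientGroup.mk g) (QuotientGroup.mk k) : LayerC L) : IdeleClass) -
        ((lvl2 L.sub _ (QuotientGroup.mk g) (QuotientGroup.mk k) : LayerC L) : IdeleClass) =
        g • classMap _ - classMap _ + classMap _
      rw [lvl2_mk _ fun g k s hs t ht => Subtype.ext
          (congrArg (fun r => classMap (h r)) (X.delta_level hle y hy' g k s hs t ht)),
        lvl2_mk _ fun g k s hs t ht => Subtype.ext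
          (congrArg (fun r => classMap (h0 r)) (X.delta_level hle y hy' g k s hs t ht))]
      show classMap (h (X.delta y g k)) -
        classMap (h (X.delta y g k) - K' (X.iG (X.delta y g k))) = _
      rw [map_sub, sub_sub_cancel, X.iG_delta, map_add K', map_sub K', map_add, map_sub, hKc]

end FLTAgent.GlobalDuality
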