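import Mathlib
import Fermat.Agent.GlobalDuality.Coord
import Fermat.Agent.GlobalDuality.LocalUnits
import Fermat.Agent.GlobalDuality.WellDefined

/-!
# The invariant of a local class of order `p`

A class of order `p` at a prime is the component of a class of ideles supported above that prime;
its invariant is the coordinate of the image in the idele classes. The coordinate of a global
class of ideles is the sum of the invariants of its components.
-/

set_option autoImplicit false

noncomputable section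

namespace FLTAgent.GlobalDuality

open FLTAgent.GalCoh FLTAgent.LocalDuality FLTAgent.IdeleClassCohomology

variable {p : ℕ} [hp : Fact p.Prime]

/-- A layer with a class supported above `q` whose component has order `p`. -/
theorem exists_testClass (hp2 : p ≠ 2) (q : Nat.Primes) :
    ∃ (K : Layer) (w : H2 (Gam ⧸ K.sub) (LayerJ K)),
      SuppClass K q w ∧ p • locRes K q w = 0 ∧ locRes K q w ≠ 0 := by
  obtain ⟨K, w, hw, hp0, hA⟩ := exists_cycClass hp2 q
  exact ⟨K, w, hw, hp0, fun h0 => hp.out.not_dvd_one (hA 1 (by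
    rw [one_smul, hw.eq_zero h0, map_zero]))⟩

/-- A layer with a test class at `q`. -/
def testLayer (hp2 : p ≠ 2) (q : Nat.Primes) : Layer :=
  (exists_testClass hp2 q).choose

seal locRes SuppClass in
theorem testLayer_spec (hp2 : p ≠ 2) (q : Nat.Primes) :
    ∃ w : H2 (Gam ⧸ (testLayer hp2 q).sub) (LayerJ (testLayer hp2 q)),
      SuppClass (testLayer hp2 q) q w ∧ p • locRes (testLayer hp2 q) q w = 0 ∧
        locRes (testLayer hp2 q) q w ≠ 0 :=
  (exists_testClass hp2 q).choose_spec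

/-- Classes of order `p` at `q` extend to classes supported above `q`. -/
theorem exists_supp (hp2 : p ≠ 2) (q : Nat.Primes) {L : Layer}
    (hK : L.sub ≤ (testLayer hp2 q).sub) {x : H2 (LocG L q) (LocU L q)} (hx : p • x = 0) :
    ∃ y, SuppClass L q y ∧ locRes L q y = x := by
  obtain ⟨w, hw, hw1, hw0⟩ := testLayer_spec hp2 q
  have hl : locSub L q ≤ locSub (testLayer hp2 q) q := fun _ h => hK h
  obtain ⟨k, hk⟩ := (isClassModule_LocU (p := p) hp2 L q).exists_eq_nsmul hx
    (b := inf2 (LU q) hl (locRes (testLayer hp2 q) q w))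
    (by rw [← map_nsmul]; exact (congrArg _ hw1).trans (map_zero _)) fun h0 => hw0
      (inf2_injective hl (subsingleton_H1_LocU L q _) (h0.trans (map_zero _).symm))
  refine ⟨k • inf2 Idele hK w, (hw.inf hK).nsmul k, ?_⟩
  rw [map_nsmul, locRes_inf2 hK q hl]
  exact hk.symm

open Classical in
/-- The invariant. -/
def locInv (hp2 : p ≠ 2) (L : Layer) (q : Nat.Primes) (x : H2 (LocG L q) (LocU L q)) : ZMod p :=
  if h : ∃ y, SuppClass (L.sup (testLayer hp2 q)) q y ∧ locRes (L.sup (testLayer hp2 q)) q y =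
      inf2 (LU q) (show locSub (L.sup (testLayer hp2 q)) q ≤ locSub L q from
        fun _ hs => Layer.sub_le (L.le_sup_left _) hs) x then
    coord hp2 (L.sup (testLayer hp2 q)) (classH2 (L.sup (testLayer hp2 q)) h.choose) else 0

theorem SuppClass.ext {L : Layer} {q : Nat.Primes} {x y : H2 (Gam ⧸ L.sub) (LayerJ L)}
    (hx : SuppClass L q x) (hy : SuppClass L q y) (h : locRes L q x = locRes L q y) : x = y :=
  sub_eq_zero.1 ((hx.sub hy).eq_zero (by rw [map_sub, h, sub_self]))

omit hp in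
theorem SuppClass.nsmul_classH2 {L : Layer} {q : Nat.Primes} {y : H2 (Gam ⧸ L.sub) (LayerJ L)}
    (hy : SuppClass L q y) (h : p • locRes L q y = 0) : p • classH2 L y = 0 := by
  rw [← map_nsmul, (hy.nsmul p).eq_zero (by rw [map_nsmul, h]), map_zero]

theorem locInv_eq (hp2 : p ≠ 2) {L M : Layer} {q : Nat.Primes} (_hLM : M.sub ≤ L.sub)
    (hl : locSub M q ≤ locSub L q) {x : H2 (LocG L q) (LocU L q)} (hx : p • x = 0)
    {y : H2 (Gam ⧸ M.sub) (LayerJ M)} (hy : SuppClass M q y)
    (hyx : locRes M q y = inf2 (LU q) hl x) : locInv hp2 L q x = coord hp2 M (classH2 M y) := by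
  classical
  set L' := L.sup (testLayer hp2 q)
  have hL' : L'.sub ≤ L.sub := Layer.sub_le (L.le_sup_left _)
  have hl' : locSub L' q ≤ locSub L q := fun _ hs => hL' hs
  have hex : ∃ y, SuppClass L' q y ∧ locRes L' q y = inf2 (LU q) hl' x :=
    exists_supp hp2 q (Layer.sub_le (L.le_sup_right _)) (by rw [← map_nsmul, hx, map_zero])
  rw [locInv, dif_pos hex]
  obtain ⟨h1, h2⟩ := hex.choose_spec
  set y' := hex.choose
  set N := L'.sup M
  have hN1 : N.sub ≤ L'.sub := Layer.sub_le (L'.le_sup_left M)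
  have hN2 : N.sub ≤ M.sub := Layer.sub_le (L'.le_sup_right M)
  have hn1 : locSub N q ≤ locSub L' q := fun _ hs => hN1 hs
  have hn2 : locSub N q ≤ locSub M q := fun _ hs => hN2 hs
  have e : inf2 Idele hN1 y' = inf2 Idele hN2 y := (h1.inf hN1).ext (hy.inf hN2) (by
    rw [locRes_inf2 hN1 q hn1, locRes_inf2 hN2 q hn2, h2, hyx, inf2_inf2, inf2_inf2])
  rw [← coord_inf hp2 hN1 (h1.nsmul_classH2 (by rw [h2, ← map_nsmul, hx, map_zero])),
    ← coord_inf hp2 hN2 (hy.nsmul_classH2 (by rw [hyx, ← map_nsmul, hx, map_zero])),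
    ← classH2_inf2, ← classH2_inf2, e]

theorem locInv_inf (hp2 : p ≠ 2) {L M : Layer} {q : Nat.Primes} (hLM : M.sub ≤ L.sub)
    (hl : locSub M q ≤ locSub L q) {x : H2 (LocG L q) (LocU L q)} (hx : p • x = 0) :
    locInv hp2 M q (inf2 (LU q) hl x) = locInv hp2 L q x := by
  set M' := M.sup (testLayer hp2 q)
  have hM' : M'.sub ≤ M.sub := Layer.sub_le (M.le_sup_left _)
  have hm : locSub M' q ≤ locSub M q := fun _ hs => hM' hs
  have hx' : p • inf2 (LU q) hl x = 0 := by rw [← map_nsmul, hx, map_zero]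
  obtain ⟨y, hy, hyx⟩ := exists_supp hp2 q (L := M') (Layer.sub_le (M.le_sup_right _))
    (x := inf2 (LU q) hm (inf2 (LU q) hl x)) (by rw [← map_nsmul, hx', map_zero])
  rw [locInv_eq hp2 hM' hm hx' hy hyx,
    locInv_eq hp2 (hM'.trans hLM) (hm.trans hl) hx hy (by rw [hyx, inf2_inf2])]

theorem locInv_add (hp2 : p ≠ 2) {L : Layer} {q : Nat.Primes} {x x' : H2 (LocG L q) (LocU L q)}
    (hx : p • x = 0) (hx' : p • x' = 0) :
    locInv hp2 L q (x + x') = locInv hp2 L q x + locInv hp2 L q x' := by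
  set M := L.sup (testLayer hp2 q)
  have hM : M.sub ≤ L.sub := Layer.sub_le (L.le_sup_left _)
  have hm : locSub M q ≤ locSub L q := fun _ hs => hM hs
  obtain ⟨y, hy, hyx⟩ := exists_supp hp2 q (L := M) (Layer.sub_le (L.le_sup_right _))
    (x := inf2 (LU q) hm x) (by rw [← map_nsmul, hx, map_zero])
  obtain ⟨y', hy', hyx'⟩ := exists_supp hp2 q (L := M) (Layer.sub_le (L.le_sup_right _))
    (x := inf2 (LU q) hm x') (by rw [← map_nsmul, hx', map_zero])
  obtain ⟨z, hz, hzx⟩ := exists_supp hp2 q (L := M) (Layer.sub_le (L.le_sup_right _))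
    (x := inf2 (LU q) hm (x + x')) (by rw [← map_nsmul, nsmul_add, hx, hx', add_zero, map_zero])
  have e : z - y = y' := (hz.sub hy).ext hy' (by rw [map_sub, hzx, hyx, hyx', map_add]; abel)
  rw [locInv_eq hp2 hM hm (by rw [nsmul_add, hx, hx', add_zero]) hz hzx,
    locInv_eq hp2 hM hm hx hy hyx, locInv_eq hp2 hM hm hx' hy' hyx',
    ← coord_add hp2 (hy.nsmul_classH2 (by rw [hyx, ← map_nsmul, hx, map_zero]))
      (hy'.nsmul_classH2 (by rw [hyx', ← map_nsmul, hx', map_zero])), ← map_add,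
    show y + y' = z by rw [← e]; abel]

theorem locInv_zero (hp2 : p ≠ 2) (L : Layer) (q : Nat.Primes) : locInv hp2 L q 0 = 0 := by
  have h := locInv_add hp2 (L := L) (q := q) (x := 0) (x' := 0) (smul_zero p) (smul_zero p)
  rw [add_zero] at h
  exact left_eq_add.1 h

theorem eq_zero_of_locInv (hp2 : p ≠ 2) {L : Layer} {q : Nat.Primes}
    {x : H2 (LocG L q) (LocU L q)} (hx : p • x = 0) (h : locInv hp2 L q x = 0) : x = 0 := by
  set M := L.sup (testLayer hp2 q)
  have hM : M.sub ≤ L.sub := Layer.sub_le (L.le_sup_left _)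
  have hm : locSub M q ≤ locSub L q := fun _ hs => hM hs
  obtain ⟨y, hy, hyx⟩ := exists_supp hp2 q (L := M) (Layer.sub_le (L.le_sup_right _))
    (x := inf2 (LU q) hm x) (by rw [← map_nsmul, hx, map_zero])
  rw [locInv_eq hp2 hM hm hx hy hyx] at h
  have hpy : p • locRes M q y = 0 := by rw [hyx, ← map_nsmul, hx, map_zero]
  have h0 := eq_zero_of_coord hp2 (hy.nsmul_classH2 hpy) h
  have h1 := locRes_eq_zero_of_classH2 hp2 (classStep hp2) M q hy hpy h0
  rw [hyx] at h1
  exact inf2_injective hm (subsingleton_H1_LocU M q _) (h1.trans (map_zero _).symm)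

/-- A layer below a layer and the test layers of finitely many primes. -/
theorem exists_layer_tests (hp2 : p ≠ 2) (L : Layer) (T : Finset Nat.Primes) :
    ∃ M : Layer, M.sub ≤ L.sub ∧ ∀ q ∈ T, M.sub ≤ (testLayer hp2 q).sub := by
  classical
  induction T using Finset.induction_on with
  | empty => exact ⟨L, le_rfl, fun q hq => absurd hq (Finset.notMem_empty q)⟩
  | insert a t ha ih =>
    obtain ⟨M, hM, hMt⟩ := ih
    refine ⟨M.sup (testLayer hp2 a), (Layer.sub_le (M.le_sup_left _)).trans hM, fun q hq => ?_⟩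
    rcases Finset.mem_insert.1 hq with rfl | hq
    · exact Layer.sub_le (M.le_sup_right _)
    · exact (Layer.sub_le (M.le_sup_left _)).trans (hMt q hq)

theorem SuppClass.locRes_of_ne {L : Layer} {q r : Nat.Primes} (hr : r ≠ q)
    {y : H2 (Gam ⧸ L.sub) (LayerJ L)} (hy : SuppClass L q y) : locRes L r y = 0 := by
  obtain ⟨c, hc, rfl⟩ := hy
  rw [locRes, H2.map_mk, ← map_zero H2.mk]
  exact congrArg H2.mk (Subtype.ext (funext fun d => funext fun d' => Subtype.ext
    ((hc (locMap L r d) (locMap L r d') r hr 1).trans rfl)))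

/-- A class of ideles whose components vanish is killed by the prime-to-`p` part of the order. -/
theorem pCompl_nsmul_eq_zero_of_locRes {L : Layer} (c : Z2 (Gam ⧸ L.sub) (LayerJ L))
    (T : Finset Nat.Primes)
    (hu : ∀ q, q ∉ T → ∀ g h σ, ((c : Gam ⧸ L.sub → Gam ⧸ L.sub → LayerJ L) g h : Idele).at q σ ∈
      unitsAt q)
    (hloc : ∀ q, locRes L q (H2.mk c) = 0) : pCompl p (Gam ⧸ L.sub) • H2.mk c = 0 := by
  classical
  obtain ⟨T₁, hT₁⟩ := L.exists_isS
  have := L.finite
  have := Fintype.ofFinite (Gam ⧸ L.sub)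
  set m := pCompl p (Gam ⧸ L.sub)
  have hc0 : ∀ q, q ∉ T → ∀ g h, evalLoc L q ((c : Gam ⧸ L.sub → Gam ⧸ L.sub → LayerJ L) g h) ∈
      LocO L q := fun q hq g h => hu q hq g h 1
  have key : ∀ q, ∃ β : LocG L q → LocU L q,
      (∀ d d', evalLoc L q (m • (c : Gam ⧸ L.sub → Gam ⧸ L.sub → LayerJ L) (locMap L q d)
        (locMap L q d')) = d • β d' - β (d * d') + β d) ∧
      (q ∉ T ∪ T₁ → ∀ d, β d ∈ LocO L q) := by
    intro q
    by_cases hq : q ∈ T ∪ T₁
    · have h := hloc q
      rw [locRes, H2.map_mk, H2.mk_eq_zero_iff] at h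
      obtain ⟨β, hβ⟩ := h
      refine ⟨fun d => m • β d, fun d d' => ?_, fun h' => absurd hq h'⟩
      rw [map_nsmul, smul_comm d m, ← nsmul_sub, ← nsmul_add]
      exact congrArg (m • ·) (hβ d d')
    · simp only [Finset.mem_union, not_or] at hq
      have := Fintype.ofFinite (LocG L q)
      let cu : Z2 (LocG L q) (LocO L q) :=
        ⟨fun d d' => ⟨evalLoc L q ((c : Gam ⧸ L.sub → Gam ⧸ L.sub → LayerJ L) (locMap L q d)
          (locMap L q d')), hc0 q hq.1 _ _⟩, fun g h j => Subtype.ext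
            ((evalLoc_compat L q).mem_Z2 c.2 g h j)⟩
      obtain ⟨m', hm'⟩ := pCompl_dvd_of_injective (p := p) (locMap_injective L q)
      have h0 : m • H2.mk cu = 0 := by
        have h1 : pCompl p (LocG L q) • H2.mk cu = 0 := by
          let eT : (⊤ : Subgroup (LocG L q)) ≃* LocG L q := Subgroup.topEquiv
          have hc' : CompatPair eT.toMonoidHom (AddMonoidHom.id (LocO L q)) := ⟨fun _ _ => rfl⟩
          refine (H2.map_bijective hc' eT.bijective Function.bijective_id).1 ?_
          rw [map_nsmul, map_zero]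
          exact pCompl_nsmul_H2_LocO (inertiaLoc_eq_bot hT₁ hq.2) _ _
        rw [show m = pCompl p (LocG L q) * m' from hm', mul_comm, mul_smul, h1, smul_zero]
      rw [← map_nsmul, H2.mk_eq_zero_iff] at h0
      obtain ⟨β, hβ⟩ := h0
      refine ⟨fun d => (β d : LocU L q), fun d d' => ?_, fun _ d => (β d).2⟩
      rw [map_nsmul]
      exact congrArg (fun u : LocO L q => (u : LocU L q)) (hβ d d')
  choose β hβ hβu using key
  obtain ⟨B, hB⟩ := exists_cobound2_idele
    (c := fun g h => m • (c : Gam ⧸ L.sub → Gam ⧸ L.sub → LayerJ L) g h)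
    (fun g h j => by
      simp only [← smul_comm m g, ← nsmul_add, mem_Z2_iff.1 c.2 g h j])
    (T ∪ T₁) β hβ hβu fun q hq g h => by
      simp only [Finset.mem_union, not_or] at hq
      rw [map_nsmul]
      exact AddSubgroup.nsmul_mem _ (hc0 q hq.1 g h) m
  rw [← map_nsmul, H2.mk_eq_zero_iff]
  exact ⟨B, hB⟩

/-- The coordinate of a class of ideles is the sum of the invariants of its components. -/
theorem coord_eq_sum_locInv (hp2 : p ≠ 2) {L : Layer} (c : Z2 (Gam ⧸ L.sub) (LayerJ L))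
    (T : Finset Nat.Primes) (hpc : p • classH2 L (H2.mk c) = 0)
    (hu : ∀ q, q ∉ T → ∀ g h σ, ((c : Gam ⧸ L.sub → Gam ⧸ L.sub → LayerJ L) g h : Idele).at q σ ∈
      unitsAt q)
    (hpl : ∀ q ∈ T, p • locRes L q (H2.mk c) = 0)
    (hloc : ∀ q, q ∉ T → locRes L q (H2.mk c) = 0) :
    coord hp2 L (classH2 L (H2.mk c)) = ∑ q ∈ T, locInv hp2 L q (locRes L q (H2.mk c)) := by
  classical
  obtain ⟨M, hM, hMt⟩ := exists_layer_tests hp2 L T
  have := M.finite
  have := Fintype.ofFinite (Gam ⧸ M.sub)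
  have hl : ∀ q, locSub M q ≤ locSub L q := fun q _ hs => hM hs
  have hex : ∀ q : T, ∃ y, SuppClass M q.1 y ∧ locRes M q.1 y =
      inf2 (LU q.1) (hl q.1) (locRes L q.1 (H2.mk c)) := fun q =>
    exists_supp hp2 q.1 (hMt q.1 q.2) (by rw [← map_nsmul, hpl q.1 q.2, map_zero])
  choose y hy hyx using hex
  have hcls : ∀ q : T, p • classH2 M (y q) = 0 := fun q => (hy q).nsmul_classH2
    (by rw [hyx, ← map_nsmul, hpl q.1 q.2, map_zero])
  choose cy hcy hcye using hy
  let C : Z2 (Gam ⧸ M.sub) (LayerJ M) :=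
    ⟨_, (inflation_compat hM).mem_Z2 c.2⟩ - ∑ q : T, cy q
  have hC : H2.mk C = inf2 Idele hM (H2.mk c) - ∑ q : T, y q := by
    rw [map_sub, map_sum, Finset.sum_congr rfl fun q _ => hcye q]
    rfl
  have hz : pCompl p (Gam ⧸ M.sub) • H2.mk C = 0 := by
    refine pCompl_nsmul_eq_zero_of_locRes C T (fun q hq g h σ => ?_) fun r => ?_
    · show (Idele.atHom q σ) (((C : Gam ⧸ M.sub → Gam ⧸ M.sub → LayerJ M) g h : LayerJ M) : Idele)
        ∈ unitsAt q
      simp only [C, AddSubgroup.coe_sub, AddSubgroup.val_finsetSum, Pi.sub_apply, Finset.sum_apply,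
        map_sub, map_sum]
      refine sub_mem (hu q hq _ _ σ) (sum_mem fun r _ => ?_)
      show (_ : Idele).at q σ ∈ _
      rw [hcy r g h q (fun e => hq (e ▸ r.2)) σ]
      exact (unitsAt q).zero_mem
    · have h1 : ∀ qq : T, r ≠ qq.1 → locRes M r (y qq) = 0 := fun qq hne =>
        SuppClass.locRes_of_ne hne ⟨cy qq, hcy qq, hcye qq⟩
      rw [hC, map_sub, map_sum, locRes_inf2 hM r (hl r), sub_eq_zero]
      by_cases hr : r ∈ T
      · refine Eq.trans ?_ (Finset.sum_eq_single (⟨r, hr⟩ : T)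
          (fun qq _ hq => h1 qq fun e => hq (Subtype.ext e.symm))
          (fun h => absurd (Finset.mem_univ _) h)).symm
        exact (hyx ⟨r, hr⟩).symm
      · refine Eq.trans ?_ (Finset.sum_eq_zero fun qq _ => h1 qq fun e => hr (e ▸ qq.2)).symm
        rw [hloc r hr, map_zero]
  have hpz : p • classH2 M (H2.mk C) = 0 := by
    rw [hC, map_sub, map_sum, nsmul_sub, classH2_inf2, ← map_nsmul, hpc, map_zero,
      Finset.smul_sum, Finset.sum_eq_zero fun q _ => hcls q, sub_zero]
  have h0 : classH2 M (H2.mk C) = 0 := by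
    have h1 : pCompl p (Gam ⧸ M.sub) • classH2 M (H2.mk C) = 0 := by
      rw [← map_nsmul, hz, map_zero]
    have hco : Nat.Coprime p (pCompl p (Gam ⧸ M.sub)) :=
      (Nat.Prime.coprime_iff_not_dvd hp.out).2 not_dvd_pCompl
    have h2 : addOrderOf (classH2 M (H2.mk C)) ∣ 1 := by
      rw [← hco.gcd_eq_one]
      exact Nat.dvd_gcd (addOrderOf_dvd_of_nsmul_eq_zero hpz) (addOrderOf_dvd_of_nsmul_eq_zero h1)
    exact AddMonoid.addOrderOf_eq_one_iff.1 (Nat.dvd_one.1 h2)
  rw [hC, map_sub, map_sum, sub_eq_zero, classH2_inf2] at h0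
  rw [← coord_inf hp2 hM hpc, h0, ← Finset.sum_coe_sort T]
  have hsum : ∀ s : Finset T, coord hp2 M (∑ q ∈ s, classH2 M (y q)) =
      ∑ q ∈ s, coord hp2 M (classH2 M (y q)) := fun s => by
    induction s using Finset.induction_on with
    | empty => simp [coord_zero]
    | insert a t ha ih =>
      rw [Finset.sum_insert ha, Finset.sum_insert ha, coord_add hp2 (hcls a) (by
        rw [Finset.smul_sum]; exact Finset.sum_eq_zero fun q _ => hcls q), ih]
  refine (hsum Finset.univ).trans ?_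
  exact Finset.sum_congr rfl fun q _ =>
    (locInv_eq hp2 hM (hl q.1) (hpl q.1 q.2) ⟨cy q, hcy q, hcye q⟩ (hyx q)).symm

end FLTAgent.GlobalDuality
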