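import Mathlib
import Fermat.Agent.GlobalDuality.LocalInv

/-!
# Invariants of local cochains

The invariant `cochainInv` of a cocycle of local units which factors through some layer, its
independence of the layer (`cochainInv_eq`), and the vanishing of unramified classes killed by `p`
(`locRes_eq_zero_of_units`).
-/

set_option autoImplicit false

noncomputable section

namespace FLTAgent.GlobalDuality

open FLTAgent.GalCoh FLTAgent.LocalDuality FLTAgent.IdeleClassCohomology

/-- A cocycle of local units which factors through a layer. -/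
structure IsLev (L : Layer) (q : Nat.Primes) (f : LGal q → LGal q → LU q) : Prop where
  inv : ∀ τ τ', ∀ s ∈ locSub L q, ∀ t ∈ locSub L q, f (τ * s) (τ' * t) = f τ τ'
  val : ∀ τ τ', f τ τ' ∈ LocU L q
  cocycle : ∀ g h j, f (g * h) j + f g h = g • f h j + f g (h * j)

variable {L : Layer} {q : Nat.Primes} {f : LGal q → LGal q → LU q}

/-- The cochain on the local group of the layer. -/
def IsLev.fn (hf : IsLev L q f) : LocG L q → LocG L q → LocU L q :=
  lvl2 (locSub L q) fun τ τ' => ⟨f τ τ', hf.val τ τ'⟩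

theorem IsLev.fn_mk (hf : IsLev L q f) (τ τ' : LGal q) :
    hf.fn (QuotientGroup.mk τ) (QuotientGroup.mk τ') = (⟨f τ τ', hf.val τ τ'⟩ : LocU L q) :=
  lvl2_mk _ (fun g k s hs t ht => Subtype.ext (hf.inv g k s hs t ht)) τ τ'

theorem IsLev.fn_mem (hf : IsLev L q f) : hf.fn ∈ Z2 (LocG L q) (LocU L q) :=
  mem_Z2_iff.2 fun a b c => by
    induction a using QuotientGroup.induction_on with
    | _ g =>
      induction b using QuotientGroup.induction_on with
      | _ h =>
        induction c using QuotientGroup.induction_on with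
        | _ j =>
          rw [← QuotientGroup.mk_mul, ← QuotientGroup.mk_mul, hf.fn_mk, hf.fn_mk, hf.fn_mk,
            hf.fn_mk]
          exact Subtype.ext (hf.cocycle g h j)

/-- The class. -/
def IsLev.cls (hf : IsLev L q f) : H2 (LocG L q) (LocU L q) := H2.mk ⟨_, hf.fn_mem⟩

theorem IsLev.mono (hf : IsLev L q f) {M : Layer} (h : locSub M q ≤ locSub L q) : IsLev M q f :=
  ⟨fun τ τ' s hs t ht => hf.inv τ τ' s (h hs) t (h ht),
    fun τ τ' => fixedPts_antitone h (hf.val τ τ'), hf.cocycle⟩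

theorem IsLev.cls_inf (hf : IsLev L q f) {M : Layer} (h : locSub M q ≤ locSub L q)
    (hf' : IsLev M q f) : inf2 (LU q) h hf.cls = hf'.cls := by
  rw [IsLev.cls, IsLev.cls, inf2, H2.map_mk]
  refine congrArg H2.mk (Subtype.ext (funext fun a => funext fun b => ?_))
  induction a using QuotientGroup.induction_on with
  | _ g =>
    induction b using QuotientGroup.induction_on with
    | _ k =>
      show fixedIncl (LU q) h (hf.fn (QuotientGroup.mk g) (QuotientGroup.mk k)) =
        hf'.fn (QuotientGroup.mk g) (QuotientGroup.mk k)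
      rw [hf.fn_mk, hf'.fn_mk]
      rfl

theorem IsLev.cls_congr {f' : LGal q → LGal q → LU q} (hf : IsLev L q f) (hf' : IsLev L q f')
    (b : LGal q → LU q) (hb : ∀ τ, ∀ s ∈ locSub L q, b (τ * s) = b τ)
    (hbv : ∀ τ, b τ ∈ LocU L q)
    (hbf : ∀ τ τ', f τ τ' = f' τ τ' + (τ • b τ' - b (τ * τ') + b τ)) : hf.cls = hf'.cls := by
  rw [IsLev.cls, IsLev.cls, ← sub_eq_zero, ← map_sub, H2.mk_eq_zero_iff]
  have hinv : ∀ τ, ∀ s ∈ locSub L q, (⟨b (τ * s), hbv _⟩ : LocU L q) = ⟨b τ, hbv _⟩ :=
    fun τ s hs => Subtype.ext (hb τ s hs)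
  refine ⟨lvl1 (locSub L q) fun τ => ⟨b τ, hbv τ⟩, fun u v => ?_⟩
  induction u using QuotientGroup.induction_on with
  | _ g =>
    induction v using QuotientGroup.induction_on with
    | _ k =>
      show hf.fn (QuotientGroup.mk g) (QuotientGroup.mk k) -
        hf'.fn (QuotientGroup.mk g) (QuotientGroup.mk k) = _
      rw [← QuotientGroup.mk_mul, hf.fn_mk, hf'.fn_mk, lvl1_mk _ hinv, lvl1_mk _ hinv,
        lvl1_mk _ hinv]
      refine Subtype.ext ?_
      show f g k - f' g k = g • b k - b (g * k) + b g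
      rw [hbf]
      abel

theorem IsLev.cls_add {f' : LGal q → LGal q → LU q} (hf : IsLev L q f) (hf' : IsLev L q f')
    (hff : IsLev L q (f + f')) : hff.cls = hf.cls + hf'.cls := by
  rw [IsLev.cls, IsLev.cls, IsLev.cls, ← map_add]
  exact congrArg H2.mk (Subtype.ext (funext fun a => funext fun b => Subtype.ext rfl))

theorem IsLev.add {f' : LGal q → LGal q → LU q} (hf : IsLev L q f) (hf' : IsLev L q f') :
    IsLev L q (f + f') :=
  ⟨fun τ τ' s hs t ht => by
      show f _ _ + f' _ _ = f τ τ' + f' τ τ'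
      rw [hf.inv τ τ' s hs t ht, hf'.inv τ τ' s hs t ht],
    fun τ τ' => add_mem (hf.val τ τ') (hf'.val τ τ'), fun g h j => by
      show f _ _ + f' _ _ + (f _ _ + f' _ _) = g • (f h j + f' h j) + (f _ _ + f' _ _)
      rw [smul_add]
      linear_combination (norm := abel) hf.cocycle g h j + hf'.cocycle g h j⟩

theorem IsLev.nsmul_cls {p : ℕ} (hf : IsLev L q f) (hp0 : ∀ τ τ', p • f τ τ' = 0) :
    p • hf.cls = 0 := by
  rw [IsLev.cls, ← map_nsmul, ← map_zero H2.mk]
  refine congrArg H2.mk (Subtype.ext (funext fun a => funext fun b => ?_))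
  induction a using QuotientGroup.induction_on with
  | _ g =>
    induction b using QuotientGroup.induction_on with
    | _ k =>
      show p • hf.fn (QuotientGroup.mk g) (QuotientGroup.mk k) = 0
      rw [hf.fn_mk]
      exact Subtype.ext (hp0 g k)

variable {p : ℕ} [hp : Fact p.Prime]

open Classical in
/-- The invariant of a cocycle. -/
def cochainInv (hp2 : p ≠ 2) (q : Nat.Primes) (f : LGal q → LGal q → LU q) : ZMod p :=
  if h : ∃ L : Layer, IsLev L q f then locInv hp2 h.choose q h.choose_spec.cls else 0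

theorem cochainInv_eq (hp2 : p ≠ 2) (hf : IsLev L q f) (hp0 : ∀ τ τ', p • f τ τ' = 0) :
    cochainInv hp2 q f = locInv hp2 L q hf.cls := by
  classical
  have h : ∃ L : Layer, IsLev L q f := ⟨L, hf⟩
  rw [cochainInv, dif_pos h]
  set L' := h.choose
  set N := L'.sup L
  have h1 : N.sub ≤ L'.sub := Layer.sub_le (L'.le_sup_left L)
  have h2 : N.sub ≤ L.sub := Layer.sub_le (L'.le_sup_right L)
  have l1 : locSub N q ≤ locSub L' q := fun _ hs => h1 hs
  have l2 : locSub N q ≤ locSub L q := fun _ hs => h2 hs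
  rw [← locInv_inf hp2 h1 l1 (h.choose_spec.nsmul_cls hp0),
    ← locInv_inf hp2 h2 l2 (hf.nsmul_cls hp0), hf.cls_inf l2 (hf.mono l2),
    h.choose_spec.cls_inf l1 (hf.mono l2)]

/-- A class unramified at `q` and killed by `p` vanishes there. -/
theorem locRes_eq_zero_of_units {S : Finset Nat.Primes} (hL : L.IsS S) (hq : q ∉ S)
    (c : Z2 (Gam ⧸ L.sub) (LayerJ L))
    (hu : ∀ g h σ, ((c : Gam ⧸ L.sub → Gam ⧸ L.sub → LayerJ L) g h : Idele).at q σ ∈ unitsAt q)
    (hpc : p • locRes L q (H2.mk c) = 0) : locRes L q (H2.mk c) = 0 := by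
  have := Fintype.ofFinite (LocG L q)
  let cu : Z2 (LocG L q) (LocO L q) :=
    ⟨fun d d' => ⟨evalLoc L q ((c : Gam ⧸ L.sub → Gam ⧸ L.sub → LayerJ L) (locMap L q d)
      (locMap L q d')), hu _ _ 1⟩, fun g h j => Subtype.ext
        ((evalLoc_compat L q).mem_Z2 c.2 g h j)⟩
  have h1 : pCompl p (LocG L q) • H2.mk cu = 0 := by
    let eT : (⊤ : Subgroup (LocG L q)) ≃* LocG L q := Subgroup.topEquiv
    have hc' : CompatPair eT.toMonoidHom (AddMonoidHom.id (LocO L q)) := ⟨fun _ _ => rfl⟩
    refine (H2.map_bijective hc' eT.bijective Function.bijective_id).1 ?_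
    rw [map_nsmul, map_zero]
    exact pCompl_nsmul_H2_LocO (inertiaLoc_eq_bot hL hq) _ _
  rw [← map_nsmul, H2.mk_eq_zero_iff] at h1
  obtain ⟨β, hβ⟩ := h1
  have h2 : pCompl p (LocG L q) • locRes L q (H2.mk c) = 0 := by
    rw [locRes, H2.map_mk, ← map_nsmul, H2.mk_eq_zero_iff]
    exact ⟨fun d => (β d : LocU L q), fun d d' =>
      congrArg (fun u : LocO L q => (u : LocU L q)) (hβ d d')⟩
  have hco : Nat.Coprime p (pCompl p (LocG L q)) :=
    (Nat.Prime.coprime_iff_not_dvd hp.out).2 not_dvd_pCompl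
  have h3 : addOrderOf (locRes L q (H2.mk c)) ∣ 1 := by
    rw [← hco.gcd_eq_one]
    exact Nat.dvd_gcd (addOrderOf_dvd_of_nsmul_eq_zero hpc) (addOrderOf_dvd_of_nsmul_eq_zero h2)
  exact AddMonoid.addOrderOf_eq_one_iff.1 (Nat.dvd_one.1 h3)

end FLTAgent.GlobalDuality
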