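import Mathlib
import Fermat.Agent.GlobalDuality.Setting
import Fermat.Agent.LocalDuality.Kummer
import Fermat.Agent.GlobalDuality.Roots

/-!
# Classes of the dual module attached to maps into idele classes

A map of relations into `S`-ideles with equivariant classes lifts, through roots of `S`-units, to
a class in degree two of the dual module which is trivial at every prime of `S`.
-/

set_option autoImplicit false

noncomputable section

namespace FLTAgent.GlobalDuality

open FLTAgent.GalCoh FLTAgent.LocalDuality FLTAgent.IdeleClassCohomology ExtCitation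

/-- The embedding of global units in local units at the base place. -/
def embU (q : Nat.Primes) : GU →+ LU q := principalAt q 1

theorem at_principal_embU (q : Nat.Primes) (a : GU) : (principal a).at q 1 = embU q a := rfl

theorem val_embU (q : Nat.Primes) (a : GU) : (embU q a).val = emb q a.val := rfl

theorem embU_loc_smul (q : Nat.Primes) (τ : LGal q) (a : GU) :
    embU q (loc q τ • a) = τ • embU q a :=
  LU.ext (padicEmbedding_localGaloisToGlobal (q : ℕ) τ a.val)

theorem embU_injective (q : Nat.Primes) : Function.Injective (embU q) := fun _ _ h =>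
  GU.ext ((emb q).injective (congrArg LU.val h))

theorem exists_root_LU {p : ℕ} [hp : Fact p.Prime] {q : Nat.Primes} (w : LU q) :
    ∃ v : LU q, p • v = w := by
  obtain ⟨z, hz⟩ := IsAlgClosed.exists_pow_nat_eq w.val hp.out.pos
  have hz0 : z ≠ 0 := fun h => Units.ne_zero w.toMul (by
    show w.val = 0
    rw [← hz, h, zero_pow hp.out.ne_zero])
  refine ⟨Additive.ofMul (Units.mk0 z hz0), LU.ext ?_⟩
  show ((Units.mk0 z hz0 ^ p : (PadicAlgCl (q : ℕ))ˣ) : PadicAlgCl (q : ℕ)) = _
  rw [Units.val_pow_eq_pow_val]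
  exact hz

theorem exists_embU_eq {p : ℕ} [hp : Fact p.Prime] {q : Nat.Primes} {w : LU q} (hw : p • w = 0) :
    ∃ a : GU, p • a = 0 ∧ embU q a = w := by
  have : NeZero p := ⟨hp.out.ne_zero⟩
  obtain ⟨ζ, hζ⟩ := HasEnoughRootsOfUnity.exists_primitiveRoot QQbar p
  have hz : w.val ^ p = 1 := by
    have h := congrArg LU.val hw
    rwa [LU.val_nsmul, LU.val_zero] at h
  obtain ⟨i, -, hi⟩ :=
    (hζ.map_of_injective (f := emb q) (emb q).injective).eq_pow_of_pow_eq_one hz
  refine ⟨Additive.ofMul (Units.mk0 (ζ ^ i) (pow_ne_zero i (hζ.ne_zero hp.out.ne_zero))),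
    GU.ext ?_, LU.ext ?_⟩
  · show
      (((Units.mk0 (ζ ^ i) (pow_ne_zero _ (hζ.ne_zero hp.out.ne_zero))) ^ p : QQbarˣ) : QQbar) = 1
    rw [Units.val_pow_eq_pow_val, Units.val_mk0, ← pow_mul, mul_comm, pow_mul, hζ.pow_eq_one,
      one_pow]
  · show emb q (ζ ^ i) = w.val
    rw [map_pow]
    exact hi

/-- Finitely many local units are fixed by the local group of a layer. -/
theorem exists_layer_fix_LU {q : Nat.Primes} {ι : Type} [Finite ι] (w : ι → LU q) :
    ∃ M : Layer, ∀ s, loc q s ∈ M.sub → ∀ i, s • w i = w i := by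
  obtain ⟨F, hF, hfix⟩ := exists_level_fix (MonoidHom.id (LGal q))
    (Set.finite_range fun i => (w i).val)
  have := hF
  obtain ⟨M, hM⟩ := Layer.exists_ge F
  exact ⟨M, fun s hs i => LU.ext (hfix s ((IntermediateField.mem_fixingSubgroup_iff _ _).2
    fun x hx => (IntermediateField.mem_fixingSubgroup_iff _ _).1 hs x (hM hx)) _ ⟨i, rfl⟩)⟩

/-- Finitely many `S`-units lie in one layer. -/
theorem exists_layer_units {S : Finset Nat.Primes} {L0 : Layer} (hL0 : L0.IsS S) {ι : Type}
    (s : Finset ι) (x : ι → GU) (hx : ∀ i ∈ s, x i ∈ sUnits S) :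
    ∃ L : Layer, L.IsS S ∧ L.sub ≤ L0.sub ∧ ∀ i ∈ s, x i ∈ fixedPts L.sub GU := by
  have := L0.finite
  have := Fintype.ofFinite (Gam ⧸ L0.sub)
  obtain ⟨L, hL, hle, h⟩ := exists_common_layer hL0 s (fun i => principal (x i)) hx
  exact ⟨L, hL, hle, fun i hi => principal_mem_fixedPts_iff.1 (h i hi)⟩

variable {p : ℕ} [hp : Fact p.Prime] {L0 : Layer} [Fintype (Gam ⧸ L0.sub)] {P A : Type}
  [AddCommGroup P] [DistribMulAction (Gam ⧸ L0.sub) P] [AddCommGroup A]
  [DistribMulAction (Gam ⧸ L0.sub) A] (X : Pres p L0 P A)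

/-- A map killing the relations descends. -/
def Pres.desc {W : Type} [AddCommGroup W] (f : GMod L0 P →+ W) (hf : ∀ r, f (X.iG r) = 0) :
    HomMod (GMod L0 A) W :=
  HomMod.mk (AddMonoidHom.liftOfSurjective X.qG X.qG_surjective ⟨f, fun y hy => by
    obtain ⟨r, rfl⟩ := X.exists_iG_eq (AddMonoidHom.mem_ker.1 hy)
    exact AddMonoidHom.mem_ker.2 (hf r)⟩)

omit hp in
theorem Pres.desc_qG {W : Type} [AddCommGroup W] (f : GMod L0 P →+ W) (hf : ∀ r, f (X.iG r) = 0)
    (y : GMod L0 P) : X.desc f hf (X.qG y) = f y :=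
  AddMonoidHom.liftOfRightInverse_comp_apply _ _ _ _ y

omit hp in
theorem Pres.homMod_ext {W : Type} [AddCommGroup W] {f f' : HomMod (GMod L0 A) W}
    (h : ∀ y, f (X.qG y) = f' (X.qG y)) : f = f' := HomMod.ext fun a => by
  obtain ⟨y, rfl⟩ := X.qG_surjective a
  exact h y

include X in
omit hp in
theorem Pres.nsmul_hom {W : Type} [AddCommGroup W] (f : HomMod (GMod L0 A) W) : p • f = 0 :=
  HomMod.ext fun a => by
    show p • f a = 0
    rw [← map_nsmul, show p • a = 0 from X.torsion a, map_zero]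

variable {S : Finset Nat.Primes}

omit hp in
theorem Pres.Rel.add {h h' : HomMod (GMod L0 X.R) Idele}
    {b b' : Gam → Gam → HomMod (GMod L0 A) GU} (H : X.Rel S h b) (H' : X.Rel S h' b') :
    X.Rel S (h + h') (b + b') := by
  obtain ⟨L, F, hL, hle, hF, hv, hr, hb⟩ := H
  obtain ⟨L', F', hL', hle', hF', hv', hr', hb'⟩ := H'
  have e1 : (L.sup L').sub ≤ L.sub := Layer.sub_le (L.le_sup_left L')
  have e2 : (L.sup L').sub ≤ L'.sub := Layer.sub_le (L.le_sup_right L')
  refine ⟨L.sup L', F + F', hL.sup hL', e1.trans hle, fun g s hs => ?_, fun g y => ?_,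
    fun g r => ?_, fun g k y => ?_⟩
  · show F (g * s) + F' (g * s) = F g + F' g
    rw [hF g s (e1 hs), hF' g s (e2 hs)]
  · exact ⟨add_mem (fixedPts_antitone e1 (hv g y).1) (fixedPts_antitone e2 (hv' g y).1),
      add_mem (hv g y).2 (hv' g y).2⟩
  · show principal (F g (X.iG r) + F' g (X.iG r)) = (g • (h + h')) r - (h r + h' r)
    rw [map_add, hr, hr', smul_add, HomMod.add_apply]
    abel
  · show b g k (X.qG y) + b' g k (X.qG y) =
      (g • (F k + F' k)) y - (F (g * k) y + F' (g * k) y) + (F g y + F' g y)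
    rw [hb, hb', smul_add, HomMod.add_apply]
    abel

omit hp in
theorem Pres.Rel.nsmul {h : HomMod (GMod L0 X.R) Idele}
    {b : Gam → Gam → HomMod (GMod L0 A) GU} (H : X.Rel S h b) (m : ℕ) :
    X.Rel S (m • h) (m • b) := by
  induction m with
  | zero =>
    obtain ⟨L, F, hL, hle, -⟩ := H
    refine ⟨L, 0, hL, hle, fun g s hs => rfl, fun g y => ⟨zero_mem _, zero_mem _⟩, fun g r => ?_,
      fun g k y => ?_⟩
    · rw [zero_nsmul, smul_zero, HomMod.zero_apply, sub_zero]
      exact map_zero principal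
    · rw [zero_nsmul]
      show (0 : GU) = (g • (0 : HomMod (GMod L0 P) GU)) y - 0 + 0
      rw [smul_zero, HomMod.zero_apply, sub_zero, add_zero]
  | succ n ih =>
    rw [succ_nsmul, succ_nsmul]
    exact ih.add X H

omit hp in
/-- The same map can be lifted to a cohomologous class. -/
theorem Pres.Rel.add_cobound {h : HomMod (GMod L0 X.R) Idele}
    {b : Gam → Gam → HomMod (GMod L0 A) GU} (H : X.Rel S h b) {L : Layer} (hL : L.IsS S)
    (e : Gam → HomMod (GMod L0 A) GU) (he : ∀ g, ∀ s ∈ L.sub, e (g * s) = e g)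
    (hev : ∀ g a, e g a ∈ fixedPts L.sub GU) (heu : ∀ g a, e g a ∈ sUnits S) :
    X.Rel S h (fun g k => b g k + (g • e k - e (g * k) + e g)) := by
  obtain ⟨L', F, hL', hle, hF, hv, hr, hb⟩ := H
  have e1 : (L'.sup L).sub ≤ L'.sub := Layer.sub_le (L'.le_sup_left L)
  have e2 : (L'.sup L).sub ≤ L.sub := Layer.sub_le (L'.le_sup_right L)
  refine ⟨L'.sup L, fun g => HomMod.mk ((F g).hom + (e g).hom.comp X.qG), hL'.sup hL,
    e1.trans hle, fun g s hs => by simp only [hF g s (e1 hs), he g s (e2 hs)], fun g y => ?_,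
    fun g r => ?_, fun g k y => ?_⟩
  · exact ⟨add_mem (fixedPts_antitone e1 (hv g y).1) (fixedPts_antitone e2 (hev g _)),
      add_mem (hv g y).2 (heu g _)⟩
  · show principal (F g (X.iG r) + e g (X.qG (X.iG r))) = _
    rw [X.qG_iG, map_zero, add_zero, hr]
  · show b g k (X.qG y) + ((g • e k) (X.qG y) - e (g * k) (X.qG y) + e g (X.qG y)) =
      g • (F k (g⁻¹ • y) + e k (X.qG (g⁻¹ • y))) - (F (g * k) y + e (g * k) (X.qG y)) +
        (F g y + e g (X.qG y))
    rw [hb, HomMod.smul_apply, HomMod.smul_apply, X.qG_smul, smul_add]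
    abel

variable [Module.Free ℤ P] [Module.Finite ℤ P]

/-- The lift of a map: roots of the principal parts of `g • h - h`. -/
theorem Pres.exists_lift (hpS : pPrime p ∈ S) (hL0 : L0.IsS S)
    {h : HomMod (GMod L0 X.R) Idele} (hh : h ∈ X.HS S) :
    ∃ (L : Layer) (F : Gam → HomMod (GMod L0 P) GU), L.IsS S ∧ L.sub ≤ L0.sub ∧
      (∀ r, h r ∈ fixedPts L.sub Idele) ∧ (∀ g, ∀ s ∈ L.sub, F (g * s) = F g) ∧
      (∀ g y, F g y ∈ fixedPts L.sub GU ∧ F g y ∈ sUnits S) ∧
      ∀ g r, principal (F g (X.iG r)) = (g • h) r - h r := by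
  classical
  obtain ⟨L, hL, hle, hfix⟩ := exists_layer_values (R := GMod L0 X.R) hL0 h.hom hh.1
  have hlev : ∀ (g : Gam), ∀ s ∈ L.sub, (g * s) • h = g • h := fun g s hs => HomMod.ext fun r => by
    rw [HomMod.smul_apply, HomMod.smul_apply, mul_inv_rev, mul_smul s⁻¹,
      smul_GMod_of_mem (inv_mem (hle hs)), mul_smul]
    exact congrArg (g • ·) (hfix _ s hs)
  have hex : ∀ (g : Gam) r, ∃ a : sUnits S, principal (a : GU) = (g • h) r - h r := fun g r => by
    have h0 : classMap ((g • h) r - h r) = 0 := by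
      rw [map_sub, HomMod.smul_apply, classMap_smul, ← hh.2, smul_inv_smul, sub_self]
    obtain ⟨a, ha⟩ := (classMap_eq_zero_iff _).1 h0
    refine ⟨⟨a, ?_⟩, ha⟩
    rw [mem_sUnits_iff, ha, HomMod.smul_apply]
    exact sub_mem (smul_mem_sIdeles S g (hh.1 _)) (hh.1 _)
  choose u hu using hex
  let uh : Gam → (GMod L0 X.R →+ sUnits S) := fun g => AddMonoidHom.mk' (fun r => u g r) fun r r' =>
    Subtype.ext (principal_injective (by
      show principal ((u g (r + r') : sUnits S) : GU) =
          principal ((u g r : sUnits S) + (u g r' : sUnits S) : sUnits S)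
      rw [AddSubgroup.coe_add, map_add, hu, hu, hu, map_add, map_add]
      abel))
  have hext : ∀ g, ∃ E : P →+ sUnits S, ∀ r : X.R, E r = uh g r := fun g =>
    exists_extend_root (p := p) X.R X.nsmul_mem (fun w => by
      obtain ⟨v, hv, hvw⟩ := sUnits_exists_root hpS w.2
      exact ⟨⟨v, hv⟩, Subtype.ext hvw⟩) (uh g)
  choose E hE using hext
  have := L.finite
  have : Fintype (Gam ⧸ L.sub) := Fintype.ofFinite _
  let bb := Module.Free.chooseBasis ℤ P
  obtain ⟨L', hL', hle', hfix'⟩ := exists_layer_units (S := S) hL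
    (Finset.univ : Finset ((Gam ⧸ L.sub) × _)) (fun i => (E i.1.out (bb i.2) : GU))
    fun i _ => (E i.1.out (bb i.2)).2
  refine ⟨L', fun g => HomMod.mk ((sUnits S).subtype.comp
    (E (QuotientGroup.mk g : Gam ⧸ L.sub).out)),
    hL', hle'.trans hle, fun r => fixedPts_antitone hle' (hfix r), fun g s hs => ?_,
    fun g y => ⟨?_, (E _ (show P from y)).2⟩, fun g r => ?_⟩
  · show HomMod.mk ((sUnits S).subtype.comp (E (QuotientGroup.mk (g * s) : Gam ⧸ L.sub).out)) = _
    rw [QuotientGroup.mk_mul_of_mem g (hle' hs)]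
    rfl
  · show ((E _ (show P from y) : sUnits S) : GU) ∈ fixedPts L'.sub GU
    rw [← bb.sum_repr (show P from y), map_sum, AddSubgroup.val_finsetSum]
    exact sum_mem fun j _ => by
      rw [map_zsmul, AddSubgroup.coe_zsmul]
      exact zsmul_mem (hfix' (_, j) (Finset.mem_univ _)) _
  · obtain ⟨s, hs⟩ := QuotientGroup.mk_out_eq_mul L.sub g
    show principal
      ((E (QuotientGroup.mk g : Gam ⧸ L.sub).out (show X.R from r).1 : sUnits S) : GU) = _
    rw [hE]
    show principal ((u (QuotientGroup.mk g : Gam ⧸ L.sub).out r : sUnits S) : GU) = _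
    rw [hu, hs, hlev g s s.2]

/-- Every map of relations into `S`-ideles with equivariant classes has a class trivial at `S`. -/
theorem Pres.exists_rel (hpS : pPrime p ∈ S) (hL0 : L0.IsS S)
    {h : HomMod (GMod L0 X.R) Idele} (hh : h ∈ X.HS S) :
    ∃ b : Gam → Gam → HomMod (GMod L0 A) GU, X.Rel S h b ∧ Sha2 S b := by
  classical
  obtain ⟨L, F, hL, hle, hfix, hF, hv, hr⟩ := X.exists_lift hpS hL0 hh
  let dF : Gam → Gam → HomMod (GMod L0 P) GU := fun g k => g • F k - F (g * k) + F g
  have hdF : ∀ g k r, dF g k (X.iG r) = 0 := fun g k r => principal_injective (by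
    show principal ((g • F k) (X.iG r) - F (g * k) (X.iG r) + F g (X.iG r)) = principal 0
    rw [map_add, map_sub, map_zero, HomMod.smul_apply, principal_smul, ← X.iG_smul, hr, hr, hr,
      smul_sub, mul_smul g k h, HomMod.smul_apply g h, HomMod.smul_apply g (k • h)]
    abel)
  let b : Gam → Gam → HomMod (GMod L0 A) GU := fun g k => X.desc (dF g k).hom (hdF g k)
  have hb : ∀ g k y, b g k (X.qG y) = dF g k y := fun g k y => X.desc_qG _ _ y
  refine ⟨b, ⟨L, F, hL, hle, hF, hv, hr, hb⟩, mem_Z2_iff.2 fun g k j => X.homMod_ext fun y => ?_,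
    ⟨L, hL, fun g k s hs t ht => X.homMod_ext fun y => ?_⟩, fun q hq => ?_⟩
  · rw [HomMod.add_apply, HomMod.add_apply, HomMod.smul_apply, ← X.qG_smul, hb, hb, hb, hb]
    simp only [dF, HomMod.add_apply, HomMod.sub_apply, HomMod.smul_apply, smul_add, smul_sub,
      mul_assoc, mul_smul]
    abel
  · rw [hb, hb]
    simp only [dF, HomMod.add_apply, HomMod.sub_apply, HomMod.smul_apply]
    rw [hF k t ht, hF g s hs, show g * s * (k * t) = g * k * (k⁻¹ * s * k * t) by group,
      hF _ _ (mul_mem (by simpa using L.sub_normal.conj_mem s hs k⁻¹) ht),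
      mul_inv_rev, mul_smul s⁻¹, smul_GMod_of_mem (inv_mem (hle hs)), mul_smul g s,
      (hv k (g⁻¹ • y)).1 s hs]
  · let hq' : X.R →+ LU q := (Idele.atHom q 1).comp h.hom
    obtain ⟨H, hH⟩ := exists_extend_root (p := p) X.R X.nsmul_mem (fun w => exists_root_LU w) hq'
    have hH' : ∀ r, H (show P from X.iG r) = (h r).at q 1 := fun r => hH r
    let xl : LGal q → GMod L0 P → LU q := fun τ y =>
      embU q (F (loc q τ) y) - (τ • H (show P from (loc q τ)⁻¹ • y) - H (show P from y))
    have hkill : ∀ τ r, xl τ (X.iG r) = 0 := fun τ r => by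
      simp only [xl]
      rw [← X.iG_smul, hH', hH', ← at_principal_embU, hr, sub_eq_zero, Idele.at_sub,
        HomMod.smul_apply, Idele.at_smul, one_mul, ← Idele.at_loc_mul, mul_one]
    have hadd : ∀ τ y y', xl τ (y + y') = xl τ y + xl τ y' := fun τ y y' => by
      simp only [xl]
      rw [map_add, map_add, smul_add]
      show _ - (τ • H ((show P from (loc q τ)⁻¹ • y) + (show P from (loc q τ)⁻¹ • y')) -
        H ((show P from y) + (show P from y'))) = _
      rw [map_add, map_add, smul_add]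
      abel
    have htor : ∀ τ (a : GMod L0 A),
        p • X.desc (AddMonoidHom.mk' (xl τ) (hadd τ)) (hkill τ) a = 0 := fun τ a => by
      rw [← map_nsmul, show p • a = 0 from X.torsion a, map_zero]
    choose x hx1 hx2 using fun τ a => exists_embU_eq (htor τ a)
    let xh : LGal q → HomMod (GMod L0 A) GU := fun τ => HomMod.mk (AddMonoidHom.mk' (x τ)
      fun a a' => embU_injective q (by rw [map_add, hx2, hx2, hx2, map_add]))
    have hxh : ∀ τ y, embU q (xh τ (X.qG y)) = xl τ y := fun τ y =>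
      (hx2 τ _).trans (X.desc_qG (AddMonoidHom.mk' (xl τ) (hadd τ)) (hkill τ) y)
    let bb := Module.Free.chooseBasis ℤ P
    obtain ⟨M, hM⟩ := exists_layer_fix_LU fun j => H (bb j)
    have hMH : ∀ s, loc q s ∈ M.sub → ∀ y : P, s • H y = H y := fun s hs y => by
      rw [← bb.sum_repr y, map_sum, Finset.smul_sum]
      exact Finset.sum_congr rfl fun j _ => by rw [map_zsmul, smul_comm, hM s hs j]
    refine ⟨M.sup L, xh, fun τ s hs => X.homMod_ext fun y => embU_injective q ?_,
      fun τ τ' => X.homMod_ext fun y => embU_injective q ?_⟩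
    · have hsL : loc q s ∈ L.sub := Layer.sub_le (M.le_sup_right L) hs
      rw [hxh, hxh]
      simp only [xl, map_mul, mul_inv_rev]
      rw [hF _ _ hsL, mul_smul (loc q s)⁻¹, smul_GMod_of_mem (inv_mem (hle hsL)), mul_smul τ s,
        show s • H (show P from (loc q τ)⁻¹ • y) = H (show P from (loc q τ)⁻¹ • y) from
          hMH s (Layer.sub_le (M.le_sup_left L) hs) _]
    · rw [HomMod.add_apply, HomMod.sub_apply, HomMod.smul_apply, map_add, map_sub, embU_loc_smul,
        ← X.qG_smul, hxh, hxh, hxh, hb]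
      show embU q ((loc q τ • F (loc q τ')) y - F (loc q τ * loc q τ') y + F (loc q τ) y) = _
      simp only [xl, map_mul, mul_inv_rev, map_add, map_sub, HomMod.smul_apply, embU_loc_smul,
        smul_sub, mul_smul]
      abel

end FLTAgent.GlobalDuality
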