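import Mathlib
import Fermat.Agent.GlobalDuality.Setting
import Fermat.Agent.IdeleClassCohomology.ClassKill

/-!
# Nondegeneracy on classes in degree one

A class trivial at `S` which is not a coboundary pairs nontrivially with some map of relations.
-/

set_option autoImplicit false

noncomputable section

namespace FLTAgent.GlobalDuality

open FLTAgent.GalCoh FLTAgent.LocalDuality FLTAgent.IdeleClassCohomology ExtCitation

variable {p : ℕ} [hp : Fact p.Prime]

/-- A map into idele classes lifts to `S`-ideles of a bigger layer, up to a factor prime to `p`. -/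
theorem exists_class_lift {S : Finset Nat.Primes} (hpS : pPrime p ∈ S) {L : Layer} (hL : L.IsS S)
    {R : Type} [AddCommGroup R] [Module.Free ℤ R] [Module.Finite ℤ R] (φ : R →+ IdeleClass)
    (hφ : ∀ r, φ r ∈ fixedPts L.sub IdeleClass) :
    ∃ (m : ℕ) (L' : Layer) (h : R →+ Idele), ¬p ∣ m ∧ L'.IsS S ∧ L'.sub ≤ L.sub ∧
      (∀ r, h r ∈ sIdeles S) ∧ (∀ r, h r ∈ fixedPts L'.sub Idele) ∧
      ∀ r, classMap (h r) = m • φ r := by
  classical
  let bb := Module.Free.chooseBasis ℤ R
  choose x hx hxc using fun j => exists_idele_lift L.sub (hφ (bb j))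
  choose mj Lj aj hmj hLj hLjS haj huj hfj hsj using fun j => exists_class_kill hL hpS (hx j)
  have := L.finite
  have := Fintype.ofFinite (Gam ⧸ L.sub)
  obtain ⟨L', hL', hle', hfix⟩ := exists_common_layer hL Finset.univ
    (fun j => mj j • x j - principal (aj j)) fun j _ => hsj j
  let w : _ → Idele := fun j =>
    (∏ i ∈ Finset.univ.erase j, mj i) • (mj j • x j - principal (aj j))
  refine ⟨∏ j, mj j, L', (bb.constr ℕ w).toAddMonoidHom,
    fun h => by
      obtain ⟨j, -, hj⟩ := hp.out.prime.exists_mem_finset_dvd h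
      exact hmj j hj,
    hL', hle', fun r => ?_, fun r => ?_, fun r => ?_⟩
  · show (bb.constr ℕ w) r ∈ sIdeles S
    rw [← bb.sum_repr r, map_sum]
    exact sum_mem fun j _ => by
      rw [map_zsmul, bb.constr_basis]
      exact zsmul_mem (nsmul_mem (hsj j) _) _
  · show (bb.constr ℕ w) r ∈ fixedPts L'.sub Idele
    rw [← bb.sum_repr r, map_sum]
    exact sum_mem fun j _ => by
      rw [map_zsmul, bb.constr_basis]
      exact zsmul_mem (nsmul_mem (hfix j (Finset.mem_univ j)) _) _
  · refine DFunLike.congr_fun (f := (classMap.comp (bb.constr ℕ w).toAddMonoidHom).toIntLinearMap)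
      (g := ((∏ j, mj j) • φ).toIntLinearMap) (bb.ext fun j => ?_) r
    show classMap ((bb.constr ℕ w) (bb j)) = (∏ j, mj j) • φ (bb j)
    rw [bb.constr_basis, map_nsmul, map_sub, map_nsmul, (classMap_eq_zero_iff _).2 ⟨_, rfl⟩,
      sub_zero, hxc, ← mul_smul, Finset.prod_erase_mul _ _ (Finset.mem_univ j)]

/-- A cocycle of a finite group with values in a torsion-free module vanishes at the elements
acting trivially. -/
theorem Z1_eq_zero_of_acts_trivially {G M : Type*} [Group G] [Finite G] [AddCommGroup M]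
    [DistribMulAction G M] [Module.IsTorsionFree ℤ M] {ψ : G → M} (hψ : ψ ∈ Z1 G M) {n : G}
    (htriv : ∀ z : M, n • z = z) : ψ n = 0 := by
  have hpow : ∀ i : ℕ, ψ (n ^ i) = i • ψ n := by
    intro i
    induction i with
    | zero => rw [pow_zero, zero_nsmul, Z1_one hψ]
    | succ i ih => rw [pow_succ', mem_Z1_iff.1 hψ, htriv, ih, succ_nsmul]
  have h1 := hpow (orderOf n)
  rw [pow_orderOf_eq_one, Z1_one hψ] at h1
  exact (smul_eq_zero.1 ((natCast_zsmul (ψ n) (orderOf n)).trans h1.symm)).resolve_left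
    (Int.natCast_ne_zero.2 (orderOf_pos n).ne')

variable {L0 : Layer} [Fintype (Gam ⧸ L0.sub)] {P A : Type}
  [AddCommGroup P] [DistribMulAction (Gam ⧸ L0.sub) P] [AddCommGroup A]
  [DistribMulAction (Gam ⧸ L0.sub) A] (X : Pres p L0 P A)

/-- The connecting cochain seen in a layer. -/
def Pres.deltaL {L : Layer} (hle : L.sub ≤ L0.sub) (y : Z1 Gam (GMod L0 A)) (g k : Gam) :
    Pull (quotMap hle) X.R := X.delta y g k

omit hp in
theorem Pres.deltaL_level {L : Layer} (hle : L.sub ≤ L0.sub) (y : Z1 Gam (GMod L0 A))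
    (hy : ∀ g, ∀ s ∈ L.sub, (y : Gam → GMod L0 A) (g * s) = (y : Gam → GMod L0 A) g)
    (g k : Gam) (s : Gam) (hs : s ∈ L.sub) (t : Gam) (ht : t ∈ L.sub) :
    X.deltaL hle y (g * s) (k * t) = X.deltaL hle y g k :=
  X.delta_level hle y hy g k s hs t ht

omit hp in
/-- The connecting class of a cocycle in a layer. -/
theorem Pres.deltaFun_mem {L : Layer} (hle : L.sub ≤ L0.sub) (y : Z1 Gam (GMod L0 A))
    (hy : ∀ g, ∀ s ∈ L.sub, (y : Gam → GMod L0 A) (g * s) = (y : Gam → GMod L0 A) g) :
    lvl2 L.sub (X.deltaL hle y) ∈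
      Z2 (Gam ⧸ L.sub) (Pull (quotMap hle) X.R) := by
  refine mem_Z2_iff.2 fun a b c => ?_
  induction a using QuotientGroup.induction_on with
  | _ g =>
    induction b using QuotientGroup.induction_on with
    | _ k =>
      induction c using QuotientGroup.induction_on with
      | _ j =>
        have hinv := X.deltaL_level hle y hy
        rw [← QuotientGroup.mk_mul, ← QuotientGroup.mk_mul, lvl2_mk _ hinv, lvl2_mk _ hinv,
          lvl2_mk _ hinv, lvl2_mk _ hinv]
        exact X.delta_cocycle y g k j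

/-- The connecting class. -/
def Pres.deltaCls {L : Layer} (hle : L.sub ≤ L0.sub) (y : Z1 Gam (GMod L0 A))
    (hy : ∀ g, ∀ s ∈ L.sub, (y : Gam → GMod L0 A) (g * s) = (y : Gam → GMod L0 A) g) :
    H2 (Gam ⧸ L.sub) (Pull (quotMap hle) X.R) :=
  H2.mk ⟨_, X.deltaFun_mem hle y hy⟩

omit hp in
theorem Pres.nsmul_deltaCls {L : Layer} (hle : L.sub ≤ L0.sub) (y : Z1 Gam (GMod L0 A))
    (hy : ∀ g, ∀ s ∈ L.sub, (y : Gam → GMod L0 A) (g * s) = (y : Gam → GMod L0 A) g) :
    p • X.deltaCls hle y hy = 0 := by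
  rw [Pres.deltaCls, ← map_nsmul, H2.mk_eq_zero_iff]
  have hinv1 : ∀ g, ∀ s ∈ L.sub,
      (show Pull (quotMap hle) X.R from
        (⟨p • (show P from X.sect ((y : Gam → GMod L0 A) (g * s))), X.nsmul_mem _⟩ : X.R)) =
      (⟨p • (show P from X.sect ((y : Gam → GMod L0 A) g)), X.nsmul_mem _⟩ : X.R) :=
    fun g s hs => Subtype.ext (by
      show p • (show P from X.sect _) = p • (show P from X.sect _)
      rw [hy g s hs])
  refine ⟨lvl1 L.sub fun g => (show Pull (quotMap hle) X.R from
    (⟨p • (show P from X.sect ((y : Gam → GMod L0 A) g)), X.nsmul_mem _⟩ : X.R)), fun a b => ?_⟩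
  induction a using QuotientGroup.induction_on with
  | _ g =>
    induction b using QuotientGroup.induction_on with
    | _ k =>
      rw [← QuotientGroup.mk_mul, lvl1_mk _ hinv1, lvl1_mk _ hinv1, lvl1_mk _ hinv1]
      show p • lvl2 L.sub (X.deltaL hle y) (QuotientGroup.mk g) (QuotientGroup.mk k) = _
      rw [lvl2_mk _ (X.deltaL_level hle y hy)]
      refine X.iG_injective ?_
      show X.iG (p • X.delta y g k) = g • (p • X.sect _) - p • X.sect _ + p • X.sect _
      rw [map_nsmul, X.iG_delta, smul_comm g p, nsmul_add, nsmul_sub]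

variable [Module.Free ℤ P] [Module.Finite ℤ P]

omit [Module.Finite ℤ P] hp in
/-- The connecting class of a class which is not a coboundary is nonzero. -/
theorem Pres.deltaCls_ne_zero {L : Layer} (hle : L.sub ≤ L0.sub) (y : Z1 Gam (GMod L0 A))
    (hy : ∀ g, ∀ s ∈ L.sub, (y : Gam → GMod L0 A) (g * s) = (y : Gam → GMod L0 A) g)
    (hne : ∀ a : GMod L0 A, ∃ g, (y : Gam → GMod L0 A) g ≠ g • a - a) :
    X.deltaCls hle y hy ≠ 0 := fun h0 => by
  rw [Pres.deltaCls, H2.mk_eq_zero_iff] at h0
  obtain ⟨e, he⟩ := h0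
  let η : Gam → GMod L0 P := fun g =>
    X.sect ((y : Gam → GMod L0 A) g) - X.iG (show GMod L0 X.R from e (QuotientGroup.mk g))
  have hη : ∀ g k, η (g * k) = g • η k + η g := fun g k => by
    have h1 : (show GMod L0 X.R from X.delta y g k) =
        g • (show GMod L0 X.R from e (QuotientGroup.mk k)) -
          (show GMod L0 X.R from e (QuotientGroup.mk (g * k))) +
          (show GMod L0 X.R from e (QuotientGroup.mk g)) := by
      have h2 := he (QuotientGroup.mk g) (QuotientGroup.mk k)
      exact ((lvl2_mk L.sub (f := fun g k => (show Pull (quotMap hle) X.R from X.delta y g k))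
        (fun g k s hs t ht => (X.delta_level hle y hy g k s hs t ht :)) g k).symm.trans h2 :)
    have h3 := congrArg X.iG h1
    rw [X.iG_delta, map_add, map_sub, X.iG_smul] at h3
    simp only [η, smul_sub]
    linear_combination (norm := abel) -h3
  have hlev : ∀ g, ∀ s ∈ L.sub, η (g * s) = η g := fun g s hs => by
    simp only [η]
    rw [hy g s hs, QuotientGroup.mk_mul_of_mem g hs]
  let ψ : Gam ⧸ L.sub → Pull (quotMap hle) P :=
    lvl1 L.sub fun g => (show Pull (quotMap hle) P from η g)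
  have hψmk : ∀ g, ψ (QuotientGroup.mk g) = η g :=
    lvl1_mk L.sub (f := fun g => (show Pull (quotMap hle) P from η g)) hlev
  have hψ : ψ ∈ Z1 (Gam ⧸ L.sub) (Pull (quotMap hle) P) := mem_Z1_iff.2 fun a b => by
    induction a using QuotientGroup.induction_on with
    | _ g =>
      induction b using QuotientGroup.induction_on with
      | _ k =>
        rw [← QuotientGroup.mk_mul, hψmk, hψmk, hψmk]
        exact hη g k
  have := L.finite
  have hker : ∀ n, (MonoidHom.id (Gam ⧸ L0.sub)).comp (quotMap hle) n = 1 → ψ n = 0 := by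
    intro n hn
    have htriv : ∀ z : Pull (quotMap hle) P, n • z = z := fun z => by
      show ((quotMap hle n : Gam ⧸ L0.sub) • (show P from z) : P) = z
      rw [show quotMap hle n = 1 from hn, one_smul]
    exact Z1_eq_zero_of_acts_trivially hψ htriv
  obtain ⟨K, hK⟩ := (X.proj.pull (quotMap hle)).exists_cobound_self hψ hker
  let K' : GMod L0 P := K
  obtain ⟨g, hg⟩ := hne (X.qG K')
  refine hg ?_
  let r : GMod L0 X.R := e (QuotientGroup.mk g)
  have h1 : X.sect ((y : Gam → GMod L0 A) g) - X.iG r = g • K' - K' :=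
    (hψmk g).symm.trans (hK (QuotientGroup.mk g))
  have h2 := congrArg X.qG h1
  rw [map_sub, map_sub, X.qG_sect, X.qG_iG, sub_zero, X.qG_smul] at h2
  exact h2

/-- Nondegeneracy on classes in degree one. -/
theorem Pres.exists_phi_ne_zero (hp2 : p ≠ 2) {S : Finset Nat.Primes} (hpS : pPrime p ∈ S)
    (hL0 : L0.IsS S) {y : Z1 Gam (GMod L0 A)} (hy : Sha1 S y)
    (hne : ∀ a : GMod L0 A, ∃ g, (y : Gam → GMod L0 A) g ≠ g • a - a) :
    ∃ h ∈ X.HS S, X.Phi hp2 h y ≠ 0 := by
  classical
  obtain ⟨⟨M, hM, hMy⟩, -⟩ := hy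
  set L := L0.sup M
  have hL : L.IsS S := hL0.sup hM
  have hle : L.sub ≤ L0.sub := Layer.sub_le (L0.le_sup_left M)
  have hy' : ∀ g, ∀ s ∈ L.sub, (y : Gam → GMod L0 A) (g * s) = (y : Gam → GMod L0 A) g :=
    fun g s hs => hMy g s (Layer.sub_le (L0.le_sup_right M) hs)
  have := L.finite
  have := Fintype.ofFinite (Gam ⧸ L.sub)
  obtain ⟨φ, hφ, hne'⟩ := (isClassModule_classes hp2 (classStep hp2) L).exists_push2_ne_zero
    (X.nsmul_deltaCls hle y hy') (X.deltaCls_ne_zero hle y hy' hne)
  obtain ⟨m, L', h, hm, hL', hle', hhS, hhfix, hhc⟩ :=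
    exists_class_lift (R := Pull (quotMap hle) X.R)
    hpS hL ((LayerC L).subtype.comp φ) fun r => (φ r).2
  let hh : HomMod (GMod L0 X.R) Idele := HomMod.mk (show GMod L0 X.R →+ Idele from h)
  have hc : ∀ (g : Gam) r, classMap (hh (g • r)) = g • classMap (hh r) := fun g r => by
    show classMap (h (show Pull (quotMap hle) X.R from g • r)) =
      g • classMap (h (show Pull (quotMap hle) X.R from r))
    rw [hhc, hhc, smul_comm g m]
    exact congrArg (m • ·) (congrArg Subtype.val (hφ (QuotientGroup.mk g) r))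
  refine ⟨hh, ⟨hhS, hc⟩, ?_⟩
  have hle'' : L'.sub ≤ L0.sub := hle'.trans hle
  have hy'' : ∀ g, ∀ s ∈ L'.sub, (y : Gam → GMod L0 A) (g * s) = (y : Gam → GMod L0 A) g :=
    fun g s hs => hy' g s (hle' hs)
  rw [X.Phi_eq hp2 hle'' hh hc hhfix y hy'']
  set z := push2 (Gam ⧸ L.sub) φ hφ (X.deltaCls hle y hy')
  have hz : p • z = 0 := by rw [← map_nsmul, X.nsmul_deltaCls, map_zero]
  have heq : X.phiCls hle'' hh hc hhfix y hy'' = inf2 IdeleClass hle' (m • z) := by
    show H2.mk _ = _
    rw [show z = H2.mk ⟨fun g k => φ (lvl2 L.sub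
      (X.deltaL hle y) g k),
      (CompatPair.mk fun g a => hφ g a : CompatPair (MonoidHom.id _) φ).mem_Z2
        (X.deltaFun_mem hle y hy')⟩ from rfl, ← map_nsmul, inf2, H2.map_mk]
    refine congrArg H2.mk (Subtype.ext (funext fun a => funext fun b => ?_))
    induction a using QuotientGroup.induction_on with
    | _ g =>
      induction b using QuotientGroup.induction_on with
      | _ k =>
        refine Subtype.ext ?_
        show ((lvl2 L'.sub _ (QuotientGroup.mk g) (QuotientGroup.mk k) : LayerC L') : IdeleClass) =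
          ((m • φ (lvl2 L.sub (X.deltaL hle y)
            (QuotientGroup.mk g) (QuotientGroup.mk k)) : LayerC L) : IdeleClass)
        rw [lvl2_mk _ fun g k s hs t ht => Subtype.ext
            (congrArg (fun r => classMap (hh r)) (X.delta_level hle'' y hy'' g k s hs t ht)),
          lvl2_mk _ (X.deltaL_level hle y hy'),
          AddSubgroup.coe_nsmul]
        exact hhc _
  intro h0
  rw [heq, coord_inf hp2 hle' (by rw [smul_comm, hz, smul_zero])] at h0
  have h1 : m • z = 0 := eq_zero_of_coord hp2 (by rw [smul_comm, hz, smul_zero]) h0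
  exact hne' (AddMonoid.addOrderOf_eq_one_iff.1 (Nat.eq_one_of_dvd_coprimes
    (coprime_pow_of_not_dvd (i := 1) hm)
    (addOrderOf_dvd_of_nsmul_eq_zero (by rw [pow_one]; exact hz))
    (addOrderOf_dvd_of_nsmul_eq_zero h1)))

end FLTAgent.GlobalDuality
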