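import Mathlib
import Fermat.Agent.GlobalDuality.Psi

/-!
# A local trivialisation descends to the layer

A class of the dual module which dies at a prime is, after pulling back to the lattice, the
coboundary of a cochain of the layer whose restriction to the relations is a coboundary.
-/

set_option autoImplicit false

noncomputable section

namespace FLTAgent.GlobalDuality

open FLTAgent.GalCoh FLTAgent.LocalDuality FLTAgent.IdeleClassCohomology ExtCitation

variable {p : ℕ} [hp : Fact p.Prime] {L0 : Layer} [Fintype (Gam ⧸ L0.sub)] {P A : Type}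
  [AddCommGroup P] [DistribMulAction (Gam ⧸ L0.sub) P] [AddCommGroup A]
  [DistribMulAction (Gam ⧸ L0.sub) A] (X : Pres p L0 P A)

omit hp in
/-- The local part of the descent. -/
theorem Pres.exists_local_cochain [Module.Free ℤ P] [Module.Finite ℤ P] {L : Layer}
    (hle : L.sub ≤ L0.sub) {b : Gam → Gam → HomMod (GMod L0 A) GU}
    (hb : b ∈ Z2 Gam (HomMod (GMod L0 A) GU))
    (hbl : ∀ g k, ∀ s ∈ L.sub, ∀ t ∈ L.sub, b (g * s) (k * t) = b g k)
    (hbv : ∀ g k a, b g k a ∈ fixedPts L.sub GU) {q : Nat.Primes} {M : Layer}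
    {x : LGal q → HomMod (GMod L0 A) GU} (hxl : ∀ τ s, loc q s ∈ M.sub → x (τ * s) = x τ)
    (hx : ∀ τ τ', b (loc q τ) (loc q τ') = loc q τ • x τ' - x (τ * τ') + x τ) :
    ∃ (β : LGal q → (GMod L0 P →+ LU q)) (k : GMod L0 P →+ LU q),
      (∀ τ, ∀ s ∈ locSub L q, β (τ * s) = β τ) ∧ (∀ τ y, β τ y ∈ LocU L q) ∧
      (∀ τ τ' y, embU q (b (loc q τ) (loc q τ') (X.qG y)) =
        τ • β τ' (loc q τ⁻¹ • y) - β (τ * τ') y + β τ y) ∧
      (∀ τ r, β τ (X.iG r) = -(τ • k (loc q τ⁻¹ • X.iG r) - k (X.iG r))) ∧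
      ∀ r, k (X.iG r) ∈ LocU L q := by
  classical
  set N := locSub L q
  have : N.Normal := inferInstanceAs (L.sub.comap (loc q)).Normal
  -- values of the cochain at the identity
  have hx1 : ∀ a, x 1 a = b 1 1 a := fun a => by
    have h := congrArg (fun u : HomMod (GMod L0 A) GU => u a) (hx 1 1)
    simp only [map_one, one_mul, one_smul, sub_self, zero_add] at h
    exact h.symm
  have hb1r : ∀ g a, b g 1 a = (g • b 1 1) a := fun g a => by
    have h := congrArg (fun u : HomMod (GMod L0 A) GU => u a) (mem_Z2_iff.1 hb g 1 1)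
    simp only [mul_one, HomMod.add_apply] at h
    linear_combination (norm := abel) h
  have hb1l : ∀ g a, b 1 g a = b 1 1 a := fun g a => by
    have h := congrArg (fun u : HomMod (GMod L0 A) GU => u a) (mem_Z2_iff.1 hb 1 1 g)
    simp only [one_mul, one_smul, HomMod.add_apply] at h
    linear_combination (norm := abel) -h
  let ξ : LGal q → GMod L0 P →+ LU q := fun τ => (embU q).comp ((x τ).hom.comp X.qG)
  have hξ : ∀ τ y, ξ τ y = embU q (x τ (X.qG y)) := fun τ y => rfl
  have hξd : ∀ τ τ' y, embU q (b (loc q τ) (loc q τ') (X.qG y)) =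
      τ • ξ τ' (loc q τ⁻¹ • y) - ξ (τ * τ') y + ξ τ y := fun τ τ' y => by
    rw [hx, HomMod.add_apply, HomMod.sub_apply, HomMod.smul_apply, map_add, map_sub,
      embU_loc_smul, ← X.qG_smul, ← map_inv]
    rfl
  have htriv : ∀ n ∈ N, ∀ y : GMod L0 P, loc q n • y = y := fun n hn y =>
    smul_GMod_of_mem (hle hn) y
  have h1fix : ∀ y, ∀ n ∈ N, n • ξ 1 y = ξ 1 y := fun y n hn => by
    rw [hξ, hx1, ← embU_loc_smul, hbv 1 1 _ _ hn]
  -- the cocycle on the local group of the layer
  let bb := Module.Free.chooseBasis ℤ P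
  let bj : Module.Free.ChooseBasisIndex ℤ P → GMod L0 P := fun j => bb j
  have hz : ∀ j, (fun n : N => ξ n (bj j) - ξ 1 (bj j)) ∈ Z1 N (LU q) := fun j =>
    mem_Z1_iff.2 fun n n' => by
      have h := hξd n n' (bj j)
      have hb0 : b (loc q n) (loc q n') (X.qG (bj j)) = b 1 1 (X.qG (bj j)) :=
        congrArg (fun u : HomMod (GMod L0 A) GU => u (X.qG (bj j)))
          (by simpa using hbl 1 1 _ n.2 _ n'.2)
      rw [hb0, ← hx1, ← hξ, htriv _ (inv_mem n.2)] at h
      show ξ ((n : LGal q) * n') (bj j) - ξ 1 (bj j) =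
        (n : LGal q) • (ξ n' (bj j) - ξ 1 (bj j)) + (ξ n (bj j) - ξ 1 (bj j))
      rw [smul_sub, h1fix _ _ n.2]
      linear_combination (norm := abel) h
  choose κ hκ hκfix using fun j => exists_eq_coboundary_LU N M (hz j) fun n hn => by
    show ξ n (bj j) - ξ 1 (bj j) = 0
    have h := hxl 1 n hn
    rw [one_mul] at h
    show embU q (x (n : LGal q) _) - embU q (x 1 _) = 0
    rw [h, sub_self]
  let k : GMod L0 P →+ LU q := (bb.constr ℕ κ).toAddMonoidHom
  have hk : ∀ n ∈ N, ∀ y, ξ n y - ξ 1 y = n • k y - k y := fun n hn y => by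
    refine DFunLike.congr_fun (f := ((ξ n - ξ 1 : GMod L0 P →+ LU q) : P →+ LU q).toIntLinearMap)
      (g := (((DistribSMul.toAddMonoidHom (LU q) n).comp k - k : GMod L0 P →+ LU q) :
        P →+ LU q).toIntLinearMap) (bb.ext fun j => ?_) y
    show ξ n (bb j) - ξ 1 (bb j) = n • (bb.constr ℕ κ) (bb j) - (bb.constr ℕ κ) (bb j)
    rw [bb.constr_basis]
    exact hκ j ⟨n, hn⟩
  let β : LGal q → GMod L0 P →+ LU q := fun τ => ξ τ -
    ((DistribSMul.toAddMonoidHom (LU q) τ).comp
      (k.comp (DistribSMul.toAddMonoidHom (GMod L0 P) (loc q τ⁻¹))) - k)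
  have hβ : ∀ τ y, β τ y = ξ τ y - (τ • k (loc q τ⁻¹ • y) - k y) := fun τ y => rfl
  have hd : ∀ τ τ' y, embU q (b (loc q τ) (loc q τ') (X.qG y)) =
      τ • β τ' (loc q τ⁻¹ • y) - β (τ * τ') y + β τ y := fun τ τ' y => by
    rw [hξd, hβ, hβ, hβ, mul_inv_rev, map_mul, mul_smul (loc q τ'⁻¹), mul_smul τ τ']
    simp only [smul_sub]
    abel
  have hβN : ∀ n ∈ N, ∀ y, β n y = ξ 1 y := fun n hn y => by
    rw [hβ, htriv _ (inv_mem hn), ← hk n hn y]
    abel
  have hright : ∀ τ, ∀ s ∈ N, β (τ * s) = β τ := fun τ s hs => AddMonoidHom.ext fun y => by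
    have h := hd τ s y
    have hb0 : b (loc q τ) (loc q s) = b (loc q τ) 1 := by
      simpa using hbl (loc q τ) 1 1 (one_mem _) _ hs
    rw [hβN s hs, hb0, hb1r, HomMod.smul_apply, embU_loc_smul, ← X.qG_smul, ← hx1, ← hξ,
      ← map_inv] at h
    linear_combination (norm := abel) h
  refine ⟨β, k, hright, fun τ y n hn => ?_, hd, fun τ r => ?_, fun r n hn => ?_⟩
  · have h := hd n τ y
    have hb0 : b (loc q n) (loc q τ) = b 1 (loc q τ) := by
      simpa using hbl 1 (loc q τ) _ hn 1 (one_mem _)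
    rw [hβN n hn, htriv _ (inv_mem hn), hb0, hb1l, ← hx1, ← hξ,
      show n * τ = τ * (τ⁻¹ * n * τ) by group, hright τ _
        (by simpa using (inferInstance : N.Normal).conj_mem n hn τ⁻¹)] at h
    linear_combination (norm := abel) -h
  · rw [hβ, hξ, X.qG_iG, map_zero, map_zero, zero_sub]
  · have h := hk n hn (X.iG r)
    rw [hξ, hξ, X.qG_iG] at h
    simp only [map_zero, sub_self] at h
    exact sub_eq_zero.1 h.symm

end FLTAgent.GlobalDuality
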