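import Mathlib
import Fermat.Agent.GlobalDuality.LocalLift

/-!
# Cochains of ideles cobounding a class trivial at `S`

The pullback to the lattice of a class of the dual module trivial at `S` is, up to a factor prime
to `p`, the coboundary of maps into `S`-ideles, and their restrictions to the relations form a
coboundary.
-/

set_option autoImplicit false

noncomputable section

namespace FLTAgent.GlobalDuality

open FLTAgent.GalCoh FLTAgent.LocalDuality FLTAgent.IdeleClassCohomology ExtCitation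

variable {p : ℕ} [hp : Fact p.Prime] {L0 : Layer} [Fintype (Gam ⧸ L0.sub)] {P A : Type}
  [AddCommGroup P] [DistribMulAction (Gam ⧸ L0.sub) P] [AddCommGroup A]
  [DistribMulAction (Gam ⧸ L0.sub) A] (X : Pres p L0 P A)

/-- The presentation seen in a layer, on the relations. -/
def Pres.iL {L : Layer} (hle : L.sub ≤ L0.sub) :
    Pull (quotMap hle) X.R →+ Pull (quotMap hle) P := X.iG

omit hp in
theorem Pres.iL_smul {L : Layer} (hle : L.sub ≤ L0.sub) (g : Gam ⧸ L.sub)
    (r : Pull (quotMap hle) X.R) : X.iL hle (g • r) = g • X.iL hle r := rfl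

omit hp in
theorem Pres.qG_iL {L : Layer} (hle : L.sub ≤ L0.sub) (r : Pull (quotMap hle) X.R) :
    X.qG (show GMod L0 P from X.iL hle r) = 0 :=
  X.qG_iG (show GMod L0 X.R from r)

/-- A class of the dual module as maps into the ideles of a layer. -/
def Pres.bP {L : Layer} (hle : L.sub ≤ L0.sub) {b : Gam → Gam → HomMod (GMod L0 A) GU}
    (hbv : ∀ g k a, b g k a ∈ fixedPts L.sub GU) (g k : Gam) :
    HomMod (Pull (quotMap hle) P) (fixedPts L.sub Idele) :=
  HomMod.mk (show Pull (quotMap hle) P →+ fixedPts L.sub Idele from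
    (principal.comp ((b g k).hom.comp X.qG)).codRestrict (fixedPts L.sub Idele) fun _ =>
      principal_mem_fixedPts_iff.2 (hbv g k _))

variable {X} {L : Layer} {hle : L.sub ≤ L0.sub} {b : Gam → Gam → HomMod (GMod L0 A) GU}
  {hbv : ∀ g k a, b g k a ∈ fixedPts L.sub GU}

omit hp in
theorem Pres.bP_level (hbl : ∀ g k, ∀ s ∈ L.sub, ∀ t ∈ L.sub, b (g * s) (k * t) = b g k)
    (g k : Gam) (s : Gam) (hs : s ∈ L.sub) (t : Gam) (ht : t ∈ L.sub) :
    X.bP hle hbv (g * s) (k * t) = X.bP hle hbv g k :=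
  HomMod.ext fun y => Subtype.ext
    (congrArg (fun u : HomMod (GMod L0 A) GU => principal (u (X.qG y))) (hbl g k s hs t ht))

omit hp in
theorem Pres.bP_cocycle (hb : b ∈ Z2 Gam (HomMod (GMod L0 A) GU))
    (hbl : ∀ g k, ∀ s ∈ L.sub, ∀ t ∈ L.sub, b (g * s) (k * t) = b g k) :
    lvl2 L.sub (X.bP hle hbv) ∈
      Z2 (Gam ⧸ L.sub) (HomMod (Pull (quotMap hle) P) (fixedPts L.sub Idele)) := by
  refine mem_Z2_iff.2 fun u v w => ?_
  induction u using QuotientGroup.induction_on with
  | _ g =>
    induction v using QuotientGroup.induction_on with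
    | _ k =>
      induction w using QuotientGroup.induction_on with
      | _ j =>
        rw [← QuotientGroup.mk_mul, ← QuotientGroup.mk_mul, lvl2_mk _ (Pres.bP_level hbl),
          lvl2_mk _ (Pres.bP_level hbl), lvl2_mk _ (Pres.bP_level hbl),
          lvl2_mk _ (Pres.bP_level hbl)]
        have key : ∀ z : GMod L0 P, principal (b (g * k) j (X.qG z)) +
            principal (b g k (X.qG z)) = g • principal (b k j (X.qG (g⁻¹ • z))) +
              principal (b g (k * j) (X.qG z)) := fun z => by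
          rw [← principal_smul, ← map_add, ← map_add, X.qG_smul]
          exact congrArg principal
            (congrArg (fun u : HomMod (GMod L0 A) GU => u (X.qG z)) (mem_Z2_iff.1 hb g k j))
        exact HomMod.ext fun y => Subtype.ext (key y)

omit hp in
theorem Pres.evalHom_bP_mem {S : Finset Nat.Primes} (hbS : ∀ g k a, b g k a ∈ sUnits S)
    {q : Nat.Primes} (hq : q ∉ S) (u v : Gam ⧸ L.sub) (y : PLoc L q (Pull (quotMap hle) P)) :
    evalHom L (Pull (quotMap hle) P) q (lvl2 L.sub (X.bP hle hbv) u v) y ∈ LocO L q :=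
  (hbS _ _ _).2 q hq 1

variable (X) (hle) [Module.Free ℤ P] [Module.Finite ℤ P]

omit [Fintype (Gam ⧸ L0.sub)] [Module.Free ℤ P] [Module.Finite ℤ P] in
theorem ker_fixes_loc {q : Nat.Primes} (n : LocG L q)
    (hn : (((MonoidHom.id (Gam ⧸ L0.sub)).comp (quotMap hle)).comp (locMap L q)) n = 1)
    (y : PLoc L q (Pull (quotMap hle) P)) : n • y = y := by
  show ((quotMap hle (locMap L q n) : Gam ⧸ L0.sub) • (show P from y) : P) = y
  rw [show quotMap hle (locMap L q n) = 1 from hn, one_smul]

variable (hbv)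

/-- The local cochains. -/
theorem Pres.exists_beta {S : Finset Nat.Primes} (hL : L.IsS S)
    (hb : b ∈ Z2 Gam (HomMod (GMod L0 A) GU))
    (hbl : ∀ g k, ∀ s ∈ L.sub, ∀ t ∈ L.sub, b (g * s) (k * t) = b g k)
    (hbS : ∀ g k a, b g k a ∈ sUnits S)
    (hloc : ∀ q ∈ S, ∃ (M : Layer) (x : LGal q → HomMod (GMod L0 A) GU),
      (∀ τ s, loc q s ∈ M.sub → x (τ * s) = x τ) ∧
      ∀ τ τ', b (loc q τ) (loc q τ') = loc q τ • x τ' - x (τ * τ') + x τ)
    (q : Nat.Primes) :
    ∃ βq : LocG L q → HomMod (PLoc L q (Pull (quotMap hle) P)) (LocU L q),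
      (∀ d d', evalHom L (Pull (quotMap hle) P) q
          (pCompl p (Gam ⧸ L.sub) • lvl2 L.sub (X.bP hle hbv) (locMap L q d) (locMap L q d')) =
        d • βq d' - βq (d * d') + βq d) ∧ (q ∉ S → ∀ d y, βq d y ∈ LocO L q) ∧
      (q ∈ S → ∃ e : HomMod (PLoc L q (Pull (quotMap hle) X.R)) (LocU L q), ∀ d,
        ∀ r : Pull (quotMap hle) X.R,
          βq d (show PLoc L q (Pull (quotMap hle) P) from X.iL hle r) =
          (d • e - e) (show PLoc L q (Pull (quotMap hle) X.R) from r)) := by
  classical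
  have := L.finite
  have := Fintype.ofFinite (Gam ⧸ L.sub)
  set m₀ := pCompl p (Gam ⧸ L.sub)
  by_cases hq : q ∈ S
  · obtain ⟨M', x, hxl, hx⟩ := hloc q hq
    obtain ⟨β, k, hβl, hβv, hβd, hβr, hkr⟩ := X.exists_local_cochain hle hb hbl hbv hxl hx
    let β' : LGal q → HomMod (PLoc L q (Pull (quotMap hle) P)) (LocU L q) := fun τ =>
      HomMod.mk (show PLoc L q (Pull (quotMap hle) P) →+ LocU L q from
        (β τ).codRestrict (LocU L q) (hβv τ))
    have hinv' : ∀ τ, ∀ s ∈ locSub L q, β' (τ * s) = β' τ := fun τ s hs =>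
      HomMod.ext fun y => Subtype.ext
        (congrArg (fun u : GMod L0 P →+ LU q => u y) (hβl τ s hs))
    let e : HomMod (PLoc L q (Pull (quotMap hle) X.R)) (LocU L q) :=
      HomMod.mk (show PLoc L q (Pull (quotMap hle) X.R) →+ LocU L q from
        -(m₀ • ((k.comp X.iG).codRestrict (LocU L q) hkr)))
    refine ⟨fun d => m₀ • lvl1 (locSub L q) β' d, fun d d' => ?_, fun h => absurd hq h,
      fun _ => ⟨e, fun d r => ?_⟩⟩
    · rw [map_nsmul, smul_comm d m₀, ← nsmul_sub, ← nsmul_add]
      refine congrArg (m₀ • ·) ?_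
      induction d using QuotientGroup.induction_on with
      | _ τ =>
        induction d' using QuotientGroup.induction_on with
        | _ τ' =>
          rw [← QuotientGroup.mk_mul, locMap_mk, locMap_mk, lvl2_mk _ (Pres.bP_level hbl),
            lvl1_mk _ hinv', lvl1_mk _ hinv', lvl1_mk _ hinv']
          exact HomMod.ext fun y => Subtype.ext (hβd τ τ' y)
    · induction d using QuotientGroup.induction_on with
      | _ τ =>
        show (m₀ • lvl1 (locSub L q) β' (QuotientGroup.mk τ)) _ = _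
        rw [lvl1_mk _ hinv', HomMod.nsmul_apply]
        refine Subtype.ext ?_
        have key : ∀ z : GMod L0 X.R, m₀ • β τ (X.iG z) =
            τ • -(m₀ • k (X.iG (loc q τ⁻¹ • z))) - -(m₀ • k (X.iG z)) := fun z => by
          rw [hβr, X.iG_smul, smul_neg, smul_comm τ m₀, neg_sub, nsmul_sub]
          abel
        exact key r
  · have := subsingleton_H1_LocO (inertiaLoc_eq_bot hL hq)
      (((MonoidHom.id (Gam ⧸ L0.sub)).comp (quotMap hle)).comp (locMap L q)).ker
    let cq : Z2 (LocG L q) (HomMod (PLoc L q (Pull (quotMap hle) P)) (LocO L q)) :=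
      ⟨fun d d' => HomMod.mk ((evalHom L (Pull (quotMap hle) P) q
          (lvl2 L.sub (X.bP hle hbv) (locMap L q d) (locMap L q d'))).hom.codRestrict (LocO L q)
          (Pres.evalHom_bP_mem hbS hq _ _)),
        mem_Z2_iff.2 fun u v w => HomMod.ext fun y => Subtype.ext (by
          have h1 := congrArg (evalHom L (Pull (quotMap hle) P) q)
            (mem_Z2_iff.1 (Pres.bP_cocycle (X := X) (hle := hle) (hbv := hbv) hb hbl)
              (locMap L q u) (locMap L q v) (locMap L q w))
          rw [map_add, map_add, (evalHom_compat q).compat, ← map_mul, ← map_mul] at h1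
          exact congrArg (fun f : HomMod (PLoc L q (Pull (quotMap hle) P)) (LocU L q) => f y) h1)⟩
    obtain ⟨β, hβ⟩ := ((X.proj.pull (quotMap hle)).pull (locMap L q)).exists_cobound2_nsmul
      (ker_fixes_loc hle)
      (m := 1) (m' := pCompl p (LocG L q)) (fun z => Subsingleton.elim _ _)
      (fun z => pCompl_nsmul_H2_LocO (inertiaLoc_eq_bot hL hq) _ z) cq
    obtain ⟨k, hk⟩ : pCompl p (LocG L q) ∣ m₀ := pCompl_dvd_of_injective (locMap_injective L q)
    refine ⟨fun d => k • HomMod.mk ((LocO L q).subtype.comp (β d).hom), fun d d' => ?_,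
      fun _ d y => AddSubgroup.nsmul_mem _ (β d y).2 _, fun h => absurd h hq⟩
    rw [map_nsmul, hk, mul_comm, mul_smul, smul_comm d k, ← nsmul_sub, ← nsmul_add]
    refine congrArg (k • ·) (HomMod.ext fun y => ?_)
    have h1 := hβ d d'
    rw [one_mul] at h1
    exact congrArg (fun f : HomMod (PLoc L q (Pull (quotMap hle) P)) (LocO L q) =>
      ((f y : LocO L q) : LocU L q)) h1

/-- The restriction to the relations of a cobounding cochain, prime by prime. -/
theorem Pres.exists_local_rel {S : Finset Nat.Primes} (hL : L.IsS S)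
    {βq : ∀ q, LocG L q → HomMod (PLoc L q (Pull (quotMap hle) P)) (LocU L q)}
    {B : Gam ⧸ L.sub → HomMod (Pull (quotMap hle) P) (fixedPts L.sub Idele)}
    (hB : ∀ u v, pCompl p (Gam ⧸ L.sub) • lvl2 L.sub (X.bP hle hbv) u v =
      u • B v - B (u * v) + B u)
    (hBu : ∀ q, q ∉ S → ∀ g γ y, (B g y : Idele).at q γ ∈ unitsAt q)
    {q : Nat.Primes}
    (hβq : ∀ d d', evalHom L (Pull (quotMap hle) P) q
        (pCompl p (Gam ⧸ L.sub) • lvl2 L.sub (X.bP hle hbv) (locMap L q d) (locMap L q d')) =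
      d • βq q d' - βq q (d * d') + βq q d)
    (he : q ∈ S → ∃ e : HomMod (PLoc L q (Pull (quotMap hle) X.R)) (LocU L q), ∀ d,
        ∀ r : Pull (quotMap hle) X.R,
          βq q d (show PLoc L q (Pull (quotMap hle) P) from X.iL hle r) =
          (d • e - e) (show PLoc L q (Pull (quotMap hle) X.R) from r))
    {fR : Gam ⧸ L.sub → HomMod (Pull (quotMap hle) X.R) (fixedPts L.sub Idele)}
    (hfR : ∀ g r, fR g r = B g (X.iL hle r))
    (hfRz : fR ∈ Z1 (Gam ⧸ L.sub) (HomMod (Pull (quotMap hle) X.R) (fixedPts L.sub Idele))) :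
    ∃ e : HomMod (PLoc L q (Pull (quotMap hle) X.R)) (LocU L q),
      (∀ d, evalHom L (Pull (quotMap hle) X.R) q
        ((pCompl p (Gam ⧸ L.sub) • fR) (locMap L q d)) = d • e - e) ∧
        (q ∉ S → ∀ r, e r ∈ LocO L q) := by
  classical
  have := L.finite
  have := Fintype.ofFinite (Gam ⧸ L.sub)
  set m₀ := pCompl p (Gam ⧸ L.sub)
  by_cases hq : q ∈ S
  · obtain ⟨e, he⟩ := he hq
    set φ : LocG L q → HomMod (PLoc L q (Pull (quotMap hle) P)) (LocU L q) :=
      fun d => evalHom L (Pull (quotMap hle) P) q (B (locMap L q d)) - βq q d with hφdef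
    have hφ : φ ∈ Z1 (LocG L q) (HomMod (PLoc L q (Pull (quotMap hle) P)) (LocU L q)) :=
      mem_Z1_iff.2 fun d d' => by
        have h1 := hβq d d'
        rw [hB, map_add, map_sub, (evalHom_compat q).compat, ← map_mul] at h1
        simp only [hφdef, smul_sub]
        linear_combination (norm := abel) -h1
    have := subsingleton_H1_LocU L q
      (((MonoidHom.id (Gam ⧸ L0.sub)).comp (quotMap hle)).comp (locMap L q)).ker
    obtain ⟨k', hk'⟩ := ((X.proj.pull (quotMap hle)).pull (locMap L q)).exists_cobound_nsmul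
      (ker_fixes_loc hle) (m := 1) (fun z => Subsingleton.elim _ _) hφ
    let e' : HomMod (PLoc L q (Pull (quotMap hle) X.R)) (LocU L q) :=
      e + HomMod.mk (show PLoc L q (Pull (quotMap hle) X.R) →+ LocU L q from
        k'.hom.comp (show PLoc L q (Pull (quotMap hle) X.R) →+ PLoc L q (Pull (quotMap hle) P) from
          X.iL hle))
    refine ⟨m₀ • e', fun d => ?_, fun h => absurd hq h⟩
    rw [show (m₀ • fR) (locMap L q d) = m₀ • fR (locMap L q d) from rfl, map_nsmul,
      smul_comm d m₀, ← nsmul_sub]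
    refine congrArg (m₀ • ·) (HomMod.ext fun r => ?_)
    let r' : Pull (quotMap hle) X.R := r
    let r'' : Pull (quotMap hle) X.R := (d⁻¹ • r : PLoc L q (Pull (quotMap hle) X.R))
    have h2 : βq q d (show PLoc L q (Pull (quotMap hle) P) from X.iL hle r') =
        d • e (d⁻¹ • r) - e r := he d r'
    have h1 : evalHom L (Pull (quotMap hle) P) q (B (locMap L q d)) (X.iL hle r') -
        βq q d (show PLoc L q (Pull (quotMap hle) P) from X.iL hle r') =
        d • k' (show PLoc L q (Pull (quotMap hle) P) from X.iL hle r'') -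
          k' (show PLoc L q (Pull (quotMap hle) P) from X.iL hle r') :=
      congrArg (fun f : HomMod (PLoc L q (Pull (quotMap hle) P)) (LocU L q) =>
        f (show PLoc L q (Pull (quotMap hle) P) from X.iL hle r'))
        ((one_nsmul (φ d)).symm.trans (hk' d))
    show evalLoc L q (fR (locMap L q d) r') =
      d • (e (d⁻¹ • r) + k' (show PLoc L q (Pull (quotMap hle) P) from X.iL hle r'')) -
      (e r + k' (show PLoc L q (Pull (quotMap hle) P) from X.iL hle r'))
    rw [h2] at h1
    rw [smul_add, hfR]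
    show evalHom L (Pull (quotMap hle) P) q (B (locMap L q d)) (X.iL hle r') = _
    linear_combination (norm := abel) h1
  · set φ : LocG L q → HomMod (PLoc L q (Pull (quotMap hle) X.R)) (LocO L q) := fun d =>
      HomMod.mk ((evalHom L (Pull (quotMap hle) X.R) q (fR (locMap L q d))).hom.codRestrict
        (LocO L q) fun r => by
          show evalLoc L q (fR (locMap L q d) (show Pull (quotMap hle) X.R from r)) ∈ LocO L q
          rw [show fR (locMap L q d) (show Pull (quotMap hle) X.R from r) =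
            B (locMap L q d) (X.iL hle r) from hfR _ _]
          exact hBu q hq _ 1 _) with hφdef
    have hφ : φ ∈ Z1 (LocG L q) (HomMod (PLoc L q (Pull (quotMap hle) X.R)) (LocO L q)) :=
      mem_Z1_iff.2 fun d d' => HomMod.ext fun r => Subtype.ext (by
        have h1 := congrArg (evalHom L (Pull (quotMap hle) X.R) q)
          (mem_Z1_iff.1 hfRz (locMap L q d) (locMap L q d'))
        rw [map_add, (evalHom_compat q).compat, ← map_mul] at h1
        exact congrArg (fun f : HomMod (PLoc L q (Pull (quotMap hle) X.R)) (LocU L q) => f r) h1)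
    have h0 : pCompl p (LocG L q) • H1.mk ⟨φ, hφ⟩ = 0 := by
      let eT : (⊤ : Subgroup (LocG L q)) ≃* LocG L q := Subgroup.topEquiv
      have hc' : CompatPair eT.toMonoidHom (AddMonoidHom.id
        (HomMod (PLoc L q (Pull (quotMap hle) X.R)) (LocO L q))) := ⟨fun _ _ => rfl⟩
      refine (H1.map_bijective hc' eT.bijective Function.bijective_id).1 ?_
      rw [map_nsmul, map_zero]
      exact pCompl_nsmul_H1_homMod_LocO (inertiaLoc_eq_bot hL hq) _ _
    obtain ⟨k, hk⟩ : pCompl p (LocG L q) ∣ m₀ := pCompl_dvd_of_injective (locMap_injective L q)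
    have h1 : m₀ • H1.mk ⟨φ, hφ⟩ = 0 := by rw [hk, mul_comm, mul_smul, h0, smul_zero]
    rw [← map_nsmul, H1.mk_eq_zero_iff] at h1
    obtain ⟨e, he⟩ := h1
    refine ⟨HomMod.mk ((LocO L q).subtype.comp e.hom), fun d => HomMod.ext fun r => ?_,
      fun _ r => (e r).2⟩
    show evalLoc L q (m₀ • fR (locMap L q d) r) = _
    rw [map_nsmul]
    exact congrArg (fun f : HomMod (PLoc L q (Pull (quotMap hle) X.R)) (LocO L q) =>
      ((f r : LocO L q) : LocU L q)) (he d)

/-- The cochains of ideles. -/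
theorem Pres.exists_idele_cochain {S : Finset Nat.Primes} (hL : L.IsS S)
    (hb : b ∈ Z2 Gam (HomMod (GMod L0 A) GU))
    (hbl : ∀ g k, ∀ s ∈ L.sub, ∀ t ∈ L.sub, b (g * s) (k * t) = b g k)
    (hbS : ∀ g k a, b g k a ∈ sUnits S)
    (hloc : ∀ q ∈ S, ∃ (M : Layer) (x : LGal q → HomMod (GMod L0 A) GU),
      (∀ τ s, loc q s ∈ M.sub → x (τ * s) = x τ) ∧
      ∀ τ τ', b (loc q τ) (loc q τ') = loc q τ • x τ' - x (τ * τ') + x τ) :
    ∃ (m₀ : ℕ) (B : Gam ⧸ L.sub → HomMod (Pull (quotMap hle) P) (fixedPts L.sub Idele))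
      (E : HomMod (Pull (quotMap hle) X.R) (fixedPts L.sub Idele)), ¬p ∣ m₀ ∧
      (∀ u v, m₀ • lvl2 L.sub (X.bP hle hbv) u v = u • B v - B (u * v) + B u) ∧
      (∀ u r, m₀ • B u (X.iL hle r) = (u • E) r - E r) ∧
      (∀ q, q ∉ S → ∀ g γ y, (B g y : Idele).at q γ ∈ unitsAt q) ∧
      ∀ q, q ∉ S → ∀ γ r, (E r : Idele).at q γ ∈ unitsAt q := by
  classical
  have := L.finite
  have := Fintype.ofFinite (Gam ⧸ L.sub)
  set m₀ := pCompl p (Gam ⧸ L.sub)
  choose βq hβq hβqu hβqe using X.exists_beta hle hbv hL hb hbl hbS hloc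
  set c := lvl2 L.sub (X.bP hle hbv)
  have hc := Pres.bP_cocycle (X := X) (hle := hle) (hbv := hbv) hb hbl
  obtain ⟨B, hB, hBu⟩ := exists_cobound2_homJ (c := m₀ • c)
    (AddSubgroup.nsmul_mem (Z2 (Gam ⧸ L.sub) (HomMod (Pull (quotMap hle) P) (fixedPts L.sub Idele)))
      hc m₀) S βq hβq hβqu fun q hq g k y => by
      show evalHom L (Pull (quotMap hle) P) q (m₀ • c g k) y ∈ LocO L q
      rw [map_nsmul]
      exact AddSubgroup.nsmul_mem _ (Pres.evalHom_bP_mem hbS hq g k y) m₀
  let fR : Gam ⧸ L.sub → HomMod (Pull (quotMap hle) X.R) (fixedPts L.sub Idele) :=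
    fun g => HomMod.mk ((B g).hom.comp (X.iL hle))
  have hfRz : fR ∈ Z1 (Gam ⧸ L.sub) (HomMod (Pull (quotMap hle) X.R) (fixedPts L.sub Idele)) :=
    mem_Z1_iff.2 fun u v => HomMod.ext fun r => by
      have h1 : m₀ • c u v (X.iL hle r) = u • B v (u⁻¹ • X.iL hle r) - B (u * v) (X.iL hle r) +
          B u (X.iL hle r) :=
        congrArg (fun f : HomMod (Pull (quotMap hle) P) (fixedPts L.sub Idele) => f (X.iL hle r))
          (hB u v)
      have h2 : c u v (X.iL hle r) = 0 := Subtype.ext (by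
        show principal (b u.out v.out (X.qG (show GMod L0 P from X.iL hle r))) = 0
        rw [X.qG_iL, map_zero, map_zero])
      rw [h2, nsmul_zero, ← X.iL_smul] at h1
      show B (u * v) (X.iL hle r) = u • B v (X.iL hle (u⁻¹ • r)) + B u (X.iL hle r)
      linear_combination (norm := abel) h1
  choose eR heR heRu using fun q => X.exists_local_rel hle hbv hL (βq := βq) hB hBu (q := q) (hβq q)
    (hβqe q) (fR := fR) (fun g r => rfl) hfRz
  obtain ⟨E, hE, hEu⟩ := exists_cobound_homJ (f := m₀ • fR) (AddSubgroup.nsmul_mem _ hfRz m₀) S eR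
    heR heRu fun q hq g r => by
      show evalLoc L q (m₀ • fR g r) ∈ LocO L q
      rw [map_nsmul]
      exact AddSubgroup.nsmul_mem _ (hBu q hq g 1 _) m₀
  exact ⟨m₀, B, E, not_dvd_pCompl, hB,
    fun u r => congrArg (fun f : HomMod (Pull (quotMap hle) X.R) (fixedPts L.sub Idele) => f r)
      (hE u), hBu, hEu⟩

end FLTAgent.GlobalDuality
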