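import Mathlib
import Fermat.Agent.GlobalDuality.NonDegenLeft

/-!
# Classes killed by supported maps

A connecting class killed by all equivariant maps into `S`-ideles, after passing to the idele
classes, comes from a class trivial at every prime of `S`.
-/

set_option autoImplicit false

noncomputable section

namespace FLTAgent.GalCoh

variable {p : ℕ} [hp : Fact p.Prime] {G : Type} [Group G] [Fintype G] {C : Type} [AddCommGroup C]
  [DistribMulAction G C]

/-- The classes killed by the `p`-part of the order form a cyclic group of that order. -/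
theorem IsClassModule.exists_line (hC : IsClassModule p G C) :
    ∃ ι : ZMod (pPart p G) →+ H2 G C, Function.Injective ι ∧
      ∀ x : H2 G C, pPart p G • x = 0 → ∃ t, ι t = x := by
  classical
  obtain ⟨u, hu⟩ := hC.exists_gen
  obtain ⟨P⟩ : Nonempty (Sylow p G) := inferInstance
  obtain ⟨-, hfin, hle⟩ := hC.sylow P
  have : NeZero (pPart p G) := ⟨pow_ne_zero _ hp.out.ne_zero⟩
  set w : H2 G C := pCompl p G • u
  have hw0 : pPart p G • w = 0 := by rw [← mul_smul, pPart_mul_pCompl]; exact card_nsmul_H2 _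
  have hw : ∀ j : ℕ, j • w = 0 → pPart p G ∣ j := fun j hj => by
    rw [← mul_smul] at hj
    exact ((((Nat.Prime.coprime_iff_not_dvd hp.out).2
      (not_dvd_pCompl (p := p) (G := G))).pow_left _).dvd_of_dvd_mul_right (hu _ hj))
  let ι : ZMod (pPart p G) →+ H2 G C := ZMod.lift (pPart p G)
    ⟨zmultiplesHom (H2 G C) w, by
      show ((pPart p G : ℕ) : ℤ) • w = 0
      rw [natCast_zsmul, hw0]⟩
  have hι : ∀ t, ι t = (t.val : ℤ) • w := fun t => by
    conv_lhs => rw [← ZMod.natCast_zmod_val t, ← Int.cast_natCast]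
    exact ZMod.lift_coe _ _ _
  have hinj : Function.Injective ι := (injective_iff_map_eq_zero _).2 fun t ht => by
    rw [hι, natCast_zsmul] at ht
    rw [← ZMod.natCast_zmod_val t, ZMod.natCast_eq_zero_iff]
    exact hw _ ht
  set res := H2.map (P : Subgroup G).subtype (AddMonoidHom.id C) (CompatPair.subtype _)
  have hres : ∀ {x : H2 G C}, pPart p G • x = 0 → res x = 0 → x = 0 := fun hk hx =>
    eq_zero_of_res_sylow_H2 P hk hx
  have htor : ∀ t, pPart p G • ι t = 0 := fun t => by
    rw [hι, smul_comm, hw0, smul_zero]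
  have hinj' : Function.Injective fun t => res (ι t) := fun s t hst => hinj
    (sub_eq_zero.1 (hres (by rw [nsmul_sub, htor, htor, sub_zero])
      (by rw [map_sub]; exact sub_eq_zero.2 hst)))
  refine ⟨ι, hinj, fun x hx => ?_⟩
  have := hfin
  have hbij := (Nat.bijective_iff_injective_and_card (fun t => res (ι t))).2
    ⟨hinj', le_antisymm (Nat.card_le_card_of_injective _ hinj')
      (hle.trans (by rw [card_sylow P, Nat.card_eq_fintype_card, ZMod.card]))⟩
  obtain ⟨t, ht⟩ := hbij.2 (res x)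
  exact ⟨t, sub_eq_zero.1 (hres (by rw [nsmul_sub, htor, hx, sub_zero])
    (by rw [map_sub]; exact sub_eq_zero.2 ht))⟩

/-- A class killed by the `p`-part of the order is detected by equivariant maps to the class
module. -/
theorem IsClassModule.eq_zero_of_push2 (hC : IsClassModule p G C) {R : Type} [AddCommGroup R]
    [DistribMulAction G R] [Module.Free ℤ R] [Module.Finite ℤ R] {k : ℕ} {ρ : H2 G R}
    (hk : p ^ k • ρ = 0)
    (h : ∀ (φ : R →+ C) (hφ : ∀ (g : G) (r : R), φ (g • r) = g • φ r), push2 G φ hφ ρ = 0) :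
    ρ = 0 := by
  induction k generalizing ρ with
  | zero => rwa [pow_zero, one_smul] at hk
  | succ n ih =>
    have h1 : p • ρ = 0 := ih (by rw [← mul_smul, ← pow_succ, hk]) fun φ hφ => by
      rw [map_nsmul, h φ hφ, smul_zero]
    by_contra hne
    obtain ⟨φ, hφ, hne'⟩ := hC.exists_push2_ne_zero h1 hne
    exact hne' (h φ hφ)

end FLTAgent.GalCoh

namespace FLTAgent.GlobalDuality

open FLTAgent.GalCoh FLTAgent.LocalDuality FLTAgent.IdeleClassCohomology ExtCitation

/-- An equivariant map into ideles supported above one prime. -/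
theorem exists_supMap {L : Layer} {P : Type} [AddCommGroup P] [DistribMulAction (Gam ⧸ L.sub) P]
    (q : Nat.Primes) (η : HomMod (PLoc L q P) (LocU L q)) (hη : ∀ d : LocG L q, d • η = η) :
    ∃ φ : HomMod P (fixedPts L.sub Idele), (∀ g : Gam ⧸ L.sub, g • φ = φ) ∧
      evalHom L P q φ = η ∧ ∀ r, r ≠ q → ∀ γ y, (φ y : Idele).at r γ = 0 := by
  classical
  let X : ∀ r, Gam ⧸ L.sub → HomMod (PLoc L r P) (LocU L r) :=
    Function.update (fun r _ => 0) q fun _ => η
  have hX : ∀ r, r ≠ q → ∀ σ, X r σ = 0 := fun r hr σ => by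
    simp only [X, Function.update_of_ne hr]
  have hXq : ∀ σ, X q σ = η := fun σ => by simp only [X, Function.update_self]
  obtain ⟨φ, hφ⟩ := exists_homJ X (fun r d σ => by
      rcases eq_or_ne r q with rfl | hr
      · rw [hXq, hXq, hη]
      · rw [hX r hr, hX r hr, smul_zero])
    {q} fun r hr σ y => by
      rw [hX r (fun h => hr (Finset.mem_singleton.2 h))]
      exact (LocO L r).zero_mem
  refine ⟨φ, fun g => homJ_ext fun r σ => ?_, ?_, fun r hr γ y => ?_⟩
  · rw [← mul_smul, hφ, hφ]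
    rcases eq_or_ne r q with rfl | hr
    · rw [hXq, hXq]
    · rw [hX r hr, hX r hr]
  · have h1 := hφ q 1
    rw [one_smul, hXq] at h1
    exact h1
  · rw [at_eq_evalHom, hφ, hX r hr]
    rfl

variable {p : ℕ} [hp : Fact p.Prime] {L0 : Layer} [Fintype (Gam ⧸ L0.sub)] {P A : Type}
  [AddCommGroup P] [DistribMulAction (Gam ⧸ L0.sub) P] [AddCommGroup A]
  [DistribMulAction (Gam ⧸ L0.sub) A] (X : Pres p L0 P A) [Module.Free ℤ P] [Module.Finite ℤ P]

/-- The restriction of a class of relations to a decomposition group. -/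
def Pres.resLoc {L : Layer} (hle : L.sub ≤ L0.sub) (q : Nat.Primes) :
    H2 (Gam ⧸ L.sub) (Pull (quotMap hle) X.R) →+
      H2 (LocG L q) (PLoc L q (Pull (quotMap hle) X.R)) :=
  H2.map (locMap L q)
    (show Pull (quotMap hle) X.R →+ PLoc L q (Pull (quotMap hle) X.R) from AddMonoidHom.id _)
    ⟨fun _ _ => rfl⟩

omit [Module.Finite ℤ P] hp in
/-- A connecting class vanishing at a prime comes from a class trivial there. -/
theorem Pres.exists_local_cobound {L : Layer} (hle : L.sub ≤ L0.sub) (y : Z1 Gam (GMod L0 A))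
    (hy : ∀ g, ∀ s ∈ L.sub, (y : Gam → GMod L0 A) (g * s) = (y : Gam → GMod L0 A) g)
    {q : Nat.Primes} (h : X.resLoc hle q (X.deltaCls hle y hy) = 0) :
    ∃ a : GMod L0 A, ∀ τ : LGal q, (y : Gam → GMod L0 A) (loc q τ) = loc q τ • a - a := by
  rw [Pres.deltaCls, Pres.resLoc, H2.map_mk, H2.mk_eq_zero_iff] at h
  obtain ⟨e, he⟩ := h
  let e' : LGal q → GMod L0 X.R := fun τ => e (QuotientGroup.mk τ)
  have hd : ∀ τ τ', X.delta y (loc q τ) (loc q τ') =
      loc q τ • e' τ' - e' (τ * τ') + e' τ := fun τ τ' => by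
    have h2 := he (QuotientGroup.mk τ) (QuotientGroup.mk τ')
    exact ((lvl2_mk L.sub (X.deltaL_level hle y hy) (loc q τ) (loc q τ')).symm.trans h2 :)
  let η : LGal q → GMod L0 P := fun τ => X.sect ((y : Gam → GMod L0 A) (loc q τ)) - X.iG (e' τ)
  have hη : ∀ τ τ', η (τ * τ') = loc q τ • η τ' + η τ := fun τ τ' => by
    have h3 := congrArg X.iG (hd τ τ')
    rw [X.iG_delta, map_add, map_sub, X.iG_smul] at h3
    simp only [η, smul_sub, map_mul]
    linear_combination (norm := abel) -h3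
  let ηP : LGal q → PLoc L q (Pull (quotMap hle) P) := fun τ => η τ
  have hlev : ∀ τ, ∀ s ∈ locSub L q, ηP (τ * s) = ηP τ := fun τ s hs => by
    show X.sect ((y : Gam → GMod L0 A) (loc q (τ * s))) - X.iG (e (QuotientGroup.mk (τ * s))) =
      X.sect ((y : Gam → GMod L0 A) (loc q τ)) - X.iG (e (QuotientGroup.mk τ))
    rw [map_mul, hy _ _ hs, QuotientGroup.mk_mul_of_mem τ hs]
  set ψ := lvl1 (locSub L q) ηP
  have hψmk : ∀ τ, ψ (QuotientGroup.mk τ) = ηP τ := lvl1_mk _ hlev
  have hψ : ψ ∈ Z1 (LocG L q) (PLoc L q (Pull (quotMap hle) P)) := mem_Z1_iff.2 fun u v => by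
    induction u using QuotientGroup.induction_on with
    | _ τ =>
      induction v using QuotientGroup.induction_on with
      | _ τ' =>
        rw [← QuotientGroup.mk_mul, hψmk, hψmk, hψmk]
        exact hη τ τ'
  have hker : ∀ n, (((MonoidHom.id (Gam ⧸ L0.sub)).comp (quotMap hle)).comp (locMap L q)) n = 1 →
      ψ n = 0 := by
    intro n hn
    have htriv : ∀ z : PLoc L q (Pull (quotMap hle) P), n • z = z := fun z => by
      show ((quotMap hle (locMap L q n) : Gam ⧸ L0.sub) • (show P from z) : P) = z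
      rw [show quotMap hle (locMap L q n) = 1 from hn, one_smul]
    exact Z1_eq_zero_of_acts_trivially hψ htriv
  obtain ⟨K, hK⟩ := ((X.proj.pull (quotMap hle)).pull (locMap L q)).exists_cobound_self hψ hker
  let K' : GMod L0 P := K
  refine ⟨X.qG K', fun τ => ?_⟩
  have h1 : X.sect ((y : Gam → GMod L0 A) (loc q τ)) - X.iG (e' τ) = loc q τ • K' - K' :=
    (hψmk τ).symm.trans (hK (QuotientGroup.mk τ))
  have h2 := congrArg X.qG h1
  rw [map_sub, map_sub, X.qG_sect, X.qG_iG, sub_zero, X.qG_smul] at h2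
  exact h2

/-- A connecting class killed by all maps into `S`-ideles is trivial at the primes of `S`. -/
theorem Pres.loc_trivial_of_kill (hp2 : p ≠ 2) {S : Finset Nat.Primes} {L : Layer} (hL : L.IsS S)
    (hle : L.sub ≤ L0.sub) (y : Z1 Gam (GMod L0 A))
    (hy : ∀ g, ∀ s ∈ L.sub, (y : Gam → GMod L0 A) (g * s) = (y : Gam → GMod L0 A) g)
    {q : Nat.Primes} (hq : q ∈ S)
    (hkill : ∀ (g : Pull (quotMap hle) X.R →+ LayerJ L)
      (hg : ∀ (σ : Gam ⧸ L.sub) r, g (σ • r) = σ • g r), (∀ r, (g r : Idele) ∈ sIdeles S) →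
        classH2 L (push2 (Gam ⧸ L.sub) g hg (X.deltaCls hle y hy)) = 0) :
    ∃ a : GMod L0 A, ∀ τ : LGal q, (y : Gam → GMod L0 A) (loc q τ) = loc q τ • a - a := by
  classical
  have := Fintype.ofFinite (LocG L q)
  have := L.finite
  have := Fintype.ofFinite (Gam ⧸ L.sub)
  refine X.exists_local_cobound hle y hy ?_
  have hp1 : p • X.resLoc hle q (X.deltaCls hle y hy) = 0 := by
    rw [← map_nsmul, X.nsmul_deltaCls, map_zero]
  by_contra hne
  obtain ⟨η, hη, hne'⟩ := (isClassModule_LocU (p := p) hp2 L q).exists_push2_ne_zero hp1 hne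
  obtain ⟨φ, hφfix, hφη, hφ0⟩ := exists_supMap q (HomMod.mk η)
    ((HomMod.smul_eq_self_iff _).2 hη)
  have hg : ∀ (σ : Gam ⧸ L.sub) r, φ.hom (σ • r) = σ • φ.hom r := equivariant_of_fixed hφfix
  have hS : ∀ r, (φ.hom r : Idele) ∈ sIdeles S := fun r =>
    ⟨⟨L, hL, (φ.hom r).2⟩, fun s hs γ => by
      show ((φ r : fixedPts L.sub Idele) : Idele).at s γ ∈ _
      rw [hφ0 s (fun h => hs (h ▸ hq)) γ r]
      exact (unitsAt s).zero_mem⟩
  have hzero := hkill φ.hom hg hS
  have hsupp : SuppClass L q (push2 (Gam ⧸ L.sub) φ.hom hg (X.deltaCls hle y hy)) :=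
    ⟨_, fun u v s hs γ => hφ0 s hs γ _, rfl⟩
  have heval : locRes L q (push2 (Gam ⧸ L.sub) φ.hom hg (X.deltaCls hle y hy)) =
      push2 (LocG L q) η hη (X.resLoc hle q (X.deltaCls hle y hy)) := by
    rw [Pres.deltaCls, push2_mk, locRes, H2.map_mk, Pres.resLoc, H2.map_mk, push2_mk]
    refine congrArg H2.mk (Subtype.ext (funext fun d => funext fun d' => ?_))
    exact congrArg (fun f : HomMod (PLoc L q (Pull (quotMap hle) X.R)) (LocU L q) =>
      f (lvl2 L.sub (X.deltaL hle y) (locMap L q d) (locMap L q d'))) hφη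
  refine hne' ?_
  rw [← heval]
  exact locRes_eq_zero_of_classH2 hp2 (classStep hp2) L q hsupp
    (by rw [heval, ← map_nsmul, hp1, map_zero]) hzero

end FLTAgent.GlobalDuality
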