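import Mathlib
import Fermat.Agent.GlobalDuality.LocalDetect
import Fermat.Agent.GlobalDuality.IdeleCochain

/-!
# Correcting a map of relations

If a map of relations into classes kills all connecting classes trivial at `S`, then it differs
from maps with trivial class by a map that kills every class of `p`-power order.
-/

set_option autoImplicit false

noncomputable section

namespace FLTAgent.GalCoh

variable {G : Type} [Group G] {A B : Type} [AddCommGroup A] [DistribMulAction G A]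
  [AddCommGroup B] [DistribMulAction G B]

theorem push2_zero' (h : ∀ (g : G) (a : A), (0 : A →+ B) (g • a) = g • (0 : A →+ B) a)
    (x : H2 G A) : push2 G (0 : A →+ B) h x = 0 := by
  obtain ⟨c, rfl⟩ := H2.mk_surjective x
  rw [push2_mk, ← map_zero H2.mk]
  rfl

theorem push2_neg' {f : A →+ B} (hf : ∀ (g : G) (a : A), f (g • a) = g • f a)
    (h : ∀ (g : G) (a : A), (-f) (g • a) = g • (-f) a) (x : H2 G A) :
    push2 G (-f) h x = -push2 G f hf x := by
  obtain ⟨c, rfl⟩ := H2.mk_surjective x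
  rw [push2_mk, push2_mk, ← map_neg]
  rfl

theorem push2_sub' {f f' : A →+ B} (hf : ∀ (g : G) (a : A), f (g • a) = g • f a)
    (hf' : ∀ (g : G) (a : A), f' (g • a) = g • f' a)
    (h : ∀ (g : G) (a : A), (f - f') (g • a) = g • (f - f') a) (x : H2 G A) :
    push2 G (f - f') h x = push2 G f hf x - push2 G f' hf' x := by
  obtain ⟨c, rfl⟩ := H2.mk_surjective x
  rw [push2_mk, push2_mk, push2_mk, ← map_sub]
  rfl

theorem equivariant_add {f f' : A →+ B} (hf : ∀ (g : G) (a : A), f (g • a) = g • f a)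
    (hf' : ∀ (g : G) (a : A), f' (g • a) = g • f' a) (g : G) (a : A) :
    (f + f') (g • a) = g • (f + f') a := by
  rw [AddMonoidHom.add_apply, AddMonoidHom.add_apply, hf, hf', smul_add]

theorem equivariant_neg {f : A →+ B} (hf : ∀ (g : G) (a : A), f (g • a) = g • f a) (g : G) (a : A) :
    (-f) (g • a) = g • (-f) a := by
  rw [AddMonoidHom.neg_apply, AddMonoidHom.neg_apply, hf, smul_neg]

theorem equivariant_zero (g : G) (a : A) : (0 : A →+ B) (g • a) = g • (0 : A →+ B) a := by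
  rw [AddMonoidHom.zero_apply, AddMonoidHom.zero_apply, smul_zero]

end FLTAgent.GalCoh

namespace FLTAgent.GlobalDuality

open FLTAgent.GalCoh FLTAgent.LocalDuality FLTAgent.IdeleClassCohomology ExtCitation

/-- The class map on the ideles of a layer. -/
def classJ (L : Layer) : LayerJ L →+ LayerC L := fixedMap classMap classMap_smul L.sub

theorem classJ_smul (L : Layer) (g : Gam ⧸ L.sub) (x : LayerJ L) :
    classJ L (g • x) = g • classJ L x :=
  fixedMap_smul classMap classMap_smul L.sub g x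

variable {p : ℕ} [hp : Fact p.Prime] {L0 : Layer} [Fintype (Gam ⧸ L0.sub)] {P A : Type}
  [AddCommGroup P] [DistribMulAction (Gam ⧸ L0.sub) P] [AddCommGroup A]
  [DistribMulAction (Gam ⧸ L0.sub) A] (X : Pres p L0 P A) [Module.Free ℤ P] [Module.Finite ℤ P]

omit [Module.Free ℤ P] [Module.Finite ℤ P] hp in
/-- A class of relations dying in the lattice is a connecting class. -/
theorem Pres.exists_deltaCls_eq {L : Layer} (hle : L.sub ≤ L0.sub)
    {ρ : H2 (Gam ⧸ L.sub) (Pull (quotMap hle) X.R)}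
    (h : push2 (Gam ⧸ L.sub) (X.iL hle) (X.iL_smul hle) ρ = 0) :
    ∃ (y : Z1 Gam (GMod L0 A))
      (hy : ∀ g, ∀ s ∈ L.sub, (y : Gam → GMod L0 A) (g * s) = (y : Gam → GMod L0 A) g),
      X.deltaCls hle y hy = ρ := by
  obtain ⟨c, rfl⟩ := H2.mk_surjective ρ
  rw [push2_mk, H2.mk_eq_zero_iff] at h
  obtain ⟨e, he⟩ := h
  let c' : Gam → Gam → GMod L0 X.R := fun g k =>
    (c : Gam ⧸ L.sub → Gam ⧸ L.sub → Pull (quotMap hle) X.R) (QuotientGroup.mk g)
      (QuotientGroup.mk k)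
  let e' : Gam → GMod L0 P := fun g => e (QuotientGroup.mk g)
  have hd : ∀ g k, X.iG (c' g k) = g • e' k - e' (g * k) + e' g := fun g k =>
    (he (QuotientGroup.mk g) (QuotientGroup.mk k) :)
  have hz : (fun g => X.qG (e' g)) ∈ Z1 Gam (GMod L0 A) := mem_Z1_iff.2 fun g k => by
    have h1 := congrArg X.qG (hd g k)
    rw [X.qG_iG, map_add, map_sub, X.qG_smul] at h1
    linear_combination (norm := abel) h1
  have hlev : ∀ g, ∀ s ∈ L.sub, e' (g * s) = e' g := fun g s hs => by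
    show e (QuotientGroup.mk (g * s)) = e (QuotientGroup.mk g)
    rw [QuotientGroup.mk_mul_of_mem g hs]
  refine ⟨⟨_, hz⟩, fun g s hs => congrArg X.qG (hlev g s hs), ?_⟩
  have hex : ∀ g, ∃ r, X.iG r = X.sect (X.qG (e' g)) - e' g := fun g =>
    X.exists_iG_eq (by rw [map_sub, X.qG_sect, sub_self])
  choose r hr using hex
  rw [Pres.deltaCls, ← sub_eq_zero, ← map_sub, H2.mk_eq_zero_iff]
  let rL : Gam → Pull (quotMap hle) X.R := r
  have hrlev : ∀ g, ∀ s ∈ L.sub, rL (g * s) = rL g := fun g s hs => X.iG_injective (by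
    show X.iG (r (g * s)) = X.iG (r g)
    rw [hr, hr, hlev g s hs])
  refine ⟨lvl1 L.sub rL, fun u v => ?_⟩
  induction u using QuotientGroup.induction_on with
  | _ g =>
    induction v using QuotientGroup.induction_on with
    | _ k =>
      rw [← QuotientGroup.mk_mul, lvl1_mk _ hrlev, lvl1_mk _ hrlev, lvl1_mk _ hrlev]
      show lvl2 L.sub (X.deltaL hle _) (QuotientGroup.mk g) (QuotientGroup.mk k) -
        (c : Gam ⧸ L.sub → Gam ⧸ L.sub → Pull (quotMap hle) X.R) (QuotientGroup.mk g)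
          (QuotientGroup.mk k) = _
      rw [lvl2_mk _ (X.deltaL_level hle _ fun g s hs => congrArg X.qG (hlev g s hs))]
      refine X.iG_injective ?_
      show X.iG (X.delta ⟨_, hz⟩ g k - c' g k) = X.iG (g • r k - r (g * k) + r g)
      rw [map_sub, X.iG_delta, hd, map_add, map_sub, X.iG_smul, hr, hr, hr, smul_sub]
      show g • X.sect (X.qG (e' k)) - X.sect (X.qG (e' (g * k))) + X.sect (X.qG (e' g)) - _ = _
      abel

/-- The correction. -/
theorem Pres.exists_correction (hp2 : p ≠ 2) {S : Finset Nat.Primes} {L : Layer} (hL : L.IsS S)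
    (hle : L.sub ≤ L0.sub) [Fintype (Gam ⧸ L.sub)]
    (φ : Pull (quotMap hle) X.R →+ LayerC L)
    (hφ : ∀ (σ : Gam ⧸ L.sub) r, φ (σ • r) = σ • φ r)
    (hvan : ∀ (y : Z1 Gam (GMod L0 A))
      (hy : ∀ g, ∀ s ∈ L.sub, (y : Gam → GMod L0 A) (g * s) = (y : Gam → GMod L0 A) g),
      (∀ q ∈ S, ∃ a : GMod L0 A, ∀ τ : LGal q,
        (y : Gam → GMod L0 A) (loc q τ) = loc q τ • a - a) →
      push2 (Gam ⧸ L.sub) φ hφ (X.deltaCls hle y hy) = 0) :
    ∃ (g : Pull (quotMap hle) X.R →+ LayerJ L) (k : Pull (quotMap hle) P →+ LayerC L)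
      (φ₀ : Pull (quotMap hle) X.R →+ LayerC L)
      (hφ₀ : ∀ (σ : Gam ⧸ L.sub) r, φ₀ (σ • r) = σ • φ₀ r),
      (∀ (σ : Gam ⧸ L.sub) r, g (σ • r) = σ • g r) ∧ (∀ (σ : Gam ⧸ L.sub) y, k (σ • y) = σ • k y) ∧
      (∀ r, (g r : Idele) ∈ sIdeles S) ∧
      (∀ r, φ r = φ₀ r + classJ L (g r) + k (X.iL hle r)) ∧
      ∀ ρ : H2 (Gam ⧸ L.sub) (Pull (quotMap hle) X.R),
        pPart p (Gam ⧸ L.sub) • ρ = 0 → push2 (Gam ⧸ L.sub) φ₀ hφ₀ ρ = 0 := by
  classical
  have := L.finite
  set d := pPart p (Gam ⧸ L.sub)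
  have : NeZero d := ⟨pow_ne_zero _ hp.out.ne_zero⟩
  have hC := isClassModule_classes (p := p) hp2 (classStep hp2) L
  obtain ⟨ι, hι, hline⟩ := hC.exists_line
  have := finite_H2 (G := Gam ⧸ L.sub) (R := Pull (quotMap hle) X.R)
  let T : AddSubgroup (H2 (Gam ⧸ L.sub) (Pull (quotMap hle) X.R)) :=
    (nsmulAddMonoidHom d : H2 (Gam ⧸ L.sub) (Pull (quotMap hle) X.R) →+ _).ker
  have hT : ∀ t : T, d • (t : H2 (Gam ⧸ L.sub) (Pull (quotMap hle) X.R)) = 0 := fun t => t.2
  have hlift : ∀ Φ : H2 (Gam ⧸ L.sub) (Pull (quotMap hle) X.R) →+ H2 (Gam ⧸ L.sub) (LayerC L),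
      ∃ ξ : T →+ ZMod d, ∀ t : T, ι (ξ t) = Φ t := fun Φ => by
    have hex : ∀ t : T, ∃ u, ι u = Φ t := fun t =>
      hline _ (by rw [← map_nsmul, hT t, map_zero])
    choose ξ hξ using hex
    exact ⟨AddMonoidHom.mk' ξ fun a b => hι (by
      rw [map_add, hξ, hξ, hξ, AddSubgroup.coe_add, map_add]), hξ⟩
  let XX : AddSubgroup (T →+ ZMod d) :=
    { carrier := {ξ | ∃ (g : Pull (quotMap hle) X.R →+ LayerJ L)
          (hg : ∀ (σ : Gam ⧸ L.sub) r, g (σ • r) = σ • g r)
          (k : Pull (quotMap hle) P →+ LayerC L)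
          (hk : ∀ (σ : Gam ⧸ L.sub) y, k (σ • y) = σ • k y),
          (∀ r, (g r : Idele) ∈ sIdeles S) ∧ ∀ t : T, ι (ξ t) =
            classH2 L (push2 (Gam ⧸ L.sub) g hg t) +
              push2 (Gam ⧸ L.sub) k hk (push2 (Gam ⧸ L.sub) (X.iL hle) (X.iL_smul hle) t)}
      zero_mem' := ⟨0, equivariant_zero, 0, equivariant_zero, fun r => (sIdeles S).zero_mem,
        fun t => by
          rw [push2_zero', push2_zero', map_zero, add_zero]
          exact map_zero ι⟩
      add_mem' := fun {a b} ha hb => by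
        obtain ⟨g, hg, k, hk, hgS, ha⟩ := ha
        obtain ⟨g', hg', k', hk', hgS', hb⟩ := hb
        refine ⟨g + g', equivariant_add hg hg', k + k', equivariant_add hk hk',
          fun r => add_mem (hgS r) (hgS' r), fun t => ?_⟩
        rw [push2_add hg hg', push2_add hk hk', map_add (classH2 L)]
        show ι (a t + b t) = _
        rw [map_add, ha, hb]
        abel
      neg_mem' := fun {a} ha => by
        obtain ⟨g, hg, k, hk, hgS, ha⟩ := ha
        refine ⟨-g, equivariant_neg hg, -k, equivariant_neg hk, fun r => neg_mem (hgS r),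
          fun t => ?_⟩
        rw [push2_neg' hg, push2_neg' hk, map_neg (classH2 L)]
        show ι (-a t) = _
        rw [map_neg, ha, neg_add] }
  obtain ⟨χ, hχ⟩ := hlift (push2 (Gam ⧸ L.sub) φ hφ)
  have hmem : χ ∈ XX := mem_of_separating XX χ fun t ht => by
    have hk0 : ∀ (k : Pull (quotMap hle) P →+ LayerC L)
        (hk : ∀ (σ : Gam ⧸ L.sub) y, k (σ • y) = σ • k y),
        push2 (Gam ⧸ L.sub) k hk (push2 (Gam ⧸ L.sub) (X.iL hle) (X.iL_smul hle) t) = 0 := by
      intro k hk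
      obtain ⟨ξ, hξ⟩ := hlift ((push2 (Gam ⧸ L.sub) k hk).comp
        (push2 (Gam ⧸ L.sub) (X.iL hle) (X.iL_smul hle)))
      have h1 := ht ξ ⟨0, equivariant_zero, k, hk, fun r => (sIdeles S).zero_mem, fun t => by
        rw [hξ, push2_zero', map_zero, zero_add]
        rfl⟩
      have h2 := hξ t
      rw [h1, map_zero] at h2
      exact h2.symm
    have hi0 : push2 (Gam ⧸ L.sub) (X.iL hle) (X.iL_smul hle) t = 0 :=
      hC.eq_zero_of_push2 (k := (Nat.card (Gam ⧸ L.sub)).factorization p)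
        (by rw [← map_nsmul]; exact (congrArg _ (hT t)).trans (map_zero _)) hk0
    obtain ⟨y, hy, hyt⟩ := X.exists_deltaCls_eq hle hi0
    have hloc : ∀ q ∈ S, ∃ a : GMod L0 A, ∀ τ : LGal q,
        (y : Gam → GMod L0 A) (loc q τ) = loc q τ • a - a := fun q hq =>
      X.loc_trivial_of_kill hp2 hL hle y hy hq fun g hg hgS => by
        obtain ⟨ξ, hξ⟩ := hlift ((classH2 L).comp (push2 (Gam ⧸ L.sub) g hg))
        have h1 := ht ξ ⟨g, hg, 0, equivariant_zero, hgS, fun t => by
          rw [hξ, push2_zero', add_zero]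
          rfl⟩
        have h2 := hξ t
        rw [h1, map_zero] at h2
        rw [hyt]
        exact h2.symm
    refine hι ?_
    rw [hχ, map_zero, ← hyt]
    exact hvan y hy hloc
  obtain ⟨g, hg, k, hk, hgS, hsum⟩ := hmem
  have hcg : ∀ (σ : Gam ⧸ L.sub) r, (classJ L).comp g (σ • r) = σ • (classJ L).comp g r :=
    fun σ r => by rw [AddMonoidHom.comp_apply, AddMonoidHom.comp_apply, hg, classJ_smul]
  have hki : ∀ (σ : Gam ⧸ L.sub) r, k.comp (X.iL hle) (σ • r) = σ • k.comp (X.iL hle) r :=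
    fun σ r => by rw [AddMonoidHom.comp_apply, AddMonoidHom.comp_apply, X.iL_smul, hk]
  refine ⟨g, k, φ - ((classJ L).comp g + k.comp (X.iL hle)), fun σ r => ?_, hg, hk, hgS,
    fun r => ?_, fun ρ hρ => ?_⟩
  · rw [AddMonoidHom.sub_apply, AddMonoidHom.sub_apply, hφ, equivariant_add hcg hki, smul_sub]
  · rw [AddMonoidHom.sub_apply, AddMonoidHom.add_apply, AddMonoidHom.comp_apply,
      AddMonoidHom.comp_apply]
    abel
  · rw [push2_sub' hφ (equivariant_add hcg hki), push2_add hcg hki, push2_comp hg (classJ_smul L),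
      push2_comp (X.iL_smul hle) hk, sub_eq_zero]
    exact (hχ ⟨ρ, hρ⟩).symm.trans (hsum ⟨ρ, hρ⟩)

end FLTAgent.GlobalDuality
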