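import Mathlib
import Fermat.Agent.GlobalDuality.Correction
import Fermat.Agent.IdeleClassCohomology.KummerNorm

/-!
# Norms of maps of relations

When norms from a big layer lie in principal, `S`- and `p`-divisible ideles of a layer, the norm of
any map of relations into classes splits as a map into `S`-ideles and a map of the lattice.
-/

set_option autoImplicit false

noncomputable section

namespace FLTAgent.GlobalDuality

open FLTAgent.GalCoh FLTAgent.LocalDuality FLTAgent.IdeleClassCohomology ExtCitation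

/-- The kernel between two levels and the cosets of the bigger level. -/
theorem sum_ker_smul_class {L L' : Layer} (h : L'.sub ≤ L.sub) [Fintype (quotMap h).ker]
    (x : fixedPts L'.sub Idele) :
    (∑ n : (quotMap h).ker, ((n : Gam ⧸ L'.sub) • classJ L' x : LayerC L') : LayerC L') =
      fixedIncl IdeleClass h (classJ L (normTo Idele L'.sub L.sub x)) := by
  classical
  have := Fintype.ofFinite (L.sub ⧸ L'.sub.subgroupOf L.sub)
  refine Subtype.ext ?_
  rw [AddSubgroup.val_finsetSum, coe_fixedIncl]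
  show _ = classMap (normTo Idele L'.sub L.sub x : Idele)
  rw [coe_normTo, map_sum]
  let e : L.sub ⧸ L'.sub.subgroupOf L.sub → (quotMap h).ker := fun c =>
    Quotient.liftOn' c (fun n => (⟨QuotientGroup.mk (n : Gam), MonoidHom.mem_ker.2
      ((QuotientGroup.eq_one_iff (n : Gam)).2 n.2)⟩ : (quotMap h).ker)) fun a b hab =>
      Subtype.ext (QuotientGroup.eq.2 (by
        have := Subgroup.mem_subgroupOf.1 (QuotientGroup.leftRel_apply.1 hab)
        simpa using this))
  have he : Function.Bijective e := by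
    refine ⟨fun a b hab => ?_, fun n => ?_⟩
    · induction a using QuotientGroup.induction_on with
      | _ a =>
        induction b using QuotientGroup.induction_on with
        | _ b =>
          refine QuotientGroup.eq.2 (Subgroup.mem_subgroupOf.2 ?_)
          have := QuotientGroup.eq.1 (congrArg Subtype.val hab :)
          simpa using this
    · obtain ⟨γ, hγ⟩ := QuotientGroup.mk_surjective (n : Gam ⧸ L'.sub)
      have hmem : γ ∈ L.sub := (QuotientGroup.eq_one_iff γ).1 (by
        rw [← quotMap_mk h, hγ]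
        exact MonoidHom.mem_ker.1 n.2)
      exact ⟨QuotientGroup.mk ⟨γ, hmem⟩, Subtype.ext hγ⟩
  refine (Fintype.sum_bijective e he _ _ fun c => ?_).symm
  induction c using QuotientGroup.induction_on with
  | _ n =>
    rw [normTerm_mk]
    rfl

variable {p : ℕ} [hp : Fact p.Prime] {L0 : Layer} [Fintype (Gam ⧸ L0.sub)] {P A : Type}
  [AddCommGroup P] [DistribMulAction (Gam ⧸ L0.sub) P] [AddCommGroup A]
  [DistribMulAction (Gam ⧸ L0.sub) A] (X : Pres p L0 P A) [Module.Free ℤ P] [Module.Finite ℤ P]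

omit hp in
/-- The decomposition of a norm. -/
theorem Pres.exists_norm_decomp {S : Finset Nat.Primes} {L L' : Layer} (hle : L.sub ≤ L0.sub)
    (h' : L'.sub ≤ L.sub) [Fintype (Gam ⧸ L.sub)] [Fintype (Gam ⧸ L'.sub)]
    (hkill : ∀ y : fixedPts L'.sub Idele, ∃ a z w, a ∈ fixedPts L.sub GU ∧
      z ∈ fixedPts L.sub Idele ∧ w ∈ fixedPts L.sub Idele ∧ w ∈ sIdeles S ∧
      (normTo Idele L'.sub L.sub y : Idele) = principal a + p • z + w)
    (ψ : HomMod (Pull (quotMap (h'.trans hle)) X.R) (LayerC L')) :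
    ∃ (g₂ : HomMod (GMod L0 X.R) Idele) (K₂ : HomMod (GMod L0 P) IdeleClass),
      (∀ (γ : Gam) r, g₂ (γ • r) = γ • g₂ r) ∧
      (∀ r, g₂ r ∈ fixedPts L.sub Idele ∧ g₂ r ∈ sIdeles S) ∧
      (∀ (γ : Gam) y, K₂ (γ • y) = γ • K₂ y) ∧ (∀ y, K₂ y ∈ fixedPts L.sub IdeleClass) ∧
      ∀ r : GMod L0 X.R,
        (((∑ σ : Gam ⧸ L'.sub, σ • ψ) (show Pull (quotMap (h'.trans hle)) X.R from r) :
          LayerC L') : IdeleClass) = classMap (g₂ r) + K₂ (X.iG r) := by
  classical
  have := Fintype.ofFinite (quotMap h').ker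
  set H := (quotMap h').ker
  let bb := Module.Free.chooseBasis ℤ (Pull (quotMap (h'.trans hle)) X.R)
  choose x hx hxc using fun j => exists_idele_lift L'.sub (ψ (bb j)).2
  choose a z w ha hz hw hwS hN using fun j => hkill ⟨x j, hx j⟩
  let Zh : Pull (quotMap (h'.trans hle)) X.R →+ fixedPts L.sub Idele :=
    (bb.constr ℕ fun j => (⟨z j, hz j⟩ : fixedPts L.sub Idele)).toAddMonoidHom
  let Wh : Pull (quotMap (h'.trans hle)) X.R →+ fixedPts L.sub Idele :=
    (bb.constr ℕ fun j => (⟨w j, hw j⟩ : fixedPts L.sub Idele)).toAddMonoidHom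
  have hfixR : ∀ (n : H) (r : Pull (quotMap (h'.trans hle)) X.R), (n : Gam ⧸ L'.sub)⁻¹ • r = r := by
    intro n r
    obtain ⟨γ, hγ⟩ := QuotientGroup.mk_surjective (n : Gam ⧸ L'.sub)
    have hmem : γ ∈ L.sub := (QuotientGroup.eq_one_iff γ).1 (by
      rw [← quotMap_mk h', hγ]
      exact MonoidHom.mem_ker.1 n.2)
    rw [← hγ]
    exact smul_GMod_of_mem (inv_mem (hle hmem)) (show GMod L0 X.R from r)
  have hinner : ∀ r, ((∑ n : H, (n : Gam ⧸ L'.sub) • ψ) r : LayerC L') =
      fixedIncl IdeleClass h' (classJ L (p • Zh r + Wh r)) := by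
    intro r
    refine DFunLike.congr_fun (f := (∑ n : H, (n : Gam ⧸ L'.sub) • ψ).hom.toIntLinearMap)
      (g := ((fixedIncl IdeleClass h').comp ((classJ L).comp (p • Zh + Wh))).toIntLinearMap)
      (bb.ext fun j => ?_) r
    show (∑ n : H, (n : Gam ⧸ L'.sub) • ψ) (bb j) =
      fixedIncl IdeleClass h' (classJ L (p • Zh (bb j) + Wh (bb j)))
    have h1 : (∑ n : H, (n : Gam ⧸ L'.sub) • ψ) (bb j) =
        ∑ n : H, (n : Gam ⧸ L'.sub) • classJ L' ⟨x j, hx j⟩ := by
      rw [show (∑ n : H, (n : Gam ⧸ L'.sub) • ψ) (bb j) = ∑ n : H, ((n : Gam ⧸ L'.sub) • ψ) (bb j)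
        from map_sum (AddMonoidHom.mk'
          (fun f : HomMod (Pull (quotMap (h'.trans hle)) X.R) (LayerC L') => f (bb j))
          fun _ _ => rfl) _ _]
      refine Finset.sum_congr rfl fun n _ => ?_
      rw [HomMod.smul_apply, hfixR]
      exact congrArg _ (Subtype.ext (hxc j).symm)
    rw [h1, sum_ker_smul_class]
    refine Subtype.ext ?_
    show classMap (normTo Idele L'.sub L.sub ⟨x j, hx j⟩ : Idele) =
      classMap (((p • (bb.constr ℕ fun j => (⟨z j, hz j⟩ : fixedPts L.sub Idele)) (bb j) +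
        (bb.constr ℕ fun j => (⟨w j, hw j⟩ : fixedPts L.sub Idele)) (bb j) :
          fixedPts L.sub Idele)) : Idele)
    rw [bb.constr_basis, bb.constr_basis, hN, AddSubgroup.coe_add, AddSubgroup.coe_nsmul, map_add,
      map_add, (classMap_eq_zero_iff _).2 ⟨_, rfl⟩, zero_add, map_add]
  -- the two maps downstairs
  let W₀ : HomMod (Pull (quotMap hle) X.R) (fixedPts L.sub Idele) :=
    HomMod.mk (show Pull (quotMap hle) X.R →+ fixedPts L.sub Idele from Wh)
  let mulp : P →+ X.R := (nsmulAddMonoidHom p).codRestrict X.R X.nsmul_mem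
  let k₀ : HomMod (Pull (quotMap hle) P) (LayerC L) :=
    HomMod.mk (show Pull (quotMap hle) P →+ LayerC L from (classJ L).comp
      ((show X.R →+ fixedPts L.sub Idele from Zh).comp mulp))
  have hk₀ : ∀ r : Pull (quotMap hle) X.R, k₀ (X.iL hle r) =
      p • classJ L (Zh (show Pull (quotMap (h'.trans hle)) X.R from r)) := fun r => by
    show classJ L ((show X.R →+ fixedPts L.sub Idele from Zh) (mulp (show P from X.iL hle r))) = _
    rw [← map_nsmul, ← map_nsmul]
    exact congrArg (fun u => classJ L ((show X.R →+ fixedPts L.sub Idele from Zh) u))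
      (Subtype.ext rfl : mulp (show P from X.iL hle r) = p • (show X.R from r))
  set W₁ := ∑ s : Gam ⧸ L.sub, s • W₀ with hW₁def
  set K₁ := ∑ s : Gam ⧸ L.sub, s • k₀ with hK₁def
  have hW₁ : ∀ σ : Gam ⧸ L.sub, σ • W₁ = W₁ := fun σ => by
    rw [hW₁def, Finset.smul_sum]
    exact Fintype.sum_equiv (Equiv.mulLeft σ) _ _ fun s => (mul_smul σ s W₀).symm
  have hK₁ : ∀ σ : Gam ⧸ L.sub, σ • K₁ = K₁ := fun σ => by
    rw [hK₁def, Finset.smul_sum]
    exact Fintype.sum_equiv (Equiv.mulLeft σ) _ _ fun s => (mul_smul σ s k₀).symm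
  have hW₀S : ∀ r, ((W₀ r : fixedPts L.sub Idele) : Idele) ∈ sIdeles S := fun r => by
    show (((bb.constr ℕ fun j => (⟨w j, hw j⟩ : fixedPts L.sub Idele))
      (show Pull (quotMap (h'.trans hle)) X.R from r) : fixedPts L.sub Idele) : Idele) ∈ _
    rw [← bb.sum_repr (show Pull (quotMap (h'.trans hle)) X.R from r), map_sum,
      AddSubgroup.val_finsetSum]
    exact sum_mem fun j _ => by
      rw [map_zsmul, bb.constr_basis, AddSubgroup.coe_zsmul]
      exact zsmul_mem (hwS j) _
  have hW₁apply : ∀ r, W₁ r = ∑ s : Gam ⧸ L.sub, s • W₀ (s⁻¹ • r) := fun r =>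
    map_sum (AddMonoidHom.mk'
      (fun f : HomMod (Pull (quotMap hle) X.R) (fixedPts L.sub Idele) => f r)
      fun _ _ => rfl) _ _
  have hK₁apply : ∀ y, K₁ y = ∑ s : Gam ⧸ L.sub, s • k₀ (s⁻¹ • y) := fun y =>
    map_sum (AddMonoidHom.mk' (fun f : HomMod (Pull (quotMap hle) P) (LayerC L) => f y)
      fun _ _ => rfl) _ _
  refine ⟨HomMod.mk (show GMod L0 X.R →+ Idele from (fixedPts L.sub Idele).subtype.comp W₁.hom),
    HomMod.mk (show GMod L0 P →+ IdeleClass from (LayerC L).subtype.comp K₁.hom),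
    fun γ r => congrArg Subtype.val ((HomMod.smul_eq_self_iff W₁).1 hW₁ (QuotientGroup.mk γ)
      (show Pull (quotMap hle) X.R from r)),
    fun r => ⟨(W₁ (show Pull (quotMap hle) X.R from r)).2, ?_⟩,
    fun γ y => congrArg Subtype.val ((HomMod.smul_eq_self_iff K₁).1 hK₁ (QuotientGroup.mk γ)
      (show Pull (quotMap hle) P from y)),
    fun y => (K₁ (show Pull (quotMap hle) P from y)).2, fun r => ?_⟩
  · show ((W₁ (show Pull (quotMap hle) X.R from r) : fixedPts L.sub Idele) : Idele) ∈ _
    rw [hW₁apply, AddSubgroup.val_finsetSum]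
    refine sum_mem fun s _ => ?_
    induction s using QuotientGroup.induction_on with
    | _ γ =>
      rw [coe_mk_smul]
      exact smul_mem_sIdeles S γ (hW₀S _)
  · choose sec hsec using quotMap_surjective h'
    have hfib := sum_smul_fiber (φ := quotMap h') hsec ψ
    rw [hfib]
    have e1 : (∑ s : Gam ⧸ L.sub, sec s • ∑ n : H, (n : Gam ⧸ L'.sub) • ψ)
        (show Pull (quotMap (h'.trans hle)) X.R from r) =
        fixedIncl IdeleClass h' (classJ L (W₁ (show Pull (quotMap hle) X.R from r)) +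
          K₁ (X.iL hle (show Pull (quotMap hle) X.R from r))) := by
      rw [hW₁apply, hK₁apply, map_sum (classJ L), ← Finset.sum_add_distrib, map_sum,
        show (∑ s : Gam ⧸ L.sub, sec s • ∑ n : H, (n : Gam ⧸ L'.sub) • ψ)
            (show Pull (quotMap (h'.trans hle)) X.R from r) =
          ∑ s : Gam ⧸ L.sub, (sec s • ∑ n : H, (n : Gam ⧸ L'.sub) • ψ)
            (show Pull (quotMap (h'.trans hle)) X.R from r) from
        map_sum (AddMonoidHom.mk' (fun f : HomMod (Pull (quotMap (h'.trans hle)) X.R) (LayerC L') =>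
          f (show Pull (quotMap (h'.trans hle)) X.R from r)) fun _ _ => rfl) _ _]
      refine Finset.sum_congr rfl fun s _ => ?_
      rw [HomMod.smul_apply, hinner, classJ_smul, ← smul_add s, ← X.iL_smul hle, hk₀,
        ← (inflation_compat h').compat, hsec]
      have hr' : (show Pull (quotMap hle) X.R from
          ((sec s)⁻¹ • (show Pull (quotMap (h'.trans hle)) X.R from r) :
            Pull (quotMap (h'.trans hle)) X.R)) =
          s⁻¹ • (show Pull (quotMap hle) X.R from r) := by
        obtain ⟨γ, hγ⟩ := QuotientGroup.mk_surjective (sec s)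
        have hs : (QuotientGroup.mk γ : Gam ⧸ L.sub) = s := by rw [← quotMap_mk h', hγ, hsec]
        rw [← hγ, ← hs]
        rfl
      rw [← hr', map_add (classJ L), map_nsmul, add_comm (p • _)]
      rfl
    exact congrArg Subtype.val e1

end FLTAgent.GlobalDuality
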