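import Mathlib
import Fermat.Agent.GlobalDuality.NormDecomp
import Fermat.Agent.GlobalDuality.Psi
import Fermat.Agent.IdeleClassCohomology.NormKill

/-!
# Nondegeneracy on classes in degree two

A map of relations pairing to zero with every class trivial at `S` has trivial class, up to a
factor prime to `p`.
-/

set_option autoImplicit false

noncomputable section

namespace FLTAgent.GlobalDuality

open FLTAgent.GalCoh FLTAgent.LocalDuality FLTAgent.IdeleClassCohomology ExtCitation

variable {p : ℕ} [hp : Fact p.Prime] {L0 : Layer} [Fintype (Gam ⧸ L0.sub)] {P A : Type}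
  [AddCommGroup P] [DistribMulAction (Gam ⧸ L0.sub) P] [AddCommGroup A]
  [DistribMulAction (Gam ⧸ L0.sub) A] (X : Pres p L0 P A) [Module.Free ℤ P] [Module.Finite ℤ P]

omit [Module.Free ℤ P] [Module.Finite ℤ P] hp in
/-- A map made of an equivariant map and a map of the lattice has trivial class. -/
theorem Pres.rel_zero_of_decomp {S : Finset Nat.Primes} {L : Layer} (hL : L.IsS S)
    (hle : L.sub ≤ L0.sub) (g : HomMod (GMod L0 X.R) Idele)
    (hg : ∀ (γ : Gam) r, g (γ • r) = γ • g r) (K : HomMod (GMod L0 P) Idele)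
    (hKv : ∀ y, K y ∈ fixedPts L.sub Idele ∧ K y ∈ sIdeles S)
    (hKc : ∀ (γ : Gam) y, classMap (K (γ • y)) = γ • classMap (K y))
    (h : HomMod (GMod L0 X.R) Idele) (hh : ∀ r, h r = g r + K (X.iG r)) : X.Rel S h 0 := by
  have hex : ∀ (γ : Gam) (y : GMod L0 P), ∃ a : GU, principal a = γ • K (γ⁻¹ • y) - K y :=
    fun γ y =>
    (classMap_eq_zero_iff _).1 (by rw [map_sub, classMap_smul, ← hKc, smul_inv_smul, sub_self])
  choose F hF using hex
  let Fh : Gam → HomMod (GMod L0 P) GU := fun γ => HomMod.mk (AddMonoidHom.mk' (F γ)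
    fun y y' => principal_injective (by
      rw [map_add, hF, hF, hF]
      simp only [map_add, smul_add]
      abel))
  have hFh : ∀ γ y, principal (Fh γ y) = γ • K (γ⁻¹ • y) - K y := hF
  refine ⟨L, Fh, hL, hle, fun γ s hs => HomMod.ext fun y => principal_injective ?_, fun γ y => ?_,
    fun γ r => ?_, fun γ δ y => ?_⟩
  · rw [hFh, hFh, mul_inv_rev, mul_smul s⁻¹, smul_GMod_of_mem (inv_mem (hle hs)), mul_smul γ s,
      (hKv _).1 s hs]
  · have hmem : principal (Fh γ y) ∈ fixedPts L.sub Idele ∧ principal (Fh γ y) ∈ sIdeles S := by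
      rw [hFh]
      exact ⟨sub_mem (smul_mem_fixedPts L.sub γ (hKv _).1) (hKv _).1,
        sub_mem (smul_mem_sIdeles S γ (hKv _).2) (hKv _).2⟩
    exact ⟨principal_mem_fixedPts_iff.1 hmem.1, mem_sUnits_iff.2 hmem.2⟩
  · rw [hFh, HomMod.smul_apply, hh, hh, smul_add, hg, smul_inv_smul, X.iG_smul]
    abel
  · refine principal_injective ?_
    show principal (0 : GU) = principal (γ • Fh δ (γ⁻¹ • y) - Fh (γ * δ) y + Fh γ y)
    rw [map_zero, map_add, map_sub, principal_smul, hFh, hFh, hFh, mul_inv_rev, mul_smul δ⁻¹,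
      mul_smul γ δ, smul_sub]
    abel

/-- Nondegeneracy on classes in degree two. -/
theorem Pres.exists_nsmul_rel_zero (hp2 : p ≠ 2) {S : Finset Nat.Primes} (hpS : pPrime p ∈ S)
    (hL0 : L0.IsS S) {h : HomMod (GMod L0 X.R) Idele} (hh : h ∈ X.HS S)
    (hzero : ∀ y : Z1 Gam (GMod L0 A), Sha1 S y → X.Phi hp2 h y = 0) :
    ∃ m : ℕ, ¬p ∣ m ∧ X.Rel S (m • h) 0 := by
  classical
  obtain ⟨L, hL, hle, hfix⟩ := exists_layer_values (R := GMod L0 X.R) hL0 h.hom hh.1
  obtain ⟨L', hLL', hL', hkill⟩ := exists_normKill_of_odd hL hpS hp2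
  have h' : L'.sub ≤ L.sub := Layer.sub_le hLL'
  have hle' : L'.sub ≤ L0.sub := h'.trans hle
  have := L.finite
  have := L'.finite
  have := Fintype.ofFinite (Gam ⧸ L.sub)
  have := Fintype.ofFinite (Gam ⧸ L'.sub)
  have hfix' : ∀ r, h r ∈ fixedPts L'.sub Idele := fun r => fixedPts_antitone h' (hfix r)
  let φ : Pull (quotMap hle') X.R →+ LayerC L' :=
    (show Pull (quotMap hle') X.R →+ LayerC L' from
      (classMap.comp h.hom).codRestrict (LayerC L') fun r => classMap_mem_fixedPts (hfix' r))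
  have hφ : ∀ (σ : Gam ⧸ L'.sub) r, φ (σ • r) = σ • φ r := fun σ r => by
    induction σ using QuotientGroup.induction_on with
    | _ γ => exact Subtype.ext (hh.2 γ (show GMod L0 X.R from r))
  have hvan : ∀ (y : Z1 Gam (GMod L0 A))
      (hy : ∀ g, ∀ s ∈ L'.sub, (y : Gam → GMod L0 A) (g * s) = (y : Gam → GMod L0 A) g),
      (∀ q ∈ S, ∃ a : GMod L0 A, ∀ τ : LGal q,
        (y : Gam → GMod L0 A) (loc q τ) = loc q τ • a - a) →
      push2 (Gam ⧸ L'.sub) φ hφ (X.deltaCls hle' y hy) = 0 := fun y hy hloc => by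
    have h0 := hzero y ⟨⟨L', hL', hy⟩, hloc⟩
    rw [X.Phi_eq hp2 hle' h hh.2 hfix' y hy] at h0
    have h1 := eq_zero_of_coord hp2 (X.nsmul_phiCls hle' h hh.2 hfix' y hy) h0
    refine Eq.trans ?_ h1
    rw [Pres.deltaCls, push2_mk]
    show H2.mk _ = H2.mk _
    refine congrArg H2.mk (Subtype.ext (funext fun u => funext fun v => ?_))
    induction u using QuotientGroup.induction_on with
    | _ g =>
      induction v using QuotientGroup.induction_on with
      | _ k =>
        show φ (lvl2 L'.sub (X.deltaL hle' y) (QuotientGroup.mk g) (QuotientGroup.mk k)) =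
          lvl2 L'.sub (fun g k => (⟨classMap (h (X.delta y g k)), classMap_mem_fixedPts (hfix' _)⟩ :
            LayerC L')) (QuotientGroup.mk g) (QuotientGroup.mk k)
        rw [lvl2_mk _ (X.deltaL_level hle' y hy), lvl2_mk _ fun g k s hs t ht => Subtype.ext
          (congrArg (fun r => classMap (h r)) (X.delta_level hle' y hy g k s hs t ht))]
        rfl
  obtain ⟨g, k, φ₀, hφ₀, hg, hk, hgS, hsum, hT⟩ := X.exists_correction hp2 hL' hle' φ hφ hvan
  obtain ⟨m, ψ, hm, hψ⟩ :=
    (isClassModule_classes (p := p) hp2 (classStep hp2) L').exists_norm φ₀ hφ₀ hT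
  obtain ⟨g₂, K₂, hg₂, hg₂v, hK₂, hK₂v, hdec⟩ := X.exists_norm_decomp hle h' hkill ψ
  let gt : HomMod (GMod L0 X.R) Idele :=
    m • HomMod.mk (show GMod L0 X.R →+ Idele from (fixedPts L'.sub Idele).subtype.comp g) + g₂
  have hgt : ∀ r,
      gt r = m • ((g (show Pull (quotMap hle') X.R from r) : LayerJ L') : Idele) + g₂ r :=
    fun r => rfl
  have hgtequiv : ∀ (γ : Gam) r, gt (γ • r) = γ • gt r := fun γ r => by
    rw [hgt, hgt, smul_add, smul_comm γ m, hg₂]
    congr 2
    exact congrArg Subtype.val (hg (QuotientGroup.mk γ) (show Pull (quotMap hle') X.R from r))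
  have hgtS : ∀ r, gt r ∈ sIdeles S := fun r =>
    add_mem (AddSubgroup.nsmul_mem _ (hgS (show Pull (quotMap hle') X.R from r)) m) (hg₂v r).2
  let kt : GMod L0 P →+ IdeleClass :=
    m • (show GMod L0 P →+ IdeleClass from (LayerC L').subtype.comp k) + K₂.hom
  have hkt : ∀ y, kt y = m • ((k (show Pull (quotMap hle') P from y) : LayerC L') : IdeleClass) +
    K₂ y := fun y => rfl
  have hktequiv : ∀ (γ : Gam) y, kt (γ • y) = γ • kt y := fun γ y => by
    rw [hkt, hkt, smul_add, smul_comm γ m, hK₂]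
    congr 2
    exact congrArg Subtype.val (hk (QuotientGroup.mk γ) (show Pull (quotMap hle') P from y))
  have hktfix : ∀ y, kt y ∈ fixedPts L'.sub IdeleClass := fun y =>
    add_mem (AddSubgroup.nsmul_mem _ (k (show Pull (quotMap hle') P from y)).2 m)
      (fixedPts_antitone h' (hK₂v y))
  have hclass : ∀ r : GMod L0 X.R,
      m • classMap (h r) = classMap (gt r) + kt (X.iG r) := fun r => by
    have h1 := congrArg (fun u : LayerC L' => (u : IdeleClass))
      (hsum (show Pull (quotMap hle') X.R from r))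
    change classMap (h r) = ((φ₀ (show Pull (quotMap hle') X.R from r) : LayerC L') : IdeleClass) +
      classMap ((g (show Pull (quotMap hle') X.R from r) : LayerJ L') : Idele) +
      ((k (show Pull (quotMap hle') P from X.iG r) : LayerC L') : IdeleClass) at h1
    have h2 : ((m • φ₀ (show Pull (quotMap hle') X.R from r) : LayerC L') : IdeleClass) =
        classMap (g₂ r) + K₂ (X.iG r) :=
      (congrArg (fun f : HomMod (Pull (quotMap hle') X.R) (LayerC L') =>
        ((f (show Pull (quotMap hle') X.R from r) : LayerC L') : IdeleClass)) hψ).trans (hdec r)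
    rw [AddSubgroup.coe_nsmul] at h2
    rw [hgt, hkt, map_add, map_nsmul, h1, nsmul_add, nsmul_add, h2]
    abel
  obtain ⟨m', L₃, K, hm', hL₃, hle₃, hKS, hKfix, hKc⟩ :=
    exists_class_lift (p := p) (R := GMod L0 P) hpS hL' kt hktfix
  have hdiff : ∀ r : GMod L0 X.R, ∃ a : sUnits S,
      principal (a : GU) = (m' * m) • h r - (m' • gt r + K (X.iG r)) := fun r => by
    have h0 : classMap ((m' * m) • h r - (m' • gt r + K (X.iG r))) = 0 := by
      rw [map_sub, map_add, map_nsmul, map_nsmul, hKc, mul_smul, hclass, nsmul_add, sub_self]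
    obtain ⟨a, ha⟩ := (classMap_eq_zero_iff _).1 h0
    refine ⟨⟨a, ?_⟩, ha⟩
    rw [mem_sUnits_iff, ha]
    exact sub_mem (AddSubgroup.nsmul_mem _ (hh.1 r) _)
      (add_mem (AddSubgroup.nsmul_mem _ (hgtS r) _) (hKS _))
  choose u hu using hdiff
  let uh : GMod L0 X.R →+ sUnits S := AddMonoidHom.mk' u fun r r' =>
    Subtype.ext (principal_injective (by
    rw [AddSubgroup.coe_add, map_add, hu, hu, hu]
    simp only [map_add, nsmul_add]
    abel))
  obtain ⟨W, hW⟩ := exists_extend_root (p := p) X.R X.nsmul_mem (fun w => by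
    obtain ⟨v, hv, hvw⟩ := sUnits_exists_root hpS w.2
    exact ⟨⟨v, hv⟩, Subtype.ext hvw⟩) uh
  let bb := Module.Free.chooseBasis ℤ P
  obtain ⟨L₄, hL₄, hle₄, hWfix⟩ := exists_layer_units (S := S) hL₃ Finset.univ
    (fun j => (W (bb j) : GU)) fun j _ => (W (bb j)).2
  have hWfix' : ∀ y : P, ((W y : sUnits S) : GU) ∈ fixedPts L₄.sub GU := fun y => by
    rw [← bb.sum_repr y, map_sum, AddSubgroup.val_finsetSum]
    exact sum_mem fun j _ => by
      rw [map_zsmul, AddSubgroup.coe_zsmul]
      exact zsmul_mem (hWfix j (Finset.mem_univ j)) _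
  let K₁ : HomMod (GMod L0 P) Idele := HomMod.mk
    (K + (show GMod L0 P →+ Idele from principal.comp ((sUnits S).subtype.comp W)))
  have hK₁ : ∀ y, K₁ y = K y + principal ((W (show P from y) : sUnits S) : GU) := fun y => rfl
  refine ⟨m' * m, (Nat.Prime.prime hp.out).not_dvd_mul hm' hm,
    X.rel_zero_of_decomp hL₄ ((hle₄.trans hle₃).trans hle') (m' • gt) (fun γ r => ?_) K₁
      (fun y => ⟨?_, ?_⟩) (fun γ y => ?_) _ fun r => ?_⟩
  · show m' • gt (γ • r) = γ • (m' • gt r)
    rw [hgtequiv, smul_comm]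
  · rw [hK₁]
    exact add_mem (fixedPts_antitone hle₄ (hKfix y))
      (principal_mem_fixedPts_iff.2 (hWfix' _))
  · rw [hK₁]
    exact add_mem (hKS y) (W _).2
  · rw [hK₁, hK₁, map_add, map_add, (classMap_eq_zero_iff _).2 ⟨_, rfl⟩,
      (classMap_eq_zero_iff _).2 ⟨_, rfl⟩, add_zero, add_zero, hKc, hKc, hktequiv, smul_comm]
  · rw [hK₁]
    have h1 : principal ((W (show P from X.iG r) : sUnits S) : GU) =
        (m' * m) • h r - (m' • gt r + K (X.iG r)) := by
      rw [show W (show P from X.iG r) = uh r from hW r]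
      exact hu r
    show (m' * m) • h r = m' • gt r + (K (X.iG r) + _)
    rw [h1]
    abel

end FLTAgent.GlobalDuality
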