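import Mathlib
import Fermat.Agent.GlobalDuality.WellDefined
import Fermat.Agent.GlobalDuality.Psi

/-!
# Bilinearity of the pairing

The pairing is additive in both variables and only depends on the two classes.
-/

set_option autoImplicit false

noncomputable section

namespace FLTAgent.GlobalDuality

open FLTAgent.GalCoh FLTAgent.LocalDuality FLTAgent.IdeleClassCohomology ExtCitation

variable {p : ℕ} [hp : Fact p.Prime] {L0 : Layer} [Fintype (Gam ⧸ L0.sub)] {P A : Type}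
  [AddCommGroup P] [DistribMulAction (Gam ⧸ L0.sub) P] [AddCommGroup A]
  [DistribMulAction (Gam ⧸ L0.sub) A] (X : Pres p L0 P A)

theorem Pres.phi_add_left (hp2 : p ≠ 2) {L : Layer} (hle : L.sub ≤ L0.sub)
    {h h' : HomMod (GMod L0 X.R) Idele}
    (hc : ∀ (g : Gam) r, classMap (h (g • r)) = g • classMap (h r))
    (hc' : ∀ (g : Gam) r, classMap (h' (g • r)) = g • classMap (h' r))
    (hh : ∀ r, h r ∈ fixedPts L.sub Idele) (hh' : ∀ r, h' r ∈ fixedPts L.sub Idele)
    {y : Z1 Gam (GMod L0 A)}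
    (hy : ∀ g, ∀ s ∈ L.sub, (y : Gam → GMod L0 A) (g * s) = (y : Gam → GMod L0 A) g) :
    X.Phi hp2 (h + h') y = X.Phi hp2 h y + X.Phi hp2 h' y := by
  have hc'' : ∀ (g : Gam) r, classMap ((h + h') (g • r)) = g • classMap ((h + h') r) :=
    fun g r => by
    rw [HomMod.add_apply, HomMod.add_apply, map_add, map_add, smul_add, hc, hc']
  have hh'' : ∀ r, (h + h') r ∈ fixedPts L.sub Idele := fun r => add_mem (hh r) (hh' r)
  rw [X.Phi_eq hp2 hle h hc hh y hy, X.Phi_eq hp2 hle h' hc' hh' y hy,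
    X.Phi_eq hp2 hle (h + h') hc'' hh'' y hy, ← coord_add hp2 (X.nsmul_phiCls hle h hc hh y hy)
      (X.nsmul_phiCls hle h' hc' hh' y hy)]
  refine congrArg _ ?_
  simp only [Pres.phiCls]
  rw [← map_add]
  refine congrArg H2.mk (Subtype.ext (funext fun a => funext fun b => Subtype.ext ?_))
  induction a using QuotientGroup.induction_on with
  | _ g =>
    induction b using QuotientGroup.induction_on with
    | _ k =>
      show classMap ((h + h') _) = classMap (h _) + classMap (h' _)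
      rw [HomMod.add_apply, map_add]

theorem Pres.phi_add_left' (hp2 : p ≠ 2) [Module.Free ℤ P] [Module.Finite ℤ P]
    {S : Finset Nat.Primes} (hL0 : L0.IsS S) {h h' : HomMod (GMod L0 X.R) Idele}
    (hh : h ∈ X.HS S) (hh' : h' ∈ X.HS S) {y : Z1 Gam (GMod L0 A)} (hy : Sha1 S y) :
    X.Phi hp2 (h + h') y = X.Phi hp2 h y + X.Phi hp2 h' y := by
  obtain ⟨L, hL, hle, hfix, hlev⟩ := X.exists_common_level hL0 hh hy
  obtain ⟨L', hL', hle', hfix', hlev'⟩ := X.exists_common_level hL0 hh' hy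
  have e1 : (L.sup L').sub ≤ L.sub := Layer.sub_le (L.le_sup_left L')
  have e2 : (L.sup L').sub ≤ L'.sub := Layer.sub_le (L.le_sup_right L')
  exact X.phi_add_left hp2 (e1.trans hle) hh.2 hh'.2 (fun r => fixedPts_antitone e1 (hfix r))
    (fun r => fixedPts_antitone e2 (hfix' r)) fun g s hs => hlev g s (e1 hs)

theorem Pres.phi_nsmul_left (hp2 : p ≠ 2) [Module.Free ℤ P] [Module.Finite ℤ P]
    {S : Finset Nat.Primes} (hL0 : L0.IsS S) {h : HomMod (GMod L0 X.R) Idele}
    (hh : h ∈ X.HS S) {y : Z1 Gam (GMod L0 A)} (hy : Sha1 S y) (n : ℕ) :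
    X.Phi hp2 (n • h) y = (n : ZMod p) * X.Phi hp2 h y := by
  induction n with
  | zero =>
    rw [Nat.cast_zero, zero_mul, zero_nsmul]
    have h1 := X.phi_add_left' hp2 hL0 (X.HS S).zero_mem (X.HS S).zero_mem hy
    rw [add_zero] at h1
    linear_combination -h1
  | succ n ih =>
    rw [succ_nsmul, X.phi_add_left' hp2 hL0 (AddSubgroup.nsmul_mem _ hh n) hh hy, ih, Nat.cast_succ,
      add_mul, one_mul]

/-- Two maps whose classes are cohomologous pair the same. -/
theorem Pres.phi_eq_of_rel (hp2 : p ≠ 2) [Module.Free ℤ P] [Module.Finite ℤ P]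
    {S : Finset Nat.Primes} (hL0 : L0.IsS S) {h h' : HomMod (GMod L0 X.R) Idele}
    (hh : h ∈ X.HS S) (hh' : h' ∈ X.HS S) {b b' : Gam → Gam → HomMod (GMod L0 A) GU}
    (H : X.Rel S h b) (H' : X.Rel S h' b') {Le : Layer} (hLe : Le.IsS S)
    (e : Gam → HomMod (GMod L0 A) GU) (he : ∀ g, ∀ s ∈ Le.sub, e (g * s) = e g)
    (hev : ∀ g a, e g a ∈ fixedPts Le.sub GU ∧ e g a ∈ sUnits S)
    (hbb : ∀ g k, b' g k = b g k + (g • e k - e (g * k) + e g))
    {y : Z1 Gam (GMod L0 A)} (hy : Sha1 S y) : X.Phi hp2 h' y = X.Phi hp2 h y := by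
  have hp1 : 1 ≤ p := hp.out.one_lt.le
  have hrel := (Pres.Rel.nsmul X (Pres.Rel.add_cobound X H hLe e he (fun g a => (hev g a).1)
    fun g a => (hev g a).2) (p - 1)).add X H'
  have h0 : (p - 1) • (fun g k => b g k + (g • e k - e (g * k) + e g)) + b' = 0 := by
    funext g k
    show (p - 1) • (b g k + (g • e k - e (g * k) + e g)) + b' g k = 0
    rw [← hbb, ← succ_nsmul, Nat.sub_add_cancel hp1, X.nsmul_hom]
  rw [h0] at hrel
  have hmem : (p - 1) • h + h' ∈ X.HS S := add_mem (AddSubgroup.nsmul_mem _ hh _) hh'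
  have h1 := X.phi_eq_zero_of_rel hp2 hL0 hmem hrel hy
  rw [X.phi_add_left' hp2 hL0 (AddSubgroup.nsmul_mem _ hh _) hh' hy,
    X.phi_nsmul_left hp2 hL0 hh hy, Nat.cast_sub hp1, ZMod.natCast_self, Nat.cast_one] at h1
  linear_combination h1

/-- The pairing is additive in the cocycle, up to coboundaries. -/
theorem Pres.phi_add_right (hp2 : p ≠ 2) [Module.Free ℤ P] [Module.Finite ℤ P]
    {S : Finset Nat.Primes} (hL0 : L0.IsS S) {h : HomMod (GMod L0 X.R) Idele}
    (hh : h ∈ X.HS S) {y y' y'' : Z1 Gam (GMod L0 A)} (hy : Sha1 S y) (hy' : Sha1 S y')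
    (hy'' : Sha1 S y'') (a : GMod L0 A)
    (ha : ∀ g, (y'' : Gam → GMod L0 A) g =
      (y : Gam → GMod L0 A) g + (y' : Gam → GMod L0 A) g + (g • a - a)) :
    X.Phi hp2 h y'' = X.Phi hp2 h y + X.Phi hp2 h y' := by
  obtain ⟨L₁, hL₁, hle₁, hfix₁, hlev₁⟩ := X.exists_common_level hL0 hh hy
  obtain ⟨L₂, hL₂, hle₂, hfix₂, hlev₂⟩ := X.exists_common_level hL0 hh hy'
  obtain ⟨L₃, hL₃, hle₃, hfix₃, hlev₃⟩ := X.exists_common_level hL0 hh hy''
  set L := (L₁.sup L₂).sup L₃
  have e12 : L.sub ≤ (L₁.sup L₂).sub := Layer.sub_le ((L₁.sup L₂).le_sup_left L₃)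
  have e1 : L.sub ≤ L₁.sub := e12.trans (Layer.sub_le (L₁.le_sup_left L₂))
  have e2 : L.sub ≤ L₂.sub := e12.trans (Layer.sub_le (L₁.le_sup_right L₂))
  have e3 : L.sub ≤ L₃.sub := Layer.sub_le ((L₁.sup L₂).le_sup_right L₃)
  have hle : L.sub ≤ L0.sub := e1.trans hle₁
  have hfix : ∀ r, h r ∈ fixedPts L.sub Idele := fun r => fixedPts_antitone e1 (hfix₁ r)
  have l1 : ∀ g, ∀ s ∈ L.sub, (y : Gam → GMod L0 A) (g * s) = (y : Gam → GMod L0 A) g :=
    fun g s hs => hlev₁ g s (e1 hs)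
  have l2 : ∀ g, ∀ s ∈ L.sub, (y' : Gam → GMod L0 A) (g * s) = (y' : Gam → GMod L0 A) g :=
    fun g s hs => hlev₂ g s (e2 hs)
  have l3 : ∀ g, ∀ s ∈ L.sub, (y'' : Gam → GMod L0 A) (g * s) = (y'' : Gam → GMod L0 A) g :=
    fun g s hs => hlev₃ g s (e3 hs)
  rw [X.Phi_eq hp2 hle h hh.2 hfix y l1, X.Phi_eq hp2 hle h hh.2 hfix y' l2,
    X.Phi_eq hp2 hle h hh.2 hfix y'' l3, ← coord_add hp2 (X.nsmul_phiCls hle h hh.2 hfix y l1)
      (X.nsmul_phiCls hle h hh.2 hfix y' l2)]
  refine congrArg _ (eq_of_sub_eq_zero ?_)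
  simp only [Pres.phiCls]
  rw [← map_add, ← map_sub]
  have hex : ∀ g, ∃ r, X.iG r = X.sect ((y'' : Gam → GMod L0 A) g) -
      X.sect ((y : Gam → GMod L0 A) g) - X.sect ((y' : Gam → GMod L0 A) g) -
        (g • X.sect a - X.sect a) := fun g => X.exists_iG_eq (by
    rw [map_sub, map_sub, map_sub, map_sub, X.qG_smul, X.qG_sect, X.qG_sect, X.qG_sect,
      X.qG_sect, ha]
    abel)
  choose r hr using hex
  refine X.phi_diff_eq_zero h hh.2 hfix r (fun g s hs => X.iG_injective ?_) _ fun g k => ?_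
  · rw [hr, hr, l1 g s hs, l2 g s hs, l3 g s hs, smul_eq_smul_of_mul g (hle hs)]
  · show ((lvl2 L.sub
      (fun g k => (⟨classMap (h (X.delta y'' g k)), classMap_mem_fixedPts (hfix _)⟩ :
        LayerC L)) (QuotientGroup.mk g) (QuotientGroup.mk k) -
      (lvl2 L.sub (fun g k => (⟨classMap (h (X.delta y g k)), classMap_mem_fixedPts (hfix _)⟩ :
        LayerC L)) (QuotientGroup.mk g) (QuotientGroup.mk k) +
      lvl2 L.sub (fun g k => (⟨classMap (h (X.delta y' g k)), classMap_mem_fixedPts (hfix _)⟩ :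
        LayerC L)) (QuotientGroup.mk g) (QuotientGroup.mk k)) : LayerC L) : IdeleClass) = _
    rw [lvl2_mk _ fun g k s hs t ht => Subtype.ext
        (congrArg (fun r => classMap (h r)) (X.delta_level hle y'' l3 g k s hs t ht)),
      lvl2_mk _ fun g k s hs t ht => Subtype.ext
        (congrArg (fun r => classMap (h r)) (X.delta_level hle y l1 g k s hs t ht)),
      lvl2_mk _ fun g k s hs t ht => Subtype.ext
        (congrArg (fun r => classMap (h r)) (X.delta_level hle y' l2 g k s hs t ht)),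
      AddSubgroup.coe_sub, AddSubgroup.coe_add]
    show classMap (h _) - (classMap (h _) + classMap (h _)) = _
    rw [← map_add, ← map_sub, ← map_add h, ← map_sub h]
    refine congrArg (fun r => classMap (h r)) (X.iG_injective ?_)
    rw [map_sub, map_add, X.iG_delta, X.iG_delta, X.iG_delta, map_add, map_sub, X.iG_smul, hr, hr,
      hr]
    simp only [smul_sub, mul_smul]
    abel

omit hp in
/-- Two classes attached to one map are cohomologous. -/
theorem Pres.rel_unique {S : Finset Nat.Primes} {h : HomMod (GMod L0 X.R) Idele}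
    {b b' : Gam → Gam → HomMod (GMod L0 A) GU} (H : X.Rel S h b) (H' : X.Rel S h b') :
    ∃ (L : Layer) (e : Gam → HomMod (GMod L0 A) GU), L.IsS S ∧
      (∀ g, ∀ s ∈ L.sub, e (g * s) = e g) ∧
      ∀ g k, b' g k = b g k + (g • e k - e (g * k) + e g) := by
  obtain ⟨L, F, hL, hle, hF, hv, hr, hb⟩ := H
  obtain ⟨L', F', hL', hle', hF', hv', hr', hb'⟩ := H'
  have hkill : ∀ g r, ((F' g).hom - (F g).hom) (X.iG r) = 0 := fun g r => by
    show F' g (X.iG r) - F g (X.iG r) = 0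
    exact sub_eq_zero.2 (principal_injective (by rw [hr, hr']))
  refine ⟨L.sup L', fun g => X.desc ((F' g).hom - (F g).hom) (hkill g), hL.sup hL',
    fun g s hs => X.homMod_ext fun y => ?_, fun g k => X.homMod_ext fun y => ?_⟩
  · rw [X.desc_qG, X.desc_qG, hF g s (Layer.sub_le (L.le_sup_left L') hs),
      hF' g s (Layer.sub_le (L.le_sup_right L') hs)]
  · rw [HomMod.add_apply, HomMod.add_apply, HomMod.sub_apply, HomMod.smul_apply, ← X.qG_smul,
      X.desc_qG, X.desc_qG, X.desc_qG, hb, hb', HomMod.smul_apply, HomMod.smul_apply]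
    show _ = _ + (g • (F' k (g⁻¹ • y) - F k (g⁻¹ • y)) - (F' (g * k) y - F (g * k) y) +
      (F' g y - F g y))
    rw [smul_sub]
    abel

end FLTAgent.GlobalDuality
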