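import Mathlib
import Fermat.Agent.GlobalDuality.IdeleCochain
import Fermat.Agent.GlobalDuality.NonDegenLeft

/-!
# Every class of the dual module trivial at `S` comes from a map of relations

Up to a factor prime to `p`, a class in degree two of the dual module which is trivial at the
primes of `S` is attached to a map of relations into `S`-ideles with equivariant classes.
-/

set_option autoImplicit false

noncomputable section

namespace FLTAgent.GlobalDuality

open FLTAgent.GalCoh FLTAgent.LocalDuality FLTAgent.IdeleClassCohomology ExtCitation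

variable {p : ℕ} [hp : Fact p.Prime] {L0 : Layer} [Fintype (Gam ⧸ L0.sub)] {P A : Type}
  [AddCommGroup P] [DistribMulAction (Gam ⧸ L0.sub) P] [AddCommGroup A]
  [DistribMulAction (Gam ⧸ L0.sub) A] (X : Pres p L0 P A)

variable [Module.Free ℤ P] [Module.Finite ℤ P] {S : Finset Nat.Primes}

include X in
/-- The values of a class of the dual module lie in the `S`-units of one layer. -/
theorem Pres.exists_layer_dual (hpS : pPrime p ∈ S) (hL0 : L0.IsS S)
    {b : Gam → Gam → HomMod (GMod L0 A) GU} {M : Layer} (hM : M.IsS S)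
    (hbl : ∀ g k, ∀ s ∈ M.sub, ∀ t ∈ M.sub, b (g * s) (k * t) = b g k) :
    ∃ L : Layer, L.IsS S ∧ L.sub ≤ L0.sub ∧ L.sub ≤ M.sub ∧
      (∀ g k a, b g k a ∈ fixedPts L.sub GU) ∧ ∀ g k a, b g k a ∈ sUnits S := by
  classical
  have hS : ∀ g k a, b g k a ∈ sUnits S := fun g k a => mem_sUnits_of_nsmul_mem hpS (by
    rw [← map_nsmul, show p • a = 0 from X.torsion a, map_zero]
    exact zero_mem _)
  have := M.finite
  have := Fintype.ofFinite (Gam ⧸ M.sub)
  let bb := Module.Free.chooseBasis ℤ P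
  obtain ⟨L, hL, hle, hfix⟩ := exists_layer_units (S := S) (hL0.sup hM)
    (Finset.univ : Finset ((Gam ⧸ M.sub) × (Gam ⧸ M.sub) × _))
    (fun i => b i.1.out i.2.1.out (X.q (bb i.2.2))) fun i _ => hS _ _ _
  refine ⟨L, hL, hle.trans (Layer.sub_le (L0.le_sup_left M)),
    hle.trans (Layer.sub_le (L0.le_sup_right M)), fun g k a => ?_, hS⟩
  obtain ⟨s, hs⟩ := QuotientGroup.mk_out_eq_mul M.sub g
  obtain ⟨t, ht⟩ := QuotientGroup.mk_out_eq_mul M.sub k
  obtain ⟨y, rfl⟩ := X.surj a
  let φ : P →+ GU := (show P →+ GU from (b g k).hom.comp X.qG)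
  show φ y ∈ _
  rw [← bb.sum_repr y, map_sum]
  refine sum_mem fun j _ => ?_
  rw [map_zsmul]
  refine zsmul_mem ?_ _
  show b g k (X.q (bb j)) ∈ _
  rw [← hbl g k s s.2 t t.2, ← hs, ← ht]
  exact hfix (QuotientGroup.mk g, QuotientGroup.mk k, j) (Finset.mem_univ _)

omit [Module.Free ℤ P] [Module.Finite ℤ P] hp in
/-- Assembly of a map of relations from cochains. -/
theorem Pres.rel_of_cochains {L' : Layer} (hL' : L'.IsS S) (hle : L'.sub ≤ L0.sub)
    {b : Gam → Gam → HomMod (GMod L0 A) GU} {m₀ m : ℕ} (B : Gam → HomMod (GMod L0 P) Idele)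
    (E : HomMod (GMod L0 X.R) Idele) (K : HomMod (GMod L0 P) Idele)
    (hBl : ∀ g, ∀ s ∈ L'.sub, B (g * s) = B g)
    (hBv : ∀ g y, B g y ∈ fixedPts L'.sub Idele ∧ B g y ∈ sIdeles S)
    (hEv : ∀ r, E r ∈ sIdeles S)
    (hKv : ∀ y, K y ∈ fixedPts L'.sub Idele ∧ K y ∈ sIdeles S)
    (ha : ∀ g k y, m₀ • principal (b g k (X.qG y)) =
      g • B k (g⁻¹ • y) - B (g * k) y + B g y)
    (hb : ∀ g r, m₀ • B g (X.iG r) = g • E (g⁻¹ • r) - E r)
    (hc : ∀ g y, classMap (m • B g y - (g • K (g⁻¹ • y) - K y)) = 0) :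
    (m • E - m₀ • HomMod.mk (K.hom.comp X.iG)) ∈ X.HS S ∧
      X.Rel S (m • E - m₀ • HomMod.mk (K.hom.comp X.iG)) ((m₀ * (m₀ * m)) • b) := by
  set h : HomMod (GMod L0 X.R) Idele := m • E - m₀ • HomMod.mk (K.hom.comp X.iG) with hdef
  have hh : ∀ r, h r = m • E r - m₀ • K (X.iG r) := fun r => rfl
  have hex : ∀ g y, ∃ a : GU, principal a = m • B g y - (g • K (g⁻¹ • y) - K y) := fun g y =>
    (classMap_eq_zero_iff _).1 (hc g y)
  choose F hF using hex
  let Fh : Gam → HomMod (GMod L0 P) GU := fun g => HomMod.mk (AddMonoidHom.mk' (F g)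
    fun y y' => principal_injective (by
      rw [map_add, hF, hF, hF]
      simp only [map_add, smul_add]
      abel))
  have hFh : ∀ g y, principal (Fh g y) = m • B g y - (g • K (g⁻¹ • y) - K y) := hF
  have hdh : ∀ g r, principal (m₀ • Fh g (X.iG r)) = (g • h) r - h r := fun g r => by
    rw [map_nsmul, hFh, HomMod.smul_apply, hh, hh, nsmul_sub, smul_comm m₀ m, hb, X.iG_smul]
    simp only [smul_sub, smul_comm g m, smul_comm g m₀]
    abel
  refine ⟨⟨fun r => ?_, fun g r => ?_⟩, L', fun g => m₀ • Fh g, hL', hle, fun g s hs => ?_,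
    fun g y => ?_, hdh, fun g k y => ?_⟩
  · rw [hh]
    exact sub_mem (AddSubgroup.nsmul_mem _ (hEv r) m) (AddSubgroup.nsmul_mem _ (hKv _).2 m₀)
  · have h1 := congrArg classMap (hdh g (g • r))
    rw [(classMap_eq_zero_iff _).2 ⟨_, rfl⟩, HomMod.smul_apply, inv_smul_smul, map_sub,
      classMap_smul] at h1
    exact (sub_eq_zero.1 h1.symm).symm
  · refine congrArg (m₀ • ·) (HomMod.ext fun y => principal_injective ?_)
    rw [hFh, hFh, hBl g s hs, mul_inv_rev, mul_smul s⁻¹, smul_GMod_of_mem (inv_mem (hle hs)),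
      mul_smul g s, (hKv _).1 s hs]
  · have hmem : principal (Fh g y) ∈ fixedPts L'.sub Idele ∧ principal (Fh g y) ∈ sIdeles S := by
      rw [hFh]
      exact ⟨sub_mem (AddSubgroup.nsmul_mem _ (hBv g y).1 m)
          (sub_mem (smul_mem_fixedPts L'.sub g (hKv _).1) (hKv _).1),
        sub_mem (AddSubgroup.nsmul_mem _ (hBv g y).2 m)
          (sub_mem (smul_mem_sIdeles S g (hKv _).2) (hKv _).2)⟩
    exact ⟨AddSubgroup.nsmul_mem _ (principal_mem_fixedPts_iff.1 hmem.1) m₀,
      AddSubgroup.nsmul_mem _ (mem_sUnits_iff.2 hmem.2) m₀⟩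
  · refine principal_injective ?_
    show principal ((m₀ * (m₀ * m)) • b g k (X.qG y)) =
      principal (g • (m₀ • Fh k (g⁻¹ • y)) - m₀ • Fh (g * k) y + m₀ • Fh g y)
    rw [map_nsmul, map_add, map_sub, principal_smul, map_nsmul, map_nsmul, map_nsmul, hFh, hFh,
      hFh, mul_smul, mul_comm m₀ m, mul_smul, ha, mul_inv_rev, mul_smul k⁻¹, smul_comm g m₀,
      ← nsmul_sub, ← nsmul_add]
    refine congrArg (m₀ • ·) ?_
    simp only [nsmul_add, smul_sub, mul_smul, smul_comm g m]
    abel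

/-- Every class trivial at `S` comes from a map of relations, up to a factor prime to `p`. -/
theorem Pres.exists_rel_nsmul (hp2 : p ≠ 2) (hpS : pPrime p ∈ S) (hL0 : L0.IsS S)
    {b : Gam → Gam → HomMod (GMod L0 A) GU} (hb : Sha2 S b) :
    ∃ (m : ℕ) (h : HomMod (GMod L0 X.R) Idele), ¬p ∣ m ∧ h ∈ X.HS S ∧
      X.Rel S h (m • b) := by
  classical
  obtain ⟨hb2, ⟨M, hM, hMl⟩, hloc⟩ := hb
  obtain ⟨L, hL, hle, hleM, hbv, hbS⟩ := X.exists_layer_dual hpS hL0 hM hMl
  have hbl : ∀ g k, ∀ s ∈ L.sub, ∀ t ∈ L.sub, b (g * s) (k * t) = b g k :=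
    fun g k s hs t ht => hMl g k s (hleM hs) t (hleM ht)
  have := L.finite
  have := Fintype.ofFinite (Gam ⧸ L.sub)
  obtain ⟨m₀, B, E, hm₀, hB, hE, hBu, hEu⟩ := X.exists_idele_cochain hle hbv hL hb2 hbl hbS hloc
  -- back to the Galois group
  let B' : Gam → HomMod (GMod L0 P) Idele := fun g =>
    HomMod.mk (show GMod L0 P →+ Idele from
      (fixedPts L.sub Idele).subtype.comp (B (QuotientGroup.mk g)).hom)
  let E' : HomMod (GMod L0 X.R) Idele :=
    HomMod.mk (show GMod L0 X.R →+ Idele from (fixedPts L.sub Idele).subtype.comp E.hom)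
  have ha : ∀ g k y, m₀ • principal (b g k (X.qG y)) =
      g • B' k (g⁻¹ • y) - B' (g * k) y + B' g y := fun g k y => by
    have h1 := congrArg (fun f : HomMod (Pull (quotMap hle) P) (fixedPts L.sub Idele) =>
      ((f (show Pull (quotMap hle) P from y) : fixedPts L.sub Idele) : Idele))
      (hB (QuotientGroup.mk g) (QuotientGroup.mk k))
    rw [lvl2_mk _ (Pres.bP_level hbl)] at h1
    exact h1
  have hb' : ∀ g r, m₀ • B' g (X.iG r) = g • E' (g⁻¹ • r) - E' r := fun g r =>
    (congrArg (fun u : fixedPts L.sub Idele => (u : Idele))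
      (hE (QuotientGroup.mk g) (show Pull (quotMap hle) X.R from r)) :)
  -- the classes of the cochain
  let clB : Gam ⧸ L.sub → HomMod (Pull (quotMap hle) P) (LayerC L) :=
    fun g => HomMod.post (fixedMap classMap classMap_smul L.sub) (B g)
  have hclB : clB ∈ Z1 (Gam ⧸ L.sub) (HomMod (Pull (quotMap hle) P) (LayerC L)) :=
    mem_Z1_iff.2 fun u v => by
      induction u using QuotientGroup.induction_on with
      | _ g =>
        induction v using QuotientGroup.induction_on with
        | _ k =>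
          have key : ∀ z : GMod L0 P, classMap (B' (g * k) z) =
              g • classMap (B' k (g⁻¹ • z)) + classMap (B' g z) := fun z => by
            have h1 := congrArg classMap (ha g k z)
            rw [map_nsmul, (classMap_eq_zero_iff _).2 ⟨_, rfl⟩, nsmul_zero, map_add, map_sub,
              classMap_smul] at h1
            linear_combination (norm := abel) h1
          exact HomMod.ext fun y => Subtype.ext (key y)
  set m₁ := pCompl p ((MonoidHom.id (Gam ⧸ L0.sub)).comp (quotMap hle)).ker with hm₁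
  obtain ⟨κ, hκ⟩ := (X.proj.pull (quotMap hle)).exists_cobound_nsmul
    (fun n hn y => by
      show ((quotMap hle n : Gam ⧸ L0.sub) • (show P from y) : P) = y
      rw [show quotMap hle n = 1 from hn, one_smul])
    (m := m₁) (fun z => classes_H1_torsion (classStep hp2) L _ z) hclB
  obtain ⟨m₂, L', K, hm₂, hL', hle', hKS, hKfix, hKc⟩ :=
    exists_class_lift (p := p) (R := Pull (quotMap hle) P) hpS hL
      ((LayerC L).subtype.comp κ.hom) fun y => (κ y).2
  let K' : HomMod (GMod L0 P) Idele := HomMod.mk (show GMod L0 P →+ Idele from K)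
  have hc : ∀ g y, classMap ((m₂ * m₁) • B' g y - (g • K' (g⁻¹ • y) - K' y)) = 0 := fun g y => by
    have h1 : m₁ • classMap (B' g y) =
        g • ((κ (show Pull (quotMap hle) P from g⁻¹ • y) : LayerC L) : IdeleClass) -
          ((κ (show Pull (quotMap hle) P from y) : LayerC L) : IdeleClass) :=
      congrArg (fun f : HomMod (Pull (quotMap hle) P) (LayerC L) =>
        ((f (show Pull (quotMap hle) P from y) : LayerC L) : IdeleClass)) (hκ (QuotientGroup.mk g))
    rw [map_sub, map_sub, map_nsmul, classMap_smul]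
    show (m₂ * m₁) • classMap (B' g y) -
      (g • classMap (K (show Pull (quotMap hle) P from g⁻¹ • y)) -
        classMap (K (show Pull (quotMap hle) P from y))) = 0
    rw [hKc, hKc, mul_smul, h1, smul_comm g m₂, ← nsmul_sub, ← nsmul_sub]
    show m₂ • (_ - (g • ((κ (show Pull (quotMap hle) P from g⁻¹ • y) : LayerC L) : IdeleClass) -
      ((κ (show Pull (quotMap hle) P from y) : LayerC L) : IdeleClass))) = 0
    rw [sub_self, nsmul_zero]
  obtain ⟨hHS, hRel⟩ := X.rel_of_cochains hL' (hle'.trans hle) B' E' K'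
    (fun g s hs => HomMod.ext fun y => by
      show ((B (QuotientGroup.mk (g * s)) _ : fixedPts L.sub Idele) : Idele) = _
      rw [QuotientGroup.mk_mul_of_mem g (hle' hs)]
      rfl)
    (fun g y => ⟨fixedPts_antitone hle' (B _ (show Pull (quotMap hle) P from y)).2,
      ⟨L, hL, (B _ (show Pull (quotMap hle) P from y)).2⟩, fun q hq γ => hBu q hq _ γ _⟩)
    (fun r => ⟨⟨L, hL, (E (show Pull (quotMap hle) X.R from r)).2⟩, fun q hq γ => hEu q hq γ _⟩)
    (fun y => ⟨hKfix (show Pull (quotMap hle) P from y), hKS (show Pull (quotMap hle) P from y)⟩)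
    ha hb' hc
  refine ⟨m₀ * (m₀ * (m₂ * m₁)), _, fun h => ?_, hHS, hRel⟩
  have hm₁' : ¬p ∣ m₁ := not_dvd_pCompl
  exact (Nat.Prime.prime hp.out).not_dvd_mul hm₀
    ((Nat.Prime.prime hp.out).not_dvd_mul hm₀ ((Nat.Prime.prime hp.out).not_dvd_mul hm₂ hm₁')) h

end FLTAgent.GlobalDuality
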