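import Mathlib
import Fermat.Agent.GlobalDuality.PhiLinear
import Fermat.Agent.GlobalDuality.NonDegenLeft
import Fermat.Agent.GlobalDuality.Surjective
import Fermat.Agent.GlobalDuality.NonDegenRight
import Fermat.Agent.GWEuler.GlobalUnits.Finite
import Fermat.Agent.GWEuler.GlobalUnits.UnitsClass
import Fermat.Agent.GWEuler.Pairing

/-!
# The presentation attached to a module unramified outside `S`

The dual twist of a module is presented over a layer; the module itself is identified with the
maps from its dual twist into roots of unity.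
-/

set_option autoImplicit false

noncomputable section

open ExtCitation Module

namespace FLTAgent.GlobalDuality

open FLTAgent.GalCoh FLTAgent.LocalDuality FLTAgent.IdeleClassCohomology

variable {p : ℕ} [hp : Fact p.Prime] (M : Rep.{0} (ZMod p) Gam) (L : Layer)

/-- A layer through which the module and the cyclotomic character factor. -/
structure ActsThrough : Prop where
  chi : ∀ g ∈ L.sub, cycloChar p g = 1
  rho : ∀ g ∈ L.sub, M.ρ g = 1

/-- The dual twist of a module, as a module of a layer. -/
def TwistMod (_hL : ActsThrough M L) : Type := Module.Dual (ZMod p) M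

variable {M L} (hL : ActsThrough M L)

instance : AddCommGroup (TwistMod M L hL) :=
  inferInstanceAs (AddCommGroup (Module.Dual (ZMod p) M))

instance : Module (ZMod p) (TwistMod M L hL) :=
  inferInstanceAs (Module (ZMod p) (Module.Dual (ZMod p) M))

instance [FiniteDimensional (ZMod p) M] : Finite (TwistMod M L hL) :=
  show Finite (Module.Dual (ZMod p) M) from Module.finite_of_finite (ZMod p)

include hL in
theorem ActsThrough.rho_dual {g : Gam} (hg : g ∈ L.sub) :
    (M.dualTwist (cycloChar p)).ρ g = 1 := by
  refine LinearMap.ext fun f => LinearMap.ext fun a => ?_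
  show (cycloChar p g : ZMod p) * (show Dual (ZMod p) M from f) (M.ρ g⁻¹ a) = _
  rw [hL.chi g hg, hL.rho _ (inv_mem hg), Units.val_one, one_mul]
  rfl

theorem rho_dual_eq_of_mk_eq {g g' : Gam}
    (h : (QuotientGroup.mk g : Gam ⧸ L.sub) = QuotientGroup.mk g')
    (a : TwistMod M L hL) :
    ((M.dualTwist (cycloChar p)).ρ g a : TwistMod M L hL) = (M.dualTwist (cycloChar p)).ρ g' a := by
  have h1 : g' = g * (g⁻¹ * g') := (mul_inv_cancel_left g g').symm
  rw [h1, map_mul (M.dualTwist (cycloChar p)).ρ g (g⁻¹ * g'),
    hL.rho_dual (QuotientGroup.eq.1 h), mul_one]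

instance : DistribMulAction (Gam ⧸ L.sub) (TwistMod M L hL) where
  smul q a := Quotient.liftOn' q
    (fun g => ((M.dualTwist (cycloChar p)).ρ g a : TwistMod M L hL))
    fun g g' h => rho_dual_eq_of_mk_eq hL (Quotient.sound' h) a
  one_smul a := by
    show (M.dualTwist (cycloChar p)).ρ 1 a = a
    rw [map_one]
    rfl
  mul_smul q q' a := by
    induction q using QuotientGroup.induction_on with
    | _ g =>
      induction q' using QuotientGroup.induction_on with
      | _ g' =>
        show (M.dualTwist (cycloChar p)).ρ (g * g') a =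
          (M.dualTwist (cycloChar p)).ρ g ((M.dualTwist (cycloChar p)).ρ g' a)
        rw [map_mul]
        rfl
  smul_zero q := by
    induction q using QuotientGroup.induction_on with
    | _ g => exact map_zero ((M.dualTwist (cycloChar p)).ρ g)
  smul_add q a b := by
    induction q using QuotientGroup.induction_on with
    | _ g => exact map_add ((M.dualTwist (cycloChar p)).ρ g) a b

/-- Functions on a finite set, freely generated. -/
abbrev FreeOn (A : Type) : Type := A →₀ ℤ

/-- The cover of a module by a free one. -/
def freeEval (A : Type) [AddCommGroup A] : FreeOn A →+ A :=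
  Finsupp.liftAddHom fun a => zmultiplesHom A a

theorem freeEval_single (A : Type) [AddCommGroup A] (a : A) :
    freeEval A (Finsupp.single a 1) = a := by
  rw [freeEval, Finsupp.liftAddHom_apply_single, zmultiplesHom_apply, one_zsmul]

instance coind_free {G A : Type} [Group G] [Finite G] [AddCommGroup A] [Module.Free ℤ A] :
    Module.Free ℤ (Coind G A) := inferInstanceAs (Module.Free ℤ (G → A))

instance coind_finite {G A : Type} [Group G] [Finite G] [AddCommGroup A] [Module.Finite ℤ A] :
    Module.Finite ℤ (Coind G A) := inferInstanceAs (Module.Finite ℤ (G → A))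

open Classical in
/-- A finite module of a layer is presented by an induced lattice. -/
def coverPres [Fintype (Gam ⧸ L.sub)] :
    Pres p L (Coind (Gam ⧸ L.sub) (FreeOn (TwistMod M L hL))) (TwistMod M L hL) where
  q :=
    { toFun := fun u => ∑ x : Gam ⧸ L.sub, x⁻¹ • freeEval _ (u x)
      map_zero' := Finset.sum_eq_zero fun x _ => by
        rw [Coind.zero_apply, map_zero, smul_zero]
      map_add' := fun u v => by
        rw [← Finset.sum_add_distrib]
        exact Finset.sum_congr rfl fun x _ => by rw [Coind.add_apply, map_add, smul_add] }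
  surj a := by
    refine ⟨Coind.mk fun x => if x = 1 then Finsupp.single a 1 else 0, ?_⟩
    show ∑ x : Gam ⧸ L.sub, x⁻¹ • freeEval _ (if x = 1 then Finsupp.single a 1 else 0) = a
    rw [Finset.sum_eq_single (1 : Gam ⧸ L.sub)]
    · rw [if_pos rfl, freeEval_single, inv_one, one_smul]
    · intro x _ hx
      rw [if_neg hx, map_zero, smul_zero]
    · exact fun h => absurd (Finset.mem_univ _) h
  equiv g u := by
    show ∑ x : Gam ⧸ L.sub, x⁻¹ • freeEval _ (u (x * g)) =
      g • ∑ x : Gam ⧸ L.sub, x⁻¹ • freeEval _ (u x)
    rw [Finset.smul_sum]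
    refine Fintype.sum_equiv (Equiv.mulRight g) _ _ fun x => ?_
    show _ = g • (x * g)⁻¹ • _
    rw [← mul_smul, mul_inv_rev, mul_inv_cancel_left]
    rfl
  torsion a := by
    rw [← Nat.cast_smul_eq_nsmul (ZMod p), ZMod.natCast_self, zero_smul]
  proj :=
    { proj := fun x =>
        { toFun := fun u => Coind.mk fun y => if y = x⁻¹ then u y else 0
          map_zero' := Coind.ext fun y => by
            simp only [Coind.mk_apply, Coind.zero_apply, ite_self]
          map_add' := fun u v => Coind.ext fun y => by
            simp only [Coind.mk_apply, Coind.add_apply]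
            split_ifs <;> simp }
      sum_proj := fun u => by
        funext y
        refine (Finset.sum_apply y _ _).trans ?_
        show ∑ x : Gam ⧸ L.sub, (if y = x⁻¹ then u y else 0) = u y
        rw [Finset.sum_eq_single y⁻¹]
        · rw [if_pos (inv_inv y).symm]
        · intro x _ hx
          rw [if_neg fun h => hx (by rw [h, inv_inv])]
        · exact fun h => absurd (Finset.mem_univ _) h
      proj_smul := fun g x u => Coind.ext fun y => by
        show (if y = (g * x)⁻¹ then u (y * g) else 0) = if y * g = x⁻¹ then u (y * g) else 0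
        refine if_congr ?_ rfl rfl
        rw [mul_inv_rev, eq_mul_inv_iff_mul_eq] }

theorem smul_torsion_of_actsThrough (hL : ActsThrough M L) {g : Gam} (hg : g ∈ L.sub) (c : ZMod p) :
    g • torsionHom p c = torsionHom p c := by
  rw [GWEuler.smul_torsionHom, hL.chi g hg, Units.val_one, one_mul]

theorem twist_smul_apply (g : Gam) (a : GMod L (TwistMod M L hL)) (v : M) :
    (show Dual (ZMod p) M from g • a) v =
      (cycloChar p g : ZMod p) * (show Dual (ZMod p) M from a) (M.ρ g⁻¹ v) := rfl

/-- Evaluation followed by the roots of unity. -/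
def toHom : M →+ HomMod (GMod L (TwistMod M L hL)) GU :=
  AddMonoidHom.mk'
    (fun v => HomMod.mk (AddMonoidHom.mk'
      (fun a => torsionHom p ((show Dual (ZMod p) M from a) v)) fun a b => by
        rw [← map_add]; rfl))
    fun v w => HomMod.ext fun a => by
      show torsionHom p ((show Dual (ZMod p) M from a) (v + w)) = _
      rw [map_add, map_add]
      rfl

theorem toHom_apply (v : M) (a : GMod L (TwistMod M L hL)) :
    toHom hL v a = torsionHom p ((show Dual (ZMod p) M from a) v) := rfl

theorem toHom_smul (g : Gam) (v : M) : toHom hL (M.ρ g v) = g • toHom hL v :=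
  HomMod.ext fun a => by
    rw [HomMod.smul_apply, toHom_apply, toHom_apply, GWEuler.smul_torsionHom, twist_smul_apply,
      inv_inv, ← mul_assoc, ← Units.val_mul, ← map_mul, mul_inv_cancel, map_one, Units.val_one,
      one_mul]

theorem toHom_bijective [FiniteDimensional (ZMod p) M] : Function.Bijective (toHom hL) := by
  refine ⟨(injective_iff_map_eq_zero _).2 fun v hv =>
    (Module.forall_dual_apply_eq_zero_iff (ZMod p) v).1 fun a => torsionHom_injective p ?_,
    fun f => ?_⟩
  · rw [map_zero]
    exact congrArg (fun F : HomMod (GMod L (TwistMod M L hL)) GU =>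
      F (show GMod L (TwistMod M L hL) from a)) hv
  · have hc : ∀ a : Dual (ZMod p) M, ∃ c, torsionHom p c =
        f (show GMod L (TwistMod M L hL) from a) := fun a => exists_torsionHom_eq p (by
      rw [← map_nsmul, show p • (show GMod L (TwistMod M L hL) from a) = 0 from
        (show p • a = 0 by rw [← Nat.cast_smul_eq_nsmul (ZMod p), ZMod.natCast_self, zero_smul]),
        map_zero])
    choose c hc using hc
    let cl : Dual (ZMod p) M →ₗ[ZMod p] ZMod p := (AddMonoidHom.mk' c fun a b =>
      torsionHom_injective p (by rw [map_add, hc, hc, hc]; exact map_add f _ _)).toZModLinearMap p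
    obtain ⟨v, hv⟩ := (Module.evalEquiv (ZMod p) M).surjective cl
    refine ⟨v, HomMod.ext fun a => ?_⟩
    rw [toHom_apply]
    refine Eq.trans (congrArg (torsionHom p) ?_) (hc a)
    have h1 := LinearMap.congr_fun hv (show Dual (ZMod p) M from a)
    rw [Module.evalEquiv_apply, Module.Dual.eval_apply] at h1
    exact h1

/-- The module as maps into roots of unity. -/
def homEquiv [FiniteDimensional (ZMod p) M] : M ≃+ HomMod (GMod L (TwistMod M L hL)) GU :=
  AddEquiv.ofBijective (toHom hL) (toHom_bijective hL)

theorem homEquiv_apply [FiniteDimensional (ZMod p) M] (v : M) : homEquiv hL v = toHom hL v := rfl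

theorem homEquiv_symm_smul [FiniteDimensional (ZMod p) M] (g : Gam)
    (f : HomMod (GMod L (TwistMod M L hL)) GU) :
    (homEquiv hL).symm (g • f) = M.ρ g ((homEquiv hL).symm f) :=
  (homEquiv hL).injective (by
    rw [AddEquiv.apply_symm_apply, homEquiv_apply, toHom_smul, ← homEquiv_apply,
      AddEquiv.apply_symm_apply])

theorem toHom_values {S : Finset Nat.Primes} (hpS : pPrime p ∈ S) (v : M)
    (a : GMod L (TwistMod M L hL)) :
    toHom hL v a ∈ fixedPts L.sub GU ∧ toHom hL v a ∈ sUnits S := by
  rw [toHom_apply]
  refine ⟨fun g hg => smul_torsion_of_actsThrough hL hg _, ?_⟩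
  refine mem_sUnits_of_nsmul_mem hpS ?_
  rw [← map_nsmul, ← Nat.cast_smul_eq_nsmul (ZMod p), ZMod.natCast_self, zero_smul, map_zero]
  exact zero_mem _

open groupCohomology in
/-- For odd `p` there is no continuous `H²` at the archimedean place. -/
theorem h2_archimedean_eq_zero (hp2 : p ≠ 2) (A : Rep.{0} (ZMod p) archimedeanDecomposition)
    (f : archimedeanDecomposition × archimedeanDecomposition → A)
    (hf : f ∈ cocycles₂ A) (hlev : IsLevelConstant₂ archimedeanLoc f) :
    f ∈ levelCoboundaries₂ archimedeanLoc A := by
  have h2 : (2 : ZMod p) ≠ 0 := fun h => hp2 ((Nat.prime_dvd_prime_iff_eq hp.out Nat.prime_two).1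
    ((ZMod.natCast_eq_zero_iff 2 p).1 (by exact_mod_cast h)))
  let F : archimedeanDecomposition → A := fun a => f (a, 1) + f (a, archimedeanGen)
  have hF : ∀ a b, f (a, b * 1) + f (a, b * archimedeanGen) = F a := fun a b => by
    rcases GWEuler.sq_archimedean_eq_one b with rfl | rfl
    · rw [one_mul, one_mul]
    · rw [mul_one, show archimedeanGen * archimedeanGen = 1 from
        Subtype.ext complexConjugation_mul_self]
      exact add_comm _ _
  refine (mem_levelCoboundaries₂_iff _ A f).2 ⟨(2 : ZMod p)⁻¹ • F, ?_, funext fun ab => ?_⟩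
  · obtain ⟨E, hE, h⟩ := hlev
    refine ⟨E, hE, fun g s hs => ?_⟩
    have h1 : ∀ j, f (g * s, j) = f (g, j) := fun j => by
      simpa using h g j s 1 hs (by rw [map_one]; exact one_mem _)
    show (2 : ZMod p)⁻¹ • F (g * s) = (2 : ZMod p)⁻¹ • F g
    simp only [F, h1]
  · obtain ⟨a, b⟩ := ab
    rw [d₁₂_hom_apply]
    show A.ρ a ((2 : ZMod p)⁻¹ • F b) - (2 : ZMod p)⁻¹ • F (a * b) + (2 : ZMod p)⁻¹ • F a = f (a, b)
    rw [map_smul, ← smul_sub, ← smul_add]
    have hc := (mem_cocycles₂_iff f).1 hf
    have e : A.ρ a (F b) - F (a * b) + F a = (2 : ZMod p) • f (a, b) := by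
      rw [← hF a b, show F b = f (b, 1) + f (b, archimedeanGen) from rfl,
        show F (a * b) = f (a * b, 1) + f (a * b, archimedeanGen) from rfl, map_add,
        two_smul (ZMod p)]
      linear_combination (norm := abel) -(hc a b 1) - hc a b archimedeanGen
    rw [e, smul_smul, inv_mul_cancel₀ h2, one_smul]

end FLTAgent.GlobalDuality
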