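import Mathlib
import Fermat.Agent.GlobalDuality.DualSetup

/-!
# The global duality pairing between `sha₁` and `sha₂`

The translation between Galois cocycles of a module unramified outside `S` and the presentation of
`DualSetup`, and the result: for odd `p ∈ S` the pairing of `sha₁` of the dual twist with `sha₂` of
the module is perfect (`exists_pairing`). Used by S55.
-/

set_option autoImplicit false

noncomputable section

open ExtCitation Module CategoryTheory

namespace FLTAgent.GlobalDuality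

open FLTAgent.GalCoh FLTAgent.LocalDuality FLTAgent.IdeleClassCohomology

variable {p : ℕ} [hp : Fact p.Prime] {M : Rep.{0} (ZMod p) Gam} {L : Layer}
  (hL : ActsThrough M L) {S : Finset Nat.Primes}

/-- A cocycle of Galois with values in the dual twist, in the setting of presentations. -/
def ofCocycle (c : groupCohomology.cocycles₁ (M.dualTwist (cycloChar p))) :
    Z1 Gam (GMod L (TwistMod M L hL)) :=
  ⟨fun g => ((c : Gam → (M.dualTwist (cycloChar p) : Rep (ZMod p) Gam)) g : TwistMod M L hL),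
    mem_Z1_iff.2 fun g h => (groupCohomology.mem_cocycles₁_iff _).1 c.2 g h⟩

/-- The converse of `ofCocycle`. -/
def toCocycle (y : Z1 Gam (GMod L (TwistMod M L hL))) :
    groupCohomology.cocycles₁ (M.dualTwist (cycloChar p)) :=
  ⟨fun g => ((y : Gam → GMod L (TwistMod M L hL)) g : TwistMod M L hL),
    (groupCohomology.mem_cocycles₁_iff _).2 fun g h => mem_Z1_iff.1 y.2 g h⟩

theorem cls_eq_zero_iff (c : groupCohomology.cocycles₁ (M.dualTwist (cycloChar p))) :
    (groupCohomology.H1π (M.dualTwist (cycloChar p))).hom c = 0 ↔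
      ∃ a : GMod L (TwistMod M L hL), ∀ g, (ofCocycle hL c : Gam → GMod L (TwistMod M L hL)) g =
        g • a - a := by
  refine (groupCohomology.H1π_eq_zero_iff c).trans ⟨?_, ?_⟩
  · rintro ⟨a, ha⟩
    exact ⟨(a : TwistMod M L hL), fun g => ((congrFun ha g).symm :)⟩
  · rintro ⟨a, ha⟩
    exact ⟨(show TwistMod M L hL from a), funext fun g => ((ha g).symm :)⟩

/-- The local class of a global cocycle vanishes exactly if it is locally a coboundary. -/
theorem locRes_cls_eq_zero_iff {A : Rep.{0} (ZMod p) Gam} {H : Type} [Group H] (f : H →* Gam)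
    (c : groupCohomology.cocycles₁ A) :
    (groupCohomology.map f (𝟙 (Rep.res f A)) 1).hom ((groupCohomology.H1π A).hom c) = 0 ↔
      ∃ a : A, ∀ τ, A.ρ (f τ) a - a = (c : Gam → A) (f τ) := by
  rw [groupCohomology.H1π_comp_map_apply]
  refine (groupCohomology.H1π_eq_zero_iff _).trans ⟨?_, ?_⟩
  · rintro ⟨a, ha⟩
    exact ⟨a, fun τ => (congrFun ha τ :)⟩
  · rintro ⟨a, ha⟩
    exact ⟨a, funext fun τ => (ha τ :)⟩

theorem sha1_of_mem {x : groupCohomology.H1 (M.dualTwist (cycloChar p))}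
    (hx : x ∈ groupCohomology.sha₁ S (M.dualTwist (cycloChar p))) :
    ∃ c : groupCohomology.cocycles₁ (M.dualTwist (cycloChar p)),
      (groupCohomology.H1π _).hom c = x ∧ Sha1 S (ofCocycle hL c) := by
  obtain ⟨hx1, hx2⟩ := Submodule.mem_inf.1 hx
  obtain ⟨c, ⟨F, hF, hc⟩, rfl⟩ := (groupCohomology.mem_continuousH1S_iff S _ x).1 hx1
  refine ⟨c, rfl, ?_, fun q hq => ?_⟩
  · obtain ⟨L', hL', hle⟩ := GWEuler.exists_layer_isS_le hF
    exact ⟨L', hL', fun g s hs => hc g s (hle hs)⟩
  · obtain ⟨a, ha⟩ := (locRes_cls_eq_zero_iff (primeLocalToGlobal q) c).1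
      (congrFun (LinearMap.mem_ker.1 hx2) (Sum.inr ⟨q, hq⟩))
    exact ⟨(show TwistMod M L hL from a), fun τ => ((ha τ).symm :)⟩

theorem mem_sha1_of (hp2 : p ≠ 2) {y : Z1 Gam (GMod L (TwistMod M L hL))} (hy : Sha1 S y) :
    (groupCohomology.H1π _).hom (toCocycle hL y) ∈
      groupCohomology.sha₁ S (M.dualTwist (cycloChar p)) := by
  refine Submodule.mem_inf.2 ⟨(groupCohomology.mem_continuousH1S_iff S _ _).2
    ⟨toCocycle hL y, ?_, rfl⟩, LinearMap.mem_ker.2 (funext fun v => ?_)⟩
  · obtain ⟨⟨L', hL', hlev⟩, -⟩ := hy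
    exact ⟨L'.field, hL', fun g s hs => hlev g s hs⟩
  · match v with
    | Sum.inl _ => exact GWEuler.h1_archimedean_eq_zero hp2 _ _
    | Sum.inr q =>
      obtain ⟨a, ha⟩ := hy.2 q.1 q.2
      exact (locRes_cls_eq_zero_iff (primeLocalToGlobal q.1) _).2
        ⟨(show TwistMod M L hL from a), fun τ => ((ha τ).symm :)⟩

variable [FiniteDimensional (ZMod p) M]

/-- A cocycle of the module as a cochain with values in roots of unity. -/
def ofCochain₂ (f : Gam × Gam → M) : Gam → Gam → HomMod (GMod L (TwistMod M L hL)) GU :=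
  fun g k => toHom hL (f (g, k))

/-- The converse of `ofCochain₂`. -/
def toCochain₂ (b : Gam → Gam → HomMod (GMod L (TwistMod M L hL)) GU) : Gam × Gam → M :=
  fun gk => (homEquiv hL).symm (b gk.1 gk.2)

theorem ofCochain₂_toCochain₂ (b : Gam → Gam → HomMod (GMod L (TwistMod M L hL)) GU) :
    ofCochain₂ hL (toCochain₂ hL b) = b :=
  funext fun _ => funext fun _ => (homEquiv hL).apply_symm_apply _

omit [FiniteDimensional (ZMod p) M] in
theorem locRes₂S_mk_eq_zero_iff {H : Type} [Group H] (r : H →* Gam)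
    (f : groupCohomology.levelCocyclesS₂ S M) :
    groupCohomology.locRes₂S S M r (groupCohomology.continuousH2Sπ S M f) = 0 ↔
      (fun gk : H × H => ((f : Gam × Gam → M) (r gk.1, r gk.2) : Rep.res r M)) ∈
        groupCohomology.levelCoboundaries₂ r (Rep.res r M) :=
  groupCohomology.continuousH2π_eq_zero_iff r (Rep.res r M) _

omit [FiniteDimensional (ZMod p) M] in
theorem sha2_of_mem {x : groupCohomology.continuousH2S S M}
    (hx : x ∈ groupCohomology.sha₂ S M) (f : groupCohomology.levelCocyclesS₂ S M)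
    (hf : groupCohomology.continuousH2Sπ S M f = x) :
    Sha2 S (ofCochain₂ hL (f : Gam × Gam → M)) := by
  obtain ⟨hc, F, hF, hlev⟩ := (groupCohomology.mem_levelCocyclesS₂_iff S M _).1 f.2
  refine ⟨mem_Z2_iff.2 fun g h j => ?_, ?_, fun q hq => ?_⟩
  · show toHom hL _ + toHom hL _ = g • toHom hL _ + toHom hL _
    rw [← toHom_smul, ← map_add, ← map_add, (groupCohomology.mem_cocycles₂_iff _).1 hc g h j]
  · obtain ⟨L', hL', hle⟩ := GWEuler.exists_layer_isS_le hF
    exact ⟨L', hL', fun g k s hs t ht =>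
      congrArg (toHom hL) (hlev g k s t (hle hs) (hle ht))⟩
  · have h0 := congrFun (LinearMap.mem_ker.1 hx) (Sum.inr ⟨q, hq⟩)
    change groupCohomology.locRes₂S S M (primeLocalToGlobal q) x = 0 at h0
    rw [← hf] at h0
    obtain ⟨u, ⟨E, hE, hu⟩, hd⟩ := (groupCohomology.mem_levelCoboundaries₂_iff _ _ _).1
      ((locRes₂S_mk_eq_zero_iff (primeLocalToGlobal q) f).1 h0)
    have := hE
    obtain ⟨M', hM'⟩ := Layer.exists_ge E
    refine ⟨M', fun τ => toHom hL (show M from u τ), fun τ s hs => congrArg (toHom hL)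
      (hu τ s (IntermediateField.fixingSubgroup_antitone hM' hs)), fun τ τ' => ?_⟩
    show toHom hL _ = loc q τ • toHom hL _ - toHom hL _ + toHom hL _
    rw [← toHom_smul, ← map_sub, ← map_add]
    refine congrArg (toHom hL) ((congrFun hd (τ, τ')).symm.trans ?_)
    rw [groupCohomology.d₁₂_hom_apply]
    rfl

theorem exists_cls_of_sha2 (hp2 : p ≠ 2) {b : Gam → Gam → HomMod (GMod L (TwistMod M L hL)) GU}
    (hb : Sha2 S b) :
    ∃ (x : groupCohomology.sha₂ S M) (f : groupCohomology.levelCocyclesS₂ S M),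
      groupCohomology.continuousH2Sπ S M f = (x : groupCohomology.continuousH2S S M) ∧
        ofCochain₂ hL (f : Gam × Gam → M) = b := by
  obtain ⟨hb2, ⟨L', hL', hlev⟩, hloc⟩ := hb
  have hmem : toCochain₂ hL b ∈ groupCohomology.levelCocyclesS₂ S M := by
    refine ⟨(groupCohomology.mem_cocycles₂_iff _).2 fun g h j => ?_,
      L'.field, hL', fun g k s t hs ht => congrArg (homEquiv hL).symm (hlev g k s hs t ht)⟩
    show (homEquiv hL).symm _ + (homEquiv hL).symm _ =
      M.ρ g ((homEquiv hL).symm _) + (homEquiv hL).symm _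
    rw [← homEquiv_symm_smul, ← map_add, ← map_add, mem_Z2_iff.1 hb2 g h j]
  refine ⟨⟨groupCohomology.continuousH2Sπ S M ⟨_, hmem⟩, LinearMap.mem_ker.2 (funext fun v => ?_)⟩,
    ⟨_, hmem⟩, rfl, ofCochain₂_toCochain₂ hL b⟩
  match v with
  | Sum.inl _ =>
    refine (locRes₂S_mk_eq_zero_iff archimedeanLoc _).2
      (h2_archimedean_eq_zero hp2 (Rep.res archimedeanLoc M) _ ?_ ?_)
    · exact groupCohomology.cochainsPullPush₂_mem_cocycles₂ (A := M)
        (B := Rep.res archimedeanLoc M) archimedeanLoc LinearMap.id (fun _ _ => rfl) hmem.1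
    · exact (groupCohomology.IsLevelConstant₂.precomp (rH := MonoidHom.id Gam)
        (rG := archimedeanLoc) archimedeanLoc (fun _ => rfl)
        (groupCohomology.IsLevelConstantS₂.isLevelConstant₂ hmem.2) :)
  | Sum.inr q =>
    refine (locRes₂S_mk_eq_zero_iff (primeLocalToGlobal q.1) _).2 ?_
    obtain ⟨M', x, hx, hxb⟩ := hloc q.1 q.2
    refine (groupCohomology.mem_levelCoboundaries₂_iff _ _ _).2
      ⟨fun τ => (homEquiv hL).symm (x τ), ⟨M'.field, M'.finite, fun τ s hs =>
        congrArg (homEquiv hL).symm (hx τ s hs)⟩, funext fun ττ => ?_⟩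
    rw [groupCohomology.d₁₂_hom_apply]
    show M.ρ (loc q.1 ττ.1) ((homEquiv hL).symm _) - (homEquiv hL).symm _ + (homEquiv hL).symm _ =
      (homEquiv hL).symm _
    rw [← homEquiv_symm_smul, ← map_sub, ← map_add]
    exact congrArg _ (hxb ττ.1 ττ.2).symm

variable [Fintype (Gam ⧸ L.sub)]

/-- A map of relations attached to a class in `sha₂`. -/
def IsRepr (x : groupCohomology.continuousH2S S M)
    (h : HomMod (GMod L (coverPres hL).R) Idele) : Prop :=
  h ∈ (coverPres hL).HS S ∧ ∃ f : groupCohomology.levelCocyclesS₂ S M,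
    groupCohomology.continuousH2Sπ S M f = x ∧
      (coverPres hL).Rel S h (ofCochain₂ hL (f : Gam × Gam → M))

theorem exists_isRepr (hp2 : p ≠ 2) (hpS : pPrime p ∈ S) (hLS : L.IsS S)
    {x : groupCohomology.continuousH2S S M} (hx : x ∈ groupCohomology.sha₂ S M) :
    ∃ h, IsRepr hL x h := by
  obtain ⟨f, hf⟩ := Submodule.mkQ_surjective _ x
  obtain ⟨m, h, hm, hh, H⟩ :=
    (coverPres hL).exists_rel_nsmul hp2 hpS hLS (sha2_of_mem hL hx f hf)
  have hm0 : (m : ZMod p) ≠ 0 := fun h0 => hm ((ZMod.natCast_eq_zero_iff m p).1 h0)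
  refine ⟨(m : ZMod p)⁻¹.val • h, AddSubgroup.nsmul_mem _ hh _, f, hf, ?_⟩
  have h1 := Pres.Rel.nsmul _ H (m : ZMod p)⁻¹.val
  have e : (m : ZMod p)⁻¹.val • m • ofCochain₂ hL (f : Gam × Gam → M) =
      ofCochain₂ hL (f : Gam × Gam → M) := funext fun g => funext fun k => by
    show (m : ZMod p)⁻¹.val • m • toHom hL _ = toHom hL _
    rw [← map_nsmul, ← map_nsmul, ← Nat.cast_smul_eq_nsmul (ZMod p),
      ← Nat.cast_smul_eq_nsmul (ZMod p), ZMod.natCast_zmod_val, smul_smul, inv_mul_cancel₀ hm0,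
      one_smul]
  rwa [e] at h1

omit [FiniteDimensional (ZMod p) M] in
theorem IsRepr.add {x x' : groupCohomology.continuousH2S S M}
    {h h' : HomMod (GMod L (coverPres hL).R) Idele} (H : IsRepr hL x h) (H' : IsRepr hL x' h') :
    IsRepr hL (x + x') (h + h') := by
  obtain ⟨hh, f, hf, hr⟩ := H
  obtain ⟨hh', f', hf', hr'⟩ := H'
  refine ⟨add_mem hh hh', f + f', by rw [map_add, hf, hf'], ?_⟩
  have e : ofCochain₂ hL ((f + f' : groupCohomology.levelCocyclesS₂ S M) : Gam × Gam → M) =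
      ofCochain₂ hL (f : Gam × Gam → M) + ofCochain₂ hL (f' : Gam × Gam → M) :=
    funext fun g => funext fun k => map_add (toHom hL) _ _
  rw [e]
  exact Pres.Rel.add _ hr hr'

theorem IsRepr.phi_eq (hp2 : p ≠ 2) (hpS : pPrime p ∈ S) (hLS : L.IsS S)
    {x : groupCohomology.continuousH2S S M} {h h' : HomMod (GMod L (coverPres hL).R) Idele}
    (H : IsRepr hL x h) (H' : IsRepr hL x h') {y : Z1 Gam (GMod L (TwistMod M L hL))}
    (hy : Sha1 S y) : (coverPres hL).Phi hp2 h' y = (coverPres hL).Phi hp2 h y := by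
  obtain ⟨hh, f, hf, hr⟩ := H
  obtain ⟨hh', f', hf', hr'⟩ := H'
  have h0 : groupCohomology.continuousH2Sπ S M (f' - f) = 0 := by rw [map_sub, hf, hf', sub_self]
  obtain ⟨e, ⟨E, hE, he⟩, hd⟩ := (groupCohomology.mem_levelCoboundariesS₂_iff S M _).1
    ((groupCohomology.continuousH2Sπ_eq_zero_iff S M _).1 h0)
  obtain ⟨L', hL', hle⟩ := GWEuler.exists_layer_isS_le hE
  refine (coverPres hL).phi_eq_of_rel hp2 hLS hh hh' hr hr' (Le := L.sup L') (hLS.sup hL')
    (fun g => toHom hL (e g)) (fun g s hs => congrArg (toHom hL)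
      (he g s (hle (Layer.sub_le (L.le_sup_right L') hs))))
    (fun g a => ⟨fixedPts_antitone (Layer.sub_le (L.le_sup_left L'))
      (toHom_values hL hpS _ a).1, (toHom_values hL hpS _ a).2⟩) (fun g k => ?_) hy
  show toHom hL _ = toHom hL _ + (g • toHom hL _ - toHom hL _ + toHom hL _)
  rw [← toHom_smul, ← map_sub, ← map_add, ← map_add]
  refine congrArg (toHom hL) ?_
  have h1 := congrFun hd (g, k)
  rw [groupCohomology.d₁₂_hom_apply] at h1
  change _ = ((f' - f : groupCohomology.levelCocyclesS₂ S M) : Gam × Gam → M) (g, k) at h1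
  rw [AddSubgroupClass.coe_sub, Pi.sub_apply] at h1
  rw [h1]
  abel

omit [FiniteDimensional (ZMod p) M] [Fintype (Gam ⧸ L.sub)] in
theorem sha1_zero (hLS : L.IsS S) : Sha1 S (0 : Z1 Gam (GMod L (TwistMod M L hL))) :=
  ⟨⟨L, hLS, fun _ _ _ => rfl⟩, fun q _ => ⟨0, fun τ => by
    rw [smul_zero, sub_zero]
    rfl⟩⟩

theorem phi_congr (hp2 : p ≠ 2) (hLS : L.IsS S) {h : HomMod (GMod L (coverPres hL).R) Idele}
    (hh : h ∈ (coverPres hL).HS S) {y y' : Z1 Gam (GMod L (TwistMod M L hL))} (hy : Sha1 S y)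
    (hy' : Sha1 S y') (a : GMod L (TwistMod M L hL))
    (ha : ∀ g, (y' : Gam → GMod L (TwistMod M L hL)) g =
      (y : Gam → GMod L (TwistMod M L hL)) g + (g • a - a)) :
    (coverPres hL).Phi hp2 h y' = (coverPres hL).Phi hp2 h y := by
  have h0 := (coverPres hL).phi_add_right hp2 hLS hh (sha1_zero hL hLS) (sha1_zero hL hLS)
    (sha1_zero hL hLS) 0 fun g => by
      rw [smul_zero, sub_zero, add_zero]
      exact (add_zero _).symm
  have h1 := (coverPres hL).phi_add_right hp2 hLS hh hy (sha1_zero hL hLS) hy' a fun g => by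
    rw [ha]
    refine congrArg (· + _) (add_zero _).symm
  rw [h1]
  linear_combination -h0

include hL in
/-- The pairing of `sha₁` and `sha₂` is perfect. -/
theorem exists_pairing (hp2 : p ≠ 2) (hpS : pPrime p ∈ S) (hLS : L.IsS S) :
    ∃ B : groupCohomology.sha₁ S (M.dualTwist (cycloChar p)) →ₗ[ZMod p]
        groupCohomology.sha₂ S M →ₗ[ZMod p] ZMod p,
      (∀ y, (∀ x, B y x = 0) → y = 0) ∧ (∀ x, (∀ y, B y x = 0) → x = 0) := by
  choose hx hhx using fun x : groupCohomology.sha₂ S M => exists_isRepr hL hp2 hpS hLS x.2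
  choose cy hcy hsy using fun y : groupCohomology.sha₁ S (M.dualTwist (cycloChar p)) =>
    sha1_of_mem hL y.2
  let φ : groupCohomology.sha₁ S (M.dualTwist (cycloChar p)) → groupCohomology.sha₂ S M → ZMod p :=
    fun y x => (coverPres hL).Phi hp2 (hx x) (ofCocycle hL (cy y))
  have hright : ∀ y x x', φ y (x + x') = φ y x + φ y x' := fun y x x' => by
    show (coverPres hL).Phi hp2 _ _ = _
    rw [IsRepr.phi_eq hL hp2 hpS hLS (IsRepr.add hL (hhx x) (hhx x')) (hhx (x + x')) (hsy y),
      (coverPres hL).phi_add_left' hp2 hLS (hhx x).1 (hhx x').1 (hsy y)]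
  have hleft : ∀ y y' x, φ (y + y') x = φ y x + φ y' x := fun y y' x => by
    obtain ⟨a, ha⟩ := (cls_eq_zero_iff hL (cy (y + y') - cy y - cy y')).1 (by
      refine (LinearMap.map_sub _ _ _).trans ?_
      refine (congrArg (· - _) (LinearMap.map_sub _ _ _)).trans ?_
      rw [hcy, hcy, hcy, Submodule.coe_add]
      abel)
    refine (coverPres hL).phi_add_right hp2 hLS (hhx x).1 (hsy y) (hsy y') (hsy (y + y')) a
      fun g => ?_
    rw [← ha g]
    show _ = _ + _ + ((ofCocycle hL (cy (y + y')) : Gam → GMod L (TwistMod M L hL)) g -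
      (ofCocycle hL (cy y) : Gam → GMod L (TwistMod M L hL)) g -
      (ofCocycle hL (cy y') : Gam → GMod L (TwistMod M L hL)) g)
    abel
  let B := (AddMonoidHom.mk' (fun y => (AddMonoidHom.mk' (φ y) (hright y)).toZModLinearMap p)
    fun y y' => LinearMap.ext fun x => hleft y y' x).toZModLinearMap p
  have hB : ∀ y x, B y x = φ y x := fun y x => rfl
  refine ⟨B, fun y hy => ?_, fun x hxz => ?_⟩
  · by_contra hne
    have hnc : ∀ a, ∃ g, (ofCocycle hL (cy y) : Gam → GMod L (TwistMod M L hL)) g ≠ g • a - a := by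
      intro a
      by_contra hall
      refine hne (Subtype.ext ?_)
      rw [← hcy y]
      exact (cls_eq_zero_iff hL _).2 ⟨a, not_exists_not.1 hall⟩
    obtain ⟨h, hh, hphi⟩ := (coverPres hL).exists_phi_ne_zero hp2 hpS hLS (hsy y) hnc
    obtain ⟨b, hrel, hb⟩ := (coverPres hL).exists_rel hpS hLS hh
    obtain ⟨x, f, hf, hfb⟩ := exists_cls_of_sha2 hL hp2 hb
    refine hphi ?_
    rw [IsRepr.phi_eq hL hp2 hpS hLS (hhx x) ⟨hh, f, hf, by rw [hfb]; exact hrel⟩ (hsy y)]
    exact (hB y x).symm.trans (hy x)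
  · obtain ⟨hh, f, hf, hrel⟩ := hhx x
    obtain ⟨m, hm, hrel0⟩ := (coverPres hL).exists_nsmul_rel_zero hp2 hpS hLS hh fun y hy => by
      let y₀ : groupCohomology.sha₁ S (M.dualTwist (cycloChar p)) :=
        ⟨_, mem_sha1_of hL hp2 hy⟩
      obtain ⟨a, ha⟩ := (cls_eq_zero_iff hL (toCocycle hL y - cy y₀)).1 (by
        refine (LinearMap.map_sub _ _ _).trans ?_
        rw [hcy, sub_self])
      refine (phi_congr hL hp2 hLS hh (hsy y₀) hy a fun g => ?_).trans
        ((hB y₀ x).symm.trans (hxz y₀))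
      rw [← ha g]
      exact (add_sub_cancel _ _).symm
    obtain ⟨L', e, hL', he, hd⟩ :=
      (coverPres hL).rel_unique (Pres.Rel.nsmul _ hrel m) hrel0
    have hcls : groupCohomology.continuousH2Sπ S M (m • f) = 0 := by
      refine (groupCohomology.continuousH2Sπ_eq_zero_iff S M _).2
        ((groupCohomology.mem_levelCoboundariesS₂_iff S M _).2
          ⟨fun g => -(homEquiv hL).symm (e g), ⟨L'.field, hL', fun g s hs =>
            congrArg (fun t => -(homEquiv hL).symm t) (he g s hs)⟩, funext fun gk => ?_⟩)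
      rw [groupCohomology.d₁₂_hom_apply]
      show M.ρ gk.1 (-(homEquiv hL).symm _) - -(homEquiv hL).symm _ + -(homEquiv hL).symm _ =
        m • (f : Gam × Gam → M) gk
      rw [map_neg, ← homEquiv_symm_smul, ← map_neg, ← map_neg, ← map_neg, ← map_sub, ← map_add]
      refine (homEquiv hL).injective ?_
      rw [AddEquiv.apply_symm_apply, map_nsmul, homEquiv_apply]
      have h1 := hd gk.1 gk.2
      change (0 : HomMod (GMod L (TwistMod M L hL)) GU) = m • toHom hL ((f : Gam × Gam → M) gk) + _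
        at h1
      rw [eq_neg_of_add_eq_zero_left h1.symm]
      abel
    have hm0 : (m : ZMod p) ≠ 0 := fun h0 => hm ((ZMod.natCast_eq_zero_iff m p).1 h0)
    rw [map_nsmul, hf, ← Nat.cast_smul_eq_nsmul (ZMod p), smul_eq_zero] at hcls
    exact Subtype.ext (hcls.resolve_left hm0)

end FLTAgent.GlobalDuality
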