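import Mathlib
import Fermat.Agent.GlobalDuality.Layers

/-!
# Relative norms

The relative norm `normTo` between fixed points of two subgroups of finite index, as a sum over
cosets, and its compatibility with equivariant maps.
-/

set_option autoImplicit false

noncomputable section

namespace FLTAgent.GalCoh

variable {Γ : Type} [Group Γ] {A : Type} [AddCommGroup A] [DistribMulAction Γ A]
  {B : Type} [AddCommGroup B] [DistribMulAction Γ B]

/-- The norm term of a coset. -/
def normTerm {N' N : Subgroup Γ} (a : fixedPts N' A) (q : N ⧸ N'.subgroupOf N) : A :=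
  Quotient.liftOn' q (fun g => (g : Γ) • (a : A)) fun g g' h => by
    have h' := a.2 _ (Subgroup.mem_subgroupOf.1 (QuotientGroup.leftRel_apply.1 h))
    simp only [Subgroup.coe_mul, Subgroup.coe_inv, mul_smul] at h'
    calc (g : Γ) • (a : A) = (g : Γ) • (g : Γ)⁻¹ • (g' : Γ) • (a : A) := by rw [h']
      _ = (g' : Γ) • (a : A) := smul_inv_smul _ _

theorem normTerm_mk {N' N : Subgroup Γ} (a : fixedPts N' A) (g : N) :
    normTerm a (QuotientGroup.mk g : N ⧸ N'.subgroupOf N) = (g : Γ) • (a : A) := rfl

theorem smul_normTerm {N' N : Subgroup Γ} (a : fixedPts N' A) (n : N)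
    (q : N ⧸ N'.subgroupOf N) : (n : Γ) • normTerm a q = normTerm a (n • q) := by
  induction q using QuotientGroup.induction_on with
  | _ g =>
    rw [normTerm_mk, MulAction.Quotient.smul_mk, normTerm_mk, smul_eq_mul, Subgroup.coe_mul,
      mul_smul]

variable (A) in
/-- The norm from the fixed points of `N'` to those of `N` (meant for `N' ≤ N`). -/
def normTo (N' N : Subgroup Γ) [Finite (N ⧸ N'.subgroupOf N)] :
    fixedPts N' A →+ fixedPts N A where
  toFun a := ⟨∑ᶠ q : N ⧸ N'.subgroupOf N, normTerm a q, fun n hn => by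
    have := Fintype.ofFinite (N ⧸ N'.subgroupOf N)
    rw [finsum_eq_sum_of_fintype, Finset.smul_sum]
    exact Fintype.sum_equiv (MulAction.toPerm (⟨n, hn⟩ : N)) _ _
      fun q => smul_normTerm a ⟨n, hn⟩ q⟩
  map_zero' := Subtype.ext (by
    show ∑ᶠ q : N ⧸ N'.subgroupOf N, normTerm (0 : fixedPts N' A) q = 0
    refine finsum_eq_zero_of_forall_eq_zero fun q => ?_
    induction q using QuotientGroup.induction_on with
    | _ g => rw [normTerm_mk]; exact smul_zero _)
  map_add' a b := Subtype.ext (by
    have := Fintype.ofFinite (N ⧸ N'.subgroupOf N)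
    show ∑ᶠ q, normTerm (a + b) q = (∑ᶠ q, normTerm a q) + ∑ᶠ q, normTerm b q
    simp only [finsum_eq_sum_of_fintype, ← Finset.sum_add_distrib]
    refine Finset.sum_congr rfl fun q _ => ?_
    induction q using QuotientGroup.induction_on with
    | _ g => simp only [normTerm_mk]; exact smul_add _ _ _)

/-- The relative norm is the sum over cosets. -/
theorem coe_normTo (N' N : Subgroup Γ) [Fintype (N ⧸ N'.subgroupOf N)] (a : fixedPts N' A) :
    (normTo A N' N a : A) = ∑ q : N ⧸ N'.subgroupOf N, normTerm a q :=
  finsum_eq_sum_of_fintype _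

/-- The relative norm commutes with equivariant maps. -/
theorem normTo_map (f : A →+ B) (hf : ∀ (g : Γ) (a : A), f (g • a) = g • f a)
    (N' N : Subgroup Γ) [Finite (N ⧸ N'.subgroupOf N)] (a : fixedPts N' A) :
    normTo B N' N (fixedMap f hf N' a) = fixedMap f hf N (normTo A N' N a) := by
  have := Fintype.ofFinite (N ⧸ N'.subgroupOf N)
  refine Subtype.ext ?_
  rw [coe_fixedMap, coe_normTo, coe_normTo, map_sum]
  refine Finset.sum_congr rfl fun q _ => ?_
  induction q using QuotientGroup.induction_on with
  | _ g => rw [normTerm_mk, normTerm_mk, coe_fixedMap, hf]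

end FLTAgent.GalCoh
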